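/-
P-S19, BLOCK B (pure algebra), leaf (b2) (helper25): the FINITE-PRECISION CLOSEDNESS lemma in
matrix form.

`Om` a field, `V` a valuation subring, `Z` a finite set, `e j : Z → Om` (`j : Z`) functions with
values in `V` whose evaluation matrix `E = (e j z)` is invertible, `d = det E`.

* `coeff_mem_of_values` : if `F = ∑ λ_j e_j` and every value `F z` lies in `d • V`, then every
  coefficient `λ_j` lies in `V` (adjugate formula).  This replaces all "`v`-adic limits of elements
  of a lattice stay in the lattice" arguments: a function which is approximated to precision `d`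
  by an element of the lattice spanned by the `e_j` lies in that lattice.
* `coeff_fixed` : if `F` and the `e_j` are equivariant for a ring endomorphism `σ` of `Om` and a
  permutation `π` of `Z`, then the coefficients `λ_j` are fixed by `σ` (Galois descent of the
  coefficients, no hypothesis on `σ` beyond being a ring hom).
* `evalMatrix_prod`, `det_evalMatrix_prod` : the evaluation matrix of the product family
  `e_i ⊗ e_j` on `Z × Z` is the Kronecker product, so it is invertible.
* `mem_span_of_approx` : the packaged statement used for the closure of the local order under the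
  comultiplication: `R` a subring of `Om` with `x ∈ R ↔ x ∈ V ∧ x fixed`, `F` equivariant,
  `S` in the `R`-span of the `e_j`, `F - S` with values in `d • V`  ⟹  `F` in the `R`-span.
-/
import Mathlib

set_option autoImplicit false
set_option linter.unusedSectionVars false

open Matrix

namespace Fermat.Agent.S19x.Alg.Closedness

variable {Om : Type*} [Field Om] {Z : Type*} [Fintype Z] [DecidableEq Z]

/-- The evaluation matrix of a family of functions `e j : Z → Om`, `j : Z`: rows = points,
columns = functions. -/
def evalMatrix (e : Z → Z → Om) : Matrix Z Z Om := Matrix.of fun z j => e j z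

@[simp]
theorem evalMatrix_apply (e : Z → Z → Om) (z j : Z) : evalMatrix e z j = e j z := rfl

theorem evalMatrix_mulVec (e : Z → Z → Om) (lam : Z → Om) (z : Z) :
    (evalMatrix e).mulVec lam z = ∑ j, lam j * e j z := by
  simp only [Matrix.mulVec, dotProduct, evalMatrix_apply]
  exact Finset.sum_congr rfl fun j _ => mul_comm _ _

/-- The adjugate of a matrix with entries in a subring has entries in the subring. -/
theorem adjugate_mem {S : Type*} [SetLike S Om] [SubringClass S Om] (V : S)
    (A : Matrix Z Z Om) (hA : ∀ i j, A i j ∈ V) (i j : Z) : A.adjugate i j ∈ V := by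
  let A' : Matrix Z Z V := Matrix.of fun i j => ⟨A i j, hA i j⟩
  have h : A = (SubringClass.subtype V).mapMatrix A' := by
    ext i j; rfl
  rw [h, ← RingHom.map_adjugate]
  exact (A'.adjugate i j).2

theorem det_mem {S : Type*} [SetLike S Om] [SubringClass S Om] (V : S)
    (A : Matrix Z Z Om) (hA : ∀ i j, A i j ∈ V) : A.det ∈ V := by
  let A' : Matrix Z Z V := Matrix.of fun i j => ⟨A i j, hA i j⟩
  have h : A = (SubringClass.subtype V).mapMatrix A' := by
    ext i j; rfl
  rw [h, ← RingHom.map_det]
  exact A'.det.2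

/-- **Finite-precision closedness.**  If the `e_j` have values in the subring `V`, their
evaluation matrix has determinant `d ≠ 0`, `F = ∑ λ_j e_j` and all values of `F` lie in `d • V`,
then all coefficients `λ_j` lie in `V`. -/
theorem coeff_mem_of_values {S : Type*} [SetLike S Om] [SubringClass S Om] (V : S)
    (e : Z → Z → Om) (he : ∀ j z, e j z ∈ V) (hd : (evalMatrix e).det ≠ 0)
    (lam : Z → Om) (F : Z → Om) (hF : ∀ z, F z = ∑ j, lam j * e j z)
    (hval : ∀ z, ∃ w ∈ V, F z = (evalMatrix e).det * w) (j : Z) : lam j ∈ V := by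
  classical
  choose w hwV hw using hval
  have hEF : (evalMatrix e).mulVec lam = F := by
    funext z
    rw [evalMatrix_mulVec, hF]
  have h1 : (evalMatrix e).adjugate.mulVec F = (evalMatrix e).det • lam := by
    rw [← hEF, Matrix.mulVec_mulVec, Matrix.adjugate_mul, Matrix.smul_mulVec, Matrix.one_mulVec]
  have h2 : (evalMatrix e).det * lam j =
      (evalMatrix e).det * ∑ z, (evalMatrix e).adjugate j z * w z := by
    have := congr_fun h1 j
    rw [Pi.smul_apply, smul_eq_mul] at this
    rw [← this, Matrix.mulVec, dotProduct, Finset.mul_sum]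
    refine Finset.sum_congr rfl fun z _ => ?_
    rw [hw z]
    ring
  rw [mul_right_injective₀ hd h2]
  refine sum_mem fun z _ => mul_mem ?_ (hwV z)
  exact adjugate_mem V _ (fun z j => he j z) j z

/-- **Descent of the coefficients.**  If `F` and the `e_j` are equivariant for a ring endomorphism
`σ` of `Om` and a bijection `π` of `Z`, the coefficients of `F` in the `e_j` are fixed by `σ`. -/
theorem coeff_fixed (e : Z → Z → Om) (hd : (evalMatrix e).det ≠ 0)
    (lam : Z → Om) (F : Z → Om) (hF : ∀ z, F z = ∑ j, lam j * e j z)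
    (σ : Om →+* Om) (π : Z → Z) (hπ : Function.Surjective π)
    (heq : ∀ j z, e j (π z) = σ (e j z)) (hFeq : ∀ z, F (π z) = σ (F z)) (j : Z) :
    σ (lam j) = lam j := by
  classical
  have key : (evalMatrix e).mulVec (fun j => lam j - σ (lam j)) = 0 := by
    funext z'
    obtain ⟨z, rfl⟩ := hπ z'
    rw [evalMatrix_mulVec, Pi.zero_apply]
    have h1 : F (π z) = ∑ j, lam j * e j (π z) := hF (π z)
    have h2 : F (π z) = ∑ j, σ (lam j) * e j (π z) := by
      rw [hFeq, hF, map_sum]
      refine Finset.sum_congr rfl fun j _ => ?_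
      rw [map_mul, heq]
    calc ∑ j, (lam j - σ (lam j)) * e j (π z)
        = ∑ j, lam j * e j (π z) - ∑ j, σ (lam j) * e j (π z) := by
          rw [← Finset.sum_sub_distrib]
          exact Finset.sum_congr rfl fun j _ => sub_mul _ _ _
      _ = 0 := by rw [← h1, ← h2, sub_self]
  have h0 := Matrix.eq_zero_of_mulVec_eq_zero hd key
  have := congr_fun h0 j
  rw [Pi.zero_apply, sub_eq_zero] at this
  exact this.symm

/-- Uniqueness of the coefficients. -/
theorem coeff_unique (e : Z → Z → Om) (hd : (evalMatrix e).det ≠ 0)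
    (lam lam' : Z → Om) (h : ∀ z, ∑ j, lam j * e j z = ∑ j, lam' j * e j z) : lam = lam' := by
  classical
  have key : (evalMatrix e).mulVec (fun j => lam j - lam' j) = 0 := by
    funext z
    rw [evalMatrix_mulVec, Pi.zero_apply]
    calc ∑ j, (lam j - lam' j) * e j z
        = ∑ j, lam j * e j z - ∑ j, lam' j * e j z := by
          rw [← Finset.sum_sub_distrib]
          exact Finset.sum_congr rfl fun j _ => sub_mul _ _ _
      _ = 0 := by rw [h z, sub_self]
  have h0 := Matrix.eq_zero_of_mulVec_eq_zero hd key
  funext j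
  have := congr_fun h0 j
  rwa [Pi.zero_apply, sub_eq_zero] at this

/-- Existence of the coefficients: every function is a combination of the `e_j`. -/
theorem exists_coeff (e : Z → Z → Om) (hd : (evalMatrix e).det ≠ 0) (F : Z → Om) :
    ∃ lam : Z → Om, ∀ z, F z = ∑ j, lam j * e j z := by
  classical
  have hu : IsUnit (evalMatrix e).det := isUnit_iff_ne_zero.2 hd
  refine ⟨(evalMatrix e)⁻¹.mulVec F, fun z => ?_⟩
  rw [← evalMatrix_mulVec, Matrix.mulVec_mulVec, Matrix.mul_nonsing_inv _ hu, Matrix.one_mulVec]

/-! ### The product family on `Z × Z` -/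

/-- The product family `e_i ⊗ e_j` on `Z × Z`. -/
def prodFamily (e : Z → Z → Om) : Z × Z → Z × Z → Om := fun ij z => e ij.1 z.1 * e ij.2 z.2

theorem evalMatrix_prod (e : Z → Z → Om) :
    evalMatrix (prodFamily e) = Matrix.kroneckerMap (· * ·) (evalMatrix e) (evalMatrix e) := by
  ext ⟨z1, z2⟩ ⟨i, j⟩
  rfl

theorem det_evalMatrix_prod (e : Z → Z → Om) :
    (evalMatrix (prodFamily e)).det =
      (evalMatrix e).det ^ Fintype.card Z * (evalMatrix e).det ^ Fintype.card Z := by
  rw [evalMatrix_prod]
  exact Matrix.det_kronecker _ _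

theorem det_evalMatrix_prod_ne_zero (e : Z → Z → Om) (hd : (evalMatrix e).det ≠ 0) :
    (evalMatrix (prodFamily e)).det ≠ 0 := by
  rw [det_evalMatrix_prod]
  exact mul_ne_zero (pow_ne_zero _ hd) (pow_ne_zero _ hd)

theorem prodFamily_mem {S : Type*} [SetLike S Om] [SubringClass S Om] (V : S)
    (e : Z → Z → Om) (he : ∀ j z, e j z ∈ V) (ij z : Z × Z) : prodFamily e ij z ∈ V :=
  mul_mem (he _ _) (he _ _)

/-! ### The packaged statement -/

/-- **Membership by approximation.**  `V` a subring of `Om` (the valuation ring), `R` a subring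
(the unramified integers) containing every element of `V` fixed by all `σ ∈ Σ`; the `e_j` have
values in `V`, are equivariant for all `(σ, π) ∈ Σ` and have invertible evaluation matrix with
determinant `d`.  If `F` is equivariant, `S = ∑ μ_j e_j` with `μ_j ∈ R`, and `F - S` has values in
`d • V`, then `F = ∑ λ_j e_j` with `λ_j ∈ R`. -/
theorem mem_span_of_approx {S₁ S₂ : Type*} [SetLike S₁ Om] [SubringClass S₁ Om]
    [SetLike S₂ Om] [SubringClass S₂ Om] (V : S₁) (R : S₂)
    (Sig : Set ((Om →+* Om) × (Z → Z)))
    (hR : ∀ x ∈ V, (∀ s ∈ Sig, (s.1 : Om →+* Om) x = x) → x ∈ R)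
    (hRV : ∀ x ∈ R, x ∈ V)
    (hsurj : ∀ s ∈ Sig, Function.Surjective s.2)
    (e : Z → Z → Om) (he : ∀ j z, e j z ∈ V) (hd : (evalMatrix e).det ≠ 0)
    (heq : ∀ s ∈ Sig, ∀ j z, e j (s.2 z) = s.1 (e j z))
    (F : Z → Om) (hFeq : ∀ s ∈ Sig, ∀ z, F (s.2 z) = s.1 (F z))
    (mu : Z → Om) (hmu : ∀ j, mu j ∈ R)
    (happ : ∀ z, ∃ w ∈ V, F z - ∑ j, mu j * e j z = (evalMatrix e).det * w) :
    ∃ lam : Z → Om, (∀ j, lam j ∈ R) ∧ ∀ z, F z = ∑ j, lam j * e j z := by
  classical
  obtain ⟨lam, hlam⟩ := exists_coeff e hd F
  refine ⟨lam, fun j => ?_, hlam⟩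
  -- the difference `F - S` has coefficients `lam - mu`
  have hdiff : ∀ z, (F z - ∑ j, mu j * e j z) = ∑ j, (lam j - mu j) * e j z := by
    intro z
    rw [hlam z, ← Finset.sum_sub_distrib]
    exact Finset.sum_congr rfl fun j _ => (sub_mul _ _ _).symm
  have hV : lam j - mu j ∈ V :=
    coeff_mem_of_values V e he hd (fun j => lam j - mu j)
      (fun z => F z - ∑ j, mu j * e j z) hdiff happ j
  have hlamV : lam j ∈ V := by
    have := add_mem hV (hRV _ (hmu j))
    rwa [sub_add_cancel] at this
  refine hR _ hlamV fun s hs => ?_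
  exact coeff_fixed e hd lam F hlam s.1 s.2 (hsurj s hs) (heq s hs) (hFeq s hs) j

end Fermat.Agent.S19x.Alg.Closedness
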