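/-
P-S19, block (B) (pure algebra), leaf (F3a) CONDUCTOR / finite-precision closedness (helper3).

`O = inertiaInt P` is the ring of integers of the inertia field of a place `P` of `ℚ̄` over `ℓ`
(`S56x/Flat/InertiaField`).  Let `Z` be a finite set with an action of `Γℚ` and `M` an
`O`-subalgebra of `Z → ℚ̄` consisting of `I`-equivariant, `P`-valued functions and separating the
points of `Z`.  Then `M` contains `ℓ ^ k • W` for EVERY `I`-equivariant `P`-valued function `W`,
for one exponent `k` depending only on `M`: the "maximal order" `{W}` has a conductor into `M`.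

Proof: finite Stone–Weierstrass (`span_eq_top_of_separating`) gives a `ℚ̄`-basis `b` of `Z → ℚ̄`
inside `M`; the coordinates `a` of `W` are fixed by `I` (uniqueness of coordinates), and
`det E • a = adj E *ᵥ W` has entries in `P` (Cramer) for the evaluation matrix `E` of `b`; finally
`ℓ ^ k / det E ∈ P` for some `k` because `P` is `ℓ`-adically separated.
-/
import Mathlib
import Fermat.Agent.S56x.Flat.InertiaField
import Fermat.Agent.S19x.Alg.Closedness

set_option autoImplicit false

namespace Fermat.Agent.S19x.Alg.ConductorInertia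

open Fermat.Agent.S56x.Flat.InertiaField

local notation "Qbar" => AlgebraicClosure ℚ
local notation "Γℚ" => (AlgebraicClosure ℚ ≃ₐ[ℚ] AlgebraicClosure ℚ)

section StoneWeierstrass

variable {K : Type*} [Field K] {Z : Type*} [Finite Z]

/-- The indicator function of a point lies in the subalgebra generated by a separating set of
functions. -/
theorem single_mem_adjoin [DecidableEq Z] (S : Set (Z → K))
    (hsep : ∀ z z', z ≠ z' → ∃ f ∈ S, f z ≠ f z') (z : Z) :
    (Pi.single z 1 : Z → K) ∈ Algebra.adjoin K S := by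
  classical
  have := Fintype.ofFinite Z
  -- the factor attached to `z'`
  let φ : Z → (Z → K) := fun z' =>
    if h : z ≠ z' then
      ((hsep z z' h).choose - algebraMap K (Z → K) ((hsep z z' h).choose z')) *
        algebraMap K (Z → K) (((hsep z z' h).choose z - (hsep z z' h).choose z')⁻¹)
    else 1
  have hφmem : ∀ z', φ z' ∈ Algebra.adjoin K S := by
    intro z'
    by_cases h : z ≠ z'
    · simp only [φ, dif_pos h]
      refine Subalgebra.mul_mem _ (Subalgebra.sub_mem _ ?_ (Subalgebra.algebraMap_mem _ _))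
        (Subalgebra.algebraMap_mem _ _)
      exact Algebra.subset_adjoin (hsep z z' h).choose_spec.1
    · simp only [φ, dif_neg h]
      exact Subalgebra.one_mem _
  have hprod : (∏ z', φ z') = (Pi.single z 1 : Z → K) := by
    funext y
    rw [Finset.prod_apply]
    by_cases hy : y = z
    · subst hy
      rw [Pi.single_eq_same]
      refine Finset.prod_eq_one fun z' _ => ?_
      by_cases h : y ≠ z'
      · simp only [φ, dif_pos h]
        have hne : (hsep y z' h).choose y - (hsep y z' h).choose z' ≠ 0 :=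
          sub_ne_zero.mpr (hsep y z' h).choose_spec.2
        simp only [Pi.mul_apply, Pi.sub_apply, Pi.algebraMap_apply, Algebra.algebraMap_self,
          RingHom.id_apply]
        exact mul_inv_cancel₀ hne
      · simp only [φ, dif_neg h, Pi.one_apply]
    · rw [Pi.single_eq_of_ne hy]
      refine Finset.prod_eq_zero (Finset.mem_univ y) ?_
      have h : z ≠ y := fun h => hy h.symm
      simp only [φ, dif_pos h]
      simp only [Pi.mul_apply, Pi.sub_apply, Pi.algebraMap_apply, Algebra.algebraMap_self,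
        RingHom.id_apply, sub_self, zero_mul]
  rw [← hprod]
  exact Subalgebra.prod_mem _ fun z' _ => hφmem z'

/-- **Finite Stone–Weierstrass**: a subalgebra of the functions on a finite set which separates
points is everything. -/
theorem adjoin_eq_top_of_separating (S : Set (Z → K))
    (hsep : ∀ z z', z ≠ z' → ∃ f ∈ S, f z ≠ f z') : Algebra.adjoin K S = ⊤ := by
  classical
  have := Fintype.ofFinite Z
  rw [eq_top_iff]
  intro W _
  have hW : W = ∑ z, W z • (Pi.single z 1 : Z → K) := by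
    funext y
    rw [Finset.sum_apply]
    simp [Pi.single_apply]
  rw [hW]
  exact Subalgebra.sum_mem _ fun z _ =>
    Subalgebra.smul_mem _ (single_mem_adjoin S hsep z) _

/-- a multiplicatively closed separating set of functions on a finite set spans. -/
theorem span_eq_top_of_separating (S : Submonoid (Z → K))
    (hsep : ∀ z z', z ≠ z' → ∃ f ∈ S, f z ≠ f z') :
    Submodule.span K (S : Set (Z → K)) = ⊤ := by
  have h1 := Algebra.adjoin_eq_span K (S : Set (Z → K))
  rw [Submonoid.closure_eq, adjoin_eq_top_of_separating (S : Set (Z → K)) hsep] at h1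
  rw [← h1]
  rfl

end StoneWeierstrass

section Main

open Fermat.Agent.S19x.Alg

/-- `P` is `ℓ`-adically separated, so some power of `ℓ` is divisible in `P` by a given non-zero
element. -/
theorem exists_pow_eq_mul {ℓ : ℕ} (hℓ : ℓ.Prime) (P : ValuationSubring Qbar)
    (hP : P.LiesOverPrime ℓ) (d : Qbar) (hd : d ≠ 0) :
    ∃ k : ℕ, ∃ w ∈ P, (ℓ : Qbar) ^ k = d * w := by
  by_contra hcon
  push Not at hcon
  have hℓ0 : (ℓ : Qbar) ≠ 0 := Nat.cast_ne_zero.mpr hℓ.ne_zero
  refine hd (eq_zero_of_forall_pow_mul P hℓ hP d fun n => ?_)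
  have hpow : (ℓ : Qbar) ^ n ≠ 0 := pow_ne_zero _ hℓ0
  have hnot : (ℓ : Qbar) ^ n * d⁻¹ ∉ P := by
    intro hmem
    refine hcon n _ hmem ?_
    field_simp
  have hinv : ((ℓ : Qbar) ^ n * d⁻¹)⁻¹ ∈ P := (P.mem_or_inv_mem _).resolve_left hnot
  refine ⟨_, hinv, ?_⟩
  field_simp

/-- **(F3a) Conductor.**  An `O`-subalgebra `M` of equivariant `P`-integral functions on a finite
`Γℚ`-set which separates points contains `ℓ ^ k • W` for every equivariant `P`-integral function
`W`, with `k` independent of `W`. -/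
theorem exists_pow_smul_mem {ℓ : ℕ} (hℓ : ℓ.Prime) (P : ValuationSubring Qbar)
    (hP : P.LiesOverPrime ℓ)
    {Z : Type} [Finite Z] (actZ : Γℚ → Z → Z) (hact1 : ∀ z, actZ 1 z = z)
    (hactmul : ∀ σ τ z, actZ (σ * τ) z = actZ σ (actZ τ z))
    (M : Subalgebra (inertiaInt P) (Z → Qbar))
    (hMeq : ∀ f ∈ M, ∀ τ ∈ P.inertiaSubgroupIn ℚ, ∀ z, f (actZ τ z) = τ (f z))
    (hMint : ∀ f ∈ M, ∀ z, f z ∈ P)
    (hMsep : ∀ z z', z ≠ z' → ∃ f ∈ M, f z ≠ f z') :
    ∃ k : ℕ, ∀ W : Z → Qbar, (∀ τ ∈ P.inertiaSubgroupIn ℚ, ∀ z, W (actZ τ z) = τ (W z)) →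
      (∀ z, W z ∈ P) → (fun z => (ℓ : Qbar) ^ k * W z) ∈ M := by
  classical
  let _ : Fintype Z := Fintype.ofFinite Z
  -- a `ℚ̄`-basis of `Z → ℚ̄` inside `M`
  have hspan : Submodule.span Qbar (M : Set (Z → Qbar)) = ⊤ :=
    span_eq_top_of_separating M.toSubsemiring.toSubmonoid hMsep
  let b0 := Module.Basis.ofSpan hspan.ge
  have hb0 : ∀ i, b0 i ∈ M := fun i => Module.Basis.ofSpan_subset hspan.ge ⟨i, rfl⟩
  let b : Module.Basis Z Qbar (Z → Qbar) :=
    b0.reindex (b0.indexEquiv (Pi.basisFun Qbar Z))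
  have hb : ∀ j, b j ∈ M := fun j => by
    rw [Module.Basis.reindex_apply]
    exact hb0 _
  let e : Z → Z → Qbar := fun j => b j
  have hE : Closedness.evalMatrix e = (Pi.basisFun Qbar Z).toMatrix b := by
    ext z j
    simp [Module.Basis.toMatrix_apply, e]
  have hd : (Closedness.evalMatrix e).det ≠ 0 := by
    rw [hE, ← Module.Basis.det_apply]
    exact ((Pi.basisFun Qbar Z).isUnit_det b).ne_zero
  obtain ⟨k, w0, hw0P, hk⟩ := exists_pow_eq_mul hℓ P hP _ hd
  refine ⟨k, fun W hWeq hWint => ?_⟩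
  obtain ⟨lam, hlam⟩ := Closedness.exists_coeff e hd W
  have hF : ∀ z, (ℓ : Qbar) ^ k * W z = ∑ j, ((ℓ : Qbar) ^ k * lam j) * e j z := by
    intro z
    rw [hlam z, Finset.mul_sum]
    exact Finset.sum_congr rfl fun j _ => (mul_assoc _ _ _).symm
  have hcoefP : ∀ j, (ℓ : Qbar) ^ k * lam j ∈ P := fun j =>
    Closedness.coeff_mem_of_values P e (fun j z => hMint _ (hb j) z) hd
      (fun j => (ℓ : Qbar) ^ k * lam j) (fun z => (ℓ : Qbar) ^ k * W z) hF
      (fun z => ⟨w0 * W z, P.mul_mem _ _ hw0P (hWint z), by rw [hk]; ring⟩) j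
  have hsurj : ∀ τ : Γℚ, Function.Surjective (actZ τ) := fun τ z =>
    ⟨actZ τ⁻¹ z, by rw [← hactmul, mul_inv_cancel, hact1]⟩
  have hcoeffix : ∀ j, ∀ τ ∈ P.inertiaSubgroupIn ℚ,
      τ ((ℓ : Qbar) ^ k * lam j) = (ℓ : Qbar) ^ k * lam j := fun j τ hτ =>
    Closedness.coeff_fixed e hd (fun j => (ℓ : Qbar) ^ k * lam j)
      (fun z => (ℓ : Qbar) ^ k * W z) hF (τ : Qbar →+* Qbar) (actZ τ) (hsurj τ)
      (fun j z => hMeq _ (hb j) τ hτ z)
      (fun z => by
        show (ℓ : Qbar) ^ k * W (actZ τ z) = τ ((ℓ : Qbar) ^ k * W z)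
        rw [hWeq τ hτ, map_mul, map_pow, map_natCast]) j
  have hsum : (fun z => (ℓ : Qbar) ^ k * W z) =
      ∑ j, (⟨(ℓ : Qbar) ^ k * lam j, hcoefP j, hcoeffix j⟩ : inertiaInt P) • b j := by
    funext z
    rw [hF z, Finset.sum_apply]
    rfl
  rw [hsum]
  exact Subalgebra.sum_mem _ fun j _ => Subalgebra.smul_mem _ (hb j) _

end Main

end Fermat.Agent.S19x.Alg.ConductorInertia
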