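import Fermat.Agent.S19x.Alg.Main
import Fermat.Agent.S19x.Alg.ConductorInertia

/-!
# P-S19, block B: leaf (F3a) discharged

`Alg/ConductorInertia.lean` proves the conductor statement; so block B is reduced to the single
leaf (F4+F5) `OrderOfGensStatement`.
-/

set_option autoImplicit false

noncomputable section

namespace Fermat.Agent.S19x.Alg

open Fermat.Agent.S19x

/-- leaf (F3a), proved in `Alg/ConductorInertia.lean`. -/
theorem conductorStatementAll : ConductorStatementAll := by
  intro ℓ hℓ P hP Z _ actZ hact1 hactmul M hMeq hMint hMsep
  exact ConductorInertia.exists_pow_smul_mem hℓ.out P hP actZ hact1 hactmul M hMeq hMint hMsep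

/-- **Block B modulo the single leaf (F4+F5).** -/
theorem chartToFFPoints_of_orderOfGens (h45 : OrderOfGensStatement) : ChartToFFPoints :=
  chartToFFPoints_of_leaves conductorStatementAll h45

end Fermat.Agent.S19x.Alg
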