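import Mathlib
import Fermat.Agent.S56x.Flat.InertiaField

/-!
# P-S19, block B, (F4): the compositum of the decomposition-group conjugates (helper19)

`Qbar = AlgebraicClosure ℚ`, `P` a valuation subring of `Qbar`, `D = P.decompositionSubgroup ℚ`,
`I = P.inertiaSubgroupIn ℚ`, `O = inertiaInt P` (the ring of integers of the inertia field).
`X` an additive commutative group with an additive action `act` of `Γℚ = Gal(Qbar/ℚ)`.

* `conj act σ f = fun t => σ (f (act σ⁻¹ t))` : the semilinear conjugation of functions `X → Qbar`;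
* `gensD P act gens = {conj act σ f | σ ∈ D, f ∈ gens}`;
* `Hur P act gens = Algebra.adjoin O (gensD P act gens)`.

Given inertia-equivariant, `P`-valued `gens` whose comultiplications decompose inside
`Algebra.adjoin O gens` (the fields of `S19x.Alg.LocalGens`), we prove

* (i)   `subset_gensD`, `adjoin_le_Hur` : `gens ⊆ gensD`, `Algebra.adjoin O gens ≤ Hur`;
* (ii)  `Hur_equivariant`, `Hur_integral` : every `F ∈ Hur` is `I`-equivariant and `P`-valued;
* (iii) `conj_mem_Hur` : `σ ∈ D`, `F ∈ Hur` implies `conj act σ F ∈ Hur`; `conj_smul`,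
        `conj_smul'` : `conj σ (c • F) = σ c • conj σ F` and `σ c ∈ O` (`map_mem_inertiaInt`);
* (iv)  `Hur_comul` : for `F ∈ Hur`, `F (s + t) = ∑ k, g k s * h k t` with `g k, h k ∈ Hur`;
* (v)   `Hur_neg` : for finite `X`, `F ∈ Hur` implies `(fun t => F (-t)) ∈ Hur`
        (also `Hur_nsmul`, `Hur_zero_mem`: `F (n • ·) ∈ Hur`, `F 0 ∈ O`).
-/

set_option autoImplicit false
set_option linter.unusedSectionVars false
set_option linter.unusedVariables false

open scoped Pointwise

noncomputable section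

namespace Fermat.Agent.S19x.Alg.Compositum

open Fermat.Agent.S56x.Flat.InertiaField

local notation "Qbar" => AlgebraicClosure ℚ
local notation "Γℚ" => (AlgebraicClosure ℚ ≃ₐ[ℚ] AlgebraicClosure ℚ)

/-! ### Decomposition group, inertia group and `O = inertiaInt P` -/

section Arith

variable (P : ValuationSubring Qbar)

/-- The decomposition group preserves `P`. -/
theorem map_mem_of_mem_decomposition {σ : Γℚ} (hσ : σ ∈ P.decompositionSubgroup ℚ) {c : Qbar}
    (hc : c ∈ P) : σ c ∈ P := by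
  have h1 : σ • P = P := hσ
  have h2 : σ c ∈ σ • P := by
    rw [Fermat.Agent.Lib.CFT.Profinite.Bridge.mem_smul_iff]
    simpa using hc
  rwa [h1] at h2

/-- The inertia group is normal in the decomposition group. -/
theorem conj_mem_inertia {σ τ : Γℚ} (hσ : σ ∈ P.decompositionSubgroup ℚ)
    (hτ : τ ∈ P.inertiaSubgroupIn ℚ) : σ⁻¹ * τ * σ ∈ P.inertiaSubgroupIn ℚ := by
  have h1 : σ • P = P := hσ
  rw [← Fermat.Agent.Lib.CFT.Profinite.Bridge.mem_inertiaSubgroupIn_smul_iff, h1]
  exact hτ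

/-- The decomposition group preserves `O = inertiaInt P`. -/
theorem map_mem_inertiaInt {σ : Γℚ} (hσ : σ ∈ P.decompositionSubgroup ℚ) {c : Qbar}
    (hc : c ∈ inertiaInt P) : σ c ∈ inertiaInt P := by
  refine ⟨map_mem_of_mem_decomposition P hσ hc.1, fun τ hτ => ?_⟩
  have h1 := hc.2 _ (conj_mem_inertia P hσ hτ)
  have h2 : (σ⁻¹ * τ * σ) c = σ⁻¹ (τ (σ c)) := rfl
  rw [h2] at h1
  have h3 := congrArg σ h1
  have h4 : σ (σ⁻¹ (τ (σ c))) = τ (σ c) := by
    show (σ * σ⁻¹) (τ (σ c)) = _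
    rw [mul_inv_cancel]
    rfl
  rw [h4] at h3
  exact h3

end Arith

/-! ### Semilinear conjugation of functions -/

section Conj

variable {X : Type*} (act : Γℚ → X → X)

/-- semilinear conjugation: `conj act σ f = fun t => σ (f (act σ⁻¹ t))`. -/
def conj (σ : Γℚ) (f : X → Qbar) : X → Qbar := fun t => σ (f (act σ⁻¹ t))

@[simp] theorem conj_apply (σ : Γℚ) (f : X → Qbar) (t : X) :
    conj act σ f t = σ (f (act σ⁻¹ t)) := rfl

theorem conj_add (σ : Γℚ) (f g : X → Qbar) : conj act σ (f + g) = conj act σ f + conj act σ g := by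
  funext t
  simp [conj]

theorem conj_mul (σ : Γℚ) (f g : X → Qbar) : conj act σ (f * g) = conj act σ f * conj act σ g := by
  funext t
  simp [conj]

theorem conj_const (σ : Γℚ) (c : Qbar) :
    conj act σ (fun _ : X => c) = fun _ : X => σ c := rfl

theorem conj_sum {ι : Type*} (s : Finset ι) (σ : Γℚ) (f : ι → X → Qbar) :
    conj act σ (∑ k ∈ s, f k) = ∑ k ∈ s, conj act σ (f k) := by
  funext t
  simp [conj, Finset.sum_apply]

/-- `conj σ (c • F) = σ c • conj σ F` for scalars in `Qbar`. -/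
theorem conj_smul' (σ : Γℚ) (c : Qbar) (F : X → Qbar) :
    conj act σ (c • F) = σ c • conj act σ F := by
  funext t
  simp [conj]

variable (hact1 : ∀ t, act 1 t = t) (hactmul : ∀ σ τ t, act (σ * τ) t = act σ (act τ t))

include hact1 in
theorem conj_one (f : X → Qbar) : conj act 1 f = f := by
  funext t
  simp [conj, hact1]

include hactmul in
theorem conj_conj (σ τ : Γℚ) (f : X → Qbar) : conj act σ (conj act τ f) = conj act (σ * τ) f := by
  funext t
  simp only [conj, mul_inv_rev, hactmul]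
  rfl

end Conj

/-! ### The compositum `Hur` -/

section Hur

variable (P : ValuationSubring Qbar) {X : Type*} (act : Γℚ → X → X)

/-- all conjugates of the generators under the decomposition group. -/
def gensD (gens : Set (X → Qbar)) : Set (X → Qbar) :=
  {F | ∃ σ ∈ P.decompositionSubgroup ℚ, ∃ f ∈ gens, F = conj act σ f}

/-- the `O`-algebra generated by all decomposition-group conjugates of the generators. -/
def Hur (gens : Set (X → Qbar)) : Subalgebra (inertiaInt P) (X → Qbar) :=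
  Algebra.adjoin (inertiaInt P) (gensD P act gens)

theorem mem_gensD {gens : Set (X → Qbar)} {F : X → Qbar} :
    F ∈ gensD P act gens ↔ ∃ σ ∈ P.decompositionSubgroup ℚ, ∃ f ∈ gens, F = conj act σ f :=
  Iff.rfl

theorem conj_mem_gensD {gens : Set (X → Qbar)} {σ : Γℚ} (hσ : σ ∈ P.decompositionSubgroup ℚ)
    {f : X → Qbar} (hf : f ∈ gens) : conj act σ f ∈ gensD P act gens :=
  ⟨σ, hσ, f, hf, rfl⟩

theorem gensD_subset_Hur (gens : Set (X → Qbar)) : gensD P act gens ⊆ Hur P act gens :=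
  Algebra.subset_adjoin

/-- the action of `c : O` on functions is pointwise multiplication by `(c : Qbar)`. -/
theorem smul_apply' (c : inertiaInt P) (F : X → Qbar) (t : X) : (c • F) t = (c : Qbar) * F t := rfl

theorem algebraMap_apply' (c : inertiaInt P) (t : X) :
    algebraMap (inertiaInt P) (X → Qbar) c t = (c : Qbar) := rfl

/-- **(iii), semilinearity**: `conj σ (c • F) = σ c • conj σ F` for `c : O`, `σ ∈ D`. -/
theorem conj_smul {σ : Γℚ} (hσ : σ ∈ P.decompositionSubgroup ℚ) (c : inertiaInt P)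
    (F : X → Qbar) :
    conj act σ (c • F) =
      (⟨σ (c : Qbar), map_mem_inertiaInt P hσ c.2⟩ : inertiaInt P) • conj act σ F := by
  funext t
  show σ ((c : Qbar) * F (act σ⁻¹ t)) = σ (c : Qbar) * σ (F (act σ⁻¹ t))
  rw [map_mul]

variable (hact1 : ∀ t, act 1 t = t) (hactmul : ∀ σ τ t, act (σ * τ) t = act σ (act τ t))

include hact1 in
/-- **(i)** -/
theorem subset_gensD (gens : Set (X → Qbar)) : gens ⊆ gensD P act gens := fun f hf =>
  ⟨1, Subgroup.one_mem _, f, hf, (conj_one act hact1 f).symm⟩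

include hact1 in
/-- **(i)** -/
theorem adjoin_le_Hur (gens : Set (X → Qbar)) :
    Algebra.adjoin (inertiaInt P) gens ≤ Hur P act gens :=
  Algebra.adjoin_mono (subset_gensD P act hact1 gens)

include hact1 in
theorem subset_Hur (gens : Set (X → Qbar)) : gens ⊆ Hur P act gens := fun _ hf =>
  gensD_subset_Hur P act gens (subset_gensD P act hact1 gens hf)

/-- the `O`-algebra of inertia-equivariant, `P`-valued functions. -/
def eqInt : Subalgebra (inertiaInt P) (X → Qbar) where
  carrier := {F | (∀ τ ∈ P.inertiaSubgroupIn ℚ, ∀ t, F (act τ t) = τ (F t)) ∧ ∀ t, F t ∈ P}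
  mul_mem' := by
    rintro F G ⟨hF, hF'⟩ ⟨hG, hG'⟩
    refine ⟨fun τ hτ t => ?_, fun t => P.mul_mem _ _ (hF' t) (hG' t)⟩
    simp only [Pi.mul_apply, map_mul, hF τ hτ t, hG τ hτ t]
  add_mem' := by
    rintro F G ⟨hF, hF'⟩ ⟨hG, hG'⟩
    refine ⟨fun τ hτ t => ?_, fun t => P.add_mem _ _ (hF' t) (hG' t)⟩
    simp only [Pi.add_apply, map_add, hF τ hτ t, hG τ hτ t]
  algebraMap_mem' := by
    intro c
    refine ⟨fun τ hτ t => ?_, fun t => c.2.1⟩
    show (c : Qbar) = τ (c : Qbar)
    exact (c.2.2 τ hτ).symm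

theorem mem_eqInt {F : X → Qbar} :
    F ∈ eqInt P act ↔
      (∀ τ ∈ P.inertiaSubgroupIn ℚ, ∀ t, F (act τ t) = τ (F t)) ∧ ∀ t, F t ∈ P := Iff.rfl

variable {gens : Set (X → Qbar)}
  (hequiv : ∀ f ∈ gens, ∀ τ ∈ P.inertiaSubgroupIn ℚ, ∀ t : X, f (act τ t) = τ (f t))
  (hint : ∀ f ∈ gens, ∀ t : X, f t ∈ P)

include hact1 hactmul hequiv hint in
theorem Hur_le_eqInt : Hur P act gens ≤ eqInt P act := by
  refine Algebra.adjoin_le ?_
  rintro F ⟨σ, hσ, f, hf, rfl⟩
  refine ⟨fun τ hτ t => ?_, fun t => map_mem_of_mem_decomposition P hσ (hint f hf _)⟩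
  have h1 := conj_mem_inertia P hσ hτ
  have h2 : act σ⁻¹ (act τ t) = act (σ⁻¹ * τ * σ) (act σ⁻¹ t) := by
    rw [← hactmul, ← hactmul]
    congr 1
    group
  simp only [conj_apply]
  rw [h2, hequiv f hf _ h1]
  show σ (σ⁻¹ (τ (σ (f (act σ⁻¹ t))))) = _
  show (σ * σ⁻¹) (τ (σ (f (act σ⁻¹ t)))) = _
  rw [mul_inv_cancel]
  rfl

include hact1 hactmul hequiv hint in
/-- **(ii)** every element of `Hur` is inertia-equivariant. -/
theorem Hur_equivariant {F : X → Qbar} (hF : F ∈ Hur P act gens) :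
    ∀ τ ∈ P.inertiaSubgroupIn ℚ, ∀ t : X, F (act τ t) = τ (F t) :=
  (Hur_le_eqInt P act hact1 hactmul hequiv hint hF).1

include hact1 hactmul hequiv hint in
/-- **(ii)** every element of `Hur` is `P`-valued. -/
theorem Hur_integral {F : X → Qbar} (hF : F ∈ Hur P act gens) : ∀ t : X, F t ∈ P :=
  (Hur_le_eqInt P act hact1 hactmul hequiv hint hF).2

include hactmul in
/-- **(iii)** `Hur` is stable under the conjugation by the decomposition group. -/
theorem conj_mem_Hur {σ : Γℚ} (hσ : σ ∈ P.decompositionSubgroup ℚ) {F : X → Qbar}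
    (hF : F ∈ Hur P act gens) : conj act σ F ∈ Hur P act gens := by
  induction hF using Algebra.adjoin_induction with
  | mem F hF =>
    obtain ⟨τ, hτ, f, hf, rfl⟩ := hF
    rw [conj_conj act hactmul]
    exact gensD_subset_Hur P act gens (conj_mem_gensD P act (Subgroup.mul_mem _ hσ hτ) hf)
  | algebraMap c =>
    have h1 : conj act σ (algebraMap (inertiaInt P) (X → Qbar) c) =
        algebraMap (inertiaInt P) (X → Qbar) ⟨σ (c : Qbar), map_mem_inertiaInt P hσ c.2⟩ := rfl
    rw [h1]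
    exact Subalgebra.algebraMap_mem _ _
  | add F G _ _ ihF ihG =>
    rw [conj_add]
    exact add_mem ihF ihG
  | mul F G _ _ ihF ihG =>
    rw [conj_mul]
    exact mul_mem ihF ihG

end Hur

/-! ### Decomposable functions of two variables -/

section Dec

variable (P : ValuationSubring Qbar) {X : Type*}

/-- `Φ s t = ∑ k, g k s * h k t` with finitely many `g k, h k ∈ H`. -/
def IsDec (H : Subalgebra (inertiaInt P) (X → Qbar)) (Φ : X → X → Qbar) : Prop :=
  ∃ (m : ℕ) (g h : Fin m → X → Qbar), (∀ k, g k ∈ H) ∧ (∀ k, h k ∈ H) ∧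
    ∀ s t : X, Φ s t = ∑ k, g k s * h k t

variable {P} {H : Subalgebra (inertiaInt P) (X → Qbar)}

theorem IsDec.of_fintype {Φ : X → X → Qbar} {ι : Type*} [Fintype ι] (g h : ι → X → Qbar)
    (hg : ∀ k, g k ∈ H) (hh : ∀ k, h k ∈ H) (hΦ : ∀ s t : X, Φ s t = ∑ k, g k s * h k t) :
    IsDec P H Φ := by
  classical
  let e := Fintype.equivFin ι
  refine ⟨Fintype.card ι, fun k => g (e.symm k), fun k => h (e.symm k), fun k => hg _,
    fun k => hh _, fun s t => ?_⟩
  rw [hΦ]
  exact (Equiv.sum_comp e.symm (fun k => g k s * h k t)).symm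

theorem IsDec.mono {H' : Subalgebra (inertiaInt P) (X → Qbar)} (hHH' : H ≤ H')
    {Φ : X → X → Qbar} (hΦ : IsDec P H Φ) : IsDec P H' Φ := by
  obtain ⟨m, g, h, hg, hh, hΦ⟩ := hΦ
  exact ⟨m, g, h, fun k => hHH' (hg k), fun k => hHH' (hh k), hΦ⟩

theorem IsDec.const (c : inertiaInt P) : IsDec P H (fun _ _ => (c : Qbar)) := by
  refine ⟨1, fun _ => algebraMap (inertiaInt P) (X → Qbar) c, fun _ => 1,
    fun _ => Subalgebra.algebraMap_mem _ _, fun _ => one_mem _, fun s t => ?_⟩
  show (c : Qbar) = ∑ _k : Fin 1, (c : Qbar) * 1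
  simp

theorem IsDec.add {Φ Ψ : X → X → Qbar} (hΦ : IsDec P H Φ) (hΨ : IsDec P H Ψ) :
    IsDec P H (fun s t => Φ s t + Ψ s t) := by
  obtain ⟨m₁, g₁, h₁, hg₁, hh₁, hΦ⟩ := hΦ
  obtain ⟨m₂, g₂, h₂, hg₂, hh₂, hΨ⟩ := hΨ
  refine IsDec.of_fintype (ι := Fin m₁ ⊕ Fin m₂) (Sum.elim g₁ g₂) (Sum.elim h₁ h₂) ?_ ?_ ?_
  · rintro (k | k)
    · exact hg₁ k
    · exact hg₂ k
  · rintro (k | k)
    · exact hh₁ k
    · exact hh₂ k
  · intro s t
    rw [Fintype.sum_sum_type, hΦ, hΨ]
    rfl

theorem IsDec.mul {Φ Ψ : X → X → Qbar} (hΦ : IsDec P H Φ) (hΨ : IsDec P H Ψ) :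
    IsDec P H (fun s t => Φ s t * Ψ s t) := by
  obtain ⟨m₁, g₁, h₁, hg₁, hh₁, hΦ⟩ := hΦ
  obtain ⟨m₂, g₂, h₂, hg₂, hh₂, hΨ⟩ := hΨ
  refine IsDec.of_fintype (ι := Fin m₁ × Fin m₂) (fun p => g₁ p.1 * g₂ p.2)
    (fun p => h₁ p.1 * h₂ p.2) (fun p => mul_mem (hg₁ _) (hg₂ _))
    (fun p => mul_mem (hh₁ _) (hh₂ _)) ?_
  intro s t
  rw [Fintype.sum_prod_type, hΦ, hΨ, Finset.sum_mul_sum]
  refine Finset.sum_congr rfl fun i _ => Finset.sum_congr rfl fun j _ => ?_
  simp only [Pi.mul_apply]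
  ring

end Dec

/-! ### Comultiplication and antipode on `Hur` -/

section Comul

variable (P : ValuationSubring Qbar) {X : Type*} [AddCommGroup X] (act : Γℚ → X → X)
  (hact1 : ∀ t, act 1 t = t) (hactmul : ∀ σ τ t, act (σ * τ) t = act σ (act τ t))
  (hactadd : ∀ σ (s t : X), act σ (s + t) = act σ s + act σ t)
  {gens : Set (X → Qbar)}
  (hcomul : ∀ f ∈ gens, ∃ (m : ℕ) (g h : Fin m → X → Qbar),
    (∀ k, g k ∈ Algebra.adjoin (inertiaInt P) gens) ∧
    (∀ k, h k ∈ Algebra.adjoin (inertiaInt P) gens) ∧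
    ∀ s t : X, f (s + t) = ∑ k, g k s * h k t)

include hact1 hactmul hactadd hcomul in
/-- **(iv)** the comultiplication of an element of `Hur` decomposes inside `Hur`. -/
theorem Hur_comul {F : X → Qbar} (hF : F ∈ Hur P act gens) :
    ∃ (m : ℕ) (g h : Fin m → X → Qbar), (∀ k, g k ∈ Hur P act gens) ∧
      (∀ k, h k ∈ Hur P act gens) ∧ ∀ s t : X, F (s + t) = ∑ k, g k s * h k t := by
  change IsDec P (Hur P act gens) (fun s t => F (s + t))
  induction hF using Algebra.adjoin_induction with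
  | mem F hF =>
    obtain ⟨σ, hσ, f, hf, rfl⟩ := hF
    obtain ⟨m, g, h, hg, hh, hf'⟩ := hcomul f hf
    refine ⟨m, fun k => conj act σ (g k), fun k => conj act σ (h k),
      fun k => conj_mem_Hur P act hactmul hσ (adjoin_le_Hur P act hact1 gens (hg k)),
      fun k => conj_mem_Hur P act hactmul hσ (adjoin_le_Hur P act hact1 gens (hh k)),
      fun s t => ?_⟩
    simp only [conj_apply]
    rw [hactadd, hf', map_sum]
    refine Finset.sum_congr rfl fun k _ => ?_
    rw [map_mul]
  | algebraMap c => exact IsDec.const c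
  | add F G _ _ ihF ihG => exact IsDec.add ihF ihG
  | mul F G _ _ ihF ihG => exact IsDec.mul ihF ihG

variable (hequiv : ∀ f ∈ gens, ∀ τ ∈ P.inertiaSubgroupIn ℚ, ∀ t : X, f (act τ t) = τ (f t))
  (hint : ∀ f ∈ gens, ∀ t : X, f t ∈ P)

include hactadd in
theorem act_zero (σ : Γℚ) : act σ (0 : X) = 0 := by
  have h := hactadd σ 0 0
  rw [add_zero] at h
  exact left_eq_add.mp h

include hact1 hactmul hactadd hequiv hint in
/-- the counit has values in `O`: `F 0 ∈ inertiaInt P` for `F ∈ Hur`. -/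
theorem Hur_zero_mem {F : X → Qbar} (hF : F ∈ Hur P act gens) : F 0 ∈ inertiaInt P := by
  refine ⟨Hur_integral P act hact1 hactmul hequiv hint hF 0, fun τ hτ => ?_⟩
  have h := Hur_equivariant P act hact1 hactmul hequiv hint hF τ hτ 0
  rw [act_zero act hactadd] at h
  exact h.symm

include hact1 hactmul hactadd hcomul hequiv hint in
/-- `Hur` is stable under the pull-back along multiplication by `n`. -/
theorem Hur_nsmul (n : ℕ) {F : X → Qbar} (hF : F ∈ Hur P act gens) :
    (fun t => F (n • t)) ∈ Hur P act gens := by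
  induction n generalizing F with
  | zero =>
    have h1 : (fun t : X => F (0 • t)) = algebraMap (inertiaInt P) (X → Qbar)
        ⟨F 0, Hur_zero_mem P act hact1 hactmul hactadd hequiv hint hF⟩ := by
      funext t
      rw [zero_smul]
      rfl
    rw [h1]
    exact Subalgebra.algebraMap_mem _ _
  | succ n ih =>
    obtain ⟨m, g, h, hg, hh, hF'⟩ := Hur_comul P act hact1 hactmul hactadd hcomul hF
    have h1 : (fun t : X => F ((n + 1) • t)) = ∑ k, (fun t => g k (n • t)) * h k := by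
      funext t
      rw [succ_nsmul, hF', Finset.sum_apply]
      rfl
    rw [h1]
    exact Subalgebra.sum_mem _ fun k _ => mul_mem (ih (hg k)) (hh k)

include hact1 hactmul hactadd hcomul hequiv hint in
/-- **(v)** for finite `X`, `Hur` is stable under the antipode. -/
theorem Hur_neg [Finite X] {F : X → Qbar} (hF : F ∈ Hur P act gens) :
    (fun t => F (-t)) ∈ Hur P act gens := by
  have hpos : 0 < Nat.card X := Nat.card_pos
  have h1 : (fun t : X => F (-t)) = fun t => F ((Nat.card X - 1) • t) := by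
    funext t
    congr 1
    have h2 : (Nat.card X - 1) • t + t = 0 := by
      rw [← succ_nsmul, Nat.sub_add_cancel hpos]
      exact card_nsmul_eq_zero'
    exact (eq_neg_of_add_eq_zero_left h2).symm
  rw [h1]
  exact Hur_nsmul P act hact1 hactmul hactadd hcomul hequiv hint _ hF

end Comul

end Fermat.Agent.S19x.Alg.Compositum
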