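import Mathlib

/-!
# P-S19, block (B), pure algebra (helper6): conductor and finite-precision closedness for lattices
of functions on a finite set

Setting: `Ω` a field, `V` a subring of `Ω` (think: a valuation ring of `Ω = ℚ̄` over `ℓ`), `K` a
subfield, `O` a subring with `O ⊆ K`, `O ⊆ V`, `K ∩ V ⊆ O` (think `K = Ω^I`, `O = V ∩ K`), and
`ℓ ∈ O` such that every element of `Ω` is multiplied into `V` by a power of `ℓ`.  `Z` a finite set,
`e : Z → (Z → Ω)` a family of functions whose evaluation matrix `(e j z)` is invertible;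
`M := span_O (range e)`, `W := span_K (range e)`.

* `coeff_eq_of_eq_sum` : the coefficients of `f = ∑ c_j e_j` are `c = f ᵥ* E⁻¹`;
* `exists_pow_smul_mem` (conductor): there is `n` with `ℓ ^ n • f ∈ M` for every `f ∈ W` with values
  in `V`;
* `mem_of_sub_mem_pow_smul` (finite-precision closedness): for that `n`, `F ∈ W`, `F' ∈ M`,
  `F - F'` with values in `ℓ ^ n V` imply `F ∈ M`;
* `mem_of_forall_exists_approx` : the limit form.
-/

set_option autoImplicit false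
set_option linter.unusedSectionVars false

namespace Fermat.Agent.S19x.Alg.Conductor

open Matrix

variable {Ω : Type*} [Field Ω] {Z : Type*} [Fintype Z] [DecidableEq Z]


/-- the coefficients of a linear combination of functions with invertible evaluation matrix. -/
theorem coeff_eq_of_eq_sum (e : Z → Z → Ω) (hE : IsUnit (Matrix.of e).det) (c : Z → Ω)
    (f : Z → Ω) (hf : ∀ z, f z = ∑ j, c j * e j z) (j : Z) :
    c j = ∑ z, f z * (Matrix.of e)⁻¹ z j := by
  have h1 : f = c ᵥ* Matrix.of e := by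
    funext z
    rw [hf z]
    rfl
  have h2 : f ᵥ* (Matrix.of e)⁻¹ = c := by
    rw [h1, Matrix.vecMul_vecMul, Matrix.mul_nonsing_inv _ hE, Matrix.vecMul_one]
  rw [← h2]
  rfl

variable (O V : Subring Ω) (K : Subfield Ω) (ℓ : Ω) (e : Z → Z → Ω)

theorem mem_span_O_iff (f : Z → Ω) :
    f ∈ Submodule.span O (Set.range e) ↔ ∃ d : Z → O, ∀ z, f z = ∑ j, (d j : Ω) * e j z := by
  rw [Submodule.mem_span_range_iff_exists_fun]
  constructor
  · rintro ⟨d, rfl⟩
    refine ⟨d, fun z => ?_⟩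
    rw [Finset.sum_apply]
    rfl
  · rintro ⟨d, hd⟩
    refine ⟨d, ?_⟩
    funext z
    rw [hd z, Finset.sum_apply]
    rfl

theorem mem_span_K_iff (f : Z → Ω) :
    f ∈ Submodule.span K (Set.range e) ↔ ∃ c : Z → K, ∀ z, f z = ∑ j, (c j : Ω) * e j z := by
  rw [Submodule.mem_span_range_iff_exists_fun]
  constructor
  · rintro ⟨c, rfl⟩
    refine ⟨c, fun z => ?_⟩
    rw [Finset.sum_apply]
    rfl
  · rintro ⟨c, hc⟩
    refine ⟨c, ?_⟩
    funext z
    rw [hc z, Finset.sum_apply]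
    rfl

variable {O V K ℓ e}

/-- a uniform power of `ℓ` multiplying all entries of a matrix into `V`. -/
theorem exists_pow_mul_mem_matrix (hℓV : ℓ ∈ V) (harch : ∀ x : Ω, ∃ n : ℕ, ℓ ^ n * x ∈ V)
    (A : Matrix Z Z Ω) : ∃ n : ℕ, ∀ z j, ℓ ^ n * A z j ∈ V := by
  choose N hN using fun zj : Z × Z => harch (A zj.1 zj.2)
  refine ⟨Finset.univ.sup N, fun z j => ?_⟩
  have hle : N (z, j) ≤ Finset.univ.sup N := Finset.le_sup (Finset.mem_univ (z, j))
  obtain ⟨k, hk⟩ := Nat.exists_eq_add_of_le hle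
  rw [hk, pow_add, mul_comm (ℓ ^ N (z, j)), mul_assoc]
  exact V.mul_mem (V.pow_mem hℓV k) (hN (z, j))

/-- **conductor**: a power of `ℓ` multiplies every `V`-valued function of `W = span_K e` into
`M = span_O e`. -/
theorem exists_pow_smul_mem (hℓO : ℓ ∈ O) (hOK : ∀ x ∈ O, x ∈ K) (hOV : ∀ x ∈ O, x ∈ V)
    (hKV : ∀ x ∈ K, x ∈ V → x ∈ O) (harch : ∀ x : Ω, ∃ n : ℕ, ℓ ^ n * x ∈ V)
    (hE : IsUnit (Matrix.of e).det) :
    ∃ n : ℕ, ∀ f ∈ Submodule.span K (Set.range e), (∀ z, f z ∈ V) →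
      ℓ ^ n • f ∈ Submodule.span O (Set.range e) := by
  obtain ⟨n, hn⟩ := exists_pow_mul_mem_matrix (hOV ℓ hℓO) harch (Matrix.of e)⁻¹
  refine ⟨n, fun f hf hfV => ?_⟩
  obtain ⟨c, hc⟩ := (mem_span_K_iff K e f).mp hf
  have hcoef : ∀ j, (c j : Ω) = ∑ z, f z * (Matrix.of e)⁻¹ z j :=
    coeff_eq_of_eq_sum e hE (fun j => (c j : Ω)) f hc
  have hmem : ∀ j, ℓ ^ n * (c j : Ω) ∈ O := by
    intro j
    apply hKV
    · exact K.mul_mem (K.pow_mem (hOK ℓ hℓO) n) (c j).2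
    · rw [hcoef j, Finset.mul_sum]
      refine V.sum_mem fun z _ => ?_
      rw [mul_left_comm]
      exact V.mul_mem (hfV z) (hn z j)
  rw [mem_span_O_iff]
  refine ⟨fun j => ⟨ℓ ^ n * (c j : Ω), hmem j⟩, fun z => ?_⟩
  rw [Pi.smul_apply, smul_eq_mul, hc z, Finset.mul_sum]
  refine Finset.sum_congr rfl fun j _ => ?_
  rw [mul_assoc]

/-- **finite-precision closedness**: if `n` is a conductor exponent, then an element of `W` which
is congruent modulo `ℓ ^ n V` (pointwise) to an element of `M` lies in `M`. -/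
theorem mem_of_sub_mem_pow_smul (hℓ0 : ℓ ≠ 0) (hℓK : ℓ ∈ K) (hOK : ∀ x ∈ O, x ∈ K) {n : ℕ}
    (hn : ∀ f ∈ Submodule.span K (Set.range e), (∀ z, f z ∈ V) →
      ℓ ^ n • f ∈ Submodule.span O (Set.range e))
    {F F' : Z → Ω} (hF : F ∈ Submodule.span K (Set.range e))
    (hF' : F' ∈ Submodule.span O (Set.range e))
    (hsub : ∀ z, ∃ g ∈ V, F z - F' z = ℓ ^ n * g) :
    F ∈ Submodule.span O (Set.range e) := by
  obtain ⟨d, hd⟩ := (mem_span_O_iff O e F').mp hF'
  obtain ⟨c, hc⟩ := (mem_span_K_iff K e F).mp hF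
  have hpow0 : ℓ ^ n ≠ 0 := pow_ne_zero n hℓ0
  -- `G := ℓ⁻ⁿ (F - F')` lies in `W` and has values in `V`
  set G : Z → Ω := fun z => (ℓ ^ n)⁻¹ * (F z - F' z) with hG
  have hGW : G ∈ Submodule.span K (Set.range e) := by
    rw [mem_span_K_iff]
    refine ⟨fun j => ⟨(ℓ ^ n)⁻¹ * ((c j : Ω) - (d j : Ω)),
      K.mul_mem (K.inv_mem (K.pow_mem hℓK n)) (K.sub_mem (c j).2 (hOK _ (d j).2))⟩, fun z => ?_⟩
    rw [hG]
    simp only
    rw [hc z, hd z, ← Finset.sum_sub_distrib, Finset.mul_sum]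
    refine Finset.sum_congr rfl fun j _ => ?_
    ring
  have hGV : ∀ z, G z ∈ V := by
    intro z
    obtain ⟨g, hgV, hg⟩ := hsub z
    rw [hG]
    simp only
    rw [hg, ← mul_assoc, inv_mul_cancel₀ hpow0, one_mul]
    exact hgV
  have h1 := hn G hGW hGV
  have h2 : ℓ ^ n • G = F - F' := by
    funext z
    rw [Pi.smul_apply, smul_eq_mul, hG]
    simp only
    rw [← mul_assoc, mul_inv_cancel₀ hpow0, one_mul, Pi.sub_apply]
  rw [h2] at h1
  have h3 : F = (F - F') + F' := by rw [sub_add_cancel]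
  rw [h3]
  exact Submodule.add_mem _ h1 hF'

/-- **closedness, limit form**: an element of `W` which can be approximated pointwise, modulo every
power of `ℓ`, by elements of `M`, lies in `M`. -/
theorem mem_of_forall_exists_approx (hℓ0 : ℓ ≠ 0) (hℓO : ℓ ∈ O) (hOK : ∀ x ∈ O, x ∈ K)
    (hOV : ∀ x ∈ O, x ∈ V) (hKV : ∀ x ∈ K, x ∈ V → x ∈ O)
    (harch : ∀ x : Ω, ∃ n : ℕ, ℓ ^ n * x ∈ V) (hE : IsUnit (Matrix.of e).det)
    {F : Z → Ω} (hF : F ∈ Submodule.span K (Set.range e))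
    (happrox : ∀ n : ℕ, ∃ F' ∈ Submodule.span O (Set.range e),
      ∀ z, ∃ g ∈ V, F z - F' z = ℓ ^ n * g) :
    F ∈ Submodule.span O (Set.range e) := by
  obtain ⟨n, hn⟩ := exists_pow_smul_mem hℓO hOK hOV hKV harch hE
  obtain ⟨F', hF', hsub⟩ := happrox n
  exact mem_of_sub_mem_pow_smul hℓ0 (hOK ℓ hℓO) hOK hn hF hF' hsub

end Fermat.Agent.S19x.Alg.Conductor
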