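import Mathlib

/-!
# P-S19, block (B), pure algebra (helper6): Galois descent for equivariant functions on a finite set

`G` a group acting on a field `Ω` by ring automorphisms and on a finite set `Z`;
`K = FixedPoints.subfield G Ω`.  A function `f : Z → Ω` is equivariant if `f (g • z) = g • f z`.

* `linearIndependent_of_equivariant` (Artin/Dedekind): equivariant functions which are linearly
  independent over `K` are linearly independent over `Ω`;
* `isUnit_det_of_linearIndependent` : hence `|Z|` of them have an invertible evaluation matrix;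
* `isIntegral_of_isEquivariant` : an equivariant function with values in a subring `V` is integral
  over any subring `O` containing the `G`-fixed elements of `V` (root of `∏ (X - f z)`).
-/

set_option autoImplicit false
set_option linter.unusedSectionVars false

namespace Fermat.Agent.S19x.Alg.EquivFun

variable {G : Type*} [Group G] {Ω : Type*} [Field Ω] [MulSemiringAction G Ω]
  {Z : Type*} [MulAction G Z]

/-- equivariant functions. -/
def IsEquivariant (G : Type*) [Group G] {Ω : Type*} [Field Ω] [MulSemiringAction G Ω]
    {Z : Type*} [MulAction G Z] (f : Z → Ω) : Prop :=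
  ∀ (g : G) (z : Z), f (g • z) = g • f z

/-- twisting a linear relation between equivariant functions by a group element. -/
theorem twist_relation {ι : Type*} (f : ι → Z → Ω) (hf : ∀ i, IsEquivariant G (f i))
    (s : Finset ι) (l : ι → Ω) (f₀ : Z → Ω) (hf₀ : IsEquivariant G f₀)
    (h : ∀ z, f₀ z = ∑ i ∈ s, l i * f i z) (g : G) (z : Z) :
    f₀ z = ∑ i ∈ s, (g • l i) * f i z := by
  have h1 := h (g⁻¹ • z)
  have h2 : g • f₀ (g⁻¹ • z) = g • ∑ i ∈ s, l i * f i (g⁻¹ • z) := congrArg (fun x => g • x) h1
  rw [← hf₀ g (g⁻¹ • z), smul_inv_smul, Finset.smul_sum] at h2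
  rw [h2]
  refine Finset.sum_congr rfl fun i _ => ?_
  rw [smul_mul', ← hf i g (g⁻¹ • z), smul_inv_smul]

/-- **Artin–Dedekind for equivariant functions**: `K`-linearly independent equivariant functions
are `Ω`-linearly independent. -/
theorem linearIndependent_of_equivariant {ι : Type*} (f : ι → Z → Ω)
    (hf : ∀ i, IsEquivariant G (f i))
    (hK : LinearIndependent (FixedPoints.subfield G Ω) f) : LinearIndependent Ω f := by
  classical
  rw [linearIndependent_iff']
  intro s
  induction s using Finset.induction_on with
  | empty => intro a _ i hi; exact absurd hi (Finset.notMem_empty i)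
  | insert i₀ s hi₀ ih =>
    intro a ha
    by_cases ha0 : a i₀ = 0
    · rw [Finset.sum_insert hi₀, ha0, zero_smul, zero_add] at ha
      intro i hi
      rcases Finset.mem_insert.mp hi with rfl | his
      · exact ha0
      · exact ih a ha i his
    · exfalso
      -- `f i₀ = ∑ l i f i`
      set l : ι → Ω := fun i => -(a i₀)⁻¹ * a i with hl
      have hrel : ∀ z, f i₀ z = ∑ i ∈ s, l i * f i z := by
        intro z
        have h1 := congrFun ha z
        rw [Finset.sum_insert hi₀, Pi.add_apply, Finset.sum_apply, Pi.zero_apply] at h1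
        simp only [Pi.smul_apply, smul_eq_mul] at h1
        have h2 : f i₀ z = -(a i₀)⁻¹ * ∑ i ∈ s, a i * f i z := by
          have h3 : a i₀ * f i₀ z = -∑ i ∈ s, a i * f i z := eq_neg_of_add_eq_zero_left h1
          field_simp
          rw [mul_comm, h3]
        rw [h2, Finset.mul_sum]
        refine Finset.sum_congr rfl fun i _ => ?_
        rw [hl]
        ring
      -- the coefficients are fixed
      have hfix : ∀ i ∈ s, ∀ g : G, g • l i = l i := by
        intro i hi g
        have h1 : ∑ j ∈ s, (g • l j - l j) • f j = 0 := by
          funext z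
          rw [Finset.sum_apply, Pi.zero_apply]
          simp only [Pi.smul_apply, smul_eq_mul, sub_mul]
          rw [Finset.sum_sub_distrib, ← twist_relation f hf s l (f i₀) (hf i₀) hrel g z, ← hrel z,
            sub_self]
        exact sub_eq_zero.mp (ih (fun j => g • l j - l j) h1 i hi)
      -- a `K`-relation
      rw [linearIndependent_iff'] at hK
      have h2 := hK (insert i₀ s)
        (fun i => if h : i ∈ s then ⟨l i, fun g => hfix i h g⟩ else if i = i₀ then -1 else 0) ?_
        i₀ (Finset.mem_insert_self i₀ s)
      · simp only [hi₀, dite_false, if_true] at h2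
        have h3 : (-1 : FixedPoints.subfield G Ω) ≠ 0 := neg_ne_zero.mpr one_ne_zero
        exact h3 h2
      · rw [Finset.sum_insert hi₀]
        simp only [hi₀, dite_false, if_true]
        funext z
        rw [Pi.add_apply, Finset.sum_apply, Pi.zero_apply]
        have h4 : ∀ i ∈ s, ((if h : i ∈ s then (⟨l i, fun g => hfix i h g⟩ :
            FixedPoints.subfield G Ω) else if i = i₀ then -1 else 0) • f i) z = l i * f i z := by
          intro i hi
          rw [dif_pos hi]
          rfl
        rw [Finset.sum_congr rfl h4, ← hrel z]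
        show (-1 : FixedPoints.subfield G Ω) • f i₀ z + f i₀ z = 0
        rw [neg_smul, one_smul, neg_add_cancel]

/-- `|Z|` equivariant functions, linearly independent over the fixed field, have an invertible
evaluation matrix. -/
theorem isUnit_det_of_linearIndependent [Fintype Z] [DecidableEq Z] (e : Z → Z → Ω)
    (he : ∀ j, IsEquivariant G (e j))
    (hK : LinearIndependent (FixedPoints.subfield G Ω) e) : IsUnit (Matrix.of e).det := by
  have h1 : LinearIndependent Ω e := linearIndependent_of_equivariant e he hK
  have h2 : LinearIndependent Ω (Matrix.of e).row := h1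
  exact (Matrix.isUnit_iff_isUnit_det _).mp (Matrix.linearIndependent_rows_iff_isUnit.mp h2)

section Integral

open Polynomial

/-- the characteristic polynomial of a function on a finite set. -/
noncomputable def charPoly [Fintype Z] (f : Z → Ω) : Polynomial Ω := ∏ z, (X - C (f z))

theorem charPoly_monic [Fintype Z] (f : Z → Ω) : (charPoly f).Monic :=
  monic_prod_of_monic _ _ fun z _ => monic_X_sub_C (f z)

theorem charPoly_eval [Fintype Z] (f : Z → Ω) (z : Z) : (charPoly f).eval (f z) = 0 := by
  unfold charPoly
  rw [eval_prod]
  exact Finset.prod_eq_zero (Finset.mem_univ z) (by simp)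

theorem charPoly_map_of_isEquivariant [Fintype Z] (f : Z → Ω) (hf : IsEquivariant G f) (g : G) :
    (charPoly f).map (MulSemiringAction.toRingHom G Ω g) = charPoly f := by
  unfold charPoly
  rw [Polynomial.map_prod]
  have h1 : ∀ z, ((X - C (f z)).map (MulSemiringAction.toRingHom G Ω g)) = X - C (f (g • z)) := by
    intro z
    rw [Polynomial.map_sub, map_X, map_C, MulSemiringAction.toRingHom_apply, hf g z]
  rw [Finset.prod_congr rfl fun z _ => h1 z]
  exact Fintype.prod_equiv (MulAction.toPerm g) _ _ fun z => rfl

theorem charPoly_coeff_mem [Fintype Z] (V : Subring Ω) (f : Z → Ω) (hfV : ∀ z, f z ∈ V) (n : ℕ) :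
    (charPoly f).coeff n ∈ V := by
  have h1 : charPoly f = (∏ z, (X - C (⟨f z, hfV z⟩ : V))).map V.subtype := by
    unfold charPoly
    rw [Polynomial.map_prod]
    refine Finset.prod_congr rfl fun z _ => ?_
    rw [Polynomial.map_sub, map_X, map_C]
    rfl
  rw [h1, coeff_map]
  exact ((∏ z, (X - C (⟨f z, hfV z⟩ : V))).coeff n).2

/-- **integrality of equivariant functions with values in the valuation ring.** -/
theorem isIntegral_of_isEquivariant [Fintype Z] (O V : Subring Ω)
    (hO : ∀ x ∈ V, (∀ g : G, g • x = x) → x ∈ O)
    (f : Z → Ω) (hf : IsEquivariant G f) (hfV : ∀ z, f z ∈ V) : IsIntegral O f := by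
  have hcoeff : ∀ n, (charPoly f).coeff n ∈ O := by
    intro n
    refine hO _ (charPoly_coeff_mem V f hfV n) fun g => ?_
    have h1 := congrArg (fun q => coeff q n) (charPoly_map_of_isEquivariant f hf g)
    simp only [coeff_map, MulSemiringAction.toRingHom_apply] at h1
    exact h1
  have hlift : charPoly f ∈ lifts O.subtype := by
    rw [lifts_iff_coeff_lifts]
    intro n
    exact ⟨⟨_, hcoeff n⟩, rfl⟩
  obtain ⟨q, hq, -, hqm⟩ := lifts_and_natDegree_eq_and_monic hlift (charPoly_monic f)
  refine ⟨q, hqm, ?_⟩
  funext z
  have h1 := Polynomial.hom_eval₂ q (algebraMap O (Z → Ω)) (Pi.evalRingHom (fun _ => Ω) z) f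
  have h2 : (Pi.evalRingHom (fun _ : Z => Ω) z).comp (algebraMap O (Z → Ω)) = O.subtype := rfl
  rw [h2] at h1
  show (Pi.evalRingHom (fun _ : Z => Ω) z) (eval₂ (algebraMap O (Z → Ω)) f q) = 0
  rw [h1, ← eval_map, hq]
  exact charPoly_eval f z

end Integral

end Fermat.Agent.S19x.Alg.EquivFun
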