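import Mathlib

/-!
# P-S19, block (B), pure algebra (helper6): a multiplicatively closed set of functions on a finite
set which separates points spans all functions

`Z` finite, `Ω` a field, `S : Submonoid (Z → Ω)` separating the points of `Z`: then
`Submodule.span Ω S = ⊤` (Lagrange interpolation).  Consequences for families: a spanning family
has at least `|Z|` elements.
-/

set_option autoImplicit false
set_option linter.unusedSectionVars false

namespace Fermat.Agent.S19x.Alg.Separation

variable {Ω : Type*} [Field Ω] {Z : Type*} [Fintype Z] [DecidableEq Z]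

/-- the indicator of a point lies in any subalgebra separating points. -/
theorem single_mem_of_separates (A : Subalgebra Ω (Z → Ω))
    (hsep : ∀ z z' : Z, z ≠ z' → ∃ b ∈ A, b z ≠ b z') (z : Z) :
    (Pi.single z 1 : Z → Ω) ∈ A := by
  classical
  choose b hbA hb using fun (z' : {z' : Z // z ≠ z'}) => hsep z z'.1 z'.2
  set bb : Z → Z → Ω := fun z' => if h : z ≠ z' then b ⟨z', h⟩ else 1 with hbb
  have hbbA : ∀ z', bb z' ∈ A := by
    intro z'
    rw [hbb]
    simp only
    split_ifs with h
    · exact hbA ⟨z', h⟩
    · exact A.one_mem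
  have hbbne : ∀ z', z ≠ z' → bb z' z ≠ bb z' z' := by
    intro z' h
    rw [hbb]
    simp only
    rw [dif_pos h]
    exact hb ⟨z', h⟩
  set δ : Z → Ω := ∏ z' ∈ Finset.univ.erase z,
    ((bb z' - algebraMap Ω (Z → Ω) (bb z' z')) * algebraMap Ω (Z → Ω) ((bb z' z - bb z' z')⁻¹))
    with hδ
  have hδA : δ ∈ A := by
    rw [hδ]
    refine A.prod_mem fun z' _ => ?_
    exact A.mul_mem (A.sub_mem (hbbA z') (A.algebraMap_mem _)) (A.algebraMap_mem _)
  have hδ_eq : δ = Pi.single z 1 := by
    funext w
    rw [hδ, Finset.prod_apply]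
    simp only [Pi.mul_apply, Pi.sub_apply, Pi.algebraMap_apply, Algebra.algebraMap_self,
      RingHom.id_apply]
    by_cases hw : w = z
    · subst hw
      rw [Pi.single_eq_same]
      refine Finset.prod_eq_one fun z' hz' => ?_
      have hne : w ≠ z' := fun h => (Finset.mem_erase.mp hz').1 h.symm
      exact mul_inv_cancel₀ (sub_ne_zero.mpr (hbbne z' hne))
    · rw [Pi.single_eq_of_ne hw]
      refine Finset.prod_eq_zero (Finset.mem_erase.mpr ⟨hw, Finset.mem_univ w⟩) ?_
      rw [sub_self, zero_mul]
  rw [← hδ_eq]
  exact hδA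

/-- a subalgebra separating the points of a finite set is everything. -/
theorem eq_top_of_separates (A : Subalgebra Ω (Z → Ω))
    (hsep : ∀ z z' : Z, z ≠ z' → ∃ b ∈ A, b z ≠ b z') : A = ⊤ := by
  rw [eq_top_iff]
  intro F _
  have h1 : F = ∑ z, F z • (Pi.single z 1 : Z → Ω) := by
    funext w
    rw [Finset.sum_apply]
    simp only [Pi.smul_apply, smul_eq_mul]
    rw [Finset.sum_eq_single w]
    · rw [Pi.single_eq_same, mul_one]
    · intro z _ hz
      rw [Pi.single_eq_of_ne hz.symm, mul_zero]
    · intro h
      exact absurd (Finset.mem_univ w) h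
  rw [h1]
  exact A.sum_mem fun z _ => A.smul_mem (single_mem_of_separates A hsep z) _

/-- **a submonoid of functions separating the points of a finite set spans everything.** -/
theorem span_eq_top_of_separates (S : Submonoid (Z → Ω))
    (hsep : ∀ z z' : Z, z ≠ z' → ∃ b ∈ S, b z ≠ b z') :
    Submodule.span Ω (S : Set (Z → Ω)) = ⊤ := by
  have h1 : (Algebra.adjoin Ω (S : Set (Z → Ω))).toSubmodule = Submodule.span Ω (S : Set (Z → Ω)) := by
    rw [Algebra.adjoin_eq_span, Submonoid.closure_eq]
  rw [← h1]
  have h2 : Algebra.adjoin Ω (S : Set (Z → Ω)) = ⊤ := by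
    refine eq_top_of_separates _ fun z z' hzz' => ?_
    obtain ⟨b, hbS, hb⟩ := hsep z z' hzz'
    exact ⟨b, Algebra.subset_adjoin hbS, hb⟩
  rw [h2, Algebra.top_toSubmodule]

/-- a family of functions indexed by `Z` itself whose `Ω`-span is everything has an invertible
evaluation matrix. -/
theorem isUnit_det_of_span_eq_top (e : Z → Z → Ω)
    (hspan : Submodule.span Ω (Set.range e) = ⊤) : IsUnit (Matrix.of e).det := by
  have hli : LinearIndependent Ω e := by
    refine linearIndependent_of_top_le_span_of_card_eq_finrank hspan.ge ?_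
    rw [Module.finrank_pi]
  have h2 : LinearIndependent Ω (Matrix.of e).row := hli
  exact (Matrix.isUnit_iff_isUnit_det _).mp (Matrix.linearIndependent_rows_iff_isUnit.mp h2)

end Fermat.Agent.S19x.Alg.Separation
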