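import Mathlib
import Fermat.Agent.S19x.Alg.Conductor
import Fermat.Agent.S19x.Alg.EquivFun
import Fermat.Agent.S19x.Alg.Separation

/-!
# P-S19, block (B), pure algebra (helper6): the local order generated by integral equivariant
coordinate functions (step F3(1) of the route, abstract form)

`G` acts on the field `Ω` and on the finite set `Z`; `V` a subring of `Ω` (valuation ring), `O` a
principal ideal subring with `O = V ∩ Ω^G`, `ℓ ∈ O` nonzero with `∀ x, ∃ n, ℓ ^ n x ∈ V`.
For a finite set `s` of equivariant `V`-valued functions on `Z` separating the points of `Z`, the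
`O`-algebra `B = O[s]` of functions is a free `O`-module with a basis `e` indexed by `Z` itself,
consisting of equivariant functions, whose evaluation matrix is invertible over `Ω`
(`exists_basis_of_adjoin`).  Together with `Conductor` this gives the conductor and the
finite-precision closedness of `B` (`exists_conductor_of_adjoin`, and, for EQUIVARIANT functions,
`exists_conductor_of_adjoin'`, `mem_adjoin_of_forall_approx`): an equivariant function on `Z` which
is, modulo every power of `ℓ`, pointwise congruent to an element of `O[s]`, lies in `O[s]`.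
-/

set_option autoImplicit false
set_option linter.unusedSectionVars false
set_option linter.style.haveILetI false

namespace Fermat.Agent.S19x.Alg.LocalOrder

open Fermat.Agent.S19x.Alg.EquivFun Fermat.Agent.S19x.Alg.Separation
  Fermat.Agent.S19x.Alg.Conductor
open Matrix

variable {G : Type*} [Group G] {Ω : Type*} [Field Ω] [MulSemiringAction G Ω]
  {Z : Type*} [MulAction G Z]

/-- the equivariant functions, as a subalgebra over a subring of fixed elements. -/
def equivariantSubalgebra (O : Subring Ω) (hOfix : ∀ x ∈ O, ∀ g : G, g • x = x) :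
    Subalgebra O (Z → Ω) where
  carrier := {f | IsEquivariant G f}
  mul_mem' := fun {f f'} hf hf' g z => by
    rw [Pi.mul_apply, Pi.mul_apply, hf g z, hf' g z, smul_mul']
  add_mem' := fun {f f'} hf hf' g z => by
    rw [Pi.add_apply, Pi.add_apply, hf g z, hf' g z, smul_add]
  algebraMap_mem' := fun r g z => by
    show (r : Ω) = g • (r : Ω)
    rw [hOfix r r.2 g]

theorem mem_equivariantSubalgebra (O : Subring Ω) (hOfix : ∀ x ∈ O, ∀ g : G, g • x = x)
    (f : Z → Ω) : f ∈ equivariantSubalgebra (Z := Z) O hOfix ↔ IsEquivariant G f := Iff.rfl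

theorem isEquivariant_of_mem_adjoin (O : Subring Ω) (hOfix : ∀ x ∈ O, ∀ g : G, g • x = x)
    (s : Set (Z → Ω)) (hs : ∀ f ∈ s, IsEquivariant G f) {f : Z → Ω}
    (hf : f ∈ Algebra.adjoin O s) : IsEquivariant G f := by
  have h1 : Algebra.adjoin O s ≤ equivariantSubalgebra (Z := Z) O hOfix :=
    Algebra.adjoin_le fun f hf => hs f hf
  exact h1 hf

theorem isTorsionFree_subalgebra (O : Subring Ω) (B : Subalgebra O (Z → Ω)) :
    Module.IsTorsionFree O B := inferInstance

theorem free_of_fg (O : Subring Ω) [IsPrincipalIdealRing O] (B : Subalgebra O (Z → Ω))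
    (hfg : B.toSubmodule.FG) : Module.Finite O B ∧ Module.Free O B := by
  haveI hfin : Module.Finite O B := Module.Finite.iff_fg.mpr hfg
  haveI := isTorsionFree_subalgebra O B
  exact ⟨hfin, Module.free_of_finite_type_torsion_free'⟩

variable [Fintype Z] [DecidableEq Z]

/-- **the local order** `O[s]` has a basis indexed by `Z` with invertible evaluation matrix. -/
theorem exists_basis_of_adjoin (O V : Subring Ω) [IsPrincipalIdealRing O]
    (hOfix : ∀ x ∈ O, ∀ g : G, g • x = x)
    (hO : ∀ x ∈ V, (∀ g : G, g • x = x) → x ∈ O)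
    (ℓ : Ω) (hℓ0 : ℓ ≠ 0) (hℓO : ℓ ∈ O) (harch : ∀ x : Ω, ∃ n : ℕ, ℓ ^ n * x ∈ V)
    (s : Finset (Z → Ω)) (hs : ∀ f ∈ s, IsEquivariant G f) (hsV : ∀ f ∈ s, ∀ z, f z ∈ V)
    (hsep : ∀ z z' : Z, z ≠ z' → ∃ f ∈ s, f z ≠ f z') :
    ∃ e : Z → Z → Ω, (∀ j, IsEquivariant G (e j)) ∧
      Submodule.span O (Set.range e) = (Algebra.adjoin O (s : Set (Z → Ω))).toSubmodule ∧
      LinearIndependent O e ∧ IsUnit (Matrix.of e).det := by
  classical
  set B : Subalgebra O (Z → Ω) := Algebra.adjoin O (s : Set (Z → Ω)) with hB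
  have hBeq : ∀ f ∈ B, IsEquivariant G f := fun f hf =>
    isEquivariant_of_mem_adjoin O hOfix _ (fun f hf => hs f (Finset.mem_coe.mp hf)) hf
  -- finiteness and freeness
  have hfg : B.toSubmodule.FG := by
    refine fg_adjoin_of_finite s.finite_toSet fun f hf => ?_
    exact isIntegral_of_isEquivariant O V hO f (hs f (Finset.mem_coe.mp hf))
      (hsV f (Finset.mem_coe.mp hf))
  haveI hfin : Module.Finite O B := (free_of_fg O B hfg).1
  haveI hfree : Module.Free O B := (free_of_fg O B hfg).2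
  let ι := Module.Free.ChooseBasisIndex O B
  let b : Module.Basis ι O B := Module.Free.chooseBasis O B
  set e' : ι → Z → Ω := fun i => ((b i : B) : Z → Ω) with he'
  have he'B : ∀ i, e' i ∈ B := fun i => (b i).2
  have he'eq : ∀ i, IsEquivariant G (e' i) := fun i => hBeq _ (he'B i)
  -- span over `O`
  have hspanO : Submodule.span O (Set.range e') = B.toSubmodule := by
    have h1 : Submodule.span O (Set.range b) = ⊤ := b.span_eq
    have h2 := congrArg (Submodule.map B.toSubmodule.subtype) h1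
    rw [Submodule.map_span, Submodule.map_top, Submodule.range_subtype, ← Set.range_comp] at h2
    exact h2
  -- independence over `O`
  have hliO : LinearIndependent O e' :=
    b.linearIndependent.map' B.toSubmodule.subtype (Submodule.ker_subtype _)
  -- independence over the fixed field
  have hℓfix : ∀ g : G, g • ℓ = ℓ := hOfix ℓ hℓO
  have hfrac : ∀ x : Ω, (∀ g : G, g • x = x) → ∃ n : ℕ, ℓ ^ n * x ∈ O := by
    intro x hx
    obtain ⟨n, hn⟩ := harch x
    refine ⟨n, hO _ hn fun g => ?_⟩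
    rw [smul_mul', smul_pow', hℓfix g, hx g]
  have hliK : LinearIndependent (FixedPoints.subfield G Ω) e' := by
    rw [linearIndependent_iff']
    intro t c hc i hi
    choose N hN using fun j : ι => hfrac (c j : Ω) (c j).2
    set n := t.sup N with hn
    have hmem : ∀ j ∈ t, ℓ ^ n * (c j : Ω) ∈ O := by
      intro j hj
      obtain ⟨k, hk⟩ := Nat.exists_eq_add_of_le (Finset.le_sup hj : N j ≤ t.sup N)
      rw [hn, hk, pow_add, mul_comm (ℓ ^ N j), mul_assoc]
      exact O.mul_mem (O.pow_mem hℓO k) (hN j)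
    rw [linearIndependent_iff'] at hliO
    have h1 := hliO t (fun j => if h : j ∈ t then ⟨ℓ ^ n * (c j : Ω), hmem j h⟩ else 0) ?_ i hi
    · rw [dif_pos hi] at h1
      have h2 : ℓ ^ n * (c i : Ω) = 0 := congrArg Subtype.val h1
      rcases mul_eq_zero.mp h2 with h3 | h3
      · exact absurd h3 (pow_ne_zero n hℓ0)
      · exact Subtype.ext h3
    · funext z
      have h3 := congrFun hc z
      rw [Finset.sum_apply, Pi.zero_apply] at h3 ⊢
      have h4 : ∀ j ∈ t, ((if h : j ∈ t then (⟨ℓ ^ n * (c j : Ω), hmem j h⟩ : O) else 0) • e' j) z =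
          ℓ ^ n * ((c j • e' j) z) := by
        intro j hj
        rw [dif_pos hj]
        show ℓ ^ n * (c j : Ω) * e' j z = ℓ ^ n * ((c j : Ω) * e' j z)
        rw [mul_assoc]
      rw [Finset.sum_congr rfl h4, ← Finset.mul_sum, h3, mul_zero]
  -- independence over `Ω`, cardinality
  have hliΩ : LinearIndependent Ω e' := linearIndependent_of_equivariant e' he'eq hliK
  have hcard1 : Fintype.card ι ≤ Fintype.card Z := by
    have := hliΩ.fintype_card_le_finrank
    rwa [Module.finrank_pi] at this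
  -- span over `Ω`
  have hspanΩ : Submodule.span Ω (Set.range e') = ⊤ := by
    have h1 : Submodule.span Ω (B.toSubmonoid : Set (Z → Ω)) = ⊤ := by
      refine span_eq_top_of_separates B.toSubmonoid fun z z' hzz' => ?_
      obtain ⟨f, hf, hfz⟩ := hsep z z' hzz'
      exact ⟨f, Algebra.subset_adjoin (Finset.mem_coe.mpr hf), hfz⟩
    rw [eq_top_iff, ← h1]
    refine Submodule.span_le.mpr fun f hf => ?_
    have hfB : f ∈ B.toSubmodule := hf
    rw [← hspanO, Submodule.mem_span_range_iff_exists_fun] at hfB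
    obtain ⟨d, rfl⟩ := hfB
    refine Submodule.sum_mem _ fun i _ => ?_
    have h2 : d i • e' i = (d i : Ω) • e' i := rfl
    rw [h2]
    exact Submodule.smul_mem _ _ (Submodule.subset_span (Set.mem_range_self i))
  have hcard2 : Fintype.card Z ≤ Fintype.card ι := by
    have h1 := finrank_range_le_card (R := Ω) e'
    unfold Set.finrank at h1
    rw [hspanΩ, finrank_top, Module.finrank_pi] at h1
    exact h1
  have hcard : Fintype.card Z = Fintype.card ι := le_antisymm hcard2 hcard1
  let σ : Z ≃ ι := Fintype.equivOfCardEq hcard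
  have hrange : Set.range (e' ∘ σ) = Set.range e' := σ.surjective.range_comp e'
  refine ⟨e' ∘ σ, fun j => he'eq (σ j), ?_, hliO.comp σ σ.injective, ?_⟩
  · rw [hrange, hspanO]
  · refine isUnit_det_of_span_eq_top (e' ∘ σ) ?_
    rw [hrange, hspanΩ]

/-- **conductor of the local order**: with the data of `exists_basis_of_adjoin` there is `n` such
that `ℓ ^ n • f ∈ O[s]` for every `V`-valued function `f` in the `K`-span of `O[s]`
(`K = Ω^G`), and `O[s]` is closed under approximation modulo `ℓ ^ n V`. -/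
theorem exists_conductor_of_adjoin (O V : Subring Ω) [IsPrincipalIdealRing O]
    (hOfix : ∀ x ∈ O, ∀ g : G, g • x = x) (hOV : ∀ x ∈ O, x ∈ V)
    (hO : ∀ x ∈ V, (∀ g : G, g • x = x) → x ∈ O)
    (ℓ : Ω) (hℓ0 : ℓ ≠ 0) (hℓO : ℓ ∈ O) (harch : ∀ x : Ω, ∃ n : ℕ, ℓ ^ n * x ∈ V)
    (s : Finset (Z → Ω)) (hs : ∀ f ∈ s, IsEquivariant G f) (hsV : ∀ f ∈ s, ∀ z, f z ∈ V)
    (hsep : ∀ z z' : Z, z ≠ z' → ∃ f ∈ s, f z ≠ f z') :
    ∃ n : ℕ, ∀ F : Z → Ω,
      F ∈ Submodule.span (FixedPoints.subfield G Ω)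
        ((Algebra.adjoin O (s : Set (Z → Ω)) : Set (Z → Ω))) →
      ∀ F' ∈ Algebra.adjoin O (s : Set (Z → Ω)),
        (∀ z, ∃ g ∈ V, F z - F' z = ℓ ^ n * g) → F ∈ Algebra.adjoin O (s : Set (Z → Ω)) := by
  obtain ⟨e, -, hspan, -, hdet⟩ :=
    exists_basis_of_adjoin O V hOfix hO ℓ hℓ0 hℓO harch s hs hsV hsep
  have hOK : ∀ x ∈ O, x ∈ FixedPoints.subfield G Ω := fun x hx g => hOfix x hx g
  have hKV : ∀ x ∈ FixedPoints.subfield G Ω, x ∈ V → x ∈ O := fun x hx hxV => hO x hxV hx
  obtain ⟨n, hn⟩ := exists_pow_smul_mem (O := O) (V := V) (K := FixedPoints.subfield G Ω)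
    (e := e) hℓO hOK hOV hKV harch hdet
  refine ⟨n, fun F hF F' hF' hsub => ?_⟩
  have hspanK : Submodule.span (FixedPoints.subfield G Ω)
      ((Algebra.adjoin O (s : Set (Z → Ω)) : Set (Z → Ω))) =
      Submodule.span (FixedPoints.subfield G Ω) (Set.range e) := by
    apply le_antisymm
    · refine Submodule.span_le.mpr fun f hf => ?_
      have hfB : f ∈ (Algebra.adjoin O (s : Set (Z → Ω))).toSubmodule := hf
      rw [← hspan, Submodule.mem_span_range_iff_exists_fun] at hfB
      obtain ⟨d, rfl⟩ := hfB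
      refine Submodule.sum_mem _ fun i _ => ?_
      have h2 : d i • e i = (⟨(d i : Ω), hOK _ (d i).2⟩ : FixedPoints.subfield G Ω) • e i := rfl
      rw [h2]
      exact Submodule.smul_mem _ _ (Submodule.subset_span (Set.mem_range_self i))
    · refine Submodule.span_mono ?_
      rintro _ ⟨j, rfl⟩
      have : e j ∈ Submodule.span O (Set.range e) := Submodule.subset_span (Set.mem_range_self j)
      rw [hspan] at this
      exact this
  rw [hspanK] at hF
  have hF'' : F' ∈ Submodule.span O (Set.range e) := by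
    rw [hspan]
    exact hF'
  have := mem_of_sub_mem_pow_smul (O := O) (V := V) (K := FixedPoints.subfield G Ω) (e := e)
    hℓ0 (hOK ℓ hℓO) hOK hn hF hF'' hsub
  rw [hspan] at this
  exact this

/-- an equivariant function is a combination, with FIXED coefficients, of equivariant functions
with invertible evaluation matrix. -/
theorem mem_span_fixed_of_isEquivariant (e : Z → Z → Ω) (he : ∀ j, IsEquivariant G (e j))
    (hE : IsUnit (Matrix.of e).det) (F : Z → Ω) (hF : IsEquivariant G F) :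
    F ∈ Submodule.span (FixedPoints.subfield G Ω) (Set.range e) := by
  set c : Z → Ω := fun j => ∑ z, F z * (Matrix.of e)⁻¹ z j with hc
  have hFc : ∀ z, F z = ∑ j, c j * e j z := by
    intro z
    have h1 : (F ᵥ* (Matrix.of e)⁻¹) ᵥ* Matrix.of e = F := by
      rw [Matrix.vecMul_vecMul, Matrix.nonsing_inv_mul _ hE, Matrix.vecMul_one]
    have h2 := congrFun h1 z
    rw [← h2]
    rfl
  have hfix : ∀ j, ∀ g : G, g • c j = c j := by
    intro j g
    have h1 : ∀ z, F z = ∑ i, (g • c i) * e i z := fun z => by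
      have := twist_relation e he Finset.univ c F hF (fun z => hFc z) g z
      exact this
    have h2 := coeff_eq_of_eq_sum e hE (fun i => g • c i) F h1 j
    rw [h2]
  rw [mem_span_K_iff]
  exact ⟨fun j => ⟨c j, hfix j⟩, hFc⟩

/-- **closedness of the local order, equivariant form**: with the data of
`exists_basis_of_adjoin` there is `n` such that an EQUIVARIANT function `F` which is congruent
modulo `ℓ ^ n V`, pointwise, to an element of `O[s]` lies in `O[s]`. -/
theorem exists_conductor_of_adjoin' (O V : Subring Ω) [IsPrincipalIdealRing O]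
    (hOfix : ∀ x ∈ O, ∀ g : G, g • x = x) (hOV : ∀ x ∈ O, x ∈ V)
    (hO : ∀ x ∈ V, (∀ g : G, g • x = x) → x ∈ O)
    (ℓ : Ω) (hℓ0 : ℓ ≠ 0) (hℓO : ℓ ∈ O) (harch : ∀ x : Ω, ∃ n : ℕ, ℓ ^ n * x ∈ V)
    (s : Finset (Z → Ω)) (hs : ∀ f ∈ s, IsEquivariant G f) (hsV : ∀ f ∈ s, ∀ z, f z ∈ V)
    (hsep : ∀ z z' : Z, z ≠ z' → ∃ f ∈ s, f z ≠ f z') :
    ∃ n : ℕ, ∀ F : Z → Ω, IsEquivariant G F →
      ∀ F' ∈ Algebra.adjoin O (s : Set (Z → Ω)),
        (∀ z, ∃ g ∈ V, F z - F' z = ℓ ^ n * g) → F ∈ Algebra.adjoin O (s : Set (Z → Ω)) := by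
  obtain ⟨e, heq, hspan, -, hdet⟩ :=
    exists_basis_of_adjoin O V hOfix hO ℓ hℓ0 hℓO harch s hs hsV hsep
  have hOK : ∀ x ∈ O, x ∈ FixedPoints.subfield G Ω := fun x hx g => hOfix x hx g
  have hKV : ∀ x ∈ FixedPoints.subfield G Ω, x ∈ V → x ∈ O := fun x hx hxV => hO x hxV hx
  obtain ⟨n, hn⟩ := exists_pow_smul_mem (O := O) (V := V) (K := FixedPoints.subfield G Ω)
    (e := e) hℓO hOK hOV hKV harch hdet
  refine ⟨n, fun F hF F' hF' hsub => ?_⟩
  have hFK := mem_span_fixed_of_isEquivariant e heq hdet F hF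
  have hF'' : F' ∈ Submodule.span O (Set.range e) := by
    rw [hspan]
    exact hF'
  have := mem_of_sub_mem_pow_smul (O := O) (V := V) (K := FixedPoints.subfield G Ω) (e := e)
    hℓ0 (hOK ℓ hℓO) hOK hn hFK hF'' hsub
  rw [hspan] at this
  exact this

/-- **closedness of the local order, limit form**: an equivariant function which is, for every `n`,
congruent modulo `ℓ ^ n V` to an element of `O[s]`, lies in `O[s]`. -/
theorem mem_adjoin_of_forall_approx (O V : Subring Ω) [IsPrincipalIdealRing O]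
    (hOfix : ∀ x ∈ O, ∀ g : G, g • x = x) (hOV : ∀ x ∈ O, x ∈ V)
    (hO : ∀ x ∈ V, (∀ g : G, g • x = x) → x ∈ O)
    (ℓ : Ω) (hℓ0 : ℓ ≠ 0) (hℓO : ℓ ∈ O) (harch : ∀ x : Ω, ∃ n : ℕ, ℓ ^ n * x ∈ V)
    (s : Finset (Z → Ω)) (hs : ∀ f ∈ s, IsEquivariant G f) (hsV : ∀ f ∈ s, ∀ z, f z ∈ V)
    (hsep : ∀ z z' : Z, z ≠ z' → ∃ f ∈ s, f z ≠ f z')
    (F : Z → Ω) (hF : IsEquivariant G F)
    (happrox : ∀ n : ℕ, ∃ F' ∈ Algebra.adjoin O (s : Set (Z → Ω)),
      ∀ z, ∃ g ∈ V, F z - F' z = ℓ ^ n * g) :
    F ∈ Algebra.adjoin O (s : Set (Z → Ω)) := by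
  obtain ⟨n, hn⟩ := exists_conductor_of_adjoin' O V hOfix hOV hO ℓ hℓ0 hℓO harch s hs hsV hsep
  obtain ⟨F', hF', hsub⟩ := happrox n
  exact hn F hF F' hF' hsub

end Fermat.Agent.S19x.Alg.LocalOrder
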