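/-
P-S19, BLOCK B (pure algebra), helper25: the FINITE STONE–WEIERSTRASS lemma in matrix form.

`Z` a finite set, `Om` a field, `R → Om` a commutative ring, `M : Subalgebra R (Z → Om)` a
subalgebra of the function algebra which separates the points of `Z`.  Then

* `span_eq_top_of_separates` : the `Om`-span of `M` is everything;
* `exists_family_of_separates` : `M` contains a family `e j`, `j : Z`, whose evaluation matrix
  `(e j z)` is invertible (an `Om`-basis of `Z → Om` consisting of elements of `M`).

Together with `S19x/Alg/Closedness.lean` (adjugate / descent of coefficients) this gives the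
conductor statement: `ℓ^k • (integral equivariant functions) ⊆ M`.
-/
import Fermat.Agent.S19x.Alg.Closedness

set_option autoImplicit false
set_option linter.unusedSectionVars false

open Matrix

namespace Fermat.Agent.S19x.Alg.SeparatingSpan

open Fermat.Agent.S19x.Alg.Closedness

variable {R Om : Type*} [CommRing R] [Field Om] [Algebra R Om]
  {Z : Type*} [Fintype Z] [DecidableEq Z]

/-- The `Om`-span of a subalgebra is closed under multiplication. -/
theorem mul_mem_span (M : Subalgebra R (Z → Om)) {a b : Z → Om}
    (ha : a ∈ Submodule.span Om (M : Set (Z → Om)))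
    (hb : b ∈ Submodule.span Om (M : Set (Z → Om))) :
    a * b ∈ Submodule.span Om (M : Set (Z → Om)) := by
  induction ha using Submodule.span_induction with
  | mem x hx =>
    induction hb using Submodule.span_induction with
    | mem y hy => exact Submodule.subset_span (M.mul_mem hx hy)
    | zero => rw [mul_zero]; exact Submodule.zero_mem _
    | add y y' _ _ hy hy' => rw [mul_add]; exact Submodule.add_mem _ hy hy'
    | smul c y _ hy => rw [mul_smul_comm]; exact Submodule.smul_mem _ c hy
  | zero => rw [zero_mul]; exact Submodule.zero_mem _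
  | add x x' _ _ hx hx' => rw [add_mul]; exact Submodule.add_mem _ hx hx'
  | smul c x _ hx => rw [smul_mul_assoc]; exact Submodule.smul_mem _ c hx

theorem prod_mem_span (M : Subalgebra R (Z → Om)) {ι : Type*} (s : Finset ι)
    (a : ι → Z → Om) (ha : ∀ i ∈ s, a i ∈ Submodule.span Om (M : Set (Z → Om))) :
    ∏ i ∈ s, a i ∈ Submodule.span Om (M : Set (Z → Om)) := by
  classical
  induction s using Finset.induction_on with
  | empty =>
    rw [Finset.prod_empty]
    exact Submodule.subset_span M.one_mem
  | insert i s hi ih =>
    rw [Finset.prod_insert hi]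
    exact mul_mem_span M (ha i (Finset.mem_insert_self i s))
      (ih fun j hj => ha j (Finset.mem_insert_of_mem hj))

/-- Constants lie in the `Om`-span. -/
theorem const_mem_span (M : Subalgebra R (Z → Om)) (c : Om) :
    (fun _ : Z => c) ∈ Submodule.span Om (M : Set (Z → Om)) := by
  have h : (fun _ : Z => c) = c • (1 : Z → Om) := by
    funext z
    rw [Pi.smul_apply, Pi.one_apply, smul_eq_mul, mul_one]
  rw [h]
  exact Submodule.smul_mem _ c (Submodule.subset_span M.one_mem)

/-- **Finite Stone–Weierstrass**: a point-separating subalgebra of the function algebra of a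
finite set spans it over the field of values. -/
theorem span_eq_top_of_separates (M : Subalgebra R (Z → Om))
    (hsep : ∀ z z' : Z, z ≠ z' → ∃ f ∈ M, f z ≠ f z') :
    Submodule.span Om (M : Set (Z → Om)) = ⊤ := by
  classical
  rw [eq_top_iff]
  intro F _
  -- for every `z` a function in the span vanishing exactly off `z`
  have hdelta : ∀ z : Z, ∃ g ∈ Submodule.span Om (M : Set (Z → Om)),
      g z ≠ 0 ∧ ∀ z', z' ≠ z → g z' = 0 := by
    intro z
    have hch : ∀ z' : Z, z' ≠ z → ∃ f ∈ M, f z ≠ f z' := fun z' h => hsep z z' (Ne.symm h)
    -- choose separating functions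
    let f : Z → Z → Om := fun z' => if h : z' ≠ z then (hch z' h).choose else 1
    have hfM : ∀ z', f z' ∈ M := by
      intro z'
      by_cases h : z' ≠ z
      · simp only [f, dif_pos h]; exact (hch z' h).choose_spec.1
      · simp only [f, dif_neg h]; exact M.one_mem
    have hfne : ∀ z', z' ≠ z → f z' z ≠ f z' z' := by
      intro z' h
      simp only [f, dif_pos h]
      exact (hch z' h).choose_spec.2
    refine ⟨∏ z' ∈ Finset.univ.erase z, (f z' - fun _ => f z' z'), ?_, ?_, ?_⟩
    · refine prod_mem_span M _ _ fun z' _ => ?_
      exact Submodule.sub_mem _ (Submodule.subset_span (hfM z')) (const_mem_span M _)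
    · rw [Finset.prod_apply]
      refine Finset.prod_ne_zero_iff.2 fun z' hz' => ?_
      rw [Pi.sub_apply]
      exact sub_ne_zero.2 (hfne z' (Finset.ne_of_mem_erase hz'))
    · intro z' hz'
      rw [Finset.prod_apply]
      refine Finset.prod_eq_zero (Finset.mem_erase.2 ⟨hz', Finset.mem_univ z'⟩) ?_
      rw [Pi.sub_apply, sub_self]
  choose g hg hgz hg0 using hdelta
  have hF : F = ∑ z, (F z / g z z) • g z := by
    funext z0
    rw [Finset.sum_apply, Finset.sum_eq_single z0]
    · rw [Pi.smul_apply, smul_eq_mul, div_mul_cancel₀ _ (hgz z0)]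
    · intro z _ hz
      rw [Pi.smul_apply, hg0 z z0 (Ne.symm hz), smul_zero]
    · intro h; exact absurd (Finset.mem_univ z0) h
  rw [hF]
  exact Submodule.sum_mem _ fun z _ => Submodule.smul_mem _ _ (hg z)

/-- **A basis inside the subalgebra**: a point-separating subalgebra contains a family indexed by
`Z` with invertible evaluation matrix. -/
theorem exists_family_of_separates (M : Subalgebra R (Z → Om))
    (hsep : ∀ z z' : Z, z ≠ z' → ∃ f ∈ M, f z ≠ f z') :
    ∃ e : Z → Z → Om, (∀ j, e j ∈ M) ∧ (evalMatrix e).det ≠ 0 := by
  classical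
  obtain ⟨b, hbM, hbspan, hbli⟩ := exists_linearIndependent Om (M : Set (Z → Om))
  rw [span_eq_top_of_separates M hsep] at hbspan
  -- `b` is a basis of `Z → Om`
  let B : Module.Basis b Om (Z → Om) := Module.Basis.mk hbli (by
    rw [Subtype.range_coe_subtype, Set.ofPred_mem_eq, hbspan])
  have hfin : Fintype b := FiniteDimensional.fintypeBasisIndex B
  have hcard : Fintype.card b = Fintype.card Z := by
    have h1 := Module.finrank_eq_card_basis B
    rw [Module.finrank_pi, ] at h1
    exact h1.symm
  let eqv : Z ≃ b := (Fintype.equivOfCardEq hcard).symm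
  refine ⟨fun j => (eqv j : Z → Om), fun j => hbM (eqv j).2, ?_⟩
  -- the columns of the evaluation matrix are linearly independent
  have hli : LinearIndependent Om (fun j : Z => ((eqv j : b) : Z → Om)) :=
    hbli.comp eqv eqv.injective
  have hcol : (evalMatrix fun j => ((eqv j : b) : Z → Om)).col =
      fun j : Z => ((eqv j : b) : Z → Om) := by
    funext j z
    rfl
  have hu : IsUnit (evalMatrix fun j => ((eqv j : b) : Z → Om)) := by
    rw [← Matrix.linearIndependent_cols_iff_isUnit, hcol]
    exact hli
  exact ((Matrix.isUnit_iff_isUnit_det _).1 hu).ne_zero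

end Fermat.Agent.S19x.Alg.SeparatingSpan
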