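import Mathlib
import Fermat.Agent.S56x.Flat.InertiaField
import Fermat.Agent.S19x.Alg.LocalOrder
import Fermat.Agent.S19x.Alg.SeparatingSpan

/-!
# P-S19, block (B), leaf (F3a) in the concrete form of the block-B plan (helper6)

`Qbar = AlgebraicClosure ℚ`, `P` a valuation subring over `ℓ`, `I = P.inertiaSubgroupIn ℚ`,
`O^ur = inertiaInt P`.  `Z` a finite set with an action `actZ` of `Gal(Qbar/ℚ)`,
`M : Subalgebra (inertiaInt P) (Z → Qbar)` consisting of inertia-equivariant `P`-valued functions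
and separating the points of `Z`.  Then there is `k` such that `ℓ ^ k • W ∈ M` for every
inertia-equivariant `P`-valued function `W` on `Z` (`exists_pow_smul_mem_qbar`: the CONDUCTOR of
`M` in the maximal order).  Corollary `mem_of_approx_qbar` (finite-precision closedness): for that
`k`, an equivariant `W` which is pointwise congruent modulo `ℓ ^ k P` to an element of `M` lies in
`M`.

Instantiation of the abstract `S19x/Alg/{Conductor, EquivFun, LocalOrder}` (helper6) and of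
`S19x/Alg/SeparatingSpan.exists_family_of_separates` (helper25).
-/

set_option autoImplicit false
set_option linter.unusedSectionVars false
set_option linter.style.haveILetI false
set_option linter.unusedVariables false

namespace Fermat.Agent.S19x.Alg.ConductorQbar

open Fermat.Agent.S56x.Flat.InertiaField
open Fermat.Agent.S19x.Alg.EquivFun Fermat.Agent.S19x.Alg.Conductor
  Fermat.Agent.S19x.Alg.LocalOrder

local notation "Qbar" => AlgebraicClosure ℚ
local notation "Γℚ" => (AlgebraicClosure ℚ ≃ₐ[ℚ] AlgebraicClosure ℚ)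

/-- every element of `Qbar` is multiplied into `P` by a power of `ℓ`. -/
theorem exists_pow_mul_mem {ℓ : ℕ} (hℓ : ℓ.Prime) (P : ValuationSubring Qbar)
    (hP : P.LiesOverPrime ℓ) (x : Qbar) : ∃ n : ℕ, (ℓ : Qbar) ^ n * x ∈ P := by
  by_contra hcon
  rw [not_exists] at hcon
  have hx0 : x ≠ 0 := by
    rintro rfl
    exact hcon 0 (by rw [mul_zero]; exact P.zero_mem)
  have hℓ0 : (ℓ : Qbar) ≠ 0 := natCast_ne_zero_Qbar P hℓ hP
  have h1 : x⁻¹ = 0 := by
    refine eq_zero_of_forall_pow_mul P hℓ hP x⁻¹ fun n => ?_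
    refine ⟨((ℓ : Qbar) ^ n * x)⁻¹, ?_, ?_⟩
    · rcases P.mem_or_inv_mem ((ℓ : Qbar) ^ n * x) with h | h
      · exact absurd h (hcon n)
      · exact h
    · rw [mul_inv, ← mul_assoc, mul_inv_cancel₀ (pow_ne_zero n hℓ0), one_mul]
  exact hx0 (inv_eq_zero.mp h1)

/-- **(F3a) conductor**, in the shape of the block-B plan. -/
theorem exists_pow_smul_mem_qbar {ℓ : ℕ} (hℓ : ℓ.Prime) (P : ValuationSubring Qbar)
    (hP : P.LiesOverPrime ℓ) {Z : Type} [Finite Z] (actZ : Γℚ → Z → Z)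
    (hact1 : ∀ z, actZ 1 z = z) (hactmul : ∀ σ τ z, actZ (σ * τ) z = actZ σ (actZ τ z))
    (M : Subalgebra (inertiaInt P) (Z → Qbar))
    (hMeq : ∀ f ∈ M, ∀ τ ∈ P.inertiaSubgroupIn ℚ, ∀ z, f (actZ τ z) = τ (f z))
    (hMint : ∀ f ∈ M, ∀ z, f z ∈ P)
    (hMsep : ∀ z z', z ≠ z' → ∃ f ∈ M, f z ≠ f z') :
    ∃ k : ℕ, ∀ W : Z → Qbar,
      (∀ τ ∈ P.inertiaSubgroupIn ℚ, ∀ z, W (actZ τ z) = τ (W z)) → (∀ z, W z ∈ P) →
      (fun z => (ℓ : Qbar) ^ k * W z) ∈ M := by
  classical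
  haveI : Fintype Z := Fintype.ofFinite Z
  letI : MulAction (P.inertiaSubgroupIn ℚ) Z :=
    { smul := fun g z => actZ g.1 z
      one_smul := hact1
      mul_smul := fun g h z => hactmul g.1 h.1 z }
  obtain ⟨e, heM, hdet⟩ := SeparatingSpan.exists_family_of_separates M hMsep
  have hE : IsUnit (Matrix.of e).det := by
    have h1 : Closedness.evalMatrix e = (Matrix.of e).transpose := rfl
    rw [h1, Matrix.det_transpose] at hdet
    exact isUnit_iff_ne_zero.mpr hdet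
  have heq : ∀ j, IsEquivariant (P.inertiaSubgroupIn ℚ) (e j) :=
    fun j g z => hMeq (e j) (heM j) g.1 g.2 z
  have hℓO : (ℓ : Qbar) ∈ inertiaInt P :=
    ⟨(natCast_mem P ℓ), fun t _ => map_natCast t ℓ⟩
  have hOK : ∀ x ∈ inertiaInt P, x ∈ FixedPoints.subfield (P.inertiaSubgroupIn ℚ) Qbar :=
    fun x hx g => hx.2 g.1 g.2
  have hOV : ∀ x ∈ inertiaInt P, x ∈ P.toSubring := fun x hx => hx.1
  have hKV : ∀ x ∈ FixedPoints.subfield (P.inertiaSubgroupIn ℚ) Qbar, x ∈ P.toSubring →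
      x ∈ inertiaInt P := fun x hx hxP => ⟨hxP, fun t ht => hx ⟨t, ht⟩⟩
  have harch : ∀ x : Qbar, ∃ n : ℕ, (ℓ : Qbar) ^ n * x ∈ P.toSubring :=
    fun x => exists_pow_mul_mem hℓ P hP x
  obtain ⟨n, hn⟩ := Conductor.exists_pow_smul_mem (O := inertiaInt P) (V := P.toSubring)
    (K := FixedPoints.subfield (P.inertiaSubgroupIn ℚ) Qbar) (ℓ := (ℓ : Qbar)) (e := e)
    hℓO hOK hOV hKV harch hE
  refine ⟨n, fun W hWeq hWP => ?_⟩
  have hWK := mem_span_fixed_of_isEquivariant e heq hE W (fun g z => hWeq g.1 g.2 z)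
  have h1 := hn W hWK hWP
  have h2 : Submodule.span (inertiaInt P) (Set.range e) ≤ M.toSubmodule :=
    Submodule.span_le.mpr (by rintro _ ⟨j, rfl⟩; exact heM j)
  exact h2 h1

/-- **(F3a) finite-precision closedness**: for `k` as in `exists_pow_smul_mem_qbar`, an equivariant
function which is pointwise congruent modulo `ℓ ^ k P` to an element of `M` lies in `M`. -/
theorem mem_of_approx_qbar {ℓ : ℕ} (hℓ : ℓ.Prime) (P : ValuationSubring Qbar)
    (hP : P.LiesOverPrime ℓ) {Z : Type} [Finite Z] (actZ : Γℚ → Z → Z)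
    (M : Subalgebra (inertiaInt P) (Z → Qbar))
    (hMeq : ∀ f ∈ M, ∀ τ ∈ P.inertiaSubgroupIn ℚ, ∀ z, f (actZ τ z) = τ (f z))
    {k : ℕ} (hk : ∀ W : Z → Qbar,
      (∀ τ ∈ P.inertiaSubgroupIn ℚ, ∀ z, W (actZ τ z) = τ (W z)) → (∀ z, W z ∈ P) →
      (fun z => (ℓ : Qbar) ^ k * W z) ∈ M)
    (F : Z → Qbar) (hFeq : ∀ τ ∈ P.inertiaSubgroupIn ℚ, ∀ z, F (actZ τ z) = τ (F z))
    (F' : Z → Qbar) (hF' : F' ∈ M)
    (happ : ∀ z, ∃ w ∈ P, F z - F' z = (ℓ : Qbar) ^ k * w) : F ∈ M := by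
  have hℓ0 : (ℓ : Qbar) ≠ 0 := natCast_ne_zero_Qbar P hℓ hP
  have hpow0 : (ℓ : Qbar) ^ k ≠ 0 := pow_ne_zero k hℓ0
  set W : Z → Qbar := fun z => ((ℓ : Qbar) ^ k)⁻¹ * (F z - F' z) with hW
  have hWeq : ∀ τ ∈ P.inertiaSubgroupIn ℚ, ∀ z, W (actZ τ z) = τ (W z) := by
    intro τ hτ z
    rw [hW]
    simp only
    rw [hFeq τ hτ z, hMeq F' hF' τ hτ z, map_mul, map_sub, map_inv₀, map_pow, map_natCast]
  have hWP : ∀ z, W z ∈ P := by
    intro z
    obtain ⟨w, hw, hwz⟩ := happ z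
    rw [hW]
    simp only
    rw [hwz, ← mul_assoc, inv_mul_cancel₀ hpow0, one_mul]
    exact hw
  have h1 := hk W hWeq hWP
  have h2 : (fun z => (ℓ : Qbar) ^ k * W z) = F - F' := by
    funext z
    rw [hW]
    simp only
    rw [← mul_assoc, mul_inv_cancel₀ hpow0, one_mul, Pi.sub_apply]
  rw [h2] at h1
  have h3 : F = (F - F') + F' := by rw [sub_add_cancel]
  rw [h3]
  exact M.add_mem h1 hF'

end Fermat.Agent.S19x.Alg.ConductorQbar
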