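/-
P-S19 block B (helper94): finite Galois sets and equivariant functions.

`T` a finite abelian group with a continuous additive action `act` of `G_ℚ`.  The
`G_ℚ`-equivariant functions `T → ℚ̄` span all functions over `ℚ̄` (Galois descent for the finite
étale algebra of `T`), proved by averaging over a finite Galois level and a Vandermonde argument.
-/
import Mathlib

set_option autoImplicit false
set_option linter.unusedSectionVars false
set_option linter.unusedVariables false
set_option linter.style.haveILetI false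

noncomputable section

namespace Fermat.Agent.S19x.Alg.GalSet

local notation "Qbar" => AlgebraicClosure ℚ
local notation "Γℚ" => (AlgebraicClosure ℚ ≃ₐ[ℚ] AlgebraicClosure ℚ)

local instance isAlgebraicQbar_gs : Algebra.IsAlgebraic ℚ (AlgebraicClosure ℚ) :=
  AlgebraicClosure.isAlgebraic ℚ
local instance isAlgClosureQbar_gs : IsAlgClosure ℚ (AlgebraicClosure ℚ) :=
  ⟨inferInstance, inferInstance⟩
local instance normalQbar_gs : Normal ℚ (AlgebraicClosure ℚ) :=
  IsAlgClosure.normal ℚ (AlgebraicClosure ℚ)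
local instance isGaloisQbar_gs : IsGalois ℚ (AlgebraicClosure ℚ) := ⟨⟩

variable {T : Type} [AddCommGroup T]

/-- A continuous additive action of `G_ℚ` on `T`, unbundled. -/
structure IsGalAction (act : Γℚ → T → T) : Prop where
  one : ∀ t, act 1 t = t
  mul : ∀ σ τ t, act (σ * τ) t = act σ (act τ t)
  add : ∀ σ s t, act σ (s + t) = act σ s + act σ t
  cont : ∃ L : IntermediateField ℚ Qbar, FiniteDimensional ℚ L ∧
    ∀ σ : Γℚ, (∀ x ∈ L, σ x = x) → ∀ t, act σ t = t

/-- the semilinear action on functions. -/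
def conjFun (act : Γℚ → T → T) (σ : Γℚ) (f : T → Qbar) : T → Qbar :=
  fun t => σ (f (act σ⁻¹ t))

/-- `G_ℚ`-equivariant functions. -/
def IsEquivariant (act : Γℚ → T → T) (f : T → Qbar) : Prop :=
  ∀ σ t, f (act σ t) = σ (f t)

variable {act : Γℚ → T → T}

namespace IsGalAction

variable (h : IsGalAction act)
include h

theorem inv_act (σ : Γℚ) (t : T) : act σ⁻¹ (act σ t) = t := by
  rw [← h.mul, inv_mul_cancel, h.one]

theorem act_inv (σ : Γℚ) (t : T) : act σ (act σ⁻¹ t) = t := by
  rw [← h.mul, mul_inv_cancel, h.one]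

theorem injective (σ : Γℚ) : Function.Injective (act σ) := fun s t hst => by
  rw [← h.inv_act σ s, hst, h.inv_act]

theorem zero (σ : Γℚ) : act σ 0 = 0 := by
  have := h.add σ 0 0
  rw [add_zero] at this
  exact left_eq_add.mp this

theorem neg (σ : Γℚ) (t : T) : act σ (-t) = -act σ t := by
  have := h.add σ (-t) t
  rw [neg_add_cancel, h.zero] at this
  exact eq_neg_of_add_eq_zero_left this.symm

/-- A normal finite level through which the action factors. -/
theorem exists_normal_level : ∃ N : IntermediateField ℚ Qbar, FiniteDimensional ℚ N ∧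
    Normal ℚ N ∧ ∀ σ : Γℚ, (∀ x ∈ N, σ x = x) → ∀ t, act σ t = t := by
  obtain ⟨L, hL, hLact⟩ := h.cont
  refine ⟨IntermediateField.normalClosure ℚ L Qbar, normalClosure.is_finiteDimensional ℚ L Qbar,
    normalClosure.normal ℚ L Qbar, fun σ hσ t => hLact σ (fun x hx => hσ x ?_) t⟩
  exact IntermediateField.le_normalClosure L hx

end IsGalAction

theorem isEquivariant_iff_conjFun (h : IsGalAction act) (f : T → Qbar) :
    IsEquivariant act f ↔ ∀ σ, conjFun act σ f = f := by
  constructor
  · intro hf σ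
    funext t
    show σ (f (act σ⁻¹ t)) = f t
    rw [← hf, h.act_inv]
  · intro hf σ t
    have := congrFun (hf σ) (act σ t)
    simp only [conjFun] at this
    rw [h.inv_act] at this
    exact this.symm

section Span

variable (h : IsGalAction act)
include h

/-- two automorphisms agreeing on the level act the same. -/
theorem act_eq_of_agree {N : IntermediateField ℚ Qbar}
    (hN : ∀ σ : Γℚ, (∀ x ∈ N, σ x = x) → ∀ t, act σ t = t) (σ τ : Γℚ)
    (hστ : ∀ x ∈ N, σ x = τ x) (t : T) : act σ t = act τ t := by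
  have h1 : ∀ x ∈ N, (τ⁻¹ * σ) x = x := fun x hx => by
    show τ⁻¹ (σ x) = x
    rw [hστ x hx]
    exact τ.symm_apply_apply x
  have h2 := hN (τ⁻¹ * σ) h1 t
  rw [h.mul] at h2
  have h3 := congrArg (act τ) h2
  rwa [h.act_inv] at h3

open Classical in
/-- the averaged function attached to `t₀` and `b ∈ N`. -/
def avg (N : IntermediateField ℚ Qbar) [FiniteDimensional ℚ N] [Normal ℚ N] (act : Γℚ → T → T)
    (t₀ : T) (b : N) : T → Qbar :=
  fun t => ∑ g : (N ≃ₐ[ℚ] N), if act (g.liftNormal Qbar) t₀ = t then ((g b : N) : Qbar) else 0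

theorem avg_isEquivariant (N : IntermediateField ℚ Qbar) [FiniteDimensional ℚ N] [Normal ℚ N]
    (hN : ∀ σ : Γℚ, (∀ x ∈ N, σ x = x) → ∀ t, act σ t = t) (t₀ : T) (b : N) :
    IsEquivariant act (avg N act t₀ b) := by
  classical
  intro σ t
  set s : N ≃ₐ[ℚ] N := σ.restrictNormal N with hs
  have hs_apply : ∀ x : N, ((s x : N) : Qbar) = σ (x : Qbar) := fun x =>
    AlgEquiv.restrictNormal_commutes σ N x
  have hlift : ∀ (g : N ≃ₐ[ℚ] N) (x : N), g.liftNormal Qbar (x : Qbar) = ((g x : N) : Qbar) :=
    fun g x => AlgEquiv.liftNormal_commutes g Qbar x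
  show (∑ g : (N ≃ₐ[ℚ] N), if act (g.liftNormal Qbar) t₀ = act σ t then ((g b : N) : Qbar) else 0)
    = σ (∑ g : (N ≃ₐ[ℚ] N), if act (g.liftNormal Qbar) t₀ = t then ((g b : N) : Qbar) else 0)
  rw [map_sum, ← Equiv.sum_comp (Equiv.mulLeft s)]
  refine Finset.sum_congr rfl fun g _ => ?_
  have hact : act ((s * g).liftNormal Qbar) t₀ = act σ (act (g.liftNormal Qbar) t₀) := by
    rw [← h.mul]
    refine act_eq_of_agree h hN _ _ (fun x hx => ?_) t₀
    have e1 := hlift (s * g) ⟨x, hx⟩
    have e2 := hlift g ⟨x, hx⟩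
    simp only at e1 e2
    show (s * g).liftNormal Qbar x = σ (g.liftNormal Qbar x)
    rw [e1, e2, AlgEquiv.mul_apply, hs_apply]
  show (if act ((s * g).liftNormal Qbar) t₀ = act σ t then (((s * g) b : N) : Qbar) else 0)
    = σ (if act (g.liftNormal Qbar) t₀ = t then ((g b : N) : Qbar) else 0)
  have hval : (((s * g) b : N) : Qbar) = σ ((g b : N) : Qbar) := by
    rw [AlgEquiv.mul_apply, hs_apply]
  by_cases hc : act (g.liftNormal Qbar) t₀ = t
  · rw [if_pos hc, if_pos (by rw [hact, hc]), hval]
  · rw [if_neg hc, if_neg (by rw [hact]; exact fun hh => hc (h.injective σ hh)), map_zero]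

open Classical in
theorem single_mem_span (t₀ : T) :
    (Pi.single t₀ 1 : T → Qbar) ∈ Submodule.span Qbar {f | IsEquivariant act f} := by
  obtain ⟨N, hfin, hnorm, hN⟩ := h.exists_normal_level
  haveI := hfin
  haveI := hnorm
  obtain ⟨α, hα⟩ := Field.exists_primitive_element ℚ N
  set n := Fintype.card (N ≃ₐ[ℚ] N) with hn
  let eG : (N ≃ₐ[ℚ] N) ≃ Fin n := Fintype.equivFin _
  let v : Fin n → Qbar := fun i => (((eG.symm i) α : N) : Qbar)
  have hv : Function.Injective v := by
    intro i j hij
    have h1 : (eG.symm i) α = (eG.symm j) α := Subtype.ext hij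
    have h2 : ((eG.symm i : N ≃ₐ[ℚ] N) : N →ₐ[ℚ] N) = ((eG.symm j : N ≃ₐ[ℚ] N) : N →ₐ[ℚ] N) := by
      have hinj := (Field.primitive_element_iff_algHom_eq_of_eval' ℚ Qbar
        (fun x => IsAlgClosed.splits _) α).mp hα
      have h3 : (N.val.comp ((eG.symm i : N ≃ₐ[ℚ] N) : N →ₐ[ℚ] N)) =
          (N.val.comp ((eG.symm j : N ≃ₐ[ℚ] N) : N →ₐ[ℚ] N)) := by
        apply hinj
        show ((eG.symm i α : N) : Qbar) = ((eG.symm j α : N) : Qbar)
        rw [h1]
      ext x
      have := congrArg (fun φ : N →ₐ[ℚ] Qbar => φ x) h3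
      exact this
    have h4 : eG.symm i = eG.symm j := AlgEquiv.coe_toAlgHom_injective h2
    exact eG.symm.injective h4
  set V : Matrix (Fin n) (Fin n) Qbar := Matrix.vandermonde v with hV
  have hdet : IsUnit V.det := (Matrix.det_vandermonde_ne_zero_iff.mpr hv).isUnit
  set c : Fin n → Qbar := V⁻¹.mulVec (Pi.single (eG 1) 1) with hc
  have hVc : V.mulVec c = Pi.single (eG 1) 1 := by
    rw [hc, Matrix.mulVec_mulVec, Matrix.mul_nonsing_inv _ hdet, Matrix.one_mulVec]
  have hkey : ∀ g : N ≃ₐ[ℚ] N, ∑ j : Fin n, c j * (((g (α ^ (j : ℕ)) : N)) : Qbar) =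
      if g = 1 then 1 else 0 := by
    intro g
    have h1 := congrFun hVc (eG g)
    rw [Matrix.mulVec, dotProduct] at h1
    have h2 : ∀ j : Fin n, V (eG g) j * c j = c j * (((g (α ^ (j : ℕ)) : N)) : Qbar) := by
      intro j
      rw [hV, Matrix.vandermonde_apply, mul_comm]
      congr 1
      show (((eG.symm (eG g)) α : N) : Qbar) ^ (j : ℕ) = _
      rw [Equiv.symm_apply_apply, map_pow]
      rfl
    rw [Finset.sum_congr rfl (fun j _ => h2 j)] at h1
    rw [h1, Pi.single_apply]
    simp only [EmbeddingLike.apply_eq_iff_eq]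
  have hmain : (Pi.single t₀ 1 : T → Qbar) =
      ∑ j : Fin n, c j • avg N act t₀ (α ^ (j : ℕ)) := by
    funext t
    rw [Finset.sum_apply]
    simp only [Pi.smul_apply, smul_eq_mul, avg]
    simp_rw [Finset.mul_sum]
    rw [Finset.sum_comm]
    have h5 : ∀ g : N ≃ₐ[ℚ] N, (∑ j : Fin n, c j *
        (if act (g.liftNormal Qbar) t₀ = t then (((g (α ^ (j : ℕ)) : N)) : Qbar) else 0)) =
        if act (g.liftNormal Qbar) t₀ = t then (if g = 1 then 1 else 0) else 0 := by
      intro g
      by_cases hg : act (g.liftNormal Qbar) t₀ = t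
      · simp only [if_pos hg]
        exact hkey g
      · simp only [if_neg hg, mul_zero, Finset.sum_const_zero]
    rw [Finset.sum_congr rfl (fun g _ => h5 g)]
    have h6 : act ((1 : N ≃ₐ[ℚ] N).liftNormal Qbar) t₀ = t₀ := by
      have := act_eq_of_agree h hN ((1 : N ≃ₐ[ℚ] N).liftNormal Qbar) 1 (fun x hx => ?_) t₀
      · rw [this, h.one]
      · have := AlgEquiv.liftNormal_commutes (1 : N ≃ₐ[ℚ] N) Qbar ⟨x, hx⟩
        simpa using this
    rw [Finset.sum_eq_single (1 : N ≃ₐ[ℚ] N)]
    · rw [if_pos rfl, h6, Pi.single_apply]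
      by_cases htt : t = t₀
      · rw [if_pos htt, if_pos htt.symm]
      · rw [if_neg htt, if_neg (fun hh => htt hh.symm)]
    · intro g _ hg
      rw [if_neg hg]
      simp
    · intro hh
      exact absurd (Finset.mem_univ _) hh
  rw [hmain]
  exact Submodule.sum_mem _ fun j _ => Submodule.smul_mem _ _
    (Submodule.subset_span (avg_isEquivariant h N hN t₀ _))

open Classical in
/-- **Galois descent for a finite Galois set**: the equivariant functions span all functions. -/
theorem span_isEquivariant_eq_top [Finite T] :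
    Submodule.span Qbar {f : T → Qbar | IsEquivariant act f} = ⊤ := by
  haveI := Fintype.ofFinite T
  rw [eq_top_iff]
  intro f _
  have hf : f = ∑ t : T, f t • (Pi.single t 1 : T → Qbar) := by
    funext s
    rw [Finset.sum_apply]
    simp only [Pi.smul_apply, smul_eq_mul, Pi.single_apply, mul_ite, mul_one, mul_zero]
    rw [Finset.sum_ite_eq]
    simp
  rw [hf]
  exact Submodule.sum_mem _ fun t _ => Submodule.smul_mem _ _ (single_mem_span h t)

/-- an equivariant `ℚ̄`-basis of the space of functions, indexed by `Fin (Nat.card T)`. -/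
theorem exists_equivariant_basis [Finite T] :
    ∃ a : Fin (Nat.card T) → T → Qbar, (∀ i, IsEquivariant act (a i)) ∧
      LinearIndependent Qbar a ∧ Submodule.span Qbar (Set.range a) = ⊤ := by
  classical
  haveI := Fintype.ofFinite T
  obtain ⟨b, hbs, hspan, hli⟩ := exists_linearIndependent Qbar {f : T → Qbar | IsEquivariant act f}
  rw [span_isEquivariant_eq_top h] at hspan
  let B : Module.Basis b Qbar (T → Qbar) := Module.Basis.mk hli (by
    rw [Subtype.range_coe, hspan])
  haveI : Finite b := Module.Finite.finite_basis B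
  have hcard : Nat.card b = Nat.card T := by
    rw [← Module.finrank_eq_nat_card_basis B, Module.finrank_pi, Nat.card_eq_fintype_card]
  let e : b ≃ Fin (Nat.card T) := Finite.equivFinOfCardEq hcard
  refine ⟨fun i => ((e.symm i : b) : T → Qbar), fun i => hbs (e.symm i).2, ?_, ?_⟩
  · exact hli.comp e.symm e.symm.injective
  · have : Set.range (fun i => ((e.symm i : b) : T → Qbar)) = b := by
      ext f
      constructor
      · rintro ⟨i, rfl⟩
        exact (e.symm i).2
      · intro hf
        exact ⟨e ⟨f, hf⟩, by simp⟩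
    rw [this, hspan]

end Span

end Fermat.Agent.S19x.Alg.GalSet
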