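/-
P-S19 (scratch, helper94): the abstract "minimal relation" lemma for semilinear actions.

`O` a commutative ring, `𝔪` an ideal all of whose non-members are units, `M` an `O`-module, `N` a
submodule containing all `𝔪 • e i`, a family of semilinear pairs `(φ γ, ψ γ)` preserving `𝔪` and `N`.
If every element of `O` that is fixed mod `𝔪` by all `φ γ` is congruent mod `𝔪` to an element of
`O₀`, then vectors `e i` fixed by all `ψ γ` which are independent mod `N` over `O₀` are independent
mod `N` over `O`.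
-/
import Mathlib

set_option autoImplicit false

namespace Fermat.Agent.S19x.Alg.SemilinIndep

open Finset

variable {O M ι Γ : Type*} [CommRing O] [AddCommGroup M] [Module O M] [Fintype ι]

theorem semilinear_indep
    (𝔪 : Ideal O) (hunit : ∀ c : O, c ∉ 𝔪 → IsUnit c)
    (N : Submodule O M)
    (φ : Γ → O →+* O) (ψ : Γ → M →+ M)
    (hφ𝔪 : ∀ γ, ∀ c ∈ 𝔪, φ γ c ∈ 𝔪)
    (hsemi : ∀ γ (c : O) (m : M), ψ γ (c • m) = φ γ c • ψ γ m)
    (hψN : ∀ γ, ∀ m ∈ N, ψ γ m ∈ N)
    (O₀ : Set O)
    (hfix : ∀ c : O, (∀ γ, φ γ c - c ∈ 𝔪) → ∃ a ∈ O₀, c - a ∈ 𝔪)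
    (e : ι → M) (he : ∀ γ i, ψ γ (e i) = e i) (h𝔪N : ∀ c ∈ 𝔪, ∀ i, c • e i ∈ N)
    (hind : ∀ a : ι → O, (∀ i, a i ∈ O₀) → ∑ i, a i • e i ∈ N → ∀ i, a i ∈ 𝔪)
    (c : ι → O) (hc : ∑ i, c i • e i ∈ N) : ∀ i, c i ∈ 𝔪 := by
  classical
  -- strong induction on the number of coefficients outside `𝔪`
  suffices H : ∀ k : ℕ, ∀ c : ι → O, (univ.filter (fun i => c i ∉ 𝔪)).card ≤ k →
      ∑ i, c i • e i ∈ N → ∀ i, c i ∈ 𝔪 from H _ c le_rfl hc
  intro k
  induction k with
  | zero =>
    intro c hk _ i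
    by_contra hi
    have : i ∈ univ.filter (fun i => c i ∉ 𝔪) := by simp [hi]
    have h0 : (univ.filter (fun i => c i ∉ 𝔪)).card = 0 := Nat.le_zero.mp hk
    rw [Finset.card_eq_zero] at h0
    rw [h0] at this
    exact absurd this (Finset.notMem_empty i)
  | succ k ih =>
    intro c hk hc
    by_contra hcon
    rw [not_forall] at hcon
    obtain ⟨i₀, hi₀⟩ := hcon
    obtain ⟨u, hu⟩ := hunit (c i₀) hi₀
    -- normalise
    set c' : ι → O := fun i => (↑u⁻¹ : O) * c i with hc'
    have hc'i₀ : c' i₀ = 1 := by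
      show (↑u⁻¹ : O) * c i₀ = 1
      rw [← hu]; exact u.inv_mul
    have hc'mem : ∀ i, c i ∈ 𝔪 → c' i ∈ 𝔪 := fun i hi => 𝔪.mul_mem_left _ hi
    have hc'sum : ∑ i, c' i • e i ∈ N := by
      have : ∑ i, c' i • e i = (↑u⁻¹ : O) • ∑ i, c i • e i := by
        rw [Finset.smul_sum]
        exact Finset.sum_congr rfl fun i _ => by rw [hc', smul_smul]
      rw [this]
      exact N.smul_mem _ hc
    -- differences
    have hdiff : ∀ γ i, φ γ (c' i) - c' i ∈ 𝔪 := by
      intro γ
      set d : ι → O := fun i => φ γ (c' i) - c' i with hd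
      have hdsum : ∑ i, d i • e i ∈ N := by
        have h1 : ∑ i, d i • e i = ψ γ (∑ i, c' i • e i) - ∑ i, c' i • e i := by
          rw [map_sum, ← Finset.sum_sub_distrib]
          refine Finset.sum_congr rfl fun i _ => ?_
          rw [hsemi, he, hd, sub_smul]
        rw [h1]
        exact N.sub_mem (hψN γ _ hc'sum) hc'sum
      refine ih d ?_ hdsum
      have hsub : univ.filter (fun i => d i ∉ 𝔪) ⊆
          (univ.filter (fun i => c i ∉ 𝔪)).erase i₀ := by
        intro i hi
        simp only [Finset.mem_filter, Finset.mem_univ, true_and] at hi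
        rw [Finset.mem_erase]
        refine ⟨?_, ?_⟩
        · rintro rfl
          apply hi
          show φ γ (c' i) - c' i ∈ 𝔪
          rw [hc'i₀, map_one, sub_self]
          exact 𝔪.zero_mem
        · simp only [Finset.mem_filter, Finset.mem_univ, true_and]
          intro hci
          exact hi (𝔪.sub_mem (hφ𝔪 γ _ (hc'mem i hci)) (hc'mem i hci))
      have hmem : i₀ ∈ univ.filter (fun i => c i ∉ 𝔪) := by simp [hi₀]
      have h2 := Finset.card_le_card hsub
      rw [Finset.card_erase_of_mem hmem] at h2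
      omega
    -- rational approximations
    choose a haO₀ ha using fun i => hfix (c' i) (fun γ => hdiff γ i)
    have hasum : ∑ i, a i • e i ∈ N := by
      have h1 : ∑ i, a i • e i = ∑ i, c' i • e i - ∑ i, (c' i - a i) • e i := by
        rw [← Finset.sum_sub_distrib]
        refine Finset.sum_congr rfl fun i _ => ?_
        rw [sub_smul, sub_sub_cancel]
      rw [h1]
      exact N.sub_mem hc'sum (N.sum_mem fun i _ => h𝔪N _ (ha i) _)
    have ha𝔪 := hind a haO₀ hasum i₀
    have h1 : (1 : O) ∈ 𝔪 := by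
      have := 𝔪.add_mem (ha i₀) ha𝔪
      rwa [sub_add_cancel, hc'i₀] at this
    exact hi₀ (by
      have := 𝔪.mul_mem_left (c i₀) h1
      rwa [mul_one] at this)

end Fermat.Agent.S19x.Alg.SemilinIndep
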