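/-
P-S19 block B, F5 (helper94): ONE-STEP DESCENT `O^ur → ℤ_(ℓ)` of function orders.

`P` a valuation subring of `Qbar` over `ℓ`, `O = inertiaInt P`, `R = ratLocalizedAt ℓ`,
`D`, `I` the decomposition and inertia groups of `P`; `X` a finite abelian group with a continuous
additive `G_ℚ`-action `act`.  `Hur` an `O`-subalgebra of `X → Qbar` consisting of `I`-equivariant
`P`-valued functions, stable under the semilinear `D`-action, of finite index in the maximal order
(`hcond`).  Then the `G_ℚ`-equivariant elements of `Hur` form a free `R`-module with a basis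
`e : Fin (Nat.card X) → X → Qbar` that is at the same time a `Qbar`-basis of all functions and an
`O`-spanning family of `Hur`.
-/
import Mathlib
import Fermat.Agent.S28.Gauss
import Fermat.Agent.S56x.Flat.InertiaField
import Fermat.Agent.S19x.Hens.DecompResidue
import Fermat.Agent.S19x.Hens.FrobFix
import Fermat.Agent.S19x.Alg.SemilinIndep
import Fermat.Agent.S19x.Alg.GalSet

set_option autoImplicit false
set_option linter.unusedSectionVars false
set_option linter.unusedVariables false
set_option linter.style.haveILetI false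

open scoped Pointwise

noncomputable section

namespace Fermat.Agent.S19x.Alg.Descent

open Fermat.Agent.S56x.Hens Fermat.Agent.S56x.Flat.InertiaField Fermat.Agent.S19x.Hens
  Fermat.Agent.S19x.Alg.GalSet Fermat.Agent.S19x.Alg.SemilinIndep

local notation "Qbar" => AlgebraicClosure ℚ
local notation "Γℚ" => (AlgebraicClosure ℚ ≃ₐ[ℚ] AlgebraicClosure ℚ)

variable (P : ValuationSubring Qbar)

/-! ### Basic facts on the decomposition group -/

theorem apply_mem_iff {σ : Γℚ} (hσ : σ ∈ P.decompositionSubgroup ℚ) (x : Qbar) :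
    σ x ∈ P ↔ x ∈ P := by
  have h1 : σ • P = P := MulAction.mem_stabilizer_iff.mp hσ
  have h2 : σ x ∈ σ • P ↔ σ⁻¹ • (σ x) ∈ P :=
    ValuationSubring.mem_pointwise_smul_iff_inv_smul_mem
  rw [h1] at h2
  rw [h2]
  have : σ⁻¹ • (σ x) = x := by
    show σ⁻¹ (σ x) = x
    exact σ.symm_apply_apply x
  rw [this]

theorem apply_mem_nonunits_iff {σ : Γℚ} (hσ : σ ∈ P.decompositionSubgroup ℚ) (x : Qbar) :
    σ x ∈ P.nonunits ↔ x ∈ P.nonunits := by
  have h1 : σ • P = P := MulAction.mem_stabilizer_iff.mp hσ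
  have h2 := mem_smul_nonunits_iff σ P (x := σ x)
  rw [h1] at h2
  rw [h2]
  have : σ⁻¹ • (σ x) = x := by
    show σ⁻¹ (σ x) = x
    exact σ.symm_apply_apply x
  rw [this]

/-- the inertia group is normalised by the decomposition group. -/
theorem conj_mem_inertia {σ τ : Γℚ} (hσ : σ ∈ P.decompositionSubgroup ℚ)
    (hτ : τ ∈ P.inertiaSubgroupIn ℚ) : σ⁻¹ * τ * σ ∈ P.inertiaSubgroupIn ℚ := by
  rw [mem_inertiaSubgroupIn_iff] at hτ ⊢
  have hσi : σ⁻¹ ∈ P.decompositionSubgroup ℚ := (P.decompositionSubgroup ℚ).inv_mem hσ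
  refine ⟨(P.decompositionSubgroup ℚ).mul_mem ((P.decompositionSubgroup ℚ).mul_mem hσi hτ.1) hσ,
    fun x hx => ?_⟩
  have h1 : σ x ∈ P := (apply_mem_iff P hσ x).mpr hx
  have h2 := hτ.2 (σ x) h1
  have h3 : (σ⁻¹ * τ * σ) x - x = σ⁻¹ (τ (σ x) - σ x) := by
    rw [map_sub]
    show σ⁻¹ (τ (σ x)) - x = σ⁻¹ (τ (σ x)) - σ⁻¹ (σ x)
    congr 1
    exact (σ.symm_apply_apply x).symm
  rw [h3]
  exact (apply_mem_nonunits_iff P hσi _).mpr h2

theorem apply_mem_inertiaInt {σ : Γℚ} (hσ : σ ∈ P.decompositionSubgroup ℚ) {c : Qbar}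
    (hc : c ∈ inertiaInt P) : σ c ∈ inertiaInt P := by
  refine ⟨(apply_mem_iff P hσ c).mpr hc.1, fun τ hτ => ?_⟩
  have h1 := hc.2 _ (conj_mem_inertia P hσ hτ)
  have h2 : (σ⁻¹ * τ * σ) c = σ⁻¹ (τ (σ c)) := rfl
  rw [h2] at h1
  have h3 := congrArg σ h1
  rw [show σ (σ⁻¹ (τ (σ c))) = τ (σ c) from σ.apply_symm_apply _] at h3
  exact h3

variable {ℓ : ℕ} (hℓ : ℓ.Prime) (hP : P.LiesOverPrime ℓ)
include hℓ hP

/-! ### The rational sub-order -/

section Main

variable {X : Type} [AddCommGroup X] {act : Γℚ → X → X}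
variable (Hur : Subalgebra (inertiaInt P) (X → Qbar))

/-- an element of `ℤ_(ℓ)` as an element of `inertiaInt P`. -/
def ratToInertiaInt (r : GaloisRep.ratLocalizedAt ℓ) : inertiaInt P :=
  ⟨algebraMap (GaloisRep.ratLocalizedAt ℓ) Qbar r, ratLocalizedAt_mem P hℓ hP r,
    fun t _ => t.commutes (r : ℚ)⟩

omit hℓ hP in
theorem isEquivariant_const_rat (q : ℚ) :
    IsEquivariant act (fun _ : X => algebraMap ℚ Qbar q) := fun σ _ => (σ.commutes q).symm

/-- the `ℤ_(ℓ)`-subalgebra of `G_ℚ`-equivariant elements of `Hur`. -/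
def equivSub : Subalgebra (GaloisRep.ratLocalizedAt ℓ) (X → Qbar) where
  carrier := {f | f ∈ Hur ∧ IsEquivariant act f}
  mul_mem' := by
    rintro f g ⟨hf, hf'⟩ ⟨hg, hg'⟩
    refine ⟨Hur.mul_mem hf hg, fun σ t => ?_⟩
    show f (act σ t) * g (act σ t) = σ (f t * g t)
    rw [hf' σ t, hg' σ t, map_mul]
  add_mem' := by
    rintro f g ⟨hf, hf'⟩ ⟨hg, hg'⟩
    refine ⟨Hur.add_mem hf hg, fun σ t => ?_⟩
    show f (act σ t) + g (act σ t) = σ (f t + g t)
    rw [hf' σ t, hg' σ t, map_add]
  algebraMap_mem' := by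
    intro r
    refine ⟨?_, fun σ t => ?_⟩
    · have := Hur.algebraMap_mem (ratToInertiaInt P hℓ hP r)
      exact this
    · exact (σ.commutes (r : ℚ)).symm

theorem mem_equivSub {f : X → Qbar} :
    f ∈ equivSub P hℓ hP (act := act) Hur ↔ f ∈ Hur ∧ IsEquivariant act f := Iff.rfl

/-! ### Coordinates with respect to a `Qbar`-basis of functions -/

omit hℓ hP in
/-- existence of coordinates. -/
theorem exists_coeff {n : ℕ} {a : Fin n → X → Qbar}
    (hsp : Submodule.span Qbar (Set.range a) = ⊤) (f : X → Qbar) :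
    ∃ c : Fin n → Qbar, f = ∑ i, c i • a i := by
  have : f ∈ Submodule.span Qbar (Set.range a) := by rw [hsp]; trivial
  obtain ⟨c, hc⟩ := (Submodule.mem_span_range_iff_exists_fun Qbar).mp this
  exact ⟨c, hc.symm⟩

omit hℓ hP in
/-- uniqueness of coordinates. -/
theorem coeff_unique {n : ℕ} {a : Fin n → X → Qbar} (hli : LinearIndependent Qbar a)
    {c d : Fin n → Qbar} (h : ∑ i, c i • a i = ∑ i, d i • a i) : c = d := by
  have h0 : ∑ i, (c i - d i) • a i = 0 := by
    simp only [sub_smul, Finset.sum_sub_distrib, h, sub_self]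
  funext i
  exact sub_eq_zero.mp (Fintype.linearIndependent_iff.mp hli _ h0 i)

omit hℓ hP in
/-- coordinates of a function equivariant under a subgroup, with respect to a basis of functions
equivariant under that subgroup, are fixed by the subgroup. -/
theorem coeff_fixed (hact : IsGalAction act) (S : Subgroup Γℚ) {n : ℕ} {a : Fin n → X → Qbar}
    (hli : LinearIndependent Qbar a)
    (ha : ∀ i, ∀ σ ∈ S, ∀ t, a i (act σ t) = σ (a i t))
    {f : X → Qbar} (hf : ∀ σ ∈ S, ∀ t, f (act σ t) = σ (f t))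
    {c : Fin n → Qbar} (hc : f = ∑ i, c i • a i) {σ : Γℚ} (hσ : σ ∈ S) (i : Fin n) :
    σ (c i) = c i := by
  have h1 : ∑ i, (fun j => σ (c j)) i • a i = ∑ i, c i • a i := by
    funext s
    have hs : s = act σ (act σ⁻¹ s) := (hact.act_inv σ s).symm
    have e1 : f s = σ (f (act σ⁻¹ s)) := by
      conv_lhs => rw [hs]
      exact hf σ hσ _
    rw [← hc, e1, hc]
    simp only [Finset.sum_apply, Pi.smul_apply, smul_eq_mul, map_sum, map_mul]
    refine Finset.sum_congr rfl fun j _ => ?_
    rw [← ha j σ hσ, hact.act_inv]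
  exact congrFun (coeff_unique hli h1) i

/-- a uniform power of `ℓ` making all scalars of a finite family integral. -/
theorem exists_pow_mul_mem_family {κ : Type*} [Finite κ] (d : κ → Qbar) :
    ∃ k : ℕ, ∀ j, (ℓ : Qbar) ^ k * d j ∈ P := by
  haveI := Fintype.ofFinite κ
  choose N hN using fun j => exists_pow_mul_mem P hℓ hP (d j)
  refine ⟨Finset.univ.sup N, fun j => ?_⟩
  have hle : N j ≤ Finset.univ.sup N := Finset.le_sup (Finset.mem_univ j)
  obtain ⟨m, hm⟩ := Nat.exists_eq_add_of_le hle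
  rw [hm, pow_add, mul_comm ((ℓ : Qbar) ^ N j), mul_assoc]
  exact P.mul_mem _ _ (P.pow_mem (natCast_mem P ℓ) m) (hN j)

/-- **bounded denominators**: the coordinates of `P`-valued functions with respect to a fixed
basis have uniformly bounded denominators. -/
theorem exists_pow_mul_coeff_mem [Finite X] {n : ℕ} {a : Fin n → X → Qbar}
    (hli : LinearIndependent Qbar a) (hsp : Submodule.span Qbar (Set.range a) = ⊤) :
    ∃ k : ℕ, ∀ (f : X → Qbar) (c : Fin n → Qbar), (∀ t, f t ∈ P) → f = ∑ i, c i • a i →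
      ∀ i, (ℓ : Qbar) ^ k * c i ∈ P := by
  classical
  haveI := Fintype.ofFinite X
  choose d hd using fun t : X => exists_coeff hsp (Pi.single t (1 : Qbar))
  obtain ⟨k, hk⟩ := exists_pow_mul_mem_family P hℓ hP (fun ti : X × Fin n => d ti.1 ti.2)
  refine ⟨k, fun f c hf hc i => ?_⟩
  have hf' : f = ∑ t : X, f t • (Pi.single t (1 : Qbar) : X → Qbar) := by
    funext s
    rw [Finset.sum_apply]
    simp only [Pi.smul_apply, smul_eq_mul, Pi.single_apply, mul_ite, mul_one, mul_zero]
    rw [Finset.sum_ite_eq]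
    simp
  have h2 : f = ∑ i, (∑ t : X, f t * d t i) • a i := by
    conv_lhs => rw [hf']
    simp_rw [Finset.sum_smul, mul_smul]
    rw [Finset.sum_comm]
    refine Finset.sum_congr rfl fun t _ => ?_
    rw [← Finset.smul_sum, ← hd t]
  have h3 : c = fun i => ∑ t : X, f t * d t i := coeff_unique hli (by rw [← hc, ← h2])
  rw [h3]
  show (ℓ : Qbar) ^ k * ∑ t : X, f t * d t i ∈ P
  rw [Finset.mul_sum]
  refine P.sum_mem fun t _ => ?_
  have : (ℓ : Qbar) ^ k * (f t * d t i) = f t * ((ℓ : Qbar) ^ k * d t i) := by ring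
  rw [this]
  exact P.mul_mem _ _ (hf t) (hk (t, i))

/-! ### The hypotheses on the order `Hur` -/

/-- `Hur` is a `D`-stable order of inertia-equivariant `P`-valued functions, of finite index in
the maximal order. -/
structure IsDStableOrder (ℓ : ℕ) (act : Γℚ → X → X)
    (Hur : Subalgebra (inertiaInt P) (X → Qbar)) : Prop where
  inertia : ∀ f ∈ Hur, ∀ τ ∈ P.inertiaSubgroupIn ℚ, ∀ t, f (act τ t) = τ (f t)
  integral : ∀ f ∈ Hur, ∀ t, f t ∈ P
  stable : ∀ σ ∈ P.decompositionSubgroup ℚ, ∀ f ∈ Hur, conjFun act σ f ∈ Hur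
  conductor : ∃ k : ℕ, ∀ W : X → Qbar,
    (∀ τ ∈ P.inertiaSubgroupIn ℚ, ∀ t, W (act τ t) = τ (W t)) → (∀ t, W t ∈ P) →
      (fun t => (ℓ : Qbar) ^ k * W t) ∈ Hur

variable {Hur}

/-- **Step 1-2**: a `Qbar`-basis of all functions consisting of elements of the rational
sub-order. -/
theorem exists_basis_in_equivSub [Finite X] (hact : IsGalAction act)
    (hH : IsDStableOrder P ℓ act Hur) :
    ∃ a : Fin (Nat.card X) → X → Qbar, (∀ i, a i ∈ equivSub P hℓ hP (act := act) Hur) ∧
      LinearIndependent Qbar a ∧ Submodule.span Qbar (Set.range a) = ⊤ := by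
  obtain ⟨a, haeq, hali, hasp⟩ := exists_equivariant_basis hact
  obtain ⟨k, hk⟩ := hH.conductor
  obtain ⟨m, hm⟩ := exists_pow_mul_mem_family P hℓ hP
    (fun it : Fin (Nat.card X) × X => a it.1 it.2)
  have hℓ0 : (ℓ : Qbar) ≠ 0 := Nat.cast_ne_zero.mpr hℓ.ne_zero
  set c : Qbar := (ℓ : Qbar) ^ k * (ℓ : Qbar) ^ m with hc
  have hc0 : c ≠ 0 := mul_ne_zero (pow_ne_zero _ hℓ0) (pow_ne_zero _ hℓ0)
  have hcfix : ∀ σ : Γℚ, σ c = c := fun σ => by
    rw [hc, map_mul, map_pow, map_pow, map_natCast]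
  have hfun : ∀ i, (c • a i) = fun t => (ℓ : Qbar) ^ k * ((ℓ : Qbar) ^ m * a i t) := by
    intro i
    funext t
    show c * a i t = _
    rw [hc, mul_assoc]
  have heq : ∀ i, IsEquivariant act (c • a i) := by
    intro i σ t
    show c * a i (act σ t) = σ (c * a i t)
    rw [map_mul, hcfix, haeq i σ t]
  refine ⟨fun i => c • a i, fun i => ⟨?_, heq i⟩, ?_, ?_⟩
  · show c • a i ∈ Hur
    rw [hfun i]
    refine hk _ (fun τ _ t => ?_) (fun t => hm (i, t))
    rw [map_mul, map_pow, map_natCast, haeq i τ t]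
  · exact hali.units_smul (fun _ => Units.mk0 c hc0)
  · rw [eq_top_iff, ← hasp]
    refine Submodule.span_le.mpr ?_
    rintro _ ⟨i, rfl⟩
    have h1 : a i = c⁻¹ • (c • a i) := by rw [smul_smul, inv_mul_cancel₀ hc0, one_smul]
    rw [h1]
    exact Submodule.smul_mem _ _ (Submodule.subset_span ⟨i, rfl⟩)

/-- **Step 3a**: rational coordinates with bounded denominators. -/
theorem exists_rat_coeff [Finite X] (hact : IsGalAction act)
    (hH : IsDStableOrder P ℓ act Hur) {n : ℕ} {a : Fin n → X → Qbar}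
    (haH : ∀ i, a i ∈ equivSub P hℓ hP (act := act) Hur)
    (hali : LinearIndependent Qbar a) (hasp : Submodule.span Qbar (Set.range a) = ⊤) :
    ∃ k : ℕ, ∀ f ∈ equivSub P hℓ hP (act := act) Hur,
      ∃ r : Fin n → GaloisRep.ratLocalizedAt ℓ, (ℓ : Qbar) ^ k • f = ∑ i, r i • a i := by
  obtain ⟨k, hk⟩ := exists_pow_mul_coeff_mem P hℓ hP hali hasp
  refine ⟨k, fun f hf => ?_⟩
  obtain ⟨c, hc⟩ := exists_coeff hasp f
  have hcP := hk f c (hH.integral f hf.1) hc
  have hcfix : ∀ (σ : Γℚ) i, σ (c i) = c i := fun σ i =>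
    coeff_fixed hact ⊤ hali (fun j σ _ t => (haH j).2 σ t) (fun σ _ t => hf.2 σ t) hc
      (Subgroup.mem_top σ) i
  have hex : ∀ i, ∃ r : GaloisRep.ratLocalizedAt ℓ,
      algebraMap (GaloisRep.ratLocalizedAt ℓ) Qbar r = (ℓ : Qbar) ^ k * c i := fun i =>
    exists_ratLocalizedAt_eq_of_fixed P hℓ hP _ (hcP i) (fun σ => by
      rw [map_mul, map_pow, map_natCast, hcfix σ i])
  choose r hr using hex
  refine ⟨r, ?_⟩
  conv_lhs => rw [hc]
  rw [Finset.smul_sum]
  refine Finset.sum_congr rfl fun i _ => ?_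
  rw [smul_smul, ← hr i, algebraMap_smul]

/-- **Step 3b**: the rational sub-order is free over `ℤ_(ℓ)` on a basis of `Nat.card X` functions
which is a `Qbar`-basis of all functions. -/
theorem exists_basis_equivSub [Finite X] (hact : IsGalAction act)
    (hH : IsDStableOrder P ℓ act Hur) :
    ∃ b : Module.Basis (Fin (Nat.card X)) (GaloisRep.ratLocalizedAt ℓ)
        (equivSub P hℓ hP (act := act) Hur),
      LinearIndependent Qbar (fun i => ((b i : equivSub P hℓ hP (act := act) Hur) : X → Qbar)) := by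
  classical
  haveI : Fact ℓ.Prime := ⟨hℓ⟩
  haveI := Fintype.ofFinite X
  set R := GaloisRep.ratLocalizedAt ℓ with hR
  set H := equivSub P hℓ hP (act := act) Hur with hHdef
  set n := Nat.card X with hn
  obtain ⟨a, haH, hali, hasp⟩ := exists_basis_in_equivSub P hℓ hP hact hH
  obtain ⟨k, hk⟩ := exists_rat_coeff P hℓ hP hact hH haH hali hasp
  have hℓ0 : (ℓ : Qbar) ≠ 0 := Nat.cast_ne_zero.mpr hℓ.ne_zero
  have hinjR : Function.Injective (algebraMap R Qbar) := by
    intro x y hxy
    have h : algebraMap ℚ Qbar (x : ℚ) = algebraMap ℚ Qbar (y : ℚ) := hxy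
    exact Subtype.ext ((algebraMap ℚ Qbar).injective h)
  -- the coordinate map
  choose r hr using fun f : H => hk f f.2
  have hr_unique : ∀ (f : H) (r' : Fin n → R),
      (ℓ : Qbar) ^ k • (f : X → Qbar) = ∑ i, r' i • a i → r' = r f := by
    intro f r' h'
    have h1 : ∑ i, (fun i => algebraMap R Qbar (r' i)) i • a i =
        ∑ i, (fun i => algebraMap R Qbar (r f i)) i • a i := by
      simp only [algebraMap_smul]
      rw [← h', ← hr f]
    have h2 := coeff_unique hali h1
    funext i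
    exact hinjR (congrFun h2 i)
  let θ : H →ₗ[R] (Fin n → R) :=
    { toFun := r
      map_add' := fun f g => by
        symm
        apply hr_unique
        simp only [Pi.add_apply, add_smul, Finset.sum_add_distrib]
        rw [← hr f, ← hr g]
        show (ℓ : Qbar) ^ k • ((f : X → Qbar) + (g : X → Qbar)) = _
        rw [smul_add]
      map_smul' := fun s f => by
        symm
        apply hr_unique
        simp only [RingHom.id_apply, Pi.smul_apply, smul_eq_mul, mul_smul]
        rw [← Finset.smul_sum, ← hr f]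
        show (ℓ : Qbar) ^ k • (s • (f : X → Qbar)) = _
        rw [smul_comm] }
  have hθ : Function.Injective θ := by
    intro f g hfg
    have h1 : r f = r g := hfg
    have h2 : (ℓ : Qbar) ^ k • (f : X → Qbar) = (ℓ : Qbar) ^ k • (g : X → Qbar) := by
      rw [hr f, hr g, h1]
    have h3 : (f : X → Qbar) = g := by
      have := congrArg (fun w => ((ℓ : Qbar) ^ k)⁻¹ • w) h2
      simpa [smul_smul, inv_mul_cancel₀ (pow_ne_zero k hℓ0)] using this
    exact Subtype.ext h3
  haveI : Module.Finite R H := Module.Finite.of_injective θ hθ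
  haveI : Module.IsTorsionFree R H :=
    Function.Injective.moduleIsTorsionFree θ hθ (fun s m => map_smul θ s m)
  haveI : Module.Free R H := Module.free_of_finite_type_torsion_free'
  let b₀ := Module.Free.chooseBasis R H
  -- the basis functions span everything over `Qbar`
  have hspan : ⊤ ≤ Submodule.span Qbar (Set.range fun j => ((b₀ j : H) : X → Qbar)) := by
    rw [← hasp]
    refine Submodule.span_le.mpr ?_
    rintro _ ⟨i, rfl⟩
    set w : H := ⟨a i, haH i⟩ with hw
    have h1 : w = ∑ j, b₀.repr w j • b₀ j := (b₀.sum_repr w).symm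
    have h2 : ((w : H) : X → Qbar) = ∑ j, b₀.repr w j • ((b₀ j : H) : X → Qbar) := by
      have h3 := congrArg (fun v : H => (v : X → Qbar)) h1
      simp only [AddSubmonoidClass.coe_finsetSum, SetLike.val_smul] at h3
      exact h3
    show ((w : H) : X → Qbar) ∈ _
    rw [h2]
    refine Submodule.sum_mem _ fun j _ => ?_
    rw [← algebraMap_smul Qbar]
    exact Submodule.smul_mem _ _ (Submodule.subset_span ⟨j, rfl⟩)
  have hfin : Module.finrank Qbar (X → Qbar) = n := by
    rw [Module.finrank_pi, hn, Nat.card_eq_fintype_card]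
  have hge : n ≤ Fintype.card (Module.Free.ChooseBasisIndex R H) := by
    rw [← hfin]
    have h1 := finrank_range_le_card (R := Qbar) (fun j => ((b₀ j : H) : X → Qbar))
    have h2 : Submodule.span Qbar (Set.range fun j => ((b₀ j : H) : X → Qbar)) = ⊤ :=
      top_le_iff.mp hspan
    rw [Set.finrank, h2, finrank_top] at h1
    exact h1
  have hle : Fintype.card (Module.Free.ChooseBasisIndex R H) ≤ n := by
    have h1 : LinearIndependent R (θ ∘ b₀) :=
      b₀.linearIndependent.map' θ (LinearMap.ker_eq_bot.mpr hθ)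
    have h2 := h1.fintype_card_le_finrank
    rwa [Module.finrank_fin_fun] at h2
  have hcard : Fintype.card (Module.Free.ChooseBasisIndex R H) = n := le_antisymm hle hge
  have hli₀ : LinearIndependent Qbar (fun j => ((b₀ j : H) : X → Qbar)) :=
    linearIndependent_of_top_le_span_of_card_eq_finrank hspan (by rw [hcard, hfin])
  let e : Module.Free.ChooseBasisIndex R H ≃ Fin n :=
    Fintype.equivFinOfCardEq hcard
  refine ⟨b₀.reindex e, ?_⟩
  have : (fun i => (((b₀.reindex e) i : H) : X → Qbar)) =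
      (fun j => ((b₀ j : H) : X → Qbar)) ∘ e.symm := by
    funext i
    simp [Module.Basis.reindex_apply]
  rw [this]
  exact hli₀.comp e.symm e.symm.injective

/-! ### Step 4: the rational basis spans `Hur` over `inertiaInt P` -/

/-- the `ℓ`-multiples of `Hur`. -/
def ellSub (ℓ : ℕ) (Hur : Subalgebra (inertiaInt P) (X → Qbar)) :
    Submodule (inertiaInt P) (X → Qbar) :=
  Submodule.map (LinearMap.lsmul (inertiaInt P) (X → Qbar) ((ℓ : ℕ) : inertiaInt P))
    (Subalgebra.toSubmodule Hur)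

omit hℓ hP in
theorem mem_ellSub {f : X → Qbar} :
    f ∈ ellSub P ℓ Hur ↔ ∃ g ∈ Hur, f = fun t => (ℓ : Qbar) * g t := by
  constructor
  · rintro ⟨g, hg, rfl⟩
    refine ⟨g, hg, ?_⟩
    funext t
    show (((ℓ : ℕ) : inertiaInt P) : Qbar) * g t = _
    simp
  · rintro ⟨g, hg, rfl⟩
    refine ⟨g, hg, ?_⟩
    funext t
    show (((ℓ : ℕ) : inertiaInt P) : Qbar) * g t = _
    simp

/-- restriction of an element of the decomposition group to `inertiaInt P`. -/
def decompRestrict (γ : P.decompositionSubgroup ℚ) : inertiaInt P →+* inertiaInt P :=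
  RingHom.restrict ((γ : Γℚ) : Qbar →+* Qbar) (inertiaInt P) (inertiaInt P)
    (fun x hx => apply_mem_inertiaInt P γ.2 hx)

omit hℓ hP in
theorem coe_decompRestrict (γ : P.decompositionSubgroup ℚ) (c : inertiaInt P) :
    ((decompRestrict P γ c : inertiaInt P) : Qbar) = (γ : Γℚ) (c : Qbar) := rfl

/-- the semilinear action on functions as an additive map. -/
def conjAdd (act : Γℚ → X → X) (σ : Γℚ) : (X → Qbar) →+ (X → Qbar) where
  toFun := conjFun act σ
  map_zero' := by
    funext t
    show σ 0 = 0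
    exact map_zero σ
  map_add' f g := by
    funext t
    show σ (f _ + g _) = σ (f _) + σ (g _)
    exact map_add σ _ _

theorem mem_span_ell_iff (c : inertiaInt P) :
    c ∈ Ideal.span {((ℓ : ℕ) : inertiaInt P)} ↔ (c : Qbar) ∈ P.nonunits := by
  rw [Ideal.mem_span_singleton]
  constructor
  · rintro ⟨d, rfl⟩
    have hpP : ((ℓ : ℕ) : Qbar) ∈ P.nonunits := hP
    have : (((ℓ : ℕ) : inertiaInt P) * d : inertiaInt P) = ((ℓ : ℕ) : Qbar) * (d : Qbar) := by
      simp
    rw [this]
    exact Fermat.Agent.Lib.mul_mem_nonunits_of_mem P hpP d.2.1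
  · exact natCast_dvd_of_mem_nonunits P hℓ hP c

end Main

end Fermat.Agent.S19x.Alg.Descent
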