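/-
P-S19 block B, F5 (helper94), part 2: the rational basis spans `Hur` over `inertiaInt P`.

With the notation of `Descent.lean`: if `b` is a `ℤ_(ℓ)`-basis of the rational sub-order
`equivSub Hur` which is `Qbar`-independent, then every element of `Hur` is an
`inertiaInt P`-combination of the `b i` (unramified descent, by the "minimal relation" argument
of `SemilinIndep` and the Frobenius-fixed-point lemma of `Hens/FrobFix`).
-/
import Mathlib
import Fermat.Agent.S19x.Alg.Descent

set_option autoImplicit false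
set_option linter.unusedSectionVars false
set_option linter.unusedVariables false
set_option linter.style.haveILetI false

open scoped Pointwise

noncomputable section

namespace Fermat.Agent.S19x.Alg.Descent

open Fermat.Agent.S56x.Hens Fermat.Agent.S56x.Flat.InertiaField Fermat.Agent.S19x.Hens
  Fermat.Agent.S19x.Alg.GalSet Fermat.Agent.S19x.Alg.SemilinIndep

local notation "Qbar" => AlgebraicClosure ℚ
local notation "Γℚ" => (AlgebraicClosure ℚ ≃ₐ[ℚ] AlgebraicClosure ℚ)

variable (P : ValuationSubring Qbar) {ℓ : ℕ} (hℓ : ℓ.Prime) (hP : P.LiesOverPrime ℓ)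
include hℓ hP

variable {X : Type} [AddCommGroup X] {act : Γℚ → X → X}
variable {Hur : Subalgebra (inertiaInt P) (X → Qbar)}

local notation "Heq" => equivSub P hℓ hP (act := act) Hur

omit hℓ hP in
theorem smul_fun_apply (c : inertiaInt P) (f : X → Qbar) (t : X) :
    (c • f) t = (c : Qbar) * f t := rfl

omit hℓ hP in
theorem conjAdd_apply (σ : Γℚ) (f : X → Qbar) : conjAdd act σ f = conjFun act σ f := rfl

/-- **Step 4a**: `ℓ`-saturation transfers from integer coefficients to `inertiaInt P`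
coefficients. -/
theorem coeff_mem_span_ell (hact : IsGalAction act) (hH : IsDStableOrder P ℓ act Hur)
    {n : ℕ} {e : Fin n → X → Qbar} (heH : ∀ i, e i ∈ equivSub P hℓ hP (act := act) Hur)
    (hind : ∀ z : Fin n → ℤ, (∑ i, ((z i : ℤ) : inertiaInt P) • e i) ∈ ellSub P ℓ Hur →
      ∀ i, ((z i : ℤ) : inertiaInt P) ∈ Ideal.span {((ℓ : ℕ) : inertiaInt P)})
    (c : Fin n → inertiaInt P) (hc : ∑ i, c i • e i ∈ ellSub P ℓ Hur) :
    ∀ i, c i ∈ Ideal.span {((ℓ : ℕ) : inertiaInt P)} := by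
  refine semilinear_indep (Ideal.span {((ℓ : ℕ) : inertiaInt P)}) ?_ (ellSub P ℓ Hur)
    (fun γ : P.decompositionSubgroup ℚ => decompRestrict P γ)
    (fun γ : P.decompositionSubgroup ℚ => conjAdd act (γ : Γℚ))
    ?_ ?_ ?_ (Set.range (Int.cast : ℤ → inertiaInt P)) ?_ e ?_ ?_ ?_ c hc
  · -- non-members are units
    intro c hc
    rw [mem_span_ell_iff P hℓ hP] at hc
    exact (isUnit_inertiaInt_iff P c).mpr hc
  · -- the ideal is stable
    intro γ c hc
    rw [mem_span_ell_iff P hℓ hP] at hc ⊢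
    rw [coe_decompRestrict]
    exact (apply_mem_nonunits_iff P γ.2 _).mpr hc
  · -- semilinearity
    intro γ c m
    funext t
    show (γ : Γℚ) ((c : Qbar) * m (act (γ : Γℚ)⁻¹ t)) =
      (γ : Γℚ) (c : Qbar) * (γ : Γℚ) (m (act (γ : Γℚ)⁻¹ t))
    rw [map_mul]
  · -- `ℓ Hur` is stable
    intro γ m hm
    rw [mem_ellSub] at hm ⊢
    obtain ⟨g, hg, rfl⟩ := hm
    refine ⟨conjFun act (γ : Γℚ) g, hH.stable _ γ.2 g hg, ?_⟩
    funext t
    show (γ : Γℚ) ((ℓ : Qbar) * g (act (γ : Γℚ)⁻¹ t)) = (ℓ : Qbar) * (γ : Γℚ) (g (act (γ : Γℚ)⁻¹ t))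
    rw [map_mul, map_natCast]
  · -- Frobenius-fixed residues are rational
    intro c hc
    have h1 : ∀ σ ∈ P.decompositionSubgroup ℚ, σ (c : Qbar) - (c : Qbar) ∈ P.nonunits := by
      intro σ hσ
      have := hc ⟨σ, hσ⟩
      rw [mem_span_ell_iff P hℓ hP] at this
      exact this
    obtain ⟨a, ha⟩ := exists_int_sub_mem_nonunits_of_forall_sub_mem P hℓ hP (c : Qbar) c.2.1 h1
    refine ⟨(a : inertiaInt P), ⟨a, rfl⟩, ?_⟩
    rw [mem_span_ell_iff P hℓ hP]
    have : ((c - (a : inertiaInt P) : inertiaInt P) : Qbar) = (c : Qbar) - (a : Qbar) := by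
      simp
    rw [this]
    exact ha
  · -- the `e i` are fixed
    intro γ i
    exact (isEquivariant_iff_conjFun hact (e i)).mp (heH i).2 (γ : Γℚ)
  · -- `𝔪 e i ⊆ ℓ Hur`
    intro c hc i
    rw [Ideal.mem_span_singleton] at hc
    obtain ⟨d, rfl⟩ := hc
    rw [mem_ellSub]
    refine ⟨d • e i, Hur.smul_mem (heH i).1 d, ?_⟩
    funext t
    show ((((ℓ : ℕ) : inertiaInt P) * d : inertiaInt P) : Qbar) * e i t =
      (ℓ : Qbar) * ((d : Qbar) * e i t)
    simp [mul_assoc]
  · -- independence over the integers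
    rintro a ha hsum
    choose z hz using ha
    have h1 : ∑ i, ((z i : ℤ) : inertiaInt P) • e i ∈ ellSub P ℓ Hur := by
      have : (fun i => ((z i : ℤ) : inertiaInt P)) = a := funext hz
      rw [show (∑ i, ((z i : ℤ) : inertiaInt P) • e i) = ∑ i, a i • e i from by
        refine Finset.sum_congr rfl fun i _ => ?_
        rw [hz i]]
      exact hsum
    intro i
    rw [← hz i]
    exact hind z h1 i

omit hℓ hP in
theorem sum_smul_fun_apply {n : ℕ} (c : Fin n → inertiaInt P) (e : Fin n → X → Qbar) (t : X) :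
    (∑ i, c i • e i) t = ∑ i, (c i : Qbar) * e i t := by
  rw [Finset.sum_apply]
  rfl

/-- **Step 4b**: the rational sub-order is `ℓ`-saturated in `Hur`, in coordinates. -/
theorem int_coeff_mem_span_ell (hact : IsGalAction act) (hH : IsDStableOrder P ℓ act Hur)
    {n : ℕ}
    (b : Module.Basis (Fin n) (GaloisRep.ratLocalizedAt ℓ) (equivSub P hℓ hP (act := act) Hur))
    (hli : LinearIndependent Qbar
      (fun i => ((b i : equivSub P hℓ hP (act := act) Hur) : X → Qbar)))
    (z : Fin n → ℤ)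
    (hz : (∑ i, ((z i : ℤ) : inertiaInt P) •
      ((b i : equivSub P hℓ hP (act := act) Hur) : X → Qbar)) ∈ ellSub P ℓ Hur) :
    ∀ i, ((z i : ℤ) : inertiaInt P) ∈ Ideal.span {((ℓ : ℕ) : inertiaInt P)} := by
  have hℓ0 : (ℓ : Qbar) ≠ 0 := Nat.cast_ne_zero.mpr hℓ.ne_zero
  rw [mem_ellSub] at hz
  obtain ⟨g, hg, hsum⟩ := hz
  have hval : ∀ t, ∑ i, ((z i : ℤ) : Qbar) * ((b i : Heq) : X → Qbar) t = (ℓ : Qbar) * g t := by
    intro t
    have := congrFun hsum t
    rw [sum_smul_fun_apply] at this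
    simpa using this
  -- `g` is equivariant
  have hgeq : IsEquivariant act g := by
    intro σ t
    have h1 := hval (act σ t)
    have h2 := congrArg σ (hval t)
    rw [map_mul, map_natCast, map_sum] at h2
    have h3 : ∑ i, ((z i : ℤ) : Qbar) * ((b i : Heq) : X → Qbar) (act σ t) =
        ∑ i, σ (((z i : ℤ) : Qbar) * ((b i : Heq) : X → Qbar) t) := by
      refine Finset.sum_congr rfl fun i _ => ?_
      rw [map_mul, map_intCast, (b i).2.2 σ t]
    rw [h3, h2] at h1
    exact (mul_left_cancel₀ hℓ0 h1).symm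
  set gH : Heq := ⟨g, hg, hgeq⟩ with hgH
  have h1 : gH = ∑ j, b.repr gH j • b j := (b.sum_repr gH).symm
  have h2 : g = ∑ j, b.repr gH j • ((b j : Heq) : X → Qbar) := by
    have h3 := congrArg (fun v : Heq => (v : X → Qbar)) h1
    simp only [AddSubmonoidClass.coe_finsetSum, SetLike.val_smul] at h3
    exact h3
  -- compare coefficients
  have h4 : ∑ i, (fun i => ((z i : ℤ) : Qbar)) i • ((b i : Heq) : X → Qbar) =
      ∑ i, (fun i => (ℓ : Qbar) *
        algebraMap (GaloisRep.ratLocalizedAt ℓ) Qbar (b.repr gH i)) i • ((b i : Heq) : X → Qbar) := by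
    funext t
    simp only [Finset.sum_apply, Pi.smul_apply, smul_eq_mul]
    rw [hval t]
    conv_lhs => rw [h2]
    rw [Finset.sum_apply, Finset.mul_sum]
    refine Finset.sum_congr rfl fun i _ => ?_
    rw [mul_assoc, Pi.smul_apply, Algebra.smul_def]
  have h5 := coeff_unique hli h4
  intro i
  rw [mem_span_ell_iff P hℓ hP]
  have h6 : ((((z i : ℤ) : inertiaInt P) : inertiaInt P) : Qbar) = ((z i : ℤ) : Qbar) := by simp
  rw [h6, show ((z i : ℤ) : Qbar) = (ℓ : Qbar) *
    algebraMap (GaloisRep.ratLocalizedAt ℓ) Qbar (b.repr gH i) from congrFun h5 i]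
  have hpP : ((ℓ : ℕ) : Qbar) ∈ P.nonunits := hP
  exact Fermat.Agent.Lib.mul_mem_nonunits_of_mem P hpP (ratLocalizedAt_mem P hℓ hP _)

/-- **Step 4**: the rational basis spans `Hur` over `inertiaInt P`. -/
theorem exists_inertiaInt_coeff [Finite X] (hact : IsGalAction act)
    (hH : IsDStableOrder P ℓ act Hur)
    (b : Module.Basis (Fin (Nat.card X)) (GaloisRep.ratLocalizedAt ℓ)
      (equivSub P hℓ hP (act := act) Hur))
    (hli : LinearIndependent Qbar
      (fun i => ((b i : equivSub P hℓ hP (act := act) Hur) : X → Qbar)))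
    {u : X → Qbar} (hu : u ∈ Hur) :
    ∃ c : Fin (Nat.card X) → inertiaInt P,
      u = ∑ i, c i • ((b i : equivSub P hℓ hP (act := act) Hur) : X → Qbar) := by
  classical
  haveI := Fintype.ofFinite X
  set e : Fin (Nat.card X) → X → Qbar := fun i => ((b i : Heq) : X → Qbar) with he
  have hℓ0 : (ℓ : Qbar) ≠ 0 := Nat.cast_ne_zero.mpr hℓ.ne_zero
  have heH : ∀ i, e i ∈ Heq := fun i => (b i).2
  have hsp : Submodule.span Qbar (Set.range e) = ⊤ := by
    refine hli.span_eq_top_of_card_eq_finrank' ?_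
    rw [Module.finrank_pi, Fintype.card_fin, Nat.card_eq_fintype_card]
  obtain ⟨c₀, hc₀⟩ := exists_coeff hsp u
  have hfix : ∀ i, ∀ τ ∈ P.inertiaSubgroupIn ℚ, τ (c₀ i) = c₀ i := fun i τ hτ =>
    coeff_fixed hact (P.inertiaSubgroupIn ℚ) hli (fun j σ _ t => (heH j).2 σ t)
      (fun σ hσ t => hH.inertia u hu σ hσ t) hc₀ hτ i
  obtain ⟨m, hm⟩ := exists_pow_mul_mem_family P hℓ hP c₀
  -- descending induction on the exponent
  have key : ∀ m : ℕ, (∀ i, (ℓ : Qbar) ^ m * c₀ i ∈ P) → ∀ i, c₀ i ∈ P := by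
    intro m
    induction m with
    | zero =>
      intro h i
      simpa using h i
    | succ m ih =>
      intro h
      apply ih
      -- the coefficients `ℓ^(m+1) c₀ i` as elements of `inertiaInt P`
      set z : Fin (Nat.card X) → inertiaInt P := fun i =>
        ⟨(ℓ : Qbar) ^ (m + 1) * c₀ i, h i, fun τ hτ => by
          rw [map_mul, map_pow, map_natCast, hfix i τ hτ]⟩ with hz
      have hzsum : ∑ i, z i • e i ∈ ellSub P ℓ Hur := by
        rw [mem_ellSub]
        refine ⟨((ℓ : ℕ) : inertiaInt P) ^ m • u, Hur.smul_mem hu _, ?_⟩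
        funext t
        rw [sum_smul_fun_apply]
        show ∑ i, ((ℓ : Qbar) ^ (m + 1) * c₀ i) * e i t =
          (ℓ : Qbar) * (((((ℓ : ℕ) : inertiaInt P) ^ m : inertiaInt P) : Qbar) * u t)
        rw [hc₀]
        simp only [Finset.sum_apply, Pi.smul_apply, smul_eq_mul, Finset.mul_sum]
        refine Finset.sum_congr rfl fun i _ => ?_
        have hcoe : ((((ℓ : ℕ) : inertiaInt P) ^ m : inertiaInt P) : Qbar) = (ℓ : Qbar) ^ m := by
          simp
        rw [hcoe]
        ring
      have hzmem := coeff_mem_span_ell P hℓ hP hact hH heH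
        (fun z' hz' => int_coeff_mem_span_ell P hℓ hP hact hH b hli z' hz') z hzsum
      intro i
      obtain ⟨w, hw⟩ := Ideal.mem_span_singleton.mp (hzmem i)
      have hw' : (ℓ : Qbar) ^ (m + 1) * c₀ i = (ℓ : Qbar) * (w : Qbar) := by
        have := congrArg (fun x : inertiaInt P => (x : Qbar)) hw
        simpa [hz] using this
      have : (ℓ : Qbar) ^ m * c₀ i = (w : Qbar) := by
        rw [pow_succ, mul_comm ((ℓ : Qbar) ^ m), mul_assoc] at hw'
        exact mul_left_cancel₀ hℓ0 hw'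
      rw [this]
      exact w.2.1
  have hcP := key m hm
  refine ⟨fun i => ⟨c₀ i, hcP i, hfix i⟩, ?_⟩
  rw [hc₀]
  funext t
  rw [sum_smul_fun_apply]
  simp only [Finset.sum_apply, Pi.smul_apply, smul_eq_mul]
  rfl

end Fermat.Agent.S19x.Alg.Descent
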