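import Mathlib

/-!
# P-S19, block B (pure algebra): function-level Hopf orders, composita and conjugates (F4)

`R → Om` commutative rings, `T` an additive commutative group.  A subalgebra
`H : Subalgebra R (T → Om)` is a *function-level Hopf order* (`IsFunHopfOrder H`) if it is closed
under the three structure maps of the function algebra of the group `T`, in function form and
without any tensor product:

* `IsDeltaClosed H` : `(s, t) ↦ f (s + t)` lies in `boxProd H H`, the subalgebra of functions on
  `T × T` generated by the `(s, t) ↦ f s` and `(s, t) ↦ g t`, `f, g ∈ H` (as a module: the span of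
  the products `(s, t) ↦ f s * g t`, `mem_boxProd_iff`);
* `IsCounitClosed H` : `f 0 ∈ R`;
* `IsAntipodeClosed H` : `t ↦ f (-t)` lies in `H`.

Results:

* `IsFunHopfOrder.sup`, `IsFunHopfOrder.iSup` : a compositum of Hopf orders is a Hopf order;
  finiteness of composita (`finite_iSup`);
* semilinear conjugation `conjSub σ H` for a group `Γ` acting on `R`, `Om` (ring automorphisms,
  `algebraMap` equivariant) and on `T` (additively): Hopf orders, finiteness and separation of
  points are preserved;
* **F4** (`isFunHopfOrder_orbitSup`, `conjSub_orbitSup`, `finite_orbitSup`): if `L` is a Hopf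
  order stable under a subgroup `Γ'` of finite index, then `orbitSup Γ' L`, the compositum of the
  finitely many conjugates of `L`, is a `Γ`-stable Hopf order, finite if `L` is, and it contains `L`.
-/

set_option autoImplicit false
set_option linter.unusedSectionVars false
set_option linter.style.haveILetI false

namespace Fermat.Agent.S19x.Alg.FunOrder

open scoped Pointwise

section Pull

variable (R Om : Type*) [CommRing R] [CommRing Om] [Algebra R Om]

/-- pull-back of functions along a map of sets, as an algebra homomorphism. -/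
def pull {X Y : Type*} (φ : Y → X) : (X → Om) →ₐ[R] (Y → Om) where
  toFun f := f ∘ φ
  map_one' := rfl
  map_mul' _ _ := rfl
  map_zero' := rfl
  map_add' _ _ := rfl
  commutes' _ := rfl

@[simp] theorem pull_apply {X Y : Type*} (φ : Y → X) (f : X → Om) (y : Y) :
    pull R Om φ f y = f (φ y) := rfl

theorem pull_comp {X Y Z : Type*} (φ : Y → X) (ψ : Z → Y) :
    (pull R Om ψ).comp (pull R Om φ) = pull R Om (φ ∘ ψ) := rfl

variable (T : Type*) [AddCommGroup T]

/-- comultiplication of the function algebra: `f ↦ ((s, t) ↦ f (s + t))`. -/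
def delta : (T → Om) →ₐ[R] (T × T → Om) := pull R Om (fun st : T × T => st.1 + st.2)

/-- counit: evaluation at `0`. -/
def eps : (T → Om) →ₐ[R] Om := Pi.evalAlgHom R (fun _ : T => Om) 0

/-- antipode: `f ↦ (t ↦ f (-t))`. -/
def anti : (T → Om) →ₐ[R] (T → Om) := pull R Om (fun t : T => -t)

@[simp] theorem delta_apply (f : T → Om) (st : T × T) : delta R Om T f st = f (st.1 + st.2) := rfl
@[simp] theorem eps_apply (f : T → Om) : eps R Om T f = f 0 := rfl
@[simp] theorem anti_apply (f : T → Om) (t : T) : anti R Om T f t = f (-t) := rfl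

end Pull

section Defs

variable {R Om : Type*} [CommRing R] [CommRing Om] [Algebra R Om] {T : Type*} [AddCommGroup T]

/-- the subalgebra of functions on `X × Y` generated by the functions of the first variable in `H`
and the functions of the second variable in `K`. -/
def boxProd {X Y : Type*} (H : Subalgebra R (X → Om)) (K : Subalgebra R (Y → Om)) :
    Subalgebra R (X × Y → Om) :=
  H.map (pull R Om Prod.fst) ⊔ K.map (pull R Om Prod.snd)

theorem boxProd_mono {X Y : Type*} {H H' : Subalgebra R (X → Om)} {K K' : Subalgebra R (Y → Om)}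
    (hH : H ≤ H') (hK : K ≤ K') : boxProd H K ≤ boxProd H' K' :=
  sup_le_sup (Subalgebra.map_mono hH) (Subalgebra.map_mono hK)

theorem box_mem_boxProd {X Y : Type*} {H : Subalgebra R (X → Om)} {K : Subalgebra R (Y → Om)}
    {f : X → Om} {g : Y → Om} (hf : f ∈ H) (hg : g ∈ K) :
    (fun xy : X × Y => f xy.1 * g xy.2) ∈ boxProd H K := by
  have h1 : pull R Om Prod.fst f ∈ boxProd H K :=
    (le_sup_left : H.map (pull R Om Prod.fst) ≤ _) ⟨f, hf, rfl⟩
  have h2 : pull R Om Prod.snd g ∈ boxProd H K :=
    (le_sup_right : K.map (pull R Om Prod.snd) ≤ _) ⟨g, hg, rfl⟩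
  exact (boxProd H K).mul_mem h1 h2

/-- as a module, `boxProd H K` is spanned by the products `(x, y) ↦ f x * g y`. -/
theorem mem_boxProd_iff {X Y : Type*} {H : Subalgebra R (X → Om)} {K : Subalgebra R (Y → Om)}
    {F : X × Y → Om} :
    F ∈ boxProd H K ↔
      F ∈ Submodule.span R {G : X × Y → Om | ∃ f ∈ H, ∃ g ∈ K, G = fun xy => f xy.1 * g xy.2} := by
  constructor
  · intro hF
    have h1 : F ∈ Subalgebra.toSubmodule (boxProd H K) := hF
    unfold boxProd at h1
    rw [← Subalgebra.mul_toSubmodule] at h1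
    refine Submodule.mul_induction_on h1 ?_ ?_
    · rintro _ ⟨f, hf, rfl⟩ _ ⟨g, hg, rfl⟩
      exact Submodule.subset_span ⟨f, hf, g, hg, rfl⟩
    · intro a b ha hb
      exact Submodule.add_mem _ ha hb
  · intro hF
    refine Submodule.span_le (p := Subalgebra.toSubmodule (boxProd H K)).mpr ?_ hF
    rintro _ ⟨f, hf, g, hg, rfl⟩
    exact box_mem_boxProd hf hg

/-- closed under the comultiplication, in function form. -/
def IsDeltaClosed (H : Subalgebra R (T → Om)) : Prop := H.map (delta R Om T) ≤ boxProd H H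

/-- closed under the counit: the values at `0` lie in `R`. -/
def IsCounitClosed (H : Subalgebra R (T → Om)) : Prop := H.map (eps R Om T) ≤ ⊥

/-- closed under the antipode. -/
def IsAntipodeClosed (H : Subalgebra R (T → Om)) : Prop := H.map (anti R Om T) ≤ H

theorem isDeltaClosed_iff {H : Subalgebra R (T → Om)} :
    IsDeltaClosed H ↔ ∀ f ∈ H, (fun st : T × T => f (st.1 + st.2)) ∈ boxProd H H := by
  constructor
  · intro h f hf
    exact h ⟨f, hf, rfl⟩
  · rintro h _ ⟨f, hf, rfl⟩
    exact h f hf

theorem isCounitClosed_iff {H : Subalgebra R (T → Om)} :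
    IsCounitClosed H ↔ ∀ f ∈ H, f 0 ∈ (algebraMap R Om).range := by
  constructor
  · intro h f hf
    have := h ⟨f, hf, rfl⟩
    rw [Algebra.mem_bot] at this
    exact this
  · rintro h _ ⟨f, hf, rfl⟩
    rw [Algebra.mem_bot]
    exact h f hf

theorem isAntipodeClosed_iff {H : Subalgebra R (T → Om)} :
    IsAntipodeClosed H ↔ ∀ f ∈ H, (fun t : T => f (-t)) ∈ H := by
  constructor
  · intro h f hf
    exact h ⟨f, hf, rfl⟩
  · rintro h _ ⟨f, hf, rfl⟩
    exact h f hf

/-- a function-level Hopf order. -/
structure IsFunHopfOrder (H : Subalgebra R (T → Om)) : Prop where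
  delta : IsDeltaClosed H
  counit : IsCounitClosed H
  antipode : IsAntipodeClosed H

/-- the functions in `H` separate the points of `T`. -/
def Separates {X : Type*} (H : Subalgebra R (X → Om)) : Prop :=
  ∀ s t : X, s ≠ t → ∃ f ∈ H, f s ≠ f t

theorem Separates.mono {X : Type*} {H H' : Subalgebra R (X → Om)} (h : Separates H)
    (hle : H ≤ H') : Separates H' := fun s t hst =>
  let ⟨f, hf, hne⟩ := h s t hst
  ⟨f, hle hf, hne⟩

/-! ### Composita -/

theorem IsDeltaClosed.sup {H₁ H₂ : Subalgebra R (T → Om)} (h₁ : IsDeltaClosed H₁)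
    (h₂ : IsDeltaClosed H₂) : IsDeltaClosed (H₁ ⊔ H₂) := by
  unfold IsDeltaClosed
  rw [Algebra.map_sup]
  exact sup_le (h₁.trans (boxProd_mono le_sup_left le_sup_left))
    (h₂.trans (boxProd_mono le_sup_right le_sup_right))

theorem IsFunHopfOrder.sup {H₁ H₂ : Subalgebra R (T → Om)} (h₁ : IsFunHopfOrder H₁)
    (h₂ : IsFunHopfOrder H₂) : IsFunHopfOrder (H₁ ⊔ H₂) where
  delta := h₁.delta.sup h₂.delta
  counit := by
    unfold IsCounitClosed
    rw [Algebra.map_sup]
    exact sup_le h₁.counit h₂.counit
  antipode := by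
    unfold IsAntipodeClosed
    rw [Algebra.map_sup]
    exact sup_le (h₁.antipode.trans le_sup_left) (h₂.antipode.trans le_sup_right)

theorem map_iSup {A B : Type*} [Semiring A] [Algebra R A] [Semiring B] [Algebra R B]
    (f : A →ₐ[R] B) {ι : Sort*} (S : ι → Subalgebra R A) :
    (⨆ i, S i).map f = ⨆ i, (S i).map f :=
  (Subalgebra.gc_map_comap f).l_iSup

theorem IsFunHopfOrder.iSup {ι : Sort*} {H : ι → Subalgebra R (T → Om)}
    (h : ∀ i, IsFunHopfOrder (H i)) : IsFunHopfOrder (⨆ i, H i) where
  delta := by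
    unfold IsDeltaClosed
    rw [map_iSup]
    exact iSup_le fun i => (h i).delta.trans (boxProd_mono (le_iSup H i) (le_iSup H i))
  counit := by
    unfold IsCounitClosed
    rw [map_iSup]
    exact iSup_le fun i => (h i).counit
  antipode := by
    unfold IsAntipodeClosed
    rw [map_iSup]
    exact iSup_le fun i => (h i).antipode.trans (le_iSup H i)

/-- a finite compositum of module-finite subalgebras is module-finite. -/
theorem finite_iSup {A : Type*} [CommRing A] [Algebra R A] {ι : Type*} [Finite ι]
    (S : ι → Subalgebra R A) (h : ∀ i, Module.Finite R (S i)) :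
    Module.Finite R ↥(⨆ i, S i) := by
  classical
  haveI := Fintype.ofFinite ι
  have key : ∀ s : Finset ι, Module.Finite R ↥(⨆ i ∈ s, S i) := by
    intro s
    induction s using Finset.induction_on with
    | empty =>
      have hbot : (⨆ i ∈ (∅ : Finset ι), S i) = ⊥ := by simp
      rw [hbot]
      exact Module.Finite.of_surjective (Algebra.linearMap R (⊥ : Subalgebra R A))
        (by
          rintro ⟨x, hx⟩
          rw [Algebra.mem_bot] at hx
          obtain ⟨r, rfl⟩ := hx
          exact ⟨r, rfl⟩)
    | insert a s _ ih =>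
      rw [Finset.iSup_insert]
      haveI := h a
      haveI := ih
      exact Subalgebra.finite_sup _ _
  have huniv : (⨆ i ∈ (Finset.univ : Finset ι), S i) = ⨆ i, S i := by simp
  rw [← huniv]
  exact key Finset.univ

end Defs

/-! ### Semilinear conjugation -/

section Conj

variable {Γ : Type*} [Group Γ] {R Om : Type*} [CommRing R] [CommRing Om] [Algebra R Om]
  [MulSemiringAction Γ R] [MulSemiringAction Γ Om]

/-- the structure map is `Γ`-equivariant. -/
def AlgebraMapEquivariant (Γ R Om : Type*) [Group Γ] [CommRing R] [CommRing Om] [Algebra R Om]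
    [MulSemiringAction Γ R] [MulSemiringAction Γ Om] : Prop :=
  ∀ (σ : Γ) (r : R), algebraMap R Om (σ • r) = σ • algebraMap R Om r

variable {X : Type*} [MulAction Γ X]

/-- semilinear conjugation of functions: `(σ f)(x) = σ (f (σ⁻¹ x))`. -/
def conjFun (σ : Γ) (f : X → Om) : X → Om := fun x => σ • f (σ⁻¹ • x)

@[simp] theorem conjFun_apply (σ : Γ) (f : X → Om) (x : X) :
    conjFun σ f x = σ • f (σ⁻¹ • x) := rfl

theorem conjFun_one (f : X → Om) : conjFun (1 : Γ) f = f := by
  funext x; simp [conjFun]

theorem conjFun_mul (σ τ : Γ) (f : X → Om) : conjFun (σ * τ) f = conjFun σ (conjFun τ f) := by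
  funext x; simp [conjFun, mul_smul]

theorem conjFun_mul' (σ : Γ) (f g : X → Om) : conjFun σ (f * g) = conjFun σ f * conjFun σ g := by
  funext x; simp [conjFun, smul_mul']

theorem conjFun_add (σ : Γ) (f g : X → Om) : conjFun σ (f + g) = conjFun σ f + conjFun σ g := by
  funext x; simp [conjFun, smul_add]

theorem conjFun_algebraMap (he : AlgebraMapEquivariant Γ R Om) (σ : Γ) (r : R) :
    conjFun σ (algebraMap R (X → Om) r) = algebraMap R (X → Om) (σ • r) := by
  funext x
  simp only [conjFun, Pi.algebraMap_apply]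
  exact (he σ r).symm

theorem conjFun_smul (he : AlgebraMapEquivariant Γ R Om) (σ : Γ) (r : R) (f : X → Om) :
    conjFun σ (r • f) = (σ • r) • conjFun σ f := by
  funext x
  simp only [conjFun, Pi.smul_apply, Algebra.smul_def, smul_mul', he σ r]

/-- the conjugate of a subalgebra. -/
def conjSub (he : AlgebraMapEquivariant Γ R Om) (σ : Γ) (H : Subalgebra R (X → Om)) :
    Subalgebra R (X → Om) where
  carrier := {f | conjFun σ⁻¹ f ∈ H}
  mul_mem' := by
    intro f g hf hg
    show conjFun σ⁻¹ (f * g) ∈ H
    rw [conjFun_mul']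
    exact H.mul_mem hf hg
  add_mem' := by
    intro f g hf hg
    show conjFun σ⁻¹ (f + g) ∈ H
    rw [conjFun_add]
    exact H.add_mem hf hg
  algebraMap_mem' := by
    intro r
    show conjFun σ⁻¹ (algebraMap R (X → Om) r) ∈ H
    rw [conjFun_algebraMap he]
    exact H.algebraMap_mem _

variable (he : AlgebraMapEquivariant Γ R Om)

theorem mem_conjSub {σ : Γ} {H : Subalgebra R (X → Om)} {f : X → Om} :
    f ∈ conjSub he σ H ↔ conjFun σ⁻¹ f ∈ H := Iff.rfl

theorem conjFun_mem_conjSub {σ : Γ} {H : Subalgebra R (X → Om)} {f : X → Om} (hf : f ∈ H) :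
    conjFun σ f ∈ conjSub he σ H := by
  rw [mem_conjSub, ← conjFun_mul, inv_mul_cancel, conjFun_one]
  exact hf

theorem conjSub_one (H : Subalgebra R (X → Om)) : conjSub he (1 : Γ) H = H := by
  ext f
  rw [mem_conjSub, inv_one, conjFun_one]

theorem conjSub_mul (σ τ : Γ) (H : Subalgebra R (X → Om)) :
    conjSub he (σ * τ) H = conjSub he σ (conjSub he τ H) := by
  ext f
  rw [mem_conjSub, mem_conjSub, mem_conjSub, mul_inv_rev, conjFun_mul]

theorem conjSub_mono (σ : Γ) {H K : Subalgebra R (X → Om)} (h : H ≤ K) :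
    conjSub he σ H ≤ conjSub he σ K := fun _ hf => h hf

/-- conjugation is an order isomorphism of the lattice of subalgebras. -/
def conjSubIso (σ : Γ) : Subalgebra R (X → Om) ≃o Subalgebra R (X → Om) where
  toFun := conjSub he σ
  invFun := conjSub he σ⁻¹
  left_inv H := by rw [← conjSub_mul, inv_mul_cancel, conjSub_one]
  right_inv H := by rw [← conjSub_mul, mul_inv_cancel, conjSub_one]
  map_rel_iff' := by
    intro H K
    show conjSub he σ H ≤ conjSub he σ K ↔ H ≤ K
    constructor
    · intro h
      have := conjSub_mono he σ⁻¹ h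
      rwa [← conjSub_mul, ← conjSub_mul, inv_mul_cancel, conjSub_one, conjSub_one] at this
    · exact conjSub_mono he σ

theorem conjSub_sup (σ : Γ) (H K : Subalgebra R (X → Om)) :
    conjSub he σ (H ⊔ K) = conjSub he σ H ⊔ conjSub he σ K :=
  (conjSubIso he σ).map_sup H K

theorem conjSub_iSup (σ : Γ) {ι : Sort*} (H : ι → Subalgebra R (X → Om)) :
    conjSub he σ (⨆ i, H i) = ⨆ i, conjSub he σ (H i) :=
  (conjSubIso he σ).map_iSup H

theorem conjSub_bot (σ : Γ) : conjSub he σ (⊥ : Subalgebra R (X → Om)) = ⊥ :=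
  (conjSubIso he σ).map_bot

/-- conjugation commutes with pull-back along an equivariant map. -/
theorem conjSub_map_pull {Y : Type*} [MulAction Γ Y] (φ : Y → X)
    (hφ : ∀ (σ : Γ) (y : Y), φ (σ • y) = σ • φ y) (σ : Γ) (H : Subalgebra R (X → Om)) :
    conjSub he σ (H.map (pull R Om φ)) = (conjSub he σ H).map (pull R Om φ) := by
  have hcomm : ∀ (τ : Γ) (f : X → Om), conjFun τ (pull R Om φ f) = pull R Om φ (conjFun τ f) := by
    intro τ f
    funext y
    simp only [conjFun, pull_apply, hφ]
  ext F
  constructor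
  · intro hF
    obtain ⟨f, hf, hfF⟩ := Subalgebra.mem_map.mp ((mem_conjSub he).mp hF)
    refine Subalgebra.mem_map.mpr ⟨conjFun σ f, conjFun_mem_conjSub he hf, ?_⟩
    rw [← hcomm, hfF, ← conjFun_mul, mul_inv_cancel, conjFun_one]
  · intro hF
    obtain ⟨f, hf, rfl⟩ := Subalgebra.mem_map.mp hF
    rw [mem_conjSub, hcomm]
    exact Subalgebra.mem_map.mpr ⟨_, (mem_conjSub he).mp hf, rfl⟩

theorem conjSub_boxProd {Y : Type*} [MulAction Γ Y] (σ : Γ) (H : Subalgebra R (X → Om))
    (K : Subalgebra R (Y → Om)) :
    conjSub he σ (boxProd H K) = boxProd (conjSub he σ H) (conjSub he σ K) := by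
  unfold boxProd
  rw [conjSub_sup, conjSub_map_pull he Prod.fst (fun _ _ => rfl),
    conjSub_map_pull he Prod.snd (fun _ _ => rfl)]

theorem Separates.conjSub {H : Subalgebra R (X → Om)} (h : Separates H) (σ : Γ) :
    Separates (conjSub he σ H) := by
  intro s t hst
  have hne : σ⁻¹ • s ≠ σ⁻¹ • t := fun h' => hst (MulAction.injective σ⁻¹ h')
  obtain ⟨f, hf, hfne⟩ := h _ _ hne
  refine ⟨conjFun σ f, conjFun_mem_conjSub he hf, ?_⟩
  simp only [conjFun_apply]
  exact fun h' => hfne (MulAction.injective σ h')

/-- conjugation preserves module-finiteness. -/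
theorem finite_conjSub (σ : Γ) (H : Subalgebra R (X → Om)) [Module.Finite R H] :
    Module.Finite R ↥(conjSub he σ H) := by
  classical
  obtain ⟨s, hs⟩ := (Module.Finite.fg_top : (⊤ : Submodule R H).FG)
  -- generators : the conjugates of the generators
  refine ⟨⟨s.image (fun h : H => (⟨conjFun σ (h : X → Om), conjFun_mem_conjSub he h.2⟩ :
    conjSub he σ H)), ?_⟩⟩
  rw [eq_top_iff]
  rintro ⟨f, hf⟩ -
  have hmem : (⟨conjFun σ⁻¹ f, (mem_conjSub he).mp hf⟩ : H) ∈ Submodule.span R (s : Set H) := by
    rw [hs]; exact Submodule.mem_top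
  -- push the span membership through the semilinear bijection
  have key : ∀ g : H, g ∈ Submodule.span R (s : Set H) →
      ∀ hg : conjFun σ (g : X → Om) ∈ conjSub he σ H,
      (⟨conjFun σ (g : X → Om), hg⟩ : conjSub he σ H) ∈ Submodule.span R
        ((s.image (fun h : H => (⟨conjFun σ (h : X → Om), conjFun_mem_conjSub he h.2⟩ :
          conjSub he σ H)) : Finset _) : Set (conjSub he σ H)) := by
    intro g hg
    refine Submodule.span_induction (p := fun (g : H) (_ : g ∈ Submodule.span R (s : Set H)) =>
        ∀ hg' : conjFun σ (g : X → Om) ∈ conjSub he σ H,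
      (⟨conjFun σ (g : X → Om), hg'⟩ : conjSub he σ H) ∈ Submodule.span R
        ((s.image (fun h : H => (⟨conjFun σ (h : X → Om), conjFun_mem_conjSub he h.2⟩ :
          conjSub he σ H)) : Finset _) : Set (conjSub he σ H))) ?_ ?_ ?_ ?_ hg
    · intro x hx hx'
      apply Submodule.subset_span
      rw [Finset.coe_image]
      exact ⟨x, hx, rfl⟩
    · intro h0
      have : (⟨conjFun σ ((0 : H) : X → Om), h0⟩ : conjSub he σ H) = 0 := by
        apply Subtype.ext
        funext x
        simp [conjFun]
      rw [this]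
      exact Submodule.zero_mem _
    · intro x y _ _ hx hy hxy
      have hx' := conjFun_mem_conjSub he (σ := σ) x.2
      have hy' := conjFun_mem_conjSub he (σ := σ) y.2
      have : (⟨conjFun σ ((x + y : H) : X → Om), hxy⟩ : conjSub he σ H) =
          ⟨conjFun σ (x : X → Om), hx'⟩ + ⟨conjFun σ (y : X → Om), hy'⟩ := by
        apply Subtype.ext
        show conjFun σ ((x : X → Om) + (y : X → Om)) = _
        rw [conjFun_add]
        rfl
      rw [this]
      exact Submodule.add_mem _ (hx hx') (hy hy')
    · intro r x _ hx hrx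
      have hx' := conjFun_mem_conjSub he (σ := σ) x.2
      have : (⟨conjFun σ ((r • x : H) : X → Om), hrx⟩ : conjSub he σ H) =
          (σ • r) • ⟨conjFun σ (x : X → Om), hx'⟩ := by
        apply Subtype.ext
        show conjFun σ (r • (x : X → Om)) = _
        rw [conjFun_smul he]
        rfl
      rw [this]
      exact Submodule.smul_mem _ _ (hx hx')
  have := key _ hmem (by
    show conjFun σ (conjFun σ⁻¹ f) ∈ conjSub he σ H
    rw [← conjFun_mul, mul_inv_cancel, conjFun_one]; exact hf)
  convert this using 1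
  apply Subtype.ext
  show f = conjFun σ (conjFun σ⁻¹ f)
  rw [← conjFun_mul, mul_inv_cancel, conjFun_one]

end Conj

/-! ### Conjugates of Hopf orders -/

section ConjHopf

variable {Γ : Type*} [Group Γ] {R Om : Type*} [CommRing R] [CommRing Om] [Algebra R Om]
  [MulSemiringAction Γ R] [MulSemiringAction Γ Om] {T : Type*} [AddCommGroup T]
  [DistribMulAction Γ T] (he : AlgebraMapEquivariant Γ R Om)

theorem IsFunHopfOrder.conjSub {H : Subalgebra R (T → Om)} (h : IsFunHopfOrder H) (σ : Γ) :
    IsFunHopfOrder (conjSub he σ H) where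
  delta := by
    unfold IsDeltaClosed FunOrder.delta
    rw [← conjSub_map_pull he (fun st : T × T => st.1 + st.2)
      (fun τ st => by simp [smul_add]) σ H, ← conjSub_boxProd]
    exact conjSub_mono he σ h.delta
  counit := by
    rw [isCounitClosed_iff]
    intro f hf
    have h1 := (isCounitClosed_iff.mp h.counit) _ ((mem_conjSub he).mp hf)
    obtain ⟨r, hr⟩ := h1
    refine ⟨σ • r, ?_⟩
    rw [he σ r, hr]
    simp [conjFun]
  antipode := by
    unfold IsAntipodeClosed FunOrder.anti
    rw [← conjSub_map_pull he (fun t : T => -t) (fun τ t => by simp) σ H]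
    exact conjSub_mono he σ h.antipode

end ConjHopf

/-! ### F4 : the compositum of the conjugates -/

section F4

variable {Γ : Type*} [Group Γ] {R Om : Type*} [CommRing R] [CommRing Om] [Algebra R Om]
  [MulSemiringAction Γ R] [MulSemiringAction Γ Om] {X : Type*} [MulAction Γ X]
  (he : AlgebraMapEquivariant Γ R Om) (Γ' : Subgroup Γ)

/-- the compositum of all conjugates of `L`. -/
def orbitSup (L : Subalgebra R (X → Om)) : Subalgebra R (X → Om) := ⨆ σ : Γ, conjSub he σ L

theorem le_orbitSup (L : Subalgebra R (X → Om)) : L ≤ orbitSup he L := by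
  have := le_iSup (fun σ : Γ => conjSub he σ L) 1
  rwa [conjSub_one] at this

theorem conjSub_orbitSup (τ : Γ) (L : Subalgebra R (X → Om)) :
    conjSub he τ (orbitSup he L) = orbitSup he L := by
  unfold orbitSup
  rw [conjSub_iSup]
  simp_rw [← conjSub_mul]
  exact (Equiv.mulLeft τ).iSup_congr (fun _ => rfl)

/-- if `L` is stable under `Γ'`, the compositum of all conjugates is a compositum over `Γ ⧸ Γ'`. -/
theorem orbitSup_eq_iSup_quotient (L : Subalgebra R (X → Om))
    (hL : ∀ γ ∈ Γ', conjSub he γ L = L) :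
    orbitSup he L = ⨆ q : Γ ⧸ Γ', conjSub he (Quotient.out q) L := by
  apply le_antisymm
  · refine iSup_le fun σ => ?_
    have hmem : (Quotient.out (σ : Γ ⧸ Γ'))⁻¹ * σ ∈ Γ' := by
      rw [← QuotientGroup.eq, QuotientGroup.out_eq']
    have h1 : conjSub he σ L = conjSub he (Quotient.out (σ : Γ ⧸ Γ')) L := by
      have : σ = Quotient.out (σ : Γ ⧸ Γ') * ((Quotient.out (σ : Γ ⧸ Γ'))⁻¹ * σ) := by group
      conv_lhs => rw [this, conjSub_mul, hL _ hmem]
    rw [h1]
    exact le_iSup (fun q : Γ ⧸ Γ' => conjSub he (Quotient.out q) L) _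
  · exact iSup_le fun q => le_iSup (fun σ : Γ => conjSub he σ L) _

theorem finite_orbitSup [Γ'.FiniteIndex] (L : Subalgebra R (X → Om)) [Module.Finite R L]
    (hL : ∀ γ ∈ Γ', conjSub he γ L = L) : Module.Finite R ↥(orbitSup he L) := by
  rw [orbitSup_eq_iSup_quotient he Γ' L hL]
  haveI : Finite (Γ ⧸ Γ') := Subgroup.finite_quotient_of_finiteIndex
  exact finite_iSup _ (fun q => finite_conjSub he _ L)

theorem Separates.orbitSup {L : Subalgebra R (X → Om)} (h : Separates L) :
    Separates (orbitSup he L) := h.mono (le_orbitSup he L)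

end F4

section F4Hopf

variable {Γ : Type*} [Group Γ] {R Om : Type*} [CommRing R] [CommRing Om] [Algebra R Om]
  [MulSemiringAction Γ R] [MulSemiringAction Γ Om] {T : Type*} [AddCommGroup T]
  [DistribMulAction Γ T] (he : AlgebraMapEquivariant Γ R Om)

/-- **F4**: the compositum of the conjugates of a Hopf order is a Hopf order. -/
theorem isFunHopfOrder_orbitSup {L : Subalgebra R (T → Om)} (h : IsFunHopfOrder L) :
    IsFunHopfOrder (orbitSup he L) :=
  IsFunHopfOrder.iSup fun σ => h.conjSub he σ

end F4Hopf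

end Fermat.Agent.S19x.Alg.FunOrder
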