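import Mathlib
import Fermat.Agent.S19x.Alg.FunOrder

/-!
# P-S19, block B: function-level Hopf orders given by generators

Complements to `S19x/Alg/FunOrder.lean`, in the "generators" formalism of block B.

* `exists_sum_of_mem_boxProd` / `sum_box_mem_boxProd` : `F ∈ boxProd H K` iff
  `F (x, y) = ∑ k : Fin m, g k x * h k y` with `g k ∈ H`, `h k ∈ K`.
* `isDeltaClosed_adjoin` : `Δ`-closure of `Algebra.adjoin R gens` is checked on the generators.
* `IsDeltaClosed.nsmul_mem` : a `Δ`-closed subalgebra is stable under `f ↦ (t ↦ f (n • t))`,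
  `n ≥ 1`; `IsDeltaClosed.isAntipodeClosed` : on a finite group the antipode is automatic.
* `conjSub_adjoin`, `orbitSup_adjoin` : the conjugates / the compositum of the conjugates of an
  `adjoin` is the `adjoin` of the conjugated generators.
-/

set_option autoImplicit false
set_option linter.unusedSectionVars false

namespace Fermat.Agent.S19x.Alg.FunOrder

section Sums

variable {R Om : Type*} [CommRing R] [CommRing Om] [Algebra R Om]

theorem sum_box_mem_boxProd {X Y : Type*} {H : Subalgebra R (X → Om)} {K : Subalgebra R (Y → Om)}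
    {ι : Type*} (s : Finset ι) (g : ι → X → Om) (h : ι → Y → Om) (hg : ∀ k ∈ s, g k ∈ H)
    (hh : ∀ k ∈ s, h k ∈ K) :
    (fun xy : X × Y => ∑ k ∈ s, g k xy.1 * h k xy.2) ∈ boxProd H K := by
  have : (fun xy : X × Y => ∑ k ∈ s, g k xy.1 * h k xy.2) =
      ∑ k ∈ s, (fun xy : X × Y => g k xy.1 * h k xy.2) := by
    funext xy
    rw [Finset.sum_apply]
  rw [this]
  exact Subalgebra.sum_mem _ fun k hk => box_mem_boxProd (hg k hk) (hh k hk)

/-- an element of `boxProd H K` is a finite sum of products `g k x * h k y`. -/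
theorem exists_sum_of_mem_boxProd {X Y : Type*} {H : Subalgebra R (X → Om)}
    {K : Subalgebra R (Y → Om)} {F : X × Y → Om} (hF : F ∈ boxProd H K) :
    ∃ (m : ℕ) (g : Fin m → X → Om) (h : Fin m → Y → Om), (∀ k, g k ∈ H) ∧ (∀ k, h k ∈ K) ∧
      ∀ x y, F (x, y) = ∑ k, g k x * h k y := by
  rw [mem_boxProd_iff] at hF
  induction hF using Submodule.span_induction with
  | mem G hG =>
    obtain ⟨f, hf, g, hg, rfl⟩ := hG
    exact ⟨1, fun _ => f, fun _ => g, fun _ => hf, fun _ => hg, fun x y => by simp⟩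
  | zero => exact ⟨0, Fin.elim0, Fin.elim0, fun k => k.elim0, fun k => k.elim0, fun x y => by simp⟩
  | add F₁ F₂ _ _ h₁ h₂ =>
    obtain ⟨m₁, g₁, k₁, hg₁, hk₁, e₁⟩ := h₁
    obtain ⟨m₂, g₂, k₂, hg₂, hk₂, e₂⟩ := h₂
    refine ⟨m₁ + m₂, Fin.append g₁ g₂, Fin.append k₁ k₂, ?_, ?_, fun x y => ?_⟩
    · intro k
      refine Fin.addCases (fun i => ?_) (fun i => ?_) k
      · rw [Fin.append_left]; exact hg₁ i
      · rw [Fin.append_right]; exact hg₂ i
    · intro k
      refine Fin.addCases (fun i => ?_) (fun i => ?_) k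
      · rw [Fin.append_left]; exact hk₁ i
      · rw [Fin.append_right]; exact hk₂ i
    · rw [Fin.sum_univ_add]
      simp only [Fin.append_left, Fin.append_right, Pi.add_apply, e₁ x y, e₂ x y]
  | smul r F _ h₁ =>
    obtain ⟨m, g, k, hg, hk, e⟩ := h₁
    refine ⟨m, fun i => r • g i, k, fun i => H.smul_mem (hg i) r, hk, fun x y => ?_⟩
    simp only [Pi.smul_apply, e x y, Finset.smul_sum, smul_mul_assoc]

theorem mem_boxProd_iff_exists_sum {X Y : Type*} {H : Subalgebra R (X → Om)}
    {K : Subalgebra R (Y → Om)} {F : X × Y → Om} :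
    F ∈ boxProd H K ↔
      ∃ (m : ℕ) (g : Fin m → X → Om) (h : Fin m → Y → Om), (∀ k, g k ∈ H) ∧ (∀ k, h k ∈ K) ∧
        ∀ x y, F (x, y) = ∑ k, g k x * h k y := by
  constructor
  · exact exists_sum_of_mem_boxProd
  · rintro ⟨m, g, h, hg, hh, e⟩
    have : F = fun xy : X × Y => ∑ k ∈ (Finset.univ : Finset (Fin m)), g k xy.1 * h k xy.2 := by
      funext ⟨x, y⟩
      exact e x y
    rw [this]
    exact sum_box_mem_boxProd _ g h (fun k _ => hg k) (fun k _ => hh k)

/-- pull-back of `boxProd H K` along `z ↦ (φ z, ψ z)` lands in `L` as soon as the pull-backs of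
`H` along `φ` and of `K` along `ψ` do. -/
theorem map_pull_boxProd_le {X Y Z : Type*} {H : Subalgebra R (X → Om)}
    {K : Subalgebra R (Y → Om)} {L : Subalgebra R (Z → Om)} (φ : Z → X) (ψ : Z → Y)
    (hH : H.map (pull R Om φ) ≤ L) (hK : K.map (pull R Om ψ) ≤ L) :
    (boxProd H K).map (pull R Om (fun z => (φ z, ψ z))) ≤ L := by
  unfold boxProd
  rw [Algebra.map_sup, Subalgebra.map_map, Subalgebra.map_map, pull_comp, pull_comp]
  exact sup_le hH hK

end Sums

section Adjoin

variable {R Om : Type*} [CommRing R] [CommRing Om] [Algebra R Om] {T : Type*} [AddCommGroup T]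

/-- `Δ`-closure of an `adjoin` is checked on the generators. -/
theorem isDeltaClosed_adjoin {gens : Set (T → Om)}
    (h : ∀ f ∈ gens, (fun st : T × T => f (st.1 + st.2)) ∈
      boxProd (Algebra.adjoin R gens) (Algebra.adjoin R gens)) :
    IsDeltaClosed (Algebra.adjoin R gens) := by
  unfold IsDeltaClosed
  rw [AlgHom.map_adjoin]
  refine Algebra.adjoin_le ?_
  rintro _ ⟨f, hf, rfl⟩
  exact h f hf

/-- the same, with the comultiplication of each generator given as an explicit finite sum. -/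
theorem isDeltaClosed_adjoin_of_sums {gens : Set (T → Om)}
    (h : ∀ f ∈ gens, ∃ (m : ℕ) (g k : Fin m → T → Om), (∀ i, g i ∈ Algebra.adjoin R gens) ∧
      (∀ i, k i ∈ Algebra.adjoin R gens) ∧ ∀ s t, f (s + t) = ∑ i, g i s * k i t) :
    IsDeltaClosed (Algebra.adjoin R gens) := by
  refine isDeltaClosed_adjoin fun f hf => ?_
  obtain ⟨m, g, k, hg, hk, e⟩ := h f hf
  exact mem_boxProd_iff_exists_sum.mpr ⟨m, g, k, hg, hk, fun s t => e s t⟩

theorem IsDeltaClosed.exists_sum {H : Subalgebra R (T → Om)} (h : IsDeltaClosed H) {f : T → Om}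
    (hf : f ∈ H) :
    ∃ (m : ℕ) (g k : Fin m → T → Om), (∀ i, g i ∈ H) ∧ (∀ i, k i ∈ H) ∧
      ∀ s t, f (s + t) = ∑ i, g i s * k i t :=
  exists_sum_of_mem_boxProd (isDeltaClosed_iff.mp h f hf)

theorem isCounitClosed_adjoin {gens : Set (T → Om)}
    (h : ∀ f ∈ gens, f 0 ∈ (algebraMap R Om).range) : IsCounitClosed (Algebra.adjoin R gens) := by
  unfold IsCounitClosed
  rw [AlgHom.map_adjoin]
  refine Algebra.adjoin_le ?_
  rintro _ ⟨f, hf, rfl⟩
  obtain ⟨r, hr⟩ := h f hf
  exact Algebra.mem_bot.mpr ⟨r, hr⟩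

theorem isAntipodeClosed_adjoin {gens : Set (T → Om)}
    (h : ∀ f ∈ gens, (fun t : T => f (-t)) ∈ Algebra.adjoin R gens) :
    IsAntipodeClosed (Algebra.adjoin R gens) := by
  unfold IsAntipodeClosed
  rw [AlgHom.map_adjoin]
  refine Algebra.adjoin_le ?_
  rintro _ ⟨f, hf, rfl⟩
  exact h f hf

/-- a `Δ`-closed subalgebra is stable under `f ↦ (t ↦ f (n • t))` for `n ≥ 1`. -/
theorem IsDeltaClosed.map_pull_nsmul_le {H : Subalgebra R (T → Om)} (h : IsDeltaClosed H) :
    ∀ n : ℕ, H.map (pull R Om (fun t : T => (n + 1) • t)) ≤ H := by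
  intro n
  induction n with
  | zero =>
    rintro _ ⟨f, hf, rfl⟩
    have : (pull R Om (fun t : T => (0 + 1) • t)) f = f := by
      funext t
      simp
    rw [RingHom.coe_coe, this]
    exact hf
  | succ n ih =>
    have hcomp : pull R Om (fun t : T => (n + 1 + 1) • t) =
        (pull R Om (fun t : T => ((n + 1) • t, t))).comp (delta R Om T) := by
      apply AlgHom.ext
      intro f
      funext t
      simp only [pull_apply, AlgHom.comp_apply, delta_apply]
      rw [succ_nsmul]
    rw [hcomp, ← Subalgebra.map_map]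
    refine (Subalgebra.map_mono h).trans ?_
    refine map_pull_boxProd_le (fun t : T => (n + 1) • t) (fun t : T => t) ih ?_
    rintro _ ⟨f, hf, rfl⟩
    exact hf

theorem IsDeltaClosed.nsmul_mem {H : Subalgebra R (T → Om)} (h : IsDeltaClosed H) {n : ℕ}
    (hn : 0 < n) {f : T → Om} (hf : f ∈ H) : (fun t : T => f (n • t)) ∈ H := by
  obtain ⟨m, rfl⟩ : ∃ m, n = m + 1 := ⟨n - 1, by omega⟩
  exact h.map_pull_nsmul_le m ⟨f, hf, rfl⟩

/-- on a finite group, closure under the antipode follows from closure under `Δ`. -/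
theorem IsDeltaClosed.isAntipodeClosed [Finite T] {H : Subalgebra R (T → Om)}
    (h : IsDeltaClosed H) : IsAntipodeClosed H := by
  rw [isAntipodeClosed_iff]
  intro f hf
  have hcard : 0 < Nat.card T := Nat.card_pos
  have hneg : ∀ t : T, -t = (Nat.card T - 1 + Nat.card T) • t := by
    intro t
    have h0 : Nat.card T • t = 0 := card_nsmul_eq_zero'
    have h1 : (Nat.card T - 1 + 1) • t = 0 := by
      rw [Nat.sub_add_cancel hcard]; exact h0
    rw [add_nsmul, h0, add_zero]
    rw [add_nsmul, one_nsmul] at h1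
    exact (eq_neg_of_add_eq_zero_left h1).symm
  have := h.nsmul_mem (n := Nat.card T - 1 + Nat.card T) (by omega) hf
  convert this using 2 with t
  rw [hneg t]

/-- a `Δ`-closed, counit-closed subalgebra of functions on a finite group is a Hopf order. -/
theorem IsFunHopfOrder.of_delta_counit [Finite T] {H : Subalgebra R (T → Om)}
    (h : IsDeltaClosed H) (hc : IsCounitClosed H) : IsFunHopfOrder H :=
  ⟨h, hc, h.isAntipodeClosed⟩

end Adjoin

section ConjAdjoin

variable {Γ : Type*} [Group Γ] {R Om : Type*} [CommRing R] [CommRing Om] [Algebra R Om]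
  [MulSemiringAction Γ R] [MulSemiringAction Γ Om] {X : Type*} [MulAction Γ X]
  (he : AlgebraMapEquivariant Γ R Om)

/-- the conjugate of an `adjoin` is the `adjoin` of the conjugated generators. -/
theorem conjSub_adjoin (σ : Γ) (gens : Set (X → Om)) :
    conjSub he σ (Algebra.adjoin R gens) = Algebra.adjoin R (conjFun σ '' gens) := by
  apply le_antisymm
  · have h1 : Algebra.adjoin R gens ≤ conjSub he σ⁻¹ (Algebra.adjoin R (conjFun σ '' gens)) := by
      refine Algebra.adjoin_le ?_
      intro f hf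
      show conjFun σ⁻¹⁻¹ f ∈ Algebra.adjoin R (conjFun σ '' gens)
      rw [inv_inv]
      exact Algebra.subset_adjoin ⟨f, hf, rfl⟩
    have h2 := conjSub_mono he σ h1
    rwa [← conjSub_mul, mul_inv_cancel, conjSub_one] at h2
  · refine Algebra.adjoin_le ?_
    rintro _ ⟨f, hf, rfl⟩
    exact conjFun_mem_conjSub he (Algebra.subset_adjoin hf)

/-- the compositum of the conjugates of an `adjoin` is the `adjoin` of all conjugates of the
generators. -/
theorem orbitSup_adjoin (gens : Set (X → Om)) :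
    orbitSup he (Algebra.adjoin R gens) = Algebra.adjoin R (⋃ σ : Γ, conjFun σ '' gens) := by
  unfold orbitSup
  simp_rw [conjSub_adjoin]
  exact (Algebra.adjoin_iUnion _).symm

theorem orbitSup_adjoin' (gens : Set (X → Om)) :
    orbitSup he (Algebra.adjoin R gens) =
      Algebra.adjoin R {F | ∃ σ : Γ, ∃ f ∈ gens, F = conjFun σ f} := by
  rw [orbitSup_adjoin]
  congr 1
  ext F
  constructor
  · intro hF
    obtain ⟨σ, hσ⟩ := Set.mem_iUnion.mp hF
    obtain ⟨f, hf, rfl⟩ := hσ
    exact ⟨σ, f, hf, rfl⟩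
  · rintro ⟨σ, f, hf, rfl⟩
    exact Set.mem_iUnion.mpr ⟨σ, f, hf, rfl⟩

end ConjAdjoin

end Fermat.Agent.S19x.Alg.FunOrder
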