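/-
P-S19, block (B), leaf (3) of helper94's F4+F5 plan (helper75): Kronecker products of linearly
independent families of functions.  Mathlib only.

`K` a field, `e : ι → X → K`, `e' : κ → Z → K` linearly independent families of functions
(`ι`, `κ` finite).

* `linearIndependent_kron` (3a) : `(j, k) ↦ ((s, t) ↦ e j s * e' k t)` is linearly independent;
* `linearIndependent_kron₃` (3b) : the same for triples;
* `coeff_eq_of_kron_eq` (3c) : if `∑ j, ∑ k, a j k * (e j s * e' k t) = ∑ j, ∑ k, b j k * (...)` for
  all `s t`, then `a = b`;  `coeff_eq_zero_of_kron_eq_zero`.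
-/
import Mathlib

set_option autoImplicit false
set_option linter.style.haveILetI false

namespace Fermat.Agent.S19x.Alg.Kronecker

variable {K : Type*} [Field K] {ι κ X Z : Type*} [Finite ι] [Finite κ]

/-- (3a) products of two linearly independent families of functions are linearly independent
functions on the product. -/
theorem linearIndependent_kron {e : ι → X → K} {e' : κ → Z → K}
    (he : LinearIndependent K e) (he' : LinearIndependent K e') :
    LinearIndependent K (fun (p : ι × κ) (st : X × Z) => e p.1 st.1 * e' p.2 st.2) := by
  classical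
  haveI := Fintype.ofFinite ι
  haveI := Fintype.ofFinite κ
  rw [Fintype.linearIndependent_iff]
  intro c hc
  rw [Fintype.linearIndependent_iff] at he he'
  have key : ∀ i, ∀ z : Z, ∑ j, c (i, j) * e' j z = 0 := by
    intro i z
    refine he (fun i => ∑ j, c (i, j) * e' j z) ?_ i
    funext y
    have := congrFun hc (y, z)
    simp only [Finset.sum_apply, Pi.smul_apply, smul_eq_mul, Pi.zero_apply] at this ⊢
    rw [← this, Fintype.sum_prod_type]
    refine Finset.sum_congr rfl fun i _ => ?_
    rw [Finset.sum_mul]
    refine Finset.sum_congr rfl fun j _ => ?_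
    ring
  rintro ⟨i, j⟩
  refine he' (fun j => c (i, j)) ?_ j
  funext z
  simpa [Finset.sum_apply] using key i z

/-- (3b) the same for triples. -/
theorem linearIndependent_kron₃ {μ W : Type*} [Finite μ] {e : ι → X → K} {e' : κ → Z → K}
    {e'' : μ → W → K} (he : LinearIndependent K e) (he' : LinearIndependent K e')
    (he'' : LinearIndependent K e'') :
    LinearIndependent K
      (fun (p : ι × κ × μ) (stu : X × Z × W) =>
        e p.1 stu.1 * (e' p.2.1 stu.2.1 * e'' p.2.2 stu.2.2)) := by
  have h2 : LinearIndependent K
      (fun (q : κ × μ) (tu : Z × W) => e' q.1 tu.1 * e'' q.2 tu.2) :=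
    linearIndependent_kron he' he''
  have h3 := linearIndependent_kron (κ := κ × μ) (Z := Z × W) he h2
  exact h3

/-- (3c), zero form: a vanishing double combination of the products has zero coefficients. -/
theorem coeff_eq_zero_of_kron_eq_zero [Fintype ι] [Fintype κ] {e : ι → X → K} {e' : κ → Z → K}
    (he : LinearIndependent K e) (he' : LinearIndependent K e') (a : ι → κ → K)
    (h : ∀ s t, ∑ j, ∑ k, a j k * (e j s * e' k t) = 0) : a = 0 := by
  have hli := linearIndependent_kron he he'
  rw [Fintype.linearIndependent_iff] at hli
  have h0 := hli (fun p => a p.1 p.2) (by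
    funext st
    simp only [Finset.sum_apply, Pi.smul_apply, smul_eq_mul, Pi.zero_apply]
    rw [Fintype.sum_prod_type]
    exact h st.1 st.2)
  funext j k
  exact h0 (j, k)

/-- (3c): the coefficients of a double combination of the products are unique. -/
theorem coeff_eq_of_kron_eq [Fintype ι] [Fintype κ] {e : ι → X → K} {e' : κ → Z → K}
    (he : LinearIndependent K e) (he' : LinearIndependent K e') (a b : ι → κ → K)
    (h : ∀ s t, ∑ j, ∑ k, a j k * (e j s * e' k t) = ∑ j, ∑ k, b j k * (e j s * e' k t)) :
    a = b := by
  have h0 := coeff_eq_zero_of_kron_eq_zero he he' (a - b) (fun s t => by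
    simp only [Pi.sub_apply, sub_mul, Finset.sum_sub_distrib, h s t, sub_self])
  exact sub_eq_zero.1 h0

end Fermat.Agent.S19x.Alg.Kronecker
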