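/-
P-S19 block B, F5 (helper94), part 3: the rational sub-order of a comultiplication-closed
`D`-stable order is a function-level Hopf order over `ℤ_(ℓ)`.
-/
import Mathlib
import Fermat.Agent.S19x.Alg.DescentSpan
import Fermat.Agent.S19x.Alg.FunOrderAdjoin
import Fermat.Agent.S19x.Alg.Kronecker

set_option autoImplicit false
set_option linter.unusedSectionVars false
set_option linter.unusedVariables false
set_option linter.style.haveILetI false

open scoped Pointwise

noncomputable section

namespace Fermat.Agent.S19x.Alg.Descent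

open Fermat.Agent.S56x.Hens Fermat.Agent.S56x.Flat.InertiaField Fermat.Agent.S19x.Hens
  Fermat.Agent.S19x.Alg.GalSet Fermat.Agent.S19x.Alg.SemilinIndep

local notation "Qbar" => AlgebraicClosure ℚ
local notation "Γℚ" => (AlgebraicClosure ℚ ≃ₐ[ℚ] AlgebraicClosure ℚ)

variable (P : ValuationSubring Qbar) {ℓ : ℕ} (hℓ : ℓ.Prime) (hP : P.LiesOverPrime ℓ)
include hℓ hP

variable {X : Type} [AddCommGroup X] {act : Γℚ → X → X}
variable {Hur : Subalgebra (inertiaInt P) (X → Qbar)}

local notation "Heq" => equivSub P hℓ hP (act := act) Hur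

/-- **Step 5a**: the counit of the rational sub-order has values in `ℤ_(ℓ)`. -/
theorem isCounitClosed_equivSub (hact : IsGalAction act) (hH : IsDStableOrder P ℓ act Hur) :
    FunOrder.IsCounitClosed Heq := by
  rw [FunOrder.isCounitClosed_iff]
  intro f hf
  obtain ⟨r, hr⟩ := exists_ratLocalizedAt_eq_of_fixed P hℓ hP (f 0) (hH.integral f hf.1 0)
    (fun σ => by
      have := hf.2 σ 0
      rw [hact.zero] at this
      exact this.symm)
  exact ⟨r, hr⟩

/-- **Step 5b**: the rational sub-order is closed under the comultiplication. -/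
theorem isDeltaClosed_equivSub [Finite X] (hact : IsGalAction act)
    (hH : IsDStableOrder P ℓ act Hur)
    (hcomul : ∀ f ∈ Hur, ∃ (m : ℕ) (g h : Fin m → X → Qbar), (∀ k, g k ∈ Hur) ∧
      (∀ k, h k ∈ Hur) ∧ ∀ s t, f (s + t) = ∑ k, g k s * h k t) :
    FunOrder.IsDeltaClosed Heq := by
  classical
  obtain ⟨b, hli⟩ := exists_basis_equivSub P hℓ hP hact hH
  rw [FunOrder.isDeltaClosed_iff]
  intro f hf
  obtain ⟨m, g, h, hg, hh, hfgh⟩ := hcomul f hf.1
  choose α hα using fun k => exists_inertiaInt_coeff P hℓ hP hact hH b hli (hg k)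
  choose β hβ using fun k => exists_inertiaInt_coeff P hℓ hP hact hH b hli (hh k)
  set e : Fin (Nat.card X) → X → Qbar := fun i => ((b i : Heq) : X → Qbar) with he
  have heeq : ∀ i, IsEquivariant act (e i) := fun i => (b i).2.2
  set a : Fin (Nat.card X) → Fin (Nat.card X) → Qbar :=
    fun i j => ∑ k, (α k i : Qbar) * (β k j : Qbar) with ha
  have haP : ∀ i j, a i j ∈ P := fun i j =>
    P.sum_mem fun k _ => P.mul_mem _ _ (α k i).2.1 (β k j).2.1
  have hexp : ∀ s t, f (s + t) = ∑ i, ∑ j, a i j * (e i s * e j t) := by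
    intro s t
    rw [hfgh]
    have h1 : ∀ k, g k s = ∑ i, (α k i : Qbar) * e i s := fun k => by
      conv_lhs => rw [hα k]
      rw [sum_smul_fun_apply]
    have h2 : ∀ k, h k t = ∑ j, (β k j : Qbar) * e j t := fun k => by
      conv_lhs => rw [hβ k]
      rw [sum_smul_fun_apply]
    simp_rw [h1, h2, ha, Finset.sum_mul_sum, Finset.sum_mul]
    rw [Finset.sum_comm]
    refine Finset.sum_congr rfl fun i _ => ?_
    rw [Finset.sum_comm]
    refine Finset.sum_congr rfl fun j _ => ?_
    refine Finset.sum_congr rfl fun k _ => ?_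
    ring
  -- the structure constants are Galois-fixed
  have hfix : ∀ (σ : Γℚ) i j, σ (a i j) = a i j := by
    intro σ
    have hkey : ∀ s t, ∑ i, ∑ j, σ (a i j) * (e i s * e j t) =
        ∑ i, ∑ j, a i j * (e i s * e j t) := by
      intro s t
      have hs : ∀ i, e i s = σ (e i (act σ⁻¹ s)) := fun i => by
        rw [← heeq i σ, hact.act_inv]
      have ht : ∀ i, e i t = σ (e i (act σ⁻¹ t)) := fun i => by
        rw [← heeq i σ, hact.act_inv]
      have h3 : ∑ i, ∑ j, σ (a i j) * (e i s * e j t) =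
          σ (f (act σ⁻¹ s + act σ⁻¹ t)) := by
        rw [hexp, map_sum]
        refine Finset.sum_congr rfl fun i _ => ?_
        rw [map_sum]
        refine Finset.sum_congr rfl fun j _ => ?_
        rw [map_mul, map_mul, ← hs i, ← ht j]
      rw [h3, ← hact.add, ← hf.2 σ, hact.act_inv, hexp]
    have h1 := Kronecker.coeff_eq_of_kron_eq hli hli (fun i j => σ (a i j)) a hkey
    intro i j
    exact congrFun (congrFun h1 i) j
  choose r hr using fun i j =>
    exists_ratLocalizedAt_eq_of_fixed P hℓ hP (a i j) (haP i j) (fun σ => hfix σ i j)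
  have hmem := FunOrder.sum_box_mem_boxProd (R := GaloisRep.ratLocalizedAt ℓ) (Om := Qbar)
    (H := Heq) (K := Heq)
    (Finset.univ : Finset (Fin (Nat.card X) × Fin (Nat.card X)))
    (fun p => r p.1 p.2 • e p.1) (fun p => e p.2)
    (fun p _ => Subalgebra.smul_mem _ (b p.1).2 _) (fun p _ => (b p.2).2)
  have heq : (fun st : X × X => f (st.1 + st.2)) =
      fun xy : X × X => ∑ p : Fin (Nat.card X) × Fin (Nat.card X),
        (r p.1 p.2 • e p.1) xy.1 * e p.2 xy.2 := by
    funext st
    rw [hexp, Fintype.sum_prod_type]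
    refine Finset.sum_congr rfl fun i _ => ?_
    refine Finset.sum_congr rfl fun j _ => ?_
    rw [Pi.smul_apply, Algebra.smul_def, hr i j]
    ring
  rw [heq]
  exact hmem

/-- **Step 5**: the rational sub-order is a function-level Hopf order over `ℤ_(ℓ)`. -/
theorem isFunHopfOrder_equivSub [Finite X] (hact : IsGalAction act)
    (hH : IsDStableOrder P ℓ act Hur)
    (hcomul : ∀ f ∈ Hur, ∃ (m : ℕ) (g h : Fin m → X → Qbar), (∀ k, g k ∈ Hur) ∧
      (∀ k, h k ∈ Hur) ∧ ∀ s t, f (s + t) = ∑ k, g k s * h k t) :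
    FunOrder.IsFunHopfOrder Heq :=
  FunOrder.IsFunHopfOrder.of_delta_counit (isDeltaClosed_equivSub P hℓ hP hact hH hcomul)
    (isCounitClosed_equivSub P hℓ hP hact hH)

end Fermat.Agent.S19x.Alg.Descent
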