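import Fermat.Agent.S19x.Alg.LocalGensOfChart
import Fermat.Agent.S19x.HopfOrderFF

/-!
# P-S19, block B: final assembly `ChartToFFPoints`, modulo the two open leaves of block B

Block B is the chain

  `LocalChartData ℓ P X act`
    ──(F3b, `OfChart.localGens_of_chart`, uses (F3a) `OfChart.ConductorStatement ℓ P`)──▶
  `Alg.LocalGens P act`
    ──(F4+F5, `OrderOfGensStatement` below)──▶
  a `ℤ_(ℓ)`-subalgebra `H` of `X → ℚ̄` which is a function-level Hopf order, free on `|X|`
  `ℚ̄`-independent `G_ℚ`-equivariant functions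
    ──(HO, `HopfOrderFF.isFFPoints_of_funHopfOrder`)──▶
  `IsFFPoints ℓ X act`.

This file fixes the literal statement of the (F4+F5) leaf (`OrderOfGensStatement`) and proves the
target `S19x.ChartToFFPoints` of block B from the two leaves (`chartToFFPoints_of_leaves`).
-/

set_option autoImplicit false

noncomputable section

namespace Fermat.Agent.S19x.Alg

open Fermat.Agent.S56x.Flat.InertiaField Fermat.Agent.S19x
open Fermat.Agent.S19x.Alg.FunOrder

local notation "Qbar" => AlgebraicClosure ℚ
local notation "Γℚ" => (AlgebraicClosure ℚ ≃ₐ[ℚ] AlgebraicClosure ℚ)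

/-- **Leaf (F4+F5)**: from local generators (an `O^ur`-order of inertia-equivariant functions, with
comultiplication) to a global Hopf order over `ℤ_(ℓ)` of `G_ℚ`-equivariant functions, free of rank
`|X|` on a `ℚ̄`-independent basis.  This is exactly the input of
`HopfOrderFF.isFFPoints_of_funHopfOrder`. -/
def OrderOfGensStatement : Prop :=
  ∀ (ℓ : ℕ) [Fact ℓ.Prime] (P : ValuationSubring Qbar), P.LiesOverPrime ℓ →
    ∀ (X : Type) [AddCommGroup X] [Finite X] (act : Γℚ → X → X),
      (∀ σ x y, act σ (x + y) = act σ x + act σ y) → (∀ x, act 1 x = x) →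
      (∀ σ τ x, act (σ * τ) x = act σ (act τ x)) →
      (∀ x, ∃ L : IntermediateField ℚ Qbar, FiniteDimensional ℚ L ∧
        ∀ σ : Γℚ, (∀ a ∈ L, σ a = a) → act σ x = x) →
      ∀ G : LocalGens P act, G.gens.Finite →
      ∃ (H : Subalgebra (GaloisRep.ratLocalizedAt ℓ) (X → Qbar)) (κ : Type) (_ : Fintype κ)
        (b : Module.Basis κ (GaloisRep.ratLocalizedAt ℓ) H),
        IsFunHopfOrder H ∧
        LinearIndependent Qbar (fun i => ((b i : H) : X → Qbar)) ∧
        Fintype.card κ = Nat.card X ∧
        ∀ f ∈ H, ∀ (σ : Γℚ) (t : X), f (act σ t) = σ (f t)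

/-- **Leaf (F3a)** for all primes. -/
def ConductorStatementAll : Prop :=
  ∀ (ℓ : ℕ) [Fact ℓ.Prime] (P : ValuationSubring Qbar), P.LiesOverPrime ℓ →
    OfChart.ConductorStatement ℓ P

/-- the generators attached to a chart datum are finitely many. -/
theorem OfChart.gens_finite {ℓ : ℕ} {P : ValuationSubring Qbar} {X : Type} [AddCommGroup X]
    [Finite X] {act : Γℚ → X → X} (C : LocalChartData ℓ P X act) : (OfChart.gens C).Finite := by
  classical
  refine Set.Finite.union ?_ ?_
  · exact (Set.finite_range (OfChart.ind C)).subset fun f ⟨c, h⟩ => ⟨c, h.symm⟩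
  · exact (Set.finite_range fun p : X × Fin C.g => OfChart.cfun C p.1 p.2).subset
      fun f ⟨c, i, h⟩ => ⟨(c, i), h.symm⟩

/-- **(F3)**, with the finiteness of the set of generators recorded. -/
theorem OfChart.exists_localGens_finite {ℓ : ℕ} {P : ValuationSubring Qbar} {X : Type}
    [AddCommGroup X] [Finite X] {act : Γℚ → X → X} (C : LocalChartData ℓ P X act)
    (hadd : ∀ σ x y, act σ (x + y) = act σ x + act σ y) (h1 : ∀ x, act 1 x = x)
    (hmul : ∀ σ τ x, act (σ * τ) x = act σ (act τ x))
    (hcond : OfChart.ConductorStatement ℓ P) (hℓ0 : ℓ ≠ 0) :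
    ∃ G : LocalGens P act, G.gens.Finite := by
  refine ⟨⟨OfChart.gens C, OfChart.gens_isEqv C, OfChart.gens_integral C,
    OfChart.gens_separating C, ?_⟩, OfChart.gens_finite C⟩
  rintro f (⟨c, rfl⟩ | ⟨c, i, rfl⟩)
  · exact OfChart.exists_fin_of_mem_prodAlg (OfChart.ind_comul C c)
  · exact OfChart.exists_fin_of_mem_prodAlg (OfChart.cfun_comul C hadd h1 hmul hcond hℓ0 c i)

/-- **Block B, assembled**: the two leaves give the target of block B. -/
theorem chartToFFPoints_of_leaves (h3a : ConductorStatementAll) (h45 : OrderOfGensStatement) :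
    ChartToFFPoints := by
  intro ℓ _ P hP X _ _ act hadd h1 hmul hopen C
  obtain ⟨G, hfin⟩ := OfChart.exists_localGens_finite C hadd h1 hmul (h3a ℓ P hP)
    (Fact.out : ℓ.Prime).ne_zero
  obtain ⟨H, κ, _, b, hH, hli, hcard, hequiv⟩ := h45 ℓ P hP X act hadd h1 hmul hopen G hfin
  exact HopfOrderFF.isFFPoints_of_funHopfOrder ℓ act H hH b hli hcard hequiv

end Fermat.Agent.S19x.Alg
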