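/-
P-S19 block B, leaf (F4+F5) (helper94): `OrderOfGensStatement` (the literal statement fixed in
`S19x/Alg/Main.lean`) is a theorem.

From local generators `G : LocalGens P act` we form helper19's compositum
`Compositum.Hur P act G.gens` of all decomposition-group conjugates (an `O^ur`-order of
inertia-equivariant `P`-valued functions, `D`-stable, closed under the comultiplication, of finite
index in the maximal order by the conductor lemma `ConductorQbar.exists_pow_smul_mem_qbar`), and
take its `G_ℚ`-equivariant part `Descent.equivSub`: it is free over `ℤ_(ℓ)` on `|X|`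
`ℚ̄`-independent functions (`Descent.exists_basis_equivSub`) and a function-level Hopf order
(`Descent.isFunHopfOrder_equivSub`).
-/
import Mathlib
import Fermat.Agent.S19x.Alg.Main
import Fermat.Agent.S19x.Alg.DescentHopf
import Fermat.Agent.S19x.Alg.Compositum
import Fermat.Agent.S19x.Alg.ConductorQbar

set_option autoImplicit false
set_option linter.unusedSectionVars false
set_option linter.unusedVariables false
set_option linter.style.haveILetI false

noncomputable section

namespace Fermat.Agent.S19x.Alg.OrderOfGens

open Fermat.Agent.S56x.Flat.InertiaField Fermat.Agent.S19x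
open Fermat.Agent.S19x.Alg.FunOrder Fermat.Agent.S19x.Alg.GalSet Fermat.Agent.S19x.Alg.Descent

local notation "Qbar" => AlgebraicClosure ℚ
local notation "Γℚ" => (AlgebraicClosure ℚ ≃ₐ[ℚ] AlgebraicClosure ℚ)

/-- pointwise finite levels on a finite set give a global finite level. -/
theorem exists_global_level {X : Type} [Finite X] (act : Γℚ → X → X)
    (hopen : ∀ x, ∃ L : IntermediateField ℚ Qbar, FiniteDimensional ℚ L ∧
      ∀ σ : Γℚ, (∀ a ∈ L, σ a = a) → act σ x = x) :
    ∃ L : IntermediateField ℚ Qbar, FiniteDimensional ℚ L ∧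
      ∀ σ : Γℚ, (∀ a ∈ L, σ a = a) → ∀ t, act σ t = t := by
  choose L hLfin hL using hopen
  haveI : ∀ x, FiniteDimensional ℚ (L x) := hLfin
  refine ⟨⨆ x, L x, IntermediateField.finiteDimensional_iSup_of_finite, fun σ hσ t => ?_⟩
  exact hL t σ fun a ha => hσ a (le_iSup L t ha)

/-- the hypotheses of `OrderOfGensStatement` make `act` a Galois action in the sense of
`GalSet`. -/
theorem isGalAction_of {X : Type} [AddCommGroup X] [Finite X] (act : Γℚ → X → X)
    (hadd : ∀ σ x y, act σ (x + y) = act σ x + act σ y) (h1 : ∀ x, act 1 x = x)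
    (hmul : ∀ σ τ x, act (σ * τ) x = act σ (act τ x))
    (hopen : ∀ x, ∃ L : IntermediateField ℚ Qbar, FiniteDimensional ℚ L ∧
      ∀ σ : Γℚ, (∀ a ∈ L, σ a = a) → act σ x = x) : IsGalAction act :=
  ⟨h1, hmul, hadd, exists_global_level act hopen⟩

/-- helper19's compositum is a `D`-stable order in the sense of `Descent`. -/
theorem isDStableOrder_Hur {ℓ : ℕ} (hℓ : ℓ.Prime) (P : ValuationSubring Qbar)
    (hP : P.LiesOverPrime ℓ) {X : Type} [AddCommGroup X] [Finite X] (act : Γℚ → X → X)
    (h1 : ∀ x, act 1 x = x) (hmul : ∀ σ τ x, act (σ * τ) x = act σ (act τ x))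
    (G : LocalGens P act) :
    IsDStableOrder P ℓ act (Compositum.Hur P act G.gens) where
  inertia := fun f hf =>
    Compositum.Hur_equivariant P act h1 hmul G.equivariant G.integral hf
  integral := fun f hf =>
    Compositum.Hur_integral P act h1 hmul G.equivariant G.integral hf
  stable := fun σ hσ f hf => Compositum.conj_mem_Hur P act hmul hσ hf
  conductor :=
    ConductorQbar.exists_pow_smul_mem_qbar hℓ P hP act h1 hmul (Compositum.Hur P act G.gens)
      (fun f hf => Compositum.Hur_equivariant P act h1 hmul G.equivariant G.integral hf)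
      (fun f hf => Compositum.Hur_integral P act h1 hmul G.equivariant G.integral hf)
      (fun s t hst => by
        obtain ⟨f, hf, hne⟩ := G.separating s t hst
        exact ⟨f, Compositum.subset_Hur P act h1 G.gens hf, hne⟩)

/-- **Leaf (F4+F5) of block B.** -/
theorem orderOfGensStatement : OrderOfGensStatement := by
  intro ℓ _ P hP X _ _ act hadd h1 hmul hopen G _
  have hℓ : ℓ.Prime := Fact.out
  have hact : IsGalAction act := isGalAction_of act hadd h1 hmul hopen
  have hH := isDStableOrder_Hur hℓ P hP act h1 hmul G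
  have hcomul : ∀ f ∈ Compositum.Hur P act G.gens, ∃ (m : ℕ) (g h : Fin m → X → Qbar),
      (∀ k, g k ∈ Compositum.Hur P act G.gens) ∧ (∀ k, h k ∈ Compositum.Hur P act G.gens) ∧
      ∀ s t, f (s + t) = ∑ k, g k s * h k t :=
    fun f hf => Compositum.Hur_comul P act h1 hmul hadd G.comul hf
  obtain ⟨b, hli⟩ := exists_basis_equivSub P hℓ hP hact hH
  exact ⟨equivSub P hℓ hP (act := act) (Compositum.Hur P act G.gens), Fin (Nat.card X),
    inferInstance, b, isFunHopfOrder_equivSub P hℓ hP hact hH hcomul, hli, Fintype.card_fin _,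
    fun f hf σ t => hf.2 σ t⟩

end Fermat.Agent.S19x.Alg.OrderOfGens
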