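/-
P-S19, block B COMPLETE (helper94): `S19x.ChartToFFPoints` is a theorem, from helper35's assembly
`chartToFFPoints_of_orderOfGens` (`Alg/MainF3.lean`) and the leaf (F4+F5)
`OrderOfGens.orderOfGensStatement` (`Alg/OrderOfGens.lean`).
-/
import Fermat.Agent.S19x.Alg.MainF3
import Fermat.Agent.S19x.Alg.OrderOfGens

set_option autoImplicit false

namespace Fermat.Agent.S19x.Alg.OrderOfGens

/-- **Block B of P-S19**: a local chart datum gives a finite flat model. -/
theorem chartToFFPoints : Fermat.Agent.S19x.ChartToFFPoints :=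
  Fermat.Agent.S19x.Alg.chartToFFPoints_of_orderOfGens orderOfGensStatement

end Fermat.Agent.S19x.Alg.OrderOfGens
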