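/-
P-S19, BLOCK A, bookkeeping for leaf (L8) (helper25): from TWO applications of the Residual
Theorem to ONE polynomial approximation of the group law.

Generic setting: `K` a commutative ring (think `ℚ̄`), `P` a subring-like subset of `K` (think a
valuation subring), `O : Subring K` with `O ⊆ P` (think `O^ur = inertiaInt P`).
`DivIn P t a` means `a ∈ t • P`.

* Part (a), universal coefficients.  `paramPoly O ρ e = ρ + ∑_l X_(e l) T^l` as a polynomial in
  `T` over `MvPolynomial σ O`; `coeffDiff q l = coeff_l q - coeff_l (q at 0)`: the coefficients of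
  a product of monic polynomials with parameter vectors, minus their values at parameter `0`, are
  the values of FIXED polynomials without constant term over `O` in the parameters.
* Part (b), Lipschitz and composition.  Polynomials over `O` are `1`-Lipschitz modulo `c • P`
  (`divIn_aeval_sub_aeval`), map `t • P` to `t • P` when they have no constant term
  (`divIn_aeval_of_constantCoeff_eq_zero`), and two approximations modulo `t ^ (n + 1) • P`
  compose (`two_stage`).
-/
import Mathlib

set_option autoImplicit false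
set_option linter.unusedSectionVars false

noncomputable section

namespace Fermat.Agent.S19x.Alg.ApproxCompose

variable {K : Type*} [CommRing K] {S : Type*} [SetLike S K] [SubringClass S K] (P : S)
  (O : Subring K)

/-- `a ∈ t • P`. -/
def DivIn (t a : K) : Prop := ∃ w ∈ P, a = t * w

theorem divIn_iff {t a : K} : DivIn P t a ↔ ∃ w ∈ P, a = t * w := Iff.rfl

variable {P}

theorem DivIn.zero (t : K) : DivIn P t 0 := ⟨0, zero_mem P, (mul_zero t).symm⟩

theorem DivIn.add {t a b : K} (ha : DivIn P t a) (hb : DivIn P t b) : DivIn P t (a + b) := by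
  obtain ⟨u, hu, rfl⟩ := ha
  obtain ⟨v, hv, rfl⟩ := hb
  exact ⟨u + v, add_mem hu hv, (mul_add t u v).symm⟩

theorem DivIn.neg {t a : K} (ha : DivIn P t a) : DivIn P t (-a) := by
  obtain ⟨u, hu, rfl⟩ := ha
  exact ⟨-u, neg_mem hu, (mul_neg t u).symm⟩

theorem DivIn.sub {t a b : K} (ha : DivIn P t a) (hb : DivIn P t b) : DivIn P t (a - b) := by
  rw [sub_eq_add_neg]
  exact ha.add hb.neg

theorem DivIn.mul_right {t a b : K} (ha : DivIn P t a) (hb : b ∈ P) : DivIn P t (a * b) := by
  obtain ⟨u, hu, rfl⟩ := ha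
  exact ⟨u * b, mul_mem hu hb, mul_assoc t u b⟩

theorem DivIn.mul_left {t a b : K} (ha : DivIn P t a) (hb : b ∈ P) : DivIn P t (b * a) := by
  rw [mul_comm]
  exact ha.mul_right hb

theorem DivIn.mem {t a : K} (ht : t ∈ P) (ha : DivIn P t a) : a ∈ P := by
  obtain ⟨u, hu, rfl⟩ := ha
  exact mul_mem ht hu

theorem DivIn.sum {ι : Type*} (s : Finset ι) {t : K} {a : ι → K}
    (h : ∀ i ∈ s, DivIn P t (a i)) : DivIn P t (∑ i ∈ s, a i) := by
  classical
  induction s using Finset.induction_on with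
  | empty => rw [Finset.sum_empty]; exact DivIn.zero t
  | insert i s hi ih =>
    rw [Finset.sum_insert hi]
    exact (h i (Finset.mem_insert_self i s)).add
      (ih fun j hj => h j (Finset.mem_insert_of_mem hj))

/-- `t ^ (n + 1) • P ⊆ t • P`. -/
theorem DivIn.of_pow_succ {t a : K} (ht : t ∈ P) {n : ℕ} (ha : DivIn P (t ^ (n + 1)) a) :
    DivIn P t a := by
  obtain ⟨u, hu, rfl⟩ := ha
  exact ⟨t ^ n * u, mul_mem (pow_mem ht n) hu, by rw [pow_succ]; ring⟩

/-- `t ^ m • P ⊆ t ^ n • P` for `n ≤ m`. -/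
theorem DivIn.of_pow_le {t a : K} (ht : t ∈ P) {n m : ℕ} (hnm : n ≤ m)
    (ha : DivIn P (t ^ m) a) : DivIn P (t ^ n) a := by
  obtain ⟨u, hu, rfl⟩ := ha
  obtain ⟨k, rfl⟩ := Nat.exists_eq_add_of_le hnm
  exact ⟨t ^ k * u, mul_mem (pow_mem ht k) hu, by rw [pow_add]; ring⟩

/-! ### Part (b): Lipschitz and composition -/

section Lipschitz

variable {O} {σ : Type*}

/-- Polynomials over `O ⊆ P` map `P`-points to `P`. -/
theorem aeval_mem (hOP : ∀ a ∈ O, a ∈ P) (F : MvPolynomial σ O) {x : σ → K}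
    (hx : ∀ s, x s ∈ P) : MvPolynomial.aeval x F ∈ P := by
  induction F using MvPolynomial.induction_on with
  | C a =>
    rw [MvPolynomial.aeval_C]
    exact hOP _ a.2
  | add p q hp hq =>
    rw [map_add]
    exact add_mem hp hq
  | mul_X p s hp =>
    rw [map_mul, MvPolynomial.aeval_X]
    exact mul_mem hp (hx s)

/-- **Lipschitz**: polynomials over `O ⊆ P` respect congruences modulo `c • P` between
`P`-points. -/
theorem divIn_aeval_sub_aeval (hOP : ∀ a ∈ O, a ∈ P) (F : MvPolynomial σ O) {c : K}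
    {x y : σ → K} (hx : ∀ s, x s ∈ P) (hy : ∀ s, y s ∈ P)
    (hxy : ∀ s, DivIn P c (x s - y s)) :
    DivIn P c (MvPolynomial.aeval x F - MvPolynomial.aeval y F) := by
  induction F using MvPolynomial.induction_on with
  | C a =>
    rw [MvPolynomial.aeval_C, MvPolynomial.aeval_C, sub_self]
    exact DivIn.zero c
  | add p q hp hq =>
    rw [map_add, map_add]
    have h : MvPolynomial.aeval x p + MvPolynomial.aeval x q
        - (MvPolynomial.aeval y p + MvPolynomial.aeval y q)
        = (MvPolynomial.aeval x p - MvPolynomial.aeval y p)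
          + (MvPolynomial.aeval x q - MvPolynomial.aeval y q) := by ring
    rw [h]
    exact hp.add hq
  | mul_X p s hp =>
    rw [map_mul, map_mul, MvPolynomial.aeval_X, MvPolynomial.aeval_X]
    have h : MvPolynomial.aeval x p * x s - MvPolynomial.aeval y p * y s
        = (MvPolynomial.aeval x p - MvPolynomial.aeval y p) * x s
          + (x s - y s) * MvPolynomial.aeval y p := by ring
    rw [h]
    exact (hp.mul_right (hx s)).add ((hxy s).mul_right (aeval_mem hOP p hy))

/-- Polynomials over `O ⊆ P` without constant term map `t • P`-points to `t • P`. -/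
theorem divIn_aeval_of_constantCoeff_eq_zero (hOP : ∀ a ∈ O, a ∈ P) (F : MvPolynomial σ O)
    (hF : MvPolynomial.constantCoeff F = 0) {t : K} (ht : t ∈ P) {x : σ → K}
    (hx : ∀ s, DivIn P t (x s)) : DivIn P t (MvPolynomial.aeval x F) := by
  have h0 : MvPolynomial.aeval (0 : σ → K) F = 0 := by
    rw [MvPolynomial.aeval_zero, hF, map_zero]
  have h := divIn_aeval_sub_aeval hOP F (c := t) (x := x) (y := 0)
    (fun s => (hx s).mem ht) (fun _ => zero_mem P)
    (fun s => by rw [Pi.zero_apply, sub_zero]; exact hx s)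
  rw [h0, sub_zero] at h
  exact h

/-- If `b ≡ F(a)` modulo `t ^ (n + 1) • P`, `a ∈ t • P` and `F` has no constant term then
`b ∈ t • P`. -/
theorem divIn_of_approx (hOP : ∀ a ∈ O, a ∈ P) (F : MvPolynomial σ O)
    (hF : MvPolynomial.constantCoeff F = 0) {t : K} (ht : t ∈ P) {n : ℕ} {a : σ → K}
    (ha : ∀ s, DivIn P t (a s)) {b : K}
    (hb : DivIn P (t ^ (n + 1)) (b - MvPolynomial.aeval a F)) : DivIn P t b := by
  have h := (hb.of_pow_succ ht).add (divIn_aeval_of_constantCoeff_eq_zero hOP F hF ht ha)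
  rwa [sub_add_cancel] at h

/-- **Composition of an approximation with a polynomial**: if `b ≡ F(x)` modulo `c • P`
(componentwise) then `G(b) ≡ (G ∘ F)(x)` modulo `c • P`. -/
theorem divIn_aeval_sub_aeval_bind₁ {υ : Type*} (hOP : ∀ a ∈ O, a ∈ P)
    (F : υ → MvPolynomial σ O) (G : MvPolynomial υ O) {c : K} {x : σ → K} (hx : ∀ s, x s ∈ P)
    {b : υ → K} (hb : ∀ j, b j ∈ P)
    (hbF : ∀ j, DivIn P c (b j - MvPolynomial.aeval x (F j))) :
    DivIn P c (MvPolynomial.aeval b G - MvPolynomial.aeval x (MvPolynomial.bind₁ F G)) := by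
  rw [MvPolynomial.aeval_bind₁]
  exact divIn_aeval_sub_aeval hOP G hb (fun j => aeval_mem hOP (F j) hx) hbF

/-- **Two-stage composition** (pointwise form).  `x` are the input coordinates, all in `t • P`;
`a₁ = A₁(x)` the parameters of the first stage, `b ≡ Θ₁(a₁)` its output, `a₂ = A₂(b)` the
parameters of the second stage, `c ≡ Θ₂(a₂)` its output, all congruences modulo
`t ^ (n + 1) • P`; `A₁`, `Θ₁`, `A₂` without constant term.  Each stage is only required to hold
when its parameters lie in `t • P`.  Then `c ≡ (Θ₂ ∘ A₂ ∘ Θ₁ ∘ A₁)(x)`. -/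
theorem two_stage {τ₁ υ τ₂ : Type*} (hOP : ∀ a ∈ O, a ∈ P)
    (A₁ : τ₁ → MvPolynomial σ O) (hA₁ : ∀ l, MvPolynomial.constantCoeff (A₁ l) = 0)
    (Θ₁ : υ → MvPolynomial τ₁ O) (hΘ₁ : ∀ j, MvPolynomial.constantCoeff (Θ₁ j) = 0)
    (A₂ : τ₂ → MvPolynomial υ O) (hA₂ : ∀ l, MvPolynomial.constantCoeff (A₂ l) = 0)
    (Θ₂ : MvPolynomial τ₂ O) {t : K} (ht : t ∈ P) (n : ℕ)
    {x : σ → K} (hx : ∀ s, DivIn P t (x s))
    {b : υ → K}
    (hb : (∀ l, DivIn P t (MvPolynomial.aeval x (A₁ l))) →
      ∀ j, DivIn P (t ^ (n + 1))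
        (b j - MvPolynomial.aeval (fun l => MvPolynomial.aeval x (A₁ l)) (Θ₁ j)))
    {c : K}
    (hc : (∀ l, DivIn P t (MvPolynomial.aeval b (A₂ l))) →
      DivIn P (t ^ (n + 1))
        (c - MvPolynomial.aeval (fun l => MvPolynomial.aeval b (A₂ l)) Θ₂)) :
    DivIn P (t ^ (n + 1))
      (c - MvPolynomial.aeval x
        (MvPolynomial.bind₁ A₁ (MvPolynomial.bind₁ Θ₁ (MvPolynomial.bind₁ A₂ Θ₂)))) := by
  have hxP : ∀ s, x s ∈ P := fun s => (hx s).mem ht
  -- stage one
  have ha₁ : ∀ l, DivIn P t (MvPolynomial.aeval x (A₁ l)) := fun l =>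
    divIn_aeval_of_constantCoeff_eq_zero hOP (A₁ l) (hA₁ l) ht hx
  have hb' := hb ha₁
  have hbt : ∀ j, DivIn P t (b j) := fun j =>
    divIn_of_approx hOP (Θ₁ j) (hΘ₁ j) ht ha₁ (hb' j)
  have hbP : ∀ j, b j ∈ P := fun j => (hbt j).mem ht
  -- stage two
  have ha₂ : ∀ l, DivIn P t (MvPolynomial.aeval b (A₂ l)) := fun l =>
    divIn_aeval_of_constantCoeff_eq_zero hOP (A₂ l) (hA₂ l) ht hbt
  have hc' := hc ha₂
  -- rewrite everything as polynomials in `b`, then in `x`
  have e₂ : MvPolynomial.aeval (fun l => MvPolynomial.aeval b (A₂ l)) Θ₂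
      = MvPolynomial.aeval b (MvPolynomial.bind₁ A₂ Θ₂) := by
    rw [MvPolynomial.aeval_bind₁]
  have hb'' : ∀ j, DivIn P (t ^ (n + 1))
      (b j - MvPolynomial.aeval x (MvPolynomial.bind₁ A₁ (Θ₁ j))) := by
    intro j
    rw [MvPolynomial.aeval_bind₁]
    exact hb' j
  have e₁ : MvPolynomial.bind₁ A₁ (MvPolynomial.bind₁ Θ₁ (MvPolynomial.bind₁ A₂ Θ₂))
      = MvPolynomial.bind₁ (fun j => MvPolynomial.bind₁ A₁ (Θ₁ j)) (MvPolynomial.bind₁ A₂ Θ₂) := by
    rw [MvPolynomial.bind₁_bind₁]
  have hstep := divIn_aeval_sub_aeval_bind₁ hOP (fun j => MvPolynomial.bind₁ A₁ (Θ₁ j))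
    (MvPolynomial.bind₁ A₂ Θ₂) (c := t ^ (n + 1)) hxP hbP hb''
  rw [e₂] at hc'
  rw [e₁]
  have h := hc'.add hstep
  rwa [sub_add_sub_cancel] at h

end Lipschitz

/-! ### Part (a): universal coefficient polynomials -/

section Universal

open Polynomial

variable {σ : Type*}

/-- `ρ + ∑_l X_(e l) T ^ l`: the polynomial `ρ` with its lower coefficients perturbed by the
parameters `X_(e l)`, as a polynomial in `T` over the parameter ring. -/
def paramPoly {g : ℕ} (ρ : O[X]) (e : Fin g → σ) : (MvPolynomial σ O)[X] :=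
  ρ.map (MvPolynomial.C : O →+* MvPolynomial σ O)
    + ∑ l : Fin g, Polynomial.C (MvPolynomial.X (e l)) * Polynomial.X ^ (l : ℕ)

/-- Specialising the parameters. -/
theorem map_aeval_paramPoly {g : ℕ} (ρ : O[X]) (e : Fin g → σ) (x : σ → K) :
    (paramPoly O ρ e).map (MvPolynomial.aeval x : MvPolynomial σ O →ₐ[O] K).toRingHom
      = ρ.map (algebraMap O K)
        + ∑ l : Fin g, Polynomial.C (x (e l)) * Polynomial.X ^ (l : ℕ) := by
  unfold paramPoly
  rw [Polynomial.map_add, Polynomial.map_map, Polynomial.map_sum]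
  congr 1
  · congr 1
    ext a
    simp
  · refine Finset.sum_congr rfl fun l _ => ?_
    rw [Polynomial.map_mul, Polynomial.map_pow, Polynomial.map_X, Polynomial.map_C]
    simp

/-- At parameter `0` one recovers `ρ`. -/
theorem map_constantCoeff_paramPoly {g : ℕ} (ρ : O[X]) (e : Fin g → σ) :
    (paramPoly O ρ e).map (MvPolynomial.constantCoeff : MvPolynomial σ O →+* O) = ρ := by
  unfold paramPoly
  rw [Polynomial.map_add, Polynomial.map_map, Polynomial.map_sum]
  have h1 : (MvPolynomial.constantCoeff : MvPolynomial σ O →+* O).comp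
      (MvPolynomial.C : O →+* MvPolynomial σ O) = RingHom.id O := by
    ext a
    simp
  have h2 : ∀ l : Fin g, (Polynomial.C (MvPolynomial.X (e l) : MvPolynomial σ O)
      * Polynomial.X ^ (l : ℕ)).map (MvPolynomial.constantCoeff : MvPolynomial σ O →+* O) = 0 := by
    intro l
    rw [Polynomial.map_mul, Polynomial.map_C, MvPolynomial.constantCoeff_X, map_zero, zero_mul]
  rw [h1, Polynomial.map_id, Finset.sum_congr rfl fun l _ => h2 l, Finset.sum_const_zero,
    add_zero]

/-- The `l`-th coefficient of `q` minus its value at parameter `0`. -/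
def coeffDiff (q : (MvPolynomial σ O)[X]) (l : ℕ) : MvPolynomial σ O :=
  q.coeff l - MvPolynomial.C
    ((q.map (MvPolynomial.constantCoeff : MvPolynomial σ O →+* O)).coeff l)

theorem constantCoeff_coeffDiff (q : (MvPolynomial σ O)[X]) (l : ℕ) :
    MvPolynomial.constantCoeff (coeffDiff O q l) = 0 := by
  unfold coeffDiff
  rw [map_sub, MvPolynomial.constantCoeff_C, Polynomial.coeff_map, sub_self]

/-- The value of `coeffDiff q l` at `x` is the difference of the `l`-th coefficients of `q`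
specialised at `x` and at `0`. -/
theorem aeval_coeffDiff (q : (MvPolynomial σ O)[X]) (l : ℕ) (x : σ → K) :
    MvPolynomial.aeval x (coeffDiff O q l)
      = (q.map (MvPolynomial.aeval x : MvPolynomial σ O →ₐ[O] K).toRingHom).coeff l
        - algebraMap O K
          ((q.map (MvPolynomial.constantCoeff : MvPolynomial σ O →+* O)).coeff l) := by
  unfold coeffDiff
  rw [map_sub, MvPolynomial.aeval_C, Polynomial.coeff_map, Polynomial.coeff_map]
  rfl

end Universal

end Fermat.Agent.S19x.Alg.ApproxCompose
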