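/-
P-S19, BLOCK A, bookkeeping for leaf (L8) (helper25), continuation of `Alg/ApproxCompose.lean`:
the two CONCRETE parameter maps of the two-step sum.

`O : Subring K`.  For `rC rD : O[X]` (think `ρ_{C₀}`, `ρ_{D₀}`) and parameter vectors
`x y d : Fin g → K` (think `X₀(x)`, `X₀(y)`, `X₀(δ)`):

* stage 1: `A1 O rC rD l` is a polynomial without constant term over `O` in the `3g` parameters
  whose value is `coeff_l (ρ_C (ρ_D + x)(ρ_D + y)(ρ_D + d)) - coeff_l (ρ_C ρ_D ^ 3)`, where
  `ρ_D + x := ρ_D + ∑_i x_i T ^ i`;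
* stage 2: `A2 O rC rD l` is a polynomial without constant term over `O` in `g` parameters whose
  value is `coeff_l (ρ_C (ρ_D + b)) - coeff_l (ρ_C ρ_D)`.
-/
import Fermat.Agent.S19x.Alg.ApproxCompose

set_option autoImplicit false
set_option linter.unusedSectionVars false

noncomputable section

namespace Fermat.Agent.S19x.Alg.ApproxStages

open Polynomial Fermat.Agent.S19x.Alg.ApproxCompose

variable {K : Type*} [CommRing K] (O : Subring K) {g : ℕ}

/-- `ρ + ∑_i x_i T ^ i` over `K`. -/
def perturb (ρ : K[X]) (x : Fin g → K) : K[X] :=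
  ρ + ∑ i : Fin g, Polynomial.C (x i) * Polynomial.X ^ (i : ℕ)

theorem perturb_zero (ρ : K[X]) : perturb ρ (0 : Fin g → K) = ρ := by
  unfold perturb
  simp

/-- the coefficients of `perturb ρ x` -/
theorem coeff_perturb (ρ : K[X]) (x : Fin g → K) (l : ℕ) :
    (perturb ρ x).coeff l = ρ.coeff l + if h : l < g then x ⟨l, h⟩ else 0 := by
  unfold perturb
  rw [Polynomial.coeff_add, Polynomial.finsetSum_coeff]
  congr 1
  simp only [Polynomial.coeff_C_mul, Polynomial.coeff_X_pow]
  by_cases h : l < g
  · rw [dif_pos h, Finset.sum_eq_single (⟨l, h⟩ : Fin g)]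
    · simp
    · intro b _ hb
      have : l ≠ (b : ℕ) := fun e => hb (Fin.ext e.symm)
      simp [this]
    · intro h'
      exact absurd (Finset.mem_univ _) h'
  · rw [dif_neg h]
    refine Finset.sum_eq_zero fun b _ => ?_
    have : l ≠ (b : ℕ) := fun e => h (e ▸ b.2)
    simp [this]

/-- Two monic polynomials of the same degree `g` differ by the perturbation by the differences
of their lower coefficients. -/
theorem eq_perturb_of_monic {p q : K[X]} (hp : p.Monic) (hq : q.Monic)
    (hpd : p.natDegree = g) (hqd : q.natDegree = g) :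
    p = perturb q (fun i : Fin g => p.coeff i - q.coeff i) := by
  ext l
  rw [coeff_perturb]
  by_cases h : l < g
  · rw [dif_pos h]
    simp
  · rw [dif_neg h, add_zero]
    rcases Nat.lt_or_ge g l with h' | h'
    · rw [Polynomial.coeff_eq_zero_of_natDegree_lt (by omega),
        Polynomial.coeff_eq_zero_of_natDegree_lt (by omega)]
    · have hl : l = g := by omega
      subst hl
      have h1 : p.coeff l = 1 := by
        have := hp.coeff_natDegree
        rwa [hpd] at this
      have h2 : q.coeff l = 1 := by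
        have := hq.coeff_natDegree
        rwa [hqd] at this
      rw [h1, h2]

theorem map_aeval_paramPoly' {σ : Type*} (ρ : O[X]) (e : Fin g → σ) (x : σ → K) :
    (paramPoly O ρ e).map (MvPolynomial.aeval x : MvPolynomial σ O →ₐ[O] K).toRingHom
      = perturb (ρ.map (algebraMap O K)) (fun i => x (e i)) :=
  map_aeval_paramPoly O ρ e x

/-! ### Stage 1 -/

/-- the universal polynomial `ρ_C (ρ_D + X)(ρ_D + Y)(ρ_D + Z)`. -/
def stage1Poly (rC rD : O[X]) : (MvPolynomial (Fin g ⊕ (Fin g ⊕ Fin g)) O)[X] :=
  rC.map (MvPolynomial.C : O →+* MvPolynomial (Fin g ⊕ (Fin g ⊕ Fin g)) O)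
    * paramPoly O rD (fun i : Fin g => (Sum.inl i : Fin g ⊕ (Fin g ⊕ Fin g)))
    * paramPoly O rD (fun i : Fin g => (Sum.inr (Sum.inl i) : Fin g ⊕ (Fin g ⊕ Fin g)))
    * paramPoly O rD (fun i : Fin g => (Sum.inr (Sum.inr i) : Fin g ⊕ (Fin g ⊕ Fin g)))

theorem map_C_comp {σ : Type*} (r : O[X]) (x : σ → K) :
    (r.map (MvPolynomial.C : O →+* MvPolynomial σ O)).map
        (MvPolynomial.aeval x : MvPolynomial σ O →ₐ[O] K).toRingHom
      = r.map (algebraMap O K) := by
  rw [Polynomial.map_map]
  congr 1
  ext a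
  simp

theorem map_C_constantCoeff {σ : Type*} (r : O[X]) :
    (r.map (MvPolynomial.C : O →+* MvPolynomial σ O)).map
        (MvPolynomial.constantCoeff : MvPolynomial σ O →+* O) = r := by
  rw [Polynomial.map_map]
  have h1 : (MvPolynomial.constantCoeff : MvPolynomial σ O →+* O).comp
      (MvPolynomial.C : O →+* MvPolynomial σ O) = RingHom.id O := by
    ext a
    simp
  rw [h1, Polynomial.map_id]

theorem map_aeval_stage1Poly (rC rD : O[X]) (x y d : Fin g → K) :
    (stage1Poly O rC rD).map
        (MvPolynomial.aeval (Sum.elim x (Sum.elim y d)) :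
          MvPolynomial (Fin g ⊕ (Fin g ⊕ Fin g)) O →ₐ[O] K).toRingHom
      = rC.map (algebraMap O K) * perturb (rD.map (algebraMap O K)) x
        * perturb (rD.map (algebraMap O K)) y * perturb (rD.map (algebraMap O K)) d := by
  unfold stage1Poly
  rw [Polynomial.map_mul, Polynomial.map_mul, Polynomial.map_mul, map_C_comp,
    map_aeval_paramPoly', map_aeval_paramPoly', map_aeval_paramPoly']
  rfl

theorem map_constantCoeff_stage1Poly (rC rD : O[X]) :
    (stage1Poly (g := g) O rC rD).map
        (MvPolynomial.constantCoeff : MvPolynomial (Fin g ⊕ (Fin g ⊕ Fin g)) O →+* O)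
      = rC * rD ^ 3 := by
  unfold stage1Poly
  rw [Polynomial.map_mul, Polynomial.map_mul, Polynomial.map_mul, map_C_constantCoeff,
    map_constantCoeff_paramPoly, map_constantCoeff_paramPoly, map_constantCoeff_paramPoly]
  ring

/-- the parameters of stage 1 as polynomials in `(x, y, d)`. -/
def A1 (rC rD : O[X]) (l : ℕ) : MvPolynomial (Fin g ⊕ (Fin g ⊕ Fin g)) O :=
  coeffDiff O (stage1Poly O rC rD) l

theorem constantCoeff_A1 (rC rD : O[X]) (l : ℕ) :
    MvPolynomial.constantCoeff (A1 (g := g) O rC rD l) = 0 :=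
  constantCoeff_coeffDiff O _ l

/-- **Stage 1 parameters.** -/
theorem aeval_A1 (rC rD : O[X]) (l : ℕ) (x y d : Fin g → K) :
    MvPolynomial.aeval (Sum.elim x (Sum.elim y d)) (A1 O rC rD l)
      = (rC.map (algebraMap O K) * perturb (rD.map (algebraMap O K)) x
          * perturb (rD.map (algebraMap O K)) y * perturb (rD.map (algebraMap O K)) d).coeff l
        - (rC.map (algebraMap O K) * rD.map (algebraMap O K) ^ 3).coeff l := by
  unfold A1
  rw [aeval_coeffDiff, map_aeval_stage1Poly, map_constantCoeff_stage1Poly,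
    ← Polynomial.coeff_map, Polynomial.map_mul, Polynomial.map_pow]

/-! ### Stage 2 -/

/-- the universal polynomial `ρ_C (ρ_D + X)`. -/
def stage2Poly (rC rD : O[X]) : (MvPolynomial (Fin g) O)[X] :=
  rC.map (MvPolynomial.C : O →+* MvPolynomial (Fin g) O)
    * paramPoly O rD (fun i : Fin g => i)

theorem map_aeval_stage2Poly (rC rD : O[X]) (b : Fin g → K) :
    (stage2Poly O rC rD).map
        (MvPolynomial.aeval b : MvPolynomial (Fin g) O →ₐ[O] K).toRingHom
      = rC.map (algebraMap O K) * perturb (rD.map (algebraMap O K)) b := by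
  unfold stage2Poly
  rw [Polynomial.map_mul, map_C_comp, map_aeval_paramPoly']

theorem map_constantCoeff_stage2Poly (rC rD : O[X]) :
    (stage2Poly (g := g) O rC rD).map
        (MvPolynomial.constantCoeff : MvPolynomial (Fin g) O →+* O)
      = rC * rD := by
  unfold stage2Poly
  rw [Polynomial.map_mul, map_C_constantCoeff, map_constantCoeff_paramPoly]

/-- the parameters of stage 2 as polynomials in `b`. -/
def A2 (rC rD : O[X]) (l : ℕ) : MvPolynomial (Fin g) O :=
  coeffDiff O (stage2Poly O rC rD) l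

theorem constantCoeff_A2 (rC rD : O[X]) (l : ℕ) :
    MvPolynomial.constantCoeff (A2 (g := g) O rC rD l) = 0 :=
  constantCoeff_coeffDiff O _ l

/-- **Stage 2 parameters.** -/
theorem aeval_A2 (rC rD : O[X]) (l : ℕ) (b : Fin g → K) :
    MvPolynomial.aeval b (A2 O rC rD l)
      = (rC.map (algebraMap O K) * perturb (rD.map (algebraMap O K)) b).coeff l
        - (rC.map (algebraMap O K) * rD.map (algebraMap O K)).coeff l := by
  unfold A2
  rw [aeval_coeffDiff, map_aeval_stage2Poly, map_constantCoeff_stage2Poly,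
    ← Polynomial.coeff_map, Polynomial.map_mul]

end Fermat.Agent.S19x.Alg.ApproxStages
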