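/-
P-S19, block (A), leaf L8 bookkeeping (helper87): congruences modulo `c • P` for polynomial maps
with coefficients in a subring `O ≤ P` of a commutative ring `K`.

* `Cong P c x y` : `x - y ∈ c • P`;
* `aeval_mem`, `aeval_cong` : polynomials over `O` preserve `P` and are `1`-Lipschitz;
* `aeval_cong_constantCoeff` : `f(x) ≡ f(0)` modulo `c` when all `x i ∈ c • P`;
* `two_step` : composition of two approximation statements (ONE composite polynomial vector
  `F = A ≫ Θ₁ ≫ L ≫ Θ₂`, independent of the points);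
* `cong_pow_of_pow_eq` : passing from precision `t ^ (N * n)` to precision `ℓ ^ n` when
  `t ^ N ∈ ℓ • P`;
* `exists_dominating` : in a valuation subring, finitely many non-units are all multiples of one
  non-unit.
Mathlib only.
-/
import Mathlib

set_option autoImplicit false

noncomputable section

namespace Fermat.Agent.S19x.Alg.ApproxCongr

open MvPolynomial

variable {K : Type*} [CommRing K] (O P : Subring K)

/-- `x ≡ y` modulo `c • P`. -/
def Cong (c x y : K) : Prop := ∃ w ∈ P, x - y = c * w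

variable {P}

theorem Cong.refl (c x : K) : Cong P c x x := ⟨0, P.zero_mem, by simp⟩

theorem Cong.symm {c x y : K} (h : Cong P c x y) : Cong P c y x := by
  obtain ⟨w, hw, h⟩ := h
  exact ⟨-w, P.neg_mem hw, by rw [mul_neg, ← h]; ring⟩

theorem Cong.trans {c x y z : K} (h1 : Cong P c x y) (h2 : Cong P c y z) : Cong P c x z := by
  obtain ⟨w1, hw1, h1⟩ := h1
  obtain ⟨w2, hw2, h2⟩ := h2
  exact ⟨w1 + w2, P.add_mem hw1 hw2, by rw [mul_add, ← h1, ← h2]; ring⟩

theorem Cong.add {c x y x' y' : K} (h1 : Cong P c x y) (h2 : Cong P c x' y') :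
    Cong P c (x + x') (y + y') := by
  obtain ⟨w1, hw1, h1⟩ := h1
  obtain ⟨w2, hw2, h2⟩ := h2
  exact ⟨w1 + w2, P.add_mem hw1 hw2, by rw [mul_add, ← h1, ← h2]; ring⟩

theorem Cong.mul {c x y x' y' : K} (hx' : x' ∈ P) (hy : y ∈ P) (h1 : Cong P c x y)
    (h2 : Cong P c x' y') : Cong P c (x * x') (y * y') := by
  obtain ⟨w1, hw1, h1⟩ := h1
  obtain ⟨w2, hw2, h2⟩ := h2
  refine ⟨w1 * x' + y * w2, P.add_mem (P.mul_mem hw1 hx') (P.mul_mem hy hw2), ?_⟩
  have : x * x' - y * y' = (x - y) * x' + y * (x' - y') := by ring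
  rw [this, h1, h2]
  ring

/-- a congruence modulo a multiple of `c` is a congruence modulo `c`. -/
theorem Cong.of_mul {c d x y : K} (hd : d ∈ P) (h : Cong P (c * d) x y) : Cong P c x y := by
  obtain ⟨w, hw, h⟩ := h
  exact ⟨d * w, P.mul_mem hd hw, by rw [h]; ring⟩

theorem cong_zero_iff {c x : K} : Cong P c x 0 ↔ ∃ w ∈ P, x = c * w := by
  unfold Cong
  simp only [sub_zero]

variable {O}

/-- polynomials over `O ≤ P` preserve `P`. -/
theorem aeval_mem (hOP : O ≤ P) {σ : Type*} (f : MvPolynomial σ O) (x : σ → K)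
    (hx : ∀ i, x i ∈ P) : aeval x f ∈ P := by
  induction f using MvPolynomial.induction_on with
  | C a =>
    rw [aeval_C]
    exact hOP a.2
  | add p q hp hq =>
    rw [map_add]
    exact P.add_mem hp hq
  | mul_X p i hp =>
    rw [map_mul, aeval_X]
    exact P.mul_mem hp (hx i)

/-- polynomials over `O ≤ P` are `1`-Lipschitz for congruences modulo `c • P`. -/
theorem aeval_cong (hOP : O ≤ P) {σ : Type*} (f : MvPolynomial σ O) (c : K) (x y : σ → K)
    (hx : ∀ i, x i ∈ P) (hy : ∀ i, y i ∈ P) (h : ∀ i, Cong P c (x i) (y i)) :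
    Cong P c (aeval x f) (aeval y f) := by
  induction f using MvPolynomial.induction_on with
  | C a =>
    rw [aeval_C, aeval_C]
    exact Cong.refl _ _
  | add p q hp hq =>
    rw [map_add, map_add]
    exact hp.add hq
  | mul_X p i hp =>
    rw [map_mul, map_mul, aeval_X, aeval_X]
    exact Cong.mul (hx i) (aeval_mem hOP p y hy) hp (h i)

/-- `f(x) ≡ f(0)` modulo `c` when all `x i ∈ c • P`. -/
theorem aeval_cong_constantCoeff (hOP : O ≤ P) {σ : Type*} (f : MvPolynomial σ O) (c : K)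
    (x : σ → K) (hx : ∀ i, ∃ w ∈ P, x i = c * w) (hc : c ∈ P) :
    Cong P c (aeval x f) ((constantCoeff f : O) : K) := by
  have hxP : ∀ i, x i ∈ P := by
    intro i
    obtain ⟨w, hw, h⟩ := hx i
    rw [h]
    exact P.mul_mem hc hw
  have h0 := aeval_cong hOP f c x (fun _ => 0) hxP (fun _ => P.zero_mem)
    (fun i => cong_zero_iff.mpr (hx i))
  rw [aeval_zero'] at h0
  exact h0

/-- if moreover the constant coefficient lies in `c • P`, so does the value. -/
theorem aeval_mem_smul (hOP : O ≤ P) {σ : Type*} (f : MvPolynomial σ O) (c : K)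
    (x : σ → K) (hx : ∀ i, ∃ w ∈ P, x i = c * w) (hc : c ∈ P)
    (h0 : ∃ w ∈ P, ((constantCoeff f : O) : K) = c * w) :
    ∃ w ∈ P, aeval x f = c * w :=
  cong_zero_iff.mp ((aeval_cong_constantCoeff hOP f c x hx hc).trans (cong_zero_iff.mpr h0))

/-- **composition of two approximation statements.**  The composite polynomial vector
`F = bind₁ A (bind₁ Θ₁ (bind₁ L Θ₂))` depends on the four polynomial maps only. -/
theorem two_step (hOP : O ≤ P) {r d₁ g₁ d₂ g₂ : Type*}
    (A : d₁ → MvPolynomial r O) (Θ₁ : g₁ → MvPolynomial d₁ O)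
    (L : d₂ → MvPolynomial g₁ O) (Θ₂ : g₂ → MvPolynomial d₂ O)
    (c : K) (u : r → K) (hu : ∀ j, u j ∈ P) (b : g₁ → K) (hb : ∀ j, b j ∈ P) (e : g₂ → K)
    (h1 : ∀ l, Cong P c (b l) (aeval (fun k => aeval u (A k)) (Θ₁ l)))
    (h2 : ∀ l, Cong P c (e l) (aeval (fun k => aeval b (L k)) (Θ₂ l))) (l : g₂) :
    Cong P c (e l) (aeval u (bind₁ A (bind₁ Θ₁ (bind₁ L (Θ₂ l))))) := by
  rw [aeval_bind₁, aeval_bind₁, aeval_bind₁]
  refine (h2 l).trans ?_
  have ha : ∀ k, aeval u (A k) ∈ P := fun k => aeval_mem hOP _ _ hu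
  have hb0 : ∀ j, aeval (fun k => aeval u (A k)) (Θ₁ j) ∈ P := fun j => aeval_mem hOP _ _ ha
  refine aeval_cong hOP _ c _ _ (fun k => aeval_mem hOP _ _ hb)
    (fun k => aeval_mem hOP _ _ hb0) (fun k => ?_)
  exact aeval_cong hOP _ c _ _ hb hb0 h1

/-- from precision `t ^ (N * n)` to precision `ℓ ^ n` when `t ^ N ∈ ℓ • P`. -/
theorem cong_pow_of_pow_eq {t ℓ w₀ : K} {N : ℕ} (hw₀ : w₀ ∈ P) (ht : t ^ N = ℓ * w₀) (n : ℕ)
    {x y : K} (h : Cong P (t ^ (N * n)) x y) : Cong P (ℓ ^ n) x y := by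
  have h1 : t ^ (N * n) = ℓ ^ n * w₀ ^ n := by rw [pow_mul, ht, mul_pow]
  rw [h1] at h
  exact h.of_mul (P.pow_mem hw₀ n)

/-- monotonicity in the exponent. -/
theorem cong_pow_of_le {t : K} (ht : t ∈ P) {m n : ℕ} (hmn : m ≤ n) {x y : K}
    (h : Cong P (t ^ n) x y) : Cong P (t ^ m) x y := by
  obtain ⟨k, rfl⟩ := Nat.exists_eq_add_of_le hmn
  rw [pow_add] at h
  exact h.of_mul (P.pow_mem ht k)


/-- in a valuation subring, finitely many non-units are all multiples (inside the ring) of one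
non-unit. -/
theorem exists_dominating {F : Type*} [Field F] (V : ValuationSubring F) {ι : Type*} [Finite ι]
    (x : ι → F) (hx : ∀ i, x i ∈ V.nonunits) :
    ∃ t ∈ V.nonunits, ∀ i, ∃ w ∈ V, x i = t * w := by
  classical
  rcases isEmpty_or_nonempty ι with hι | hι
  · refine ⟨0, ?_, fun i => (hι.false i).elim⟩
    rw [ValuationSubring.mem_nonunits_iff, map_zero]
    exact zero_lt_one
  · obtain ⟨i₀, hi₀⟩ := Finite.exists_max (fun i => V.valuation (x i))
    refine ⟨x i₀, hx i₀, fun i => ?_⟩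
    by_cases h0 : x i₀ = 0
    · have hi : V.valuation (x i) ≤ 0 := by
        have := hi₀ i
        rwa [h0, map_zero] at this
      have hxi : x i = 0 := by
        rw [← V.valuation.zero_iff]
        exact le_antisymm hi zero_le
      exact ⟨0, V.zero_mem, by rw [hxi, mul_zero]⟩
    · refine ⟨x i / x i₀, ?_, by field_simp⟩
      rw [← V.valuation_le_one_iff, map_div₀]
      have hpos : V.valuation (x i₀) ≠ 0 := (V.valuation.ne_zero_iff).mpr h0
      rw [div_le_one₀ (zero_lt_iff.mpr hpos)]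
      exact hi₀ i

end Fermat.Agent.S19x.Alg.ApproxCongr
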