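import Mathlib
import Fermat.Agent.S56x.Flat.InertiaField

/-!
# P-S19, block B: the internal interface between (F3) and (F4)+(F5)

`Qbar = AlgebraicClosure ℚ`, `P` a valuation subring of `Qbar` over `ℓ`, `I = P.inertiaSubgroupIn ℚ`,
`O^ur = inertiaInt P`.  `X` a finite abelian group with an action `act` of `Gal(Qbar/ℚ)`.

`LocalGens P act` : a set `gens` of `Qbar`-valued functions on `X` which are inertia-equivariant,
`P`-valued, separate the points of `X`, and whose "comultiplications" `(s, t) ↦ f (s + t)` are
finite sums of products `g k s * h k t` with `g k`, `h k` in the `O^ur`-algebra generated by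
`gens`.

(F3) produces it from `S19x.LocalChartData` (`gens` = coset indicators and coordinate functions);
(F4)+(F5) consume it (compositum of the decomposition-group conjugates, then descent to `ℤ_(ℓ)`).
-/

set_option autoImplicit false

namespace Fermat.Agent.S19x.Alg

open Fermat.Agent.S56x.Flat.InertiaField

local notation "Qbar" => AlgebraicClosure ℚ
local notation "Γℚ" => (AlgebraicClosure ℚ ≃ₐ[ℚ] AlgebraicClosure ℚ)

/-- **B-internal interface (F3) → (F4)+(F5)**: local generators of the Hopf order. -/
structure LocalGens (P : ValuationSubring Qbar) {X : Type} [AddCommGroup X]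
    (act : Γℚ → X → X) where
  /-- the generating functions. -/
  gens : Set (X → Qbar)
  /-- they are inertia-equivariant. -/
  equivariant : ∀ f ∈ gens, ∀ τ ∈ P.inertiaSubgroupIn ℚ, ∀ t : X, f (act τ t) = τ (f t)
  /-- they are integral at `P`. -/
  integral : ∀ f ∈ gens, ∀ t : X, f t ∈ P
  /-- they separate the points of `X`. -/
  separating : ∀ s t : X, s ≠ t → ∃ f ∈ gens, f s ≠ f t
  /-- the comultiplication of a generator lies in the tensor square of the generated algebra. -/
  comul : ∀ f ∈ gens, ∃ (m : ℕ) (g h : Fin m → X → Qbar),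
    (∀ k, g k ∈ Algebra.adjoin (inertiaInt P) gens) ∧
    (∀ k, h k ∈ Algebra.adjoin (inertiaInt P) gens) ∧
    ∀ s t : X, f (s + t) = ∑ k, g k s * h k t

end Fermat.Agent.S19x.Alg
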