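/-
P-S19, BLOCK B (pure algebra), leaf `CyclicTrace` (helper26).  Mathlib only.

UNRAMIFIED CYCLIC DESCENT BY AN EXPLICIT TRACE FORMULA (no completeness, no Hilbert 90).

`B` a commutative ring with a ring endomorphism `φ`, `M` a `B`-module with a `φ`-semilinear
additive endomorphism `Φ`, `n ≥ 1` with `Φ^n = id` on `M`.

* `tr Φ n m = ∑ i < n, Φ^i m` is `Φ`-fixed (`map_tr`).
* **(A')** `eq_sum_smul_tr` : if `x y : ι → B` satisfy
  `∑ j, x j * φ^i (y j) = if i = 0 then 1 else 0` for all `i < n` (a "Galois datum" for the cyclic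
  extension `B / B^φ` in the sense of Chase–Harrison–Rosenberg), then every `m : M` is
  `m = ∑ j, x j • tr Φ n (y j • m)`: the `Φ`-fixed elements span `M` over `B`.
* **(B')** `exists_galois_datum` : such `x, y` exist (with `y j = θ ^ j`, `j < n`) as soon as there
  is ONE element `θ` such that all the differences `φ^i θ - φ^j θ` (`i ≠ j`, `i, j < n`) are units
  (Vandermonde).
* `span_fixed_eq_top` : the packaged consequence: every `m` lies in the `B`-span of the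
  `Φ`-fixed elements.
-/
import Mathlib

set_option autoImplicit false
set_option linter.unusedSectionVars false

noncomputable section

namespace Fermat.Agent.S19x.Alg.CyclicTrace

open scoped BigOperators

variable {B : Type*} [CommRing B] {M : Type*} [AddCommGroup M] [Module B M]

/-- the trace operator `m ↦ ∑ i < n, Φ^i m`. -/
def tr (Φ : M →+ M) (n : ℕ) (m : M) : M := ∑ i ∈ Finset.range n, (⇑Φ)^[i] m

theorem iterate_smul (φ : B →+* B) (Φ : M →+ M) (hΦ : ∀ (b : B) (m : M), Φ (b • m) = φ b • Φ m)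
    (i : ℕ) (b : B) (m : M) : (⇑Φ)^[i] (b • m) = (⇑φ)^[i] b • (⇑Φ)^[i] m := by
  induction i generalizing b m with
  | zero => rfl
  | succ i ih =>
    rw [Function.iterate_succ_apply, Function.iterate_succ_apply, Function.iterate_succ_apply,
      hΦ, ih]

/-- the trace is `Φ`-fixed when `Φ^n = id`. -/
theorem map_tr (Φ : M →+ M) (n : ℕ) (hn : ∀ m : M, (⇑Φ)^[n] m = m) (m : M) :
    Φ (tr Φ n m) = tr Φ n m := by
  unfold tr
  rw [map_sum]
  have h1 : ∑ i ∈ Finset.range n, Φ ((⇑Φ)^[i] m) = ∑ i ∈ Finset.range n, (⇑Φ)^[i + 1] m :=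
    Finset.sum_congr rfl fun i _ => by rw [Function.iterate_succ_apply']
  rw [h1]
  have h2 := Finset.sum_range_succ' (fun i => (⇑Φ)^[i] m) n
  have h3 := Finset.sum_range_succ (fun i => (⇑Φ)^[i] m) n
  simp only [Function.iterate_zero, id_eq] at h2
  rw [hn m] at h3
  have h4 : ∑ i ∈ Finset.range n, (⇑Φ)^[i + 1] m + m = ∑ i ∈ Finset.range n, (⇑Φ)^[i] m + m := by
    rw [← h2, h3]
  exact add_right_cancel h4

/-- **(A')** the explicit trace formula. -/
theorem eq_sum_smul_tr {ι : Type*} [Fintype ι] (φ : B →+* B) (Φ : M →+ M)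
    (hΦ : ∀ (b : B) (m : M), Φ (b • m) = φ b • Φ m) (n : ℕ) (hn0 : 0 < n)
    (x y : ι → B)
    (hxy : ∀ i < n, ∑ j, x j * (⇑φ)^[i] (y j) = if i = 0 then 1 else 0) (m : M) :
    m = ∑ j, x j • tr Φ n (y j • m) := by
  unfold tr
  have h1 : ∀ j, x j • ∑ i ∈ Finset.range n, (⇑Φ)^[i] (y j • m) =
      ∑ i ∈ Finset.range n, (x j * (⇑φ)^[i] (y j)) • (⇑Φ)^[i] m := by
    intro j
    rw [Finset.smul_sum]
    refine Finset.sum_congr rfl fun i _ => ?_
    rw [iterate_smul φ Φ hΦ, smul_smul]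
  simp only [h1]
  rw [Finset.sum_comm]
  have h2 : ∀ i ∈ Finset.range n, ∑ j, (x j * (⇑φ)^[i] (y j)) • (⇑Φ)^[i] m =
      (if i = 0 then (1 : B) else 0) • (⇑Φ)^[i] m := by
    intro i hi
    rw [← Finset.sum_smul, hxy i (Finset.mem_range.mp hi)]
  rw [Finset.sum_congr rfl h2]
  rw [Finset.sum_eq_single 0]
  · simp
  · intro i _ hi
    simp [hi]
  · intro h
    exact absurd (Finset.mem_range.mpr hn0) h

/-- the `Φ`-fixed elements span `M` over `B`. -/
theorem span_fixed_eq_top {ι : Type*} [Fintype ι] (φ : B →+* B) (Φ : M →+ M)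
    (hΦ : ∀ (b : B) (m : M), Φ (b • m) = φ b • Φ m) (n : ℕ) (hn0 : 0 < n)
    (hn : ∀ m : M, (⇑Φ)^[n] m = m) (x y : ι → B)
    (hxy : ∀ i < n, ∑ j, x j * (⇑φ)^[i] (y j) = if i = 0 then 1 else 0) :
    Submodule.span B {m : M | Φ m = m} = ⊤ := by
  rw [eq_top_iff]
  intro m _
  rw [eq_sum_smul_tr φ Φ hΦ n hn0 x y hxy m]
  refine Submodule.sum_mem _ fun j _ => Submodule.smul_mem _ _ (Submodule.subset_span ?_)
  exact map_tr Φ n hn _

/-- **(B')** a Galois datum from one element with unit differences (Vandermonde). -/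
theorem exists_galois_datum (φ : B →+* B) (n : ℕ) (hn0 : 0 < n) (θ : B)
    (hθ : ∀ i j : Fin n, i ≠ j → IsUnit ((⇑φ)^[(i : ℕ)] θ - (⇑φ)^[(j : ℕ)] θ)) :
    ∃ x : Fin n → B, ∀ i < n, ∑ j : Fin n, x j * (⇑φ)^[i] (θ ^ (j : ℕ)) = if i = 0 then 1 else 0 := by
  classical
  set v : Fin n → B := fun i => (⇑φ)^[(i : ℕ)] θ with hv
  set V : Matrix (Fin n) (Fin n) B := Matrix.vandermonde v with hV
  have hdet : IsUnit V.det := by
    rw [hV, Matrix.det_vandermonde]
    refine IsUnit.prod_univ_iff.mpr fun i => ?_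
    rw [IsUnit.prod_iff]
    intro j hj
    exact hθ j i (Finset.mem_Ioi.mp hj).ne'
  set i₀ : Fin n := ⟨0, hn0⟩ with hi₀
  refine ⟨V⁻¹.mulVec (Pi.single i₀ 1), fun i hi => ?_⟩
  have h1 : V.mulVec (V⁻¹.mulVec (Pi.single i₀ 1)) = Pi.single i₀ 1 := by
    rw [Matrix.mulVec_mulVec, Matrix.mul_nonsing_inv V hdet, Matrix.one_mulVec]
  have h2 := congrFun h1 ⟨i, hi⟩
  rw [Matrix.mulVec, dotProduct] at h2
  have h3 : ∀ j : Fin n, (⇑φ)^[i] (θ ^ (j : ℕ)) = V ⟨i, hi⟩ j := by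
    intro j
    rw [hV, Matrix.vandermonde_apply, hv]
    exact (iterate_map_pow φ i θ (j : ℕ))
  have h4 : ∑ j : Fin n, V⁻¹.mulVec (Pi.single i₀ 1) j * (⇑φ)^[i] (θ ^ (j : ℕ)) =
      ∑ j : Fin n, V ⟨i, hi⟩ j * V⁻¹.mulVec (Pi.single i₀ 1) j :=
    Finset.sum_congr rfl fun j _ => by rw [h3 j, mul_comm]
  rw [h4, h2, Pi.single_apply]
  by_cases h0 : i = 0
  · subst h0
    simp [hi₀]
  · have : (⟨i, hi⟩ : Fin n) ≠ i₀ := fun h => h0 (by simpa [hi₀] using congrArg Fin.val h)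
    simp [this, h0]

/-- **(A') + (B')** packaged: if `θ` has unit differences of conjugates, `φ`-semilinear `Φ` with
`Φ^n = id`, then the `Φ`-fixed elements span `M`. -/
theorem span_fixed_eq_top_of_unit_differences (φ : B →+* B) (Φ : M →+ M)
    (hΦ : ∀ (b : B) (m : M), Φ (b • m) = φ b • Φ m) (n : ℕ) (hn0 : 0 < n)
    (hn : ∀ m : M, (⇑Φ)^[n] m = m) (θ : B)
    (hθ : ∀ i j : Fin n, i ≠ j → IsUnit ((⇑φ)^[(i : ℕ)] θ - (⇑φ)^[(j : ℕ)] θ)) :
    Submodule.span B {m : M | Φ m = m} = ⊤ := by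
  obtain ⟨x, hx⟩ := exists_galois_datum φ n hn0 θ hθ
  exact span_fixed_eq_top φ Φ hΦ n hn0 hn x (fun j : Fin n => θ ^ (j : ℕ)) hx

end Fermat.Agent.S19x.Alg.CyclicTrace
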