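/-
P-S19, BLOCK B, leaf `CyclicTraceZeta` (helper26): the unramified cyclic descent of
`S19x/Alg/CyclicTrace` INSTANTIATED on `O^ur = inertiaInt P` with a Frobenius lift.

`Qbar = AlgebraicClosure ℚ`, `P` a valuation subring of `Qbar` over the prime `ℓ`,
`I = P.inertiaSubgroupIn ℚ`, `D = P.decompositionSubgroup ℚ`, `O = inertiaInt P`.

* `apply_mem_of_mem_decomp`, `apply_mem_nonunits_of_mem_decomp` : `D` preserves `P` and `𝔪_P`;
* `conj_mem_inertia` : `I` is normalised by `D`;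
* `decompRingHom σ hσ : O →+* O` : the action of `σ ∈ D` on `O`  (`coe_decompRingHom`,
  `iterate_decompRingHom`);
* `exists_frobenius_datum` : for a Frobenius lift `σ` at `P` and `n ≥ 1` there are
  `x y : Fin n → O` with `σ^n (y j) = y j` and `∑ j, x j * σ^i (y j) = [i = 0]` for `i < n`
  (`y j = ζ^j`, `ζ` a primitive `(ℓ^n - 1)`-th root of unity: `σ^i ζ = ζ^(ℓ^i)` and the differences
  of distinct roots of unity of order prime to `ℓ` are units);
* **`mem_span_fixed`** : `M` an `O`-module, `Φ : M →+ M` semilinear for a Frobenius lift `σ`,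
  `m : M` with `Φ^n m = m`, `n ≥ 1`  ⟹  `m` lies in the `O`-span of the `Φ`-fixed elements;
  more precisely `m = ∑ j, x j • Tr (y j • m)` with `Tr = ∑_{i<n} Φ^i`.
-/
import Mathlib
import Fermat.Agent.S56x.Flat.InertiaField
import Fermat.Agent.Gateway.S31.RootsOfUnity
import Fermat.Agent.Lib.FrobeniusExistsAt
import Fermat.Agent.S19x.Alg.CyclicTrace

set_option autoImplicit false
set_option linter.unusedSectionVars false
set_option linter.style.haveILetI false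

noncomputable section

namespace Fermat.Agent.S19x.Alg.CyclicTraceZeta

open scoped Pointwise BigOperators
open Fermat.Agent.S56x.Flat.InertiaField Fermat.Agent.Gateway.S31Red
  Fermat.Agent.S19x.Alg.CyclicTrace

local notation "Qbar" => AlgebraicClosure ℚ
local notation "Γℚ" => (AlgebraicClosure ℚ ≃ₐ[ℚ] AlgebraicClosure ℚ)

variable (P : ValuationSubring Qbar)

/-! ### The decomposition group preserves `P`, `𝔪_P` and normalises inertia -/

theorem apply_mem_of_mem_decomp {σ : Γℚ} (hσ : σ ∈ P.decompositionSubgroup ℚ) {x : Qbar}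
    (hx : x ∈ P) : σ x ∈ P := by
  have h : σ • P = P := hσ
  have : σ • x ∈ σ • P := ValuationSubring.smul_mem_pointwise_smul _ _ _ hx
  rw [h] at this
  exact this

theorem apply_mem_nonunits_of_mem_decomp {σ : Γℚ} (hσ : σ ∈ P.decompositionSubgroup ℚ)
    {x : Qbar} (hx : x ∈ P.nonunits) : σ x ∈ P.nonunits := by
  have hinv : σ⁻¹ ∈ P.decompositionSubgroup ℚ := inv_mem hσ
  have h : σ⁻¹ • P = P := hinv
  have h1 : x ∈ (σ⁻¹ • P).nonunits := by rw [h]; exact hx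
  rw [Fermat.Agent.S56x.Hens.mem_smul_nonunits_iff, inv_inv] at h1
  exact h1

theorem conj_mem_inertia {σ τ : Γℚ} (hσ : σ ∈ P.decompositionSubgroup ℚ)
    (hτ : τ ∈ P.inertiaSubgroupIn ℚ) : σ⁻¹ * τ * σ ∈ P.inertiaSubgroupIn ℚ := by
  rw [Fermat.Agent.S56x.Hens.mem_inertiaSubgroupIn_iff] at hτ ⊢
  refine ⟨mul_mem (mul_mem (inv_mem hσ) hτ.1) hσ, fun x hx => ?_⟩
  have h1 := hτ.2 (σ x) (apply_mem_of_mem_decomp P hσ hx)
  have h2 := apply_mem_nonunits_of_mem_decomp P (inv_mem hσ) h1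
  have h3 : σ⁻¹ (τ (σ x) - σ x) = (σ⁻¹ * τ * σ) x - x := by
    rw [map_sub]
    simp [AlgEquiv.mul_apply]
  rw [h3] at h2
  exact h2

/-- the action of an element of the decomposition group on `O^ur = inertiaInt P`. -/
def decompRingHom {σ : Γℚ} (hσ : σ ∈ P.decompositionSubgroup ℚ) :
    inertiaInt P →+* inertiaInt P where
  toFun c := ⟨σ (c : Qbar), apply_mem_of_mem_decomp P hσ c.2.1, fun t ht => by
    have h1 := c.2.2 _ (conj_mem_inertia P hσ ht)
    have h2 : t (σ (c : Qbar)) = σ ((σ⁻¹ * t * σ) (c : Qbar)) := by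
      simp [AlgEquiv.mul_apply]
    rw [h2, h1]⟩
  map_one' := Subtype.ext (map_one σ)
  map_mul' a b := Subtype.ext (map_mul σ _ _)
  map_zero' := Subtype.ext (map_zero σ)
  map_add' a b := Subtype.ext (map_add σ _ _)

@[simp]
theorem coe_decompRingHom {σ : Γℚ} (hσ : σ ∈ P.decompositionSubgroup ℚ) (c : inertiaInt P) :
    ((decompRingHom P hσ c : inertiaInt P) : Qbar) = σ (c : Qbar) := rfl

theorem coe_iterate_decompRingHom {σ : Γℚ} (hσ : σ ∈ P.decompositionSubgroup ℚ) (i : ℕ)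
    (c : inertiaInt P) :
    (((⇑(decompRingHom P hσ))^[i] c : inertiaInt P) : Qbar) = (σ ^ i) (c : Qbar) := by
  induction i generalizing c with
  | zero => simp
  | succ i ih =>
    rw [Function.iterate_succ_apply', coe_decompRingHom, ih, pow_succ', AlgEquiv.mul_apply]

/-! ### Roots of unity of order `ℓ^n - 1` -/

variable {ℓ : ℕ} (hℓ : ℓ.Prime) (hP : P.LiesOverPrime ℓ)
include hℓ hP

theorem not_dvd_pow_sub_one (n : ℕ) (hn : 0 < n) : ¬ ℓ ∣ ℓ ^ n - 1 := by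
  intro h
  have h1 : ℓ ∣ ℓ ^ n := dvd_pow_self ℓ hn.ne'
  have h2 : 1 ≤ ℓ ^ n := Nat.one_le_pow _ _ hℓ.pos
  have h3 : ℓ ∣ ℓ ^ n - (ℓ ^ n - 1) := Nat.dvd_sub h1 h
  have h4 : ℓ ^ n - (ℓ ^ n - 1) = 1 := by omega
  rw [h4] at h3
  exact hℓ.one_lt.ne' (Nat.dvd_one.mp h3)

/-- a root of unity of order prime to `ℓ` lies in `O^ur`. -/
theorem rootOfUnity_mem_inertiaInt {m : ℕ} (hm : ¬ ℓ ∣ m) {ζ : Qbar} (hζ : ζ ^ m = 1) :
    ζ ∈ inertiaInt P := by
  have hm0 : m ≠ 0 := by rintro rfl; exact hm (dvd_zero _)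
  exact ⟨rootOfUnity_mem P hm0 hζ, fun t ht => apply_rootOfUnity_of_mem_inertia hℓ hP ht hm hζ⟩

/-- **Galois datum for the Frobenius on `O^ur`.** -/
theorem exists_frobenius_datum {σ : Γℚ} (hσ : P.IsFrobeniusAt σ ℓ) (n : ℕ) (hn : 0 < n) :
    ∃ x y : Fin n → inertiaInt P,
      (∀ j, (⇑(decompRingHom P hσ.mem_decompositionSubgroup))^[n] (y j) = y j) ∧
      ∀ i < n, ∑ j : Fin n, x j * (⇑(decompRingHom P hσ.mem_decompositionSubgroup))^[i] (y j) =
        if i = 0 then 1 else 0 := by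
  classical
  set N : ℕ := ℓ ^ n - 1 with hN
  have hNl : ¬ ℓ ∣ N := not_dvd_pow_sub_one P hℓ hP n hn
  have hN0 : N ≠ 0 := by rintro h; exact hNl (h ▸ dvd_zero _)
  haveI : NeZero ((N : ℕ) : ℚ) := ⟨by exact_mod_cast hN0⟩
  obtain ⟨ζ, hζ⟩ := HasEnoughRootsOfUnity.exists_primitiveRoot Qbar N
  have hζ1 : ζ ^ N = 1 := hζ.pow_eq_one
  set θ : inertiaInt P := ⟨ζ, rootOfUnity_mem_inertiaInt P hℓ hP hNl hζ1⟩ with hθ
  set φ := decompRingHom P hσ.mem_decompositionSubgroup with hφ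
  -- the conjugates of `θ`
  have hconj : ∀ i : ℕ, (((⇑φ)^[i] θ : inertiaInt P) : Qbar) = ζ ^ (ℓ ^ i) := by
    intro i
    rw [hφ, coe_iterate_decompRingHom]
    exact frob_pow_apply_rootOfUnity hℓ hP hσ hNl hζ1 i
  have hℓn : ℓ ^ n = N + 1 := by
    have : 1 ≤ ℓ ^ n := Nat.one_le_pow _ _ hℓ.pos
    omega
  -- unit differences
  have hunit : ∀ i j : Fin n, i ≠ j → IsUnit ((⇑φ)^[(i : ℕ)] θ - (⇑φ)^[(j : ℕ)] θ) := by
    intro i j hij
    rw [isUnit_inertiaInt_iff]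
    intro hmem
    have hmem' : ζ ^ (ℓ ^ (i : ℕ)) - ζ ^ (ℓ ^ (j : ℕ)) ∈ P.nonunits := by
      have : (((⇑φ)^[(i : ℕ)] θ - (⇑φ)^[(j : ℕ)] θ : inertiaInt P) : Qbar) =
          ζ ^ (ℓ ^ (i : ℕ)) - ζ ^ (ℓ ^ (j : ℕ)) := by
        rw [← hconj, ← hconj]; rfl
      rw [← this]; exact hmem
    have heq : ζ ^ (ℓ ^ (i : ℕ)) = ζ ^ (ℓ ^ (j : ℕ)) :=
      rootOfUnity_eq_of_sub_mem_nonunits P (natCast_not_mem_nonunits P hℓ hP hNl)
        (by rw [← pow_mul, mul_comm, pow_mul, hζ1, one_pow])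
        (by rw [← pow_mul, mul_comm, pow_mul, hζ1, one_pow]) hmem'
    -- `ℓ^i ≡ ℓ^j mod N` with `ℓ^i, ℓ^j < N + 1`, hence equal unless ...
    have hlt : ∀ k : Fin n, ℓ ^ (k : ℕ) < N + 1 := fun k => by
      rw [← hℓn]; exact Nat.pow_lt_pow_right hℓ.one_lt k.2
    have hfin : IsOfFinOrder ζ := isOfFinOrder_iff_pow_eq_one.mpr ⟨N, Nat.pos_of_ne_zero hN0, hζ1⟩
    have hmod : ℓ ^ (i : ℕ) ≡ ℓ ^ (j : ℕ) [MOD N] := by
      have := hfin.pow_eq_pow_iff_modEq.mp heq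
      rwa [← hζ.eq_orderOf] at this
    -- both exponents are in `[1, N]`; congruent mod `N` forces equality or `{0 mod N}` clash
    have hi1 : 1 ≤ ℓ ^ (i : ℕ) := Nat.one_le_pow _ _ hℓ.pos
    have hj1 : 1 ≤ ℓ ^ (j : ℕ) := Nat.one_le_pow _ _ hℓ.pos
    have hpow_eq : ℓ ^ (i : ℕ) = ℓ ^ (j : ℕ) := by
      by_contra hne
      -- if different and congruent mod N, both in [1, N], then they are {a, a + N}: impossible
      -- unless one is ≥ N + 1
      rcases Nat.lt_or_gt_of_ne hne with h | h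
      · have h1 : N ∣ ℓ ^ (j : ℕ) - ℓ ^ (i : ℕ) := (Nat.modEq_iff_dvd' h.le).mp hmod
        have h2 : 0 < ℓ ^ (j : ℕ) - ℓ ^ (i : ℕ) := Nat.sub_pos_of_lt h
        have h3 := Nat.le_of_dvd h2 h1
        have := hlt j
        omega
      · have h1 : N ∣ ℓ ^ (i : ℕ) - ℓ ^ (j : ℕ) := (Nat.modEq_iff_dvd' h.le).mp hmod.symm
        have h2 : 0 < ℓ ^ (i : ℕ) - ℓ ^ (j : ℕ) := Nat.sub_pos_of_lt h
        have h3 := Nat.le_of_dvd h2 h1
        have := hlt i
        omega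
    exact hij (Fin.ext (Nat.pow_right_injective hℓ.two_le hpow_eq))
  obtain ⟨x, hx⟩ := exists_galois_datum φ n hn θ hunit
  refine ⟨x, fun j => θ ^ (j : ℕ), fun j => ?_, hx⟩
  -- `σ^n` fixes `θ`
  have hfix : (⇑φ)^[n] θ = θ := by
    apply Subtype.ext
    rw [hconj n, hℓn, pow_succ, hζ1, one_mul]
  rw [iterate_map_pow, hfix]

/-- **Unramified cyclic descent over `O^ur`.**  `M` an `O^ur`-module with an additive endomorphism
`Φ` which is semilinear for a Frobenius lift `σ` at `P`; every `m` fixed by some `Φ^n`, `n ≥ 1`,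
lies in the `O^ur`-span of the `Φ`-fixed elements. -/
theorem mem_span_fixed {M : Type*} [AddCommGroup M] [Module (inertiaInt P) M] {σ : Γℚ}
    (hσ : P.IsFrobeniusAt σ ℓ) (Φ : M →+ M)
    (hΦ : ∀ (b : inertiaInt P) (m : M),
      Φ (b • m) = decompRingHom P hσ.mem_decompositionSubgroup b • Φ m)
    (n : ℕ) (hn : 0 < n) (m : M) (hm : (⇑Φ)^[n] m = m) :
    m ∈ Submodule.span (inertiaInt P) {m' : M | Φ m' = m'} := by
  obtain ⟨x, y, hy, hxy⟩ := exists_frobenius_datum P hℓ hP hσ n hn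
  set φ := decompRingHom P hσ.mem_decompositionSubgroup with hφ
  rw [eq_sum_smul_tr φ Φ hΦ n hn x y hxy m]
  refine Submodule.sum_mem _ fun j _ => Submodule.smul_mem _ _ (Submodule.subset_span ?_)
  -- `tr (y j • m)` is `Φ`-fixed because `Φ^n (y j • m) = y j • m`
  show Φ (tr Φ n (y j • m)) = tr Φ n (y j • m)
  have hfix : (⇑Φ)^[n] (y j • m) = y j • m := by
    rw [iterate_smul φ Φ hΦ, hy j, hm]
  -- elementwise version of `map_tr`
  unfold tr
  rw [map_sum]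
  have h1 : ∑ i ∈ Finset.range n, Φ ((⇑Φ)^[i] (y j • m)) =
      ∑ i ∈ Finset.range n, (⇑Φ)^[i + 1] (y j • m) :=
    Finset.sum_congr rfl fun i _ => by rw [Function.iterate_succ_apply']
  rw [h1]
  have h2 := Finset.sum_range_succ' (fun i => (⇑Φ)^[i] (y j • m)) n
  have h3 := Finset.sum_range_succ (fun i => (⇑Φ)^[i] (y j • m)) n
  simp only [Function.iterate_zero, id_eq] at h2
  rw [hfix] at h3
  have h4 : ∑ i ∈ Finset.range n, (⇑Φ)^[i + 1] (y j • m) + y j • m =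
      ∑ i ∈ Finset.range n, (⇑Φ)^[i] (y j • m) + y j • m := by
    rw [← h2, h3]
  exact add_right_cancel h4

end Fermat.Agent.S19x.Alg.CyclicTraceZeta
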