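import Mathlib

/-!
# P-S19 (pure algebra): difference quotients of multivariate polynomials, uniqueness of Hensel
solutions and the Newton estimate over an arbitrary local ring

Mathlib only.  `A` is a commutative ring, `ι` a finite type of variables.

* `diffQuot p i : MvPolynomial (ι ⊕ ι) A` — the **averaged partial derivatives** of `p`:
  `p(x) - p(y) = ∑ i, (x i - y i) * (diffQuot p i)(x, y)` (`eval_sub_eval`) and
  `(diffQuot p i)(x, x) = (∂ p / ∂ X_i)(x)` (`eval_diffQuot_diag`);
* `eval_sub_eval_mem` : polynomial evaluation respects congruences modulo an ideal;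
* `avgJac G x y` — the averaged Jacobian matrix of a system `G : κ → MvPolynomial ι A`:
  `G(x) - G(y) = avgJac G x y *ᵥ (x - y)` (`eval_sub_eval_eq_mulVec`), `avgJac G x x = jac G x`,
  and `avgJac G x y ≡ jac G z` entrywise modulo `I` when `x ≡ z ≡ y` modulo `I`;
* `sub_mem_of_isUnit_jacobian` — **Newton estimate** over a local ring (no completeness, no
  noetherian hypothesis): if `z` is a solution of the square system `G` with unit Jacobian
  determinant, `z' ≡ z` modulo the maximal ideal, and all `G j (z')` lie in an ideal `I`, then all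
  `z' i - z i` lie in `I`;
* `eq_of_isUnit_jacobian` — **uniqueness of Hensel solutions**: two solutions congruent modulo
  the maximal ideal, one of them with unit Jacobian determinant, are equal;
* `newton_step_sub` / `newton_step_mem` — the frozen-Jacobian Newton step
  `u ↦ u - J₀⁻¹ G(u)` contracts towards a true solution `u*`:
  `u' - u* = J₀⁻¹ (J₀ - avgJac G u u*) (u - u*)`.

The Jacobian matrices use the index convention of `S27x/Spec/HenselMulti`
(`Matrix.of fun i j => eval z (pderiv i (G j))`: rows = variables, columns = equations) in the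
statements about determinants; `jac`/`avgJac` themselves have rows = equations.
-/

set_option autoImplicit false

noncomputable section

namespace Fermat.Agent.S19x.Alg.DiffQuot

open MvPolynomial

variable {A : Type*} [CommRing A] {ι : Type*} [Fintype ι] [DecidableEq ι]

/-! ### Difference quotients -/

/-- existence of the averaged partial derivatives. -/
theorem exists_diffQuot (p : MvPolynomial ι A) :
    ∃ q : ι → MvPolynomial (ι ⊕ ι) A,
      rename Sum.inl p - rename Sum.inr p =
        ∑ i, (X (Sum.inl i) - X (Sum.inr i)) * q i ∧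
      ∀ i, aeval (Sum.elim X X : ι ⊕ ι → MvPolynomial ι A) (q i) = pderiv i p := by
  induction p using MvPolynomial.induction_on with
  | C a =>
    refine ⟨fun _ => 0, ?_, fun i => ?_⟩
    · simp
    · simp
  | add p p' hp hp' =>
    obtain ⟨q, hq1, hq2⟩ := hp
    obtain ⟨q', hq1', hq2'⟩ := hp'
    refine ⟨fun i => q i + q' i, ?_, fun i => ?_⟩
    · simp only [map_add, mul_add, Finset.sum_add_distrib, ← hq1, ← hq1']
      ring
    · rw [map_add, hq2, hq2', map_add]
  | mul_X p j hp =>
    obtain ⟨q, hq1, hq2⟩ := hp
    refine ⟨fun i => q i * X (Sum.inl j) + if i = j then rename Sum.inr p else 0, ?_,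
      fun i => ?_⟩
    · have h1 : ∑ i, (X (Sum.inl i) - X (Sum.inr i)) *
          (q i * X (Sum.inl j) + if i = j then rename Sum.inr p else 0) =
          (∑ i, (X (Sum.inl i) - X (Sum.inr i)) * q i) * X (Sum.inl j) +
            (X (Sum.inl j) - X (Sum.inr j)) * rename Sum.inr p := by
        simp only [mul_add, Finset.sum_add_distrib, Finset.sum_mul, mul_ite, mul_zero,
          Finset.sum_ite_eq', Finset.mem_univ, if_true]
        congr 1
        exact Finset.sum_congr rfl fun i _ => by ring
      rw [h1, ← hq1]
      simp only [map_mul, rename_X]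
      ring
    · rw [map_add, map_mul, hq2, aeval_X, Sum.elim_inl, Derivation.leibniz, pderiv_X]
      by_cases hij : i = j
      · subst hij
        rw [if_pos rfl, Pi.single_eq_same, aeval_rename]
        have : (aeval ((Sum.elim X X : ι ⊕ ι → MvPolynomial ι A) ∘ Sum.inr)) p = p := by
          have h : ((Sum.elim X X : ι ⊕ ι → MvPolynomial ι A) ∘ Sum.inr) = X := by
            funext k; simp
          rw [h, aeval_X_left, AlgHom.id_apply]
        rw [this]
        simp only [smul_eq_mul]
        ring
      · have hji : j ≠ i := Ne.symm hij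
        rw [if_neg hij, Pi.single_eq_of_ne hji, map_zero]
        simp only [smul_eq_mul]
        ring

/-- **the averaged partial derivatives** of a polynomial. -/
def diffQuot (p : MvPolynomial ι A) (i : ι) : MvPolynomial (ι ⊕ ι) A :=
  (exists_diffQuot p).choose i

theorem rename_sub_rename (p : MvPolynomial ι A) :
    rename Sum.inl p - rename Sum.inr p =
      ∑ i, (X (Sum.inl i) - X (Sum.inr i)) * diffQuot p i :=
  (exists_diffQuot p).choose_spec.1

theorem aeval_diffQuot_diag (p : MvPolynomial ι A) (i : ι) :
    aeval (Sum.elim X X : ι ⊕ ι → MvPolynomial ι A) (diffQuot p i) = pderiv i p :=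
  (exists_diffQuot p).choose_spec.2 i

/-- `p(x) - p(y) = ∑ i, (x i - y i) * (diffQuot p i)(x, y)`. -/
theorem eval_sub_eval (p : MvPolynomial ι A) (x y : ι → A) :
    eval x p - eval y p = ∑ i, (x i - y i) * eval (Sum.elim x y) (diffQuot p i) := by
  have h := congrArg (eval (Sum.elim x y)) (rename_sub_rename p)
  rw [map_sub, eval_rename, eval_rename, map_sum] at h
  have hl : (Sum.elim x y ∘ Sum.inl) = x := by funext k; simp
  have hr : (Sum.elim x y ∘ Sum.inr) = y := by funext k; simp
  rw [hl, hr] at h
  rw [h]
  refine Finset.sum_congr rfl fun i _ => ?_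
  simp

/-- `(diffQuot p i)(x, x) = (∂ p / ∂ X_i)(x)`. -/
theorem eval_diffQuot_diag (p : MvPolynomial ι A) (i : ι) (x : ι → A) :
    eval (Sum.elim x x) (diffQuot p i) = eval x (pderiv i p) := by
  rw [← aeval_diffQuot_diag p i]
  have h : ∀ r : MvPolynomial (ι ⊕ ι) A,
      eval x (aeval (Sum.elim X X : ι ⊕ ι → MvPolynomial ι A) r) = eval (Sum.elim x x) r := by
    intro r
    induction r using MvPolynomial.induction_on with
    | C a => simp
    | add p q hp hq => simp only [map_add, hp, hq]
    | mul_X p k hp =>
      rw [map_mul, map_mul, hp, map_mul, eval_X, aeval_X]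
      cases k <;> simp
  rw [h]

omit [DecidableEq ι] in
/-- polynomial evaluation respects congruences modulo an ideal (any variable type). -/
theorem eval_sub_eval_mem {σ : Type*} (I : Ideal A) (p : MvPolynomial σ A) {x y : σ → A}
    (hxy : ∀ i, x i - y i ∈ I) : eval x p - eval y p ∈ I := by
  induction p using MvPolynomial.induction_on with
  | C a => simp
  | add p q hp hq =>
    rw [map_add, map_add]
    have : eval x p + eval x q - (eval y p + eval y q) =
        (eval x p - eval y p) + (eval x q - eval y q) := by ring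
    rw [this]
    exact I.add_mem hp hq
  | mul_X p k hp =>
    rw [map_mul, map_mul, eval_X, eval_X]
    have : eval x p * x k - eval y p * y k =
        (eval x p - eval y p) * x k + eval y p * (x k - y k) := by ring
    rw [this]
    exact I.add_mem (I.mul_mem_right _ hp) (I.mul_mem_left _ (hxy k))

/-! ### Jacobians of systems -/

variable {κ : Type*}

/-- the Jacobian matrix of a system at a point (rows = equations, columns = variables). -/
def jac (G : κ → MvPolynomial ι A) (x : ι → A) : Matrix κ ι A :=
  Matrix.of fun j i => eval x (pderiv i (G j))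

/-- the averaged Jacobian matrix of a system at a pair of points. -/
def avgJac (G : κ → MvPolynomial ι A) (x y : ι → A) : Matrix κ ι A :=
  Matrix.of fun j i => eval (Sum.elim x y) (diffQuot (G j) i)

theorem avgJac_self (G : κ → MvPolynomial ι A) (x : ι → A) : avgJac G x x = jac G x := by
  ext j i
  exact eval_diffQuot_diag (G j) i x

/-- **Taylor identity**: `G(x) - G(y) = avgJac G x y *ᵥ (x - y)`. -/
theorem eval_sub_eval_eq_mulVec (G : κ → MvPolynomial ι A) (x y : ι → A) :
    (fun j => eval x (G j) - eval y (G j)) = (avgJac G x y).mulVec (x - y) := by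
  funext j
  rw [eval_sub_eval, Matrix.mulVec, dotProduct]
  refine Finset.sum_congr rfl fun i _ => ?_
  simp only [avgJac, Matrix.of_apply, Pi.sub_apply]
  ring

/-- the averaged Jacobian at `(x, y)` is congruent to the Jacobian at `z` modulo `I` when
`x ≡ z ≡ y` modulo `I`. -/
theorem avgJac_sub_jac_mem (G : κ → MvPolynomial ι A) (I : Ideal A) {x y z : ι → A}
    (hx : ∀ i, x i - z i ∈ I) (hy : ∀ i, y i - z i ∈ I) (j : κ) (i : ι) :
    avgJac G x y j i - jac G z j i ∈ I := by
  rw [← avgJac_self G z]
  simp only [avgJac, Matrix.of_apply]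
  refine eval_sub_eval_mem I _ fun k => ?_
  cases k with
  | inl k => simpa using hx k
  | inr k => simpa using hy k

omit [DecidableEq ι] in
/-- determinants of entrywise congruent matrices are congruent. -/
theorem det_sub_det_mem (I : Ideal A) {M N : Matrix ι ι A} [DecidableEq ι]
    (h : ∀ j i, M j i - N j i ∈ I) : M.det - N.det ∈ I := by
  have h1 : (Ideal.Quotient.mk I).mapMatrix M = (Ideal.Quotient.mk I).mapMatrix N := by
    ext j i
    simp only [RingHom.mapMatrix_apply, Matrix.map_apply]
    exact Ideal.Quotient.eq.2 (h j i)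
  have h2 := congrArg Matrix.det h1
  rw [← RingHom.map_det, ← RingHom.map_det] at h2
  exact Ideal.Quotient.eq.1 h2

/-! ### The Newton estimate and uniqueness -/

section Local

variable [IsLocalRing A]

/-- **Newton estimate** over a local ring: `z` a solution of the square system `G` with unit
Jacobian determinant, `z' ≡ z` modulo the maximal ideal, `G j (z') ∈ I` for all `j`; then
`z' i - z i ∈ I` for all `i`. -/
theorem sub_mem_of_isUnit_jacobian (G : ι → MvPolynomial ι A) {z z' : ι → A}
    (hz : ∀ j, eval z (G j) = 0)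
    (hJ : IsUnit (Matrix.det (Matrix.of fun i j => eval z (pderiv i (G j)))))
    (hzz' : ∀ i, z' i - z i ∈ IsLocalRing.maximalIdeal A) (I : Ideal A)
    (hres : ∀ j, eval z' (G j) ∈ I) (i : ι) : z' i - z i ∈ I := by
  set M := avgJac G z' z with hM
  have hJ' : IsUnit (jac G z).det := by
    have : (Matrix.of fun i j => eval z (pderiv i (G j))) = (jac G z).transpose := by
      ext a b; rfl
    rwa [this, Matrix.det_transpose] at hJ
  have hcong : M.det - (jac G z).det ∈ IsLocalRing.maximalIdeal A :=
    det_sub_det_mem _ fun j i =>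
      avgJac_sub_jac_mem G _ hzz' (fun k => by simp) j i
  have hMu : IsUnit M.det := by
    by_contra hn
    have h1 : M.det ∈ IsLocalRing.maximalIdeal A := (IsLocalRing.mem_maximalIdeal _).2 hn
    have h2 : (jac G z).det ∈ IsLocalRing.maximalIdeal A := by
      have := (IsLocalRing.maximalIdeal A).sub_mem h1 hcong
      simpa using this
    exact (IsLocalRing.mem_maximalIdeal _).1 h2 hJ'
  have hT := eval_sub_eval_eq_mulVec G z' z
  have hr : (fun j => eval z' (G j)) = M.mulVec (z' - z) := by
    rw [← hT]
    funext j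
    rw [hz j, sub_zero]
  have hv : z' - z = M⁻¹.mulVec (fun j => eval z' (G j)) := by
    rw [hr, Matrix.mulVec_mulVec, Matrix.nonsing_inv_mul _ hMu, Matrix.one_mulVec]
  have : (z' - z) i ∈ I := by
    rw [hv, Matrix.mulVec, dotProduct]
    exact I.sum_mem fun j _ => I.mul_mem_left _ (hres j)
  simpa using this

/-- **Uniqueness of Hensel solutions** over a local ring. -/
theorem eq_of_isUnit_jacobian (G : ι → MvPolynomial ι A) {z z' : ι → A}
    (hz : ∀ j, eval z (G j) = 0) (hz' : ∀ j, eval z' (G j) = 0)
    (hJ : IsUnit (Matrix.det (Matrix.of fun i j => eval z (pderiv i (G j)))))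
    (hzz' : ∀ i, z' i - z i ∈ IsLocalRing.maximalIdeal A) : z' = z := by
  funext i
  have h := sub_mem_of_isUnit_jacobian G hz hJ hzz' ⊥ (fun j => by rw [hz' j]; exact Ideal.zero_mem _) i
  exact sub_eq_zero.1 (by simpa using h)

end Local

/-! ### The frozen-Jacobian Newton step -/

/-- the frozen-Jacobian Newton step `u ↦ u - J₀⁻¹ G(u)` (`J₀` with rows = equations). -/
def newtonStep (G : ι → MvPolynomial ι A) (J₀ : Matrix ι ι A) (u : ι → A) : ι → A :=
  u - J₀⁻¹.mulVec (fun j => eval u (G j))

/-- `u' - u* = J₀⁻¹ (J₀ - avgJac G u u*) (u - u*)` for a true solution `u*`. -/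
theorem newton_step_sub (G : ι → MvPolynomial ι A) {J₀ : Matrix ι ι A} (hJ₀ : IsUnit J₀.det)
    (u ustar : ι → A) (hstar : ∀ j, eval ustar (G j) = 0) :
    newtonStep G J₀ u - ustar =
      J₀⁻¹.mulVec ((J₀ - avgJac G u ustar).mulVec (u - ustar)) := by
  have hT := eval_sub_eval_eq_mulVec G u ustar
  have hr : (fun j => eval u (G j)) = (avgJac G u ustar).mulVec (u - ustar) := by
    rw [← hT]
    funext j
    rw [hstar j, sub_zero]
  have key : ∀ w : ι → A, J₀⁻¹.mulVec ((J₀ - avgJac G u ustar).mulVec w) =
      w - J₀⁻¹.mulVec ((avgJac G u ustar).mulVec w) := by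
    intro w
    rw [Matrix.sub_mulVec, Matrix.mulVec_sub, Matrix.mulVec_mulVec w J₀⁻¹ J₀,
      Matrix.nonsing_inv_mul _ hJ₀, Matrix.one_mulVec]
  unfold newtonStep
  rw [hr, key]
  abel

/-- **contraction**: if `J₀ ≡ avgJac G u u*` modulo `I` and `u ≡ u*` modulo `I ^ n`, then the
Newton step is `≡ u*` modulo `I ^ (n + 1)`. -/
theorem newton_step_mem (G : ι → MvPolynomial ι A) {J₀ : Matrix ι ι A} (hJ₀ : IsUnit J₀.det)
    (u ustar : ι → A) (hstar : ∀ j, eval ustar (G j) = 0) (I : Ideal A) (n : ℕ)
    (hM : ∀ j i, J₀ j i - avgJac G u ustar j i ∈ I) (hu : ∀ i, u i - ustar i ∈ I ^ n) (i : ι) :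
    newtonStep G J₀ u i - ustar i ∈ I ^ (n + 1) := by
  have h := congrFun (newton_step_sub G hJ₀ u ustar hstar) i
  rw [Pi.sub_apply] at h
  rw [h, Matrix.mulVec, dotProduct]
  refine (I ^ (n + 1)).sum_mem fun j _ => (I ^ (n + 1)).mul_mem_left _ ?_
  rw [Matrix.mulVec, dotProduct]
  refine (I ^ (n + 1)).sum_mem fun k _ => ?_
  rw [pow_succ']
  exact Ideal.mul_mem_mul (by simpa using hM j k) (by simpa using hu k)

end Fermat.Agent.S19x.Alg.DiffQuot

end
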