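/-
P-S19, BLOCK B (pure algebra), leaf `EquivDescent` (helper26).  Mathlib only.

GALOIS DESCENT FOR EQUIVARIANT FUNCTIONS ON A FINITE `G`-SET.

`G` a group acting on a field `Ω` by ring automorphisms and on a set `Z`; a function `f : Z → Ω` is
*equivariant* if `f (σ • z) = σ • f z`.  `F` is any subfield of `Ω` containing the `G`-fixed
elements (`hF`).

* `linearIndependent_of_equivariant` (D1) : `F`-linearly independent equivariant functions are
  `Ω`-linearly independent (Artin/Dedekind minimal relation).
* `smul_coeff_eq_of_equivariant` (D4) : the coefficients of an equivariant function in an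
  `Ω`-linearly independent equivariant family are `G`-fixed.
* `orbitFun` : the equivariant function `σ • z₀ ↦ σ • a`, `0` off the orbit (`a` fixed by the
  stabiliser of `z₀`);  `orbitInd` : the indicator of an orbit.
* `span_equivariant_eq_top` (D2) : if `Z` is finite and stabilisers are *separated*
  (`∀ z τ, τ • z ≠ z → ∃ a` fixed by `Stab z` with `τ • a ≠ a`), the equivariant functions span
  `Z → Ω` over `Ω`.
* `exists_equivariant_basis` (D3) : there is a family `b : Fin (card Z) → Z → Ω` of equivariant
  functions which is an `Ω`-basis of `Z → Ω` (linearly independent + spanning) and such that every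
  equivariant function is an `F`-combination of it.
-/
import Mathlib

set_option autoImplicit false
set_option linter.unusedSectionVars false
set_option linter.style.haveILetI false

noncomputable section

namespace Fermat.Agent.S19x.Alg.EquivDescent

open scoped BigOperators

variable {G Ω Z : Type*} [Group G] [Field Ω] [MulSemiringAction G Ω] [MulAction G Z]

/-- `f : Z → Ω` is equivariant for the actions of `G` on `Z` and on `Ω`. -/
def IsEquivariant (G : Type*) {Ω Z : Type*} [Group G] [Field Ω] [MulSemiringAction G Ω]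
    [MulAction G Z] (f : Z → Ω) : Prop :=
  ∀ (σ : G) (z : Z), f (σ • z) = σ • f z

theorem IsEquivariant.apply_inv_smul {f : Z → Ω} (hf : IsEquivariant G f) (σ : G) (z : Z) :
    σ • f (σ⁻¹ • z) = f z := by
  rw [← hf σ (σ⁻¹ • z), smul_inv_smul]

theorem isEquivariant_zero : IsEquivariant G (0 : Z → Ω) := fun σ z => by simp

theorem isEquivariant_one : IsEquivariant G (1 : Z → Ω) := fun σ z => by simp

theorem IsEquivariant.add {f g : Z → Ω} (hf : IsEquivariant G f) (hg : IsEquivariant G g) :
    IsEquivariant G (f + g) := fun σ z => by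
  simp only [Pi.add_apply, hf σ z, hg σ z, smul_add]

theorem IsEquivariant.mul {f g : Z → Ω} (hf : IsEquivariant G f) (hg : IsEquivariant G g) :
    IsEquivariant G (f * g) := fun σ z => by
  simp only [Pi.mul_apply, hf σ z, hg σ z, smul_mul']

theorem IsEquivariant.neg {f : Z → Ω} (hf : IsEquivariant G f) : IsEquivariant G (-f) :=
  fun σ z => by simp only [Pi.neg_apply, hf σ z, smul_neg]

theorem IsEquivariant.sub {f g : Z → Ω} (hf : IsEquivariant G f) (hg : IsEquivariant G g) :
    IsEquivariant G (f - g) := fun σ z => by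
  simp only [Pi.sub_apply, hf σ z, hg σ z, smul_sub]

/-- multiplication by a `G`-fixed scalar preserves equivariance. -/
theorem IsEquivariant.const_smul {f : Z → Ω} (hf : IsEquivariant G f) {a : Ω}
    (ha : ∀ σ : G, σ • a = a) : IsEquivariant G (a • f) := fun σ z => by
  simp only [Pi.smul_apply, smul_eq_mul, hf σ z, smul_mul', ha σ]

/-- Applying `σ` to a linear relation between equivariant functions. -/
theorem sum_smul_coeff_eq_zero {ι : Type*} {f : ι → Z → Ω} (hf : ∀ i, IsEquivariant G (f i))
    (s : Finset ι) (a : ι → Ω) (h : ∑ i ∈ s, a i • f i = 0) (σ : G) :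
    ∑ i ∈ s, (σ • a i) • f i = 0 := by
  funext z
  have h1 := congrFun h (σ⁻¹ • z)
  simp only [Finset.sum_apply, Pi.smul_apply, smul_eq_mul, Pi.zero_apply] at h1 ⊢
  have h2 := congrArg (fun x => σ • x) h1
  simp only [smul_zero, Finset.smul_sum, smul_mul'] at h2
  rw [← h2]
  refine Finset.sum_congr rfl fun i _ => ?_
  rw [(hf i).apply_inv_smul σ z]

/-- **(D4)** In a relation `g = ∑ a i • f i` between equivariant functions with the `f i`
`Ω`-linearly independent, the coefficients are `G`-fixed. -/
theorem smul_coeff_eq_of_equivariant {ι : Type*} {f : ι → Z → Ω}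
    (hf : ∀ i, IsEquivariant G (f i)) (hind : LinearIndependent Ω f)
    (s : Finset ι) (a : ι → Ω) {g : Z → Ω} (hg : IsEquivariant G g)
    (h : g = ∑ i ∈ s, a i • f i) (σ : G) : ∀ i ∈ s, σ • a i = a i := by
  -- apply `σ` to the relation `∑ a i • f i - g = 0`, seen as a relation in the family `f ⊔ {g}`
  have key : ∑ i ∈ s, (σ • a i - a i) • f i = 0 := by
    funext z
    have h1 := congrFun h (σ⁻¹ • z)
    have h0 := congrFun h z
    simp only [Finset.sum_apply, Pi.smul_apply, smul_eq_mul, Pi.zero_apply] at h1 h0 ⊢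
    have h2 := congrArg (fun x => σ • x) h1
    simp only [Finset.smul_sum, smul_mul'] at h2
    rw [hg.apply_inv_smul σ z] at h2
    have h3 : ∑ i ∈ s, σ • a i * f i z = ∑ i ∈ s, σ • a i * σ • f i (σ⁻¹ • z) :=
      Finset.sum_congr rfl fun i _ => by rw [(hf i).apply_inv_smul σ z]
    simp only [sub_mul, Finset.sum_sub_distrib]
    rw [h3, ← h2, h0, sub_self]
  intro i hi
  have := linearIndependent_iff'.mp hind s (fun i => σ • a i - a i) key i hi
  exact sub_eq_zero.mp this

/-- **(D1)** `F`-linearly independent equivariant functions are `Ω`-linearly independent, for any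
subfield `F` containing the `G`-fixed elements. -/
theorem linearIndependent_of_equivariant {ι : Type*} (F : Subfield Ω)
    (hF : ∀ a : Ω, (∀ σ : G, σ • a = a) → a ∈ F)
    {f : ι → Z → Ω} (hf : ∀ i, IsEquivariant G (f i))
    (hind : LinearIndependent F f) : LinearIndependent Ω f := by
  classical
  rw [linearIndependent_iff']
  -- strong induction on the size of the support
  suffices H : ∀ (n : ℕ) (s : Finset ι), s.card = n → ∀ a : ι → Ω,
      ∑ i ∈ s, a i • f i = 0 → ∀ i ∈ s, a i = 0 from fun s a h i hi => H s.card s rfl a h i hi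
  intro n
  induction n using Nat.strong_induction_on with
  | _ n ih =>
    intro s hs a h
    by_contra hcon
    push Not at hcon
    obtain ⟨i₀, hi₀, hne⟩ := hcon
    -- normalise `a i₀ = 1`
    set a' : ι → Ω := fun i => (a i₀)⁻¹ * a i with ha'
    have h' : ∑ i ∈ s, a' i • f i = 0 := by
      have := congrArg (fun x => (a i₀)⁻¹ • x) h
      simpa only [Finset.smul_sum, smul_smul, smul_zero, ha'] using this
    have ha'0 : a' i₀ = 1 := by simp [ha', hne]
    -- every `a' i` is `G`-fixed
    have hfix : ∀ i ∈ s, ∀ σ : G, σ • a' i = a' i := by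
      intro i hi σ
      by_cases hii : i = i₀
      · subst hii; rw [ha'0, smul_one]
      have h1 := sum_smul_coeff_eq_zero hf s a' h' σ
      have h2 : ∑ i ∈ s.erase i₀, (σ • a' i - a' i) • f i = 0 := by
        have h3 : ∑ i ∈ s, (σ • a' i - a' i) • f i = 0 := by
          simp only [sub_smul, Finset.sum_sub_distrib, h1, h', sub_self]
        rw [← Finset.add_sum_erase s _ hi₀] at h3
        simpa [ha'0] using h3
      have hcard : (s.erase i₀).card < n := by
        rw [Finset.card_erase_of_mem hi₀, hs]
        exact Nat.sub_lt (hs ▸ Finset.card_pos.mpr ⟨i₀, hi₀⟩) one_pos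
      have := ih _ hcard (s.erase i₀) rfl (fun i => σ • a' i - a' i) h2 i
        (Finset.mem_erase.mpr ⟨hii, hi⟩)
      exact sub_eq_zero.mp this
    -- so the relation is defined over `F`
    have hmem : ∀ i ∈ s, a' i ∈ F := fun i hi => hF _ (hfix i hi)
    let c : ι → F := fun i => if hi : i ∈ s then ⟨a' i, hmem i hi⟩ else 0
    have hc : ∑ i ∈ s, c i • f i = 0 := by
      rw [← h']
      refine Finset.sum_congr rfl fun i hi => ?_
      simp only [c, dif_pos hi]
      rfl
    have := linearIndependent_iff'.mp hind s c hc i₀ hi₀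
    simp only [c, dif_pos hi₀] at this
    have h1 : a' i₀ = 0 := congrArg Subtype.val this
    rw [ha'0] at h1
    exact one_ne_zero h1

section Orbit

variable (G)

/-- the indicator function of the orbit of `z₀`. -/
def orbitInd [DecidableEq Z] (z₀ : Z) : Z → Ω := by
  classical
  exact fun z => if z ∈ MulAction.orbit G z₀ then 1 else 0

theorem isEquivariant_orbitInd [DecidableEq Z] (z₀ : Z) :
    IsEquivariant G (orbitInd (Ω := Ω) G z₀) := by
  classical
  intro σ z
  unfold orbitInd
  by_cases h : z ∈ MulAction.orbit G z₀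
  · have h' : σ • z ∈ MulAction.orbit G z₀ := by
      obtain ⟨τ, rfl⟩ := h
      exact ⟨σ * τ, mul_smul σ τ z₀⟩
    simp [h, h']
  · have h' : σ • z ∉ MulAction.orbit G z₀ := by
      rintro ⟨τ, hτ⟩
      refine h ⟨σ⁻¹ * τ, ?_⟩
      change (σ⁻¹ * τ) • z₀ = z
      have hτ' : τ • z₀ = σ • z := hτ
      rw [mul_smul, hτ', inv_smul_smul]
    simp [h, h']

/-- the equivariant function `σ • z₀ ↦ σ • a` (zero off the orbit of `z₀`). -/
def orbitFun (z₀ : Z) (a : Ω) : Z → Ω := by
  classical
  exact fun z => if h : ∃ σ : G, σ • z₀ = z then h.choose • a else 0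

variable {G}

theorem orbitFun_smul {z₀ : Z} {a : Ω} (ha : ∀ σ : G, σ • z₀ = z₀ → σ • a = a) (τ : G) :
    orbitFun G z₀ a (τ • z₀) = τ • a := by
  classical
  have h : ∃ σ : G, σ • z₀ = τ • z₀ := ⟨τ, rfl⟩
  unfold orbitFun
  rw [dif_pos h]
  have h1 : (τ⁻¹ * h.choose) • z₀ = z₀ := by
    rw [mul_smul, h.choose_spec, inv_smul_smul]
  have h2 := ha _ h1
  rw [mul_smul] at h2
  have h3 := congrArg (fun x => τ • x) h2
  simpa only [smul_inv_smul] using h3

theorem orbitFun_self {z₀ : Z} {a : Ω} (ha : ∀ σ : G, σ • z₀ = z₀ → σ • a = a) :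
    orbitFun G z₀ a z₀ = a := by
  have := orbitFun_smul (G := G) ha 1
  simpa using this

theorem isEquivariant_orbitFun {z₀ : Z} {a : Ω} (ha : ∀ σ : G, σ • z₀ = z₀ → σ • a = a) :
    IsEquivariant G (orbitFun G z₀ a) := by
  classical
  intro σ z
  by_cases h : ∃ τ : G, τ • z₀ = z
  · obtain ⟨τ, rfl⟩ := h
    rw [← mul_smul, orbitFun_smul ha, orbitFun_smul ha, mul_smul]
  · have h' : ¬ ∃ τ : G, τ • z₀ = σ • z := by
      rintro ⟨τ, hτ⟩
      exact h ⟨σ⁻¹ * τ, by rw [mul_smul, hτ, inv_smul_smul]⟩
    unfold orbitFun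
    rw [dif_neg h, dif_neg h', smul_zero]

end Orbit

section Span

variable [Finite Z]

/-- the `Ω`-span of the equivariant functions, as an `Ω`-subalgebra of `Z → Ω`. -/
def equivSpan (G : Type*) (Ω Z : Type*) [Group G] [Field Ω] [MulSemiringAction G Ω]
    [MulAction G Z] : Subalgebra Ω (Z → Ω) :=
  Algebra.adjoin Ω {f | IsEquivariant G f}

theorem equivSpan_toSubmodule :
    Subalgebra.toSubmodule (equivSpan G Ω Z) = Submodule.span Ω {f | IsEquivariant G f} := by
  unfold equivSpan
  rw [Algebra.adjoin_eq_span]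
  congr 1
  -- the set of equivariant functions is a submonoid
  refine le_antisymm ?_ Submonoid.subset_closure
  intro f hf
  exact Submonoid.closure_induction (motive := fun f _ => IsEquivariant G f) (fun f hf => hf)
    isEquivariant_one (fun f g _ _ hf hg => hf.mul hg) hf

/-- separation of points implies that every indicator lies in a subalgebra (finite sets). -/
theorem subalgebra_eq_top_of_separates (A : Subalgebra Ω (Z → Ω))
    (hsep : ∀ z z' : Z, z ≠ z' → ∃ f ∈ A, f z ≠ f z') : A = ⊤ := by
  classical
  haveI := Fintype.ofFinite Z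
  rw [eq_top_iff]
  intro g _
  -- indicators
  have hind : ∀ z : Z, (Pi.single z (1 : Ω) : Z → Ω) ∈ A := by
    intro z
    choose! w hwA hw using hsep z
    -- product over `z' ≠ z` of `(w z' - w z' z') / (w z' z - w z' z')`
    have hprod : (∏ z' ∈ Finset.univ.erase z,
        ((w z' z - w z' z')⁻¹ • (w z' - algebraMap Ω (Z → Ω) (w z' z')))) ∈ A := by
      refine Subalgebra.prod_mem _ fun z' hz' => ?_
      have hne : z ≠ z' := (Finset.ne_of_mem_erase hz').symm
      exact Subalgebra.smul_mem _ (Subalgebra.sub_mem _ (hwA z' hne) (Subalgebra.algebraMap_mem _ _)) _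
    convert hprod using 1
    funext y
    rw [Finset.prod_apply]
    by_cases hy : y = z
    · subst hy
      rw [Pi.single_eq_same]
      symm
      refine Finset.prod_eq_one fun z' hz' => ?_
      have hne : y ≠ z' := (Finset.ne_of_mem_erase hz').symm
      have h0 : w z' y - w z' z' ≠ 0 := sub_ne_zero.mpr (hw z' hne)
      simp only [Pi.smul_apply, Pi.sub_apply, Pi.algebraMap_apply, Algebra.algebraMap_self,
        RingHom.id_apply, smul_eq_mul]
      exact inv_mul_cancel₀ h0
    · rw [Pi.single_eq_of_ne hy]
      symm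
      refine Finset.prod_eq_zero (Finset.mem_erase.mpr ⟨hy, Finset.mem_univ y⟩) ?_
      simp
  have : g = ∑ z : Z, g z • (Pi.single z (1 : Ω) : Z → Ω) := by
    funext y
    simp [Finset.sum_apply, Pi.single_apply]
  rw [this]
  exact Subalgebra.sum_mem _ fun z _ => Subalgebra.smul_mem _ (hind z) _

/-- **(D2)** If stabilisers are separated by fixed elements, the equivariant functions span
`Z → Ω`. -/
theorem span_equivariant_eq_top
    (hsep : ∀ (z : Z) (τ : G), τ • z ≠ z →
      ∃ a : Ω, (∀ σ : G, σ • z = z → σ • a = a) ∧ τ • a ≠ a) :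
    Submodule.span Ω {f : Z → Ω | IsEquivariant G f} = ⊤ := by
  classical
  rw [← equivSpan_toSubmodule]
  have : equivSpan G Ω Z = ⊤ := by
    refine subalgebra_eq_top_of_separates _ fun z z' hzz' => ?_
    by_cases horb : z' ∈ MulAction.orbit G z
    · obtain ⟨τ, rfl⟩ := horb
      obtain ⟨a, ha, hτa⟩ := hsep z τ (fun h => hzz' h.symm)
      refine ⟨orbitFun G z a, Algebra.subset_adjoin (isEquivariant_orbitFun ha), ?_⟩
      rw [orbitFun_self ha, orbitFun_smul ha]
      exact fun h => hτa h.symm
    · refine ⟨orbitInd G z, Algebra.subset_adjoin (isEquivariant_orbitInd G z), ?_⟩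
      unfold orbitInd
      simp [horb, MulAction.mem_orbit_self]
  rw [this]
  rfl

/-- **(D3)** Under the separation hypothesis there is a family of `|Z|` equivariant functions which
is an `Ω`-basis of `Z → Ω`, and in which every equivariant function has coefficients in `F`. -/
theorem exists_equivariant_basis (F : Subfield Ω)
    (hF : ∀ a : Ω, (∀ σ : G, σ • a = a) → a ∈ F)
    (hsep : ∀ (z : Z) (τ : G), τ • z ≠ z →
      ∃ a : Ω, (∀ σ : G, σ • z = z → σ • a = a) ∧ τ • a ≠ a) :
    ∃ b : Module.Basis (Fin (Nat.card Z)) Ω (Z → Ω), (∀ i, IsEquivariant G (b i)) ∧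
      ∀ f : Z → Ω, IsEquivariant G f → ∀ i, b.repr f i ∈ F := by
  classical
  haveI := Fintype.ofFinite Z
  obtain ⟨s, hsS, hspan, hli⟩ := exists_linearIndependent Ω {f : Z → Ω | IsEquivariant G f}
  rw [span_equivariant_eq_top hsep] at hspan
  let B : Module.Basis s Ω (Z → Ω) :=
    Module.Basis.mk hli (by rw [Subtype.range_coe]; exact hspan.ge)
  have hBcoe : ∀ i : s, B i = (i : Z → Ω) := fun i => by simp [B]
  haveI : Finite s := (Module.Finite.finite_basis B)
  haveI := Fintype.ofFinite s
  have hcard : Nat.card s = Nat.card Z := by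
    have h1 : Module.finrank Ω (Z → Ω) = Fintype.card s := Module.finrank_eq_card_basis B
    have h2 : Module.finrank Ω (Z → Ω) = Fintype.card Z := Module.finrank_fintype_fun_eq_card Ω
    rw [Nat.card_eq_fintype_card, Nat.card_eq_fintype_card, ← h1, h2]
  let e : s ≃ Fin (Nat.card Z) := (Finite.equivFin s).trans (finCongr hcard)
  let b : Module.Basis (Fin (Nat.card Z)) Ω (Z → Ω) := B.reindex e
  have hb : ∀ i, IsEquivariant G (b i) := fun i => by
    have : b i = ((e.symm i : s) : Z → Ω) := by simp [b, hBcoe]
    rw [this]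
    exact hsS (e.symm i).2
  refine ⟨b, hb, fun f hf i => hF _ fun σ => ?_⟩
  have hsum : f = ∑ j ∈ (Finset.univ : Finset (Fin (Nat.card Z))), b.repr f j • b j :=
    (b.sum_repr f).symm
  exact smul_coeff_eq_of_equivariant hb b.linearIndependent Finset.univ (fun j => b.repr f j) hf
    hsum σ i (Finset.mem_univ i)

/-- Consequence of (D3): every equivariant function lies in the `F`-span of the basis. -/
theorem mem_span_of_equivariant (F : Subfield Ω)
    (b : Module.Basis (Fin (Nat.card Z)) Ω (Z → Ω))
    (hb : ∀ f : Z → Ω, IsEquivariant G f → ∀ i, b.repr f i ∈ F)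
    {f : Z → Ω} (hf : IsEquivariant G f) : f ∈ Submodule.span F (Set.range b) := by
  rw [← b.sum_repr f]
  refine Submodule.sum_mem _ fun i _ => ?_
  have : b.repr f i • b i = (⟨b.repr f i, hb f hf i⟩ : F) • b i := rfl
  rw [this]
  exact Submodule.smul_mem _ _ (Submodule.subset_span ⟨i, rfl⟩)

end Span

end Fermat.Agent.S19x.Alg.EquivDescent
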