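/-
P-S19, BLOCK B, (F5) key step, independent second (helper26): the `O^ur`-order `Hur` generated by
the decomposition-group conjugates of the local generators is spanned, over `O^ur = inertiaInt P`,
by its `Gal(Qbar/ℚ)`-equivariant elements.

`Qbar = AlgebraicClosure ℚ`, `P` a valuation subring of `Qbar` over `ℓ`, `I` its inertia group,
`σ` a Frobenius lift at `P`, `X` a finite set with a continuous action `act` of `Gal(Qbar/ℚ)`.

* `IsFix P σ c` : `c` is fixed by `I` and by `σ`;  `exists_rat_add_pow_mul` : such a `c` is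
  `r + ℓ ^ n * d` with `r` rational and `d ∈ P` again fixed  (`ℚ` is `ℓ`-adically dense in the
  fixed field of `⟨I, σ⟩`; no statement about the decomposition group is needed);
* `exists_level`, `exists_pow_fixing` : finite level: every function on `X` is fixed by `conj τ` for
  `τ` in an open subgroup, and a positive power of any `σ` lies in a given open subgroup;
* `exists_equivariant_basis_of_open` : a `Qbar`-basis of `X → Qbar` made of `Gal(Qbar/ℚ)`-equivariant
  functions (infinite Galois correspondence for the open stabilisers + `EquivDescent`);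
* **`Hur_le_span_equivariant`** : every `F ∈ Hur P act gens` lies in the `inertiaInt P`-span of the
  elements of `Hur P act gens` which are equivariant for the whole `Gal(Qbar/ℚ)`.
  Route: `CyclicTraceZeta.mem_span_fixed` (unramified cyclic descent, `Φ = conj σ`), then for a
  `σ`-fixed `F'` its coordinates in an equivariant basis are fixed by `I` and `σ`, hence
  `ℓ`-adically approximated by rationals; the error is absorbed by the conductor
  (`ConductorQbar.exists_pow_smul_mem_qbar`) of the span of the equivariant part.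
-/
import Mathlib
import Fermat.Agent.S56x.Flat.InertiaField
import Fermat.Agent.S19x.Hens.FrobFix
import Fermat.Agent.S19x.Alg.Compositum
import Fermat.Agent.S19x.Alg.ConductorQbar
import Fermat.Agent.S19x.Alg.EquivDescent
import Fermat.Agent.S19x.Alg.CyclicTraceZeta

set_option autoImplicit false
set_option linter.unusedSectionVars false
set_option linter.unusedVariables false
set_option linter.style.haveILetI false

noncomputable section

namespace Fermat.Agent.S19x.Alg.FrobDescent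

open scoped Pointwise BigOperators
open Fermat.Agent.S56x.Flat.InertiaField Fermat.Agent.S19x.Alg.Compositum

local notation "Qbar" => AlgebraicClosure ℚ
local notation "Γℚ" => (AlgebraicClosure ℚ ≃ₐ[ℚ] AlgebraicClosure ℚ)

/-! ### Elements fixed by inertia and by a Frobenius lift -/

section Arith

variable (P : ValuationSubring Qbar)

/-- `c` is fixed by the inertia group of `P` and by `σ`. -/
def IsFix (σ : Γℚ) (c : Qbar) : Prop :=
  (∀ τ ∈ P.inertiaSubgroupIn ℚ, τ c = c) ∧ σ c = c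

variable {P}

theorem IsFix.intCast (σ : Γℚ) (b : ℤ) : IsFix P σ (b : Qbar) :=
  ⟨fun τ _ => map_intCast τ b, map_intCast σ b⟩

theorem IsFix.natCast (σ : Γℚ) (b : ℕ) : IsFix P σ (b : Qbar) :=
  ⟨fun τ _ => map_natCast τ b, map_natCast σ b⟩

theorem IsFix.ratCast (σ : Γℚ) (r : ℚ) : IsFix P σ (algebraMap ℚ Qbar r) :=
  ⟨fun τ _ => τ.commutes r, σ.commutes r⟩

theorem IsFix.add {σ : Γℚ} {c d : Qbar} (hc : IsFix P σ c) (hd : IsFix P σ d) :
    IsFix P σ (c + d) :=
  ⟨fun τ hτ => by rw [map_add, hc.1 τ hτ, hd.1 τ hτ], by rw [map_add, hc.2, hd.2]⟩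

theorem IsFix.sub {σ : Γℚ} {c d : Qbar} (hc : IsFix P σ c) (hd : IsFix P σ d) :
    IsFix P σ (c - d) :=
  ⟨fun τ hτ => by rw [map_sub, hc.1 τ hτ, hd.1 τ hτ], by rw [map_sub, hc.2, hd.2]⟩

theorem IsFix.mul {σ : Γℚ} {c d : Qbar} (hc : IsFix P σ c) (hd : IsFix P σ d) :
    IsFix P σ (c * d) :=
  ⟨fun τ hτ => by rw [map_mul, hc.1 τ hτ, hd.1 τ hτ], by rw [map_mul, hc.2, hd.2]⟩

theorem IsFix.pow {σ : Γℚ} {c : Qbar} (hc : IsFix P σ c) (n : ℕ) : IsFix P σ (c ^ n) :=
  ⟨fun τ hτ => by rw [map_pow, hc.1 τ hτ], by rw [map_pow, hc.2]⟩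

/-- cancellation of a non-zero fixed factor. -/
theorem IsFix.of_mul {σ : Γℚ} {c d : Qbar} (hc : IsFix P σ c) (hc0 : c ≠ 0)
    (hcd : IsFix P σ (c * d)) : IsFix P σ d := by
  refine ⟨fun τ hτ => ?_, ?_⟩
  · have h := hcd.1 τ hτ
    rw [map_mul, hc.1 τ hτ] at h
    exact mul_left_cancel₀ hc0 h
  · have h := hcd.2
    rw [map_mul, hc.2] at h
    exact mul_left_cancel₀ hc0 h

variable (P) {ℓ : ℕ} (hℓ : ℓ.Prime) (hP : P.LiesOverPrime ℓ) {σ : Γℚ} (hσ : P.IsFrobeniusAt σ ℓ)
include hℓ hP hσ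

/-- **Residue degree one + unramified**: a fixed element of `P` is an integer plus `ℓ` times a
fixed element of `P`. -/
theorem exists_int_add_mul (c : Qbar) (hc : c ∈ P) (hfix : IsFix P σ c) :
    ∃ b : ℤ, ∃ d ∈ P, IsFix P σ d ∧ c = (b : Qbar) + (ℓ : Qbar) * d := by
  have hσ' := (Fermat.Agent.S56x.Hens.isFrobeniusAt_iff P σ ℓ).mp hσ
  have h1 := hσ'.2 c hc
  rw [hfix.2] at h1
  obtain ⟨b, hb⟩ := Fermat.Agent.S19x.Hens.exists_int_sub_mem_nonunits_of_pow_sub_mem P hℓ hP c hc h1
  have hcb : IsFix P σ (c - (b : Qbar)) := hfix.sub (IsFix.intCast σ b)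
  obtain ⟨d, hdP, hd⟩ := div_mem_of_fixed P hℓ hP (c - (b : Qbar)) hb hcb.1
  have hℓ0 : (ℓ : Qbar) ≠ 0 := natCast_ne_zero_Qbar P hℓ hP
  refine ⟨b, d, hdP, ?_, ?_⟩
  · exact IsFix.of_mul (IsFix.natCast σ ℓ) hℓ0 (hd ▸ hcb)
  · rw [← hd]; ring

/-- `O^{⟨I,σ⟩} = ℤ + ℓ ^ n O^{⟨I,σ⟩}`. -/
theorem exists_int_add_pow_mul (c : Qbar) (hc : c ∈ P) (hfix : IsFix P σ c) (n : ℕ) :
    ∃ b : ℤ, ∃ d ∈ P, IsFix P σ d ∧ c = (b : Qbar) + (ℓ : Qbar) ^ n * d := by
  induction n with
  | zero => exact ⟨0, c, hc, hfix, by simp⟩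
  | succ n ih =>
    obtain ⟨b, d, hd, hdfix, hcd⟩ := ih
    obtain ⟨b', d', hd', hdfix', hdd'⟩ := exists_int_add_mul P hℓ hP hσ d hd hdfix
    refine ⟨b + (ℓ : ℤ) ^ n * b', d', hd', hdfix', ?_⟩
    rw [hcd, hdd']
    push_cast
    ring

/-- **Density**: every element of `Qbar` fixed by inertia and by the Frobenius lift `σ` is, for
every `n`, a rational number plus `ℓ ^ n` times a fixed element of `P`. -/
theorem exists_rat_add_pow_mul (c : Qbar) (hfix : IsFix P σ c) (n : ℕ) :
    ∃ r : ℚ, ∃ d ∈ P, IsFix P σ d ∧ c = algebraMap ℚ Qbar r + (ℓ : Qbar) ^ n * d := by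
  obtain ⟨k, hk⟩ := ConductorQbar.exists_pow_mul_mem hℓ P hP c
  have hℓ0 : (ℓ : Qbar) ≠ 0 := natCast_ne_zero_Qbar P hℓ hP
  have hfix' : IsFix P σ ((ℓ : Qbar) ^ k * c) := ((IsFix.natCast σ ℓ).pow k).mul hfix
  obtain ⟨b, d, hd, hdfix, hbd⟩ :=
    exists_int_add_pow_mul P hℓ hP hσ _ hk hfix' (n + k)
  refine ⟨(b : ℚ) / (ℓ : ℚ) ^ k, d, hd, hdfix, ?_⟩
  have hpk : (ℓ : Qbar) ^ k ≠ 0 := pow_ne_zero k hℓ0
  have h1 : algebraMap ℚ Qbar ((b : ℚ) / (ℓ : ℚ) ^ k) = (b : Qbar) / (ℓ : Qbar) ^ k := by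
    rw [map_div₀, map_pow, map_intCast, map_natCast]
  rw [h1]
  field_simp
  rw [mul_comm c, hbd]
  ring

end Arith

/-! ### Finite level -/

section Level

variable {X : Type*} (act : Γℚ → X → X)

/-- the "open stabilisers" hypothesis on an action of `Gal(Qbar/ℚ)` on `X`. -/
def OpenStab : Prop :=
  ∀ x : X, ∃ L : IntermediateField ℚ Qbar, FiniteDimensional ℚ L ∧
    ∀ σ : Γℚ, (∀ a ∈ L, σ a = a) → act σ x = x

variable {act}

/-- every function on a finite `X` with open stabilisers has a finite level. -/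
theorem exists_level [Finite X] (hopen : OpenStab act) (F : X → Qbar) :
    ∃ L : IntermediateField ℚ Qbar, FiniteDimensional ℚ L ∧
      ∀ σ : Γℚ, (∀ a ∈ L, σ a = a) → conj act σ F = F := by
  classical
  choose L hLfd hL using hopen
  let M : X → IntermediateField ℚ Qbar := fun x => L x ⊔ IntermediateField.adjoin ℚ {F x}
  haveI : ∀ x, FiniteDimensional ℚ (L x) := hLfd
  haveI : ∀ x, FiniteDimensional ℚ (IntermediateField.adjoin ℚ {F x}) := fun x =>
    IntermediateField.adjoin.finiteDimensional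
      ((AlgebraicClosure.isAlgebraic ℚ).isAlgebraic (F x)).isIntegral
  haveI : ∀ x, FiniteDimensional ℚ (M x) := fun x => IntermediateField.finiteDimensional_sup _ _
  refine ⟨⨆ x, M x, IntermediateField.finiteDimensional_iSup_of_finite, fun σ hσ => ?_⟩
  have hM : ∀ x, M x ≤ ⨆ x, M x := fun x => le_iSup M x
  have hσinv : ∀ a ∈ ⨆ x, M x, σ⁻¹ a = a := by
    intro a ha
    have h := hσ a ha
    calc σ⁻¹ a = σ⁻¹ (σ a) := by rw [h]
      _ = (σ⁻¹ * σ) a := rfl
      _ = a := by rw [inv_mul_cancel]; rfl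
  funext t
  show σ (F (act σ⁻¹ t)) = F t
  have h1 : act σ⁻¹ t = t :=
    hL t σ⁻¹ fun a ha => hσinv a (hM t (le_sup_left (a := L t) ha))
  rw [h1]
  exact hσ _ (hM t (le_sup_right (a := L t)
    (IntermediateField.mem_adjoin_simple_self ℚ (F t))))

/-- a positive power of any automorphism fixes a given finite extension pointwise. -/
theorem exists_pow_fixing (L : IntermediateField ℚ Qbar) [FiniteDimensional ℚ L] (σ : Γℚ) :
    ∃ n : ℕ, 0 < n ∧ ∀ a ∈ L, (σ ^ n) a = a := by
  classical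
  let f : ℕ → (L →ₐ[ℚ] Qbar) := fun k => ((σ ^ k : Γℚ) : Qbar →ₐ[ℚ] Qbar).comp L.val
  obtain ⟨i, j, hij, hf⟩ := Finite.exists_ne_map_eq_of_infinite f
  -- wlog `i < j`
  have key : ∀ i j : ℕ, i < j → f i = f j → ∃ n : ℕ, 0 < n ∧ ∀ a ∈ L, (σ ^ n) a = a := by
    intro i j hlt hf
    refine ⟨j - i, Nat.sub_pos_of_lt hlt, fun a ha => ?_⟩
    have h1 : (σ ^ i) a = (σ ^ j) a := by
      have := congrArg (fun g : L →ₐ[ℚ] Qbar => g ⟨a, ha⟩) hf
      exact this
    have h2 : σ ^ j = σ ^ i * σ ^ (j - i) := by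
      rw [← pow_add, Nat.add_sub_cancel' hlt.le]
    rw [h2] at h1
    have h3 : (σ ^ i) a = (σ ^ i) ((σ ^ (j - i)) a) := h1
    exact ((σ ^ i).injective h3).symm
  rcases Nat.lt_or_gt_of_ne hij with h | h
  · exact key i j h hf
  · exact key j i h hf.symm

variable (hact1 : ∀ t, act 1 t = t) (hactmul : ∀ σ τ t, act (σ * τ) t = act σ (act τ t))
include hact1 hactmul

/-- iterating `conj σ`. -/
theorem conj_iterate (σ : Γℚ) (n : ℕ) (F : X → Qbar) :
    (conj act σ)^[n] F = conj act (σ ^ n) F := by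
  induction n with
  | zero => rw [Function.iterate_zero, id, pow_zero, conj_one act hact1]
  | succ n ih =>
    rw [Function.iterate_succ_apply', ih, conj_conj act hactmul, pow_succ']

/-- every function on a finite `X` with open stabilisers is fixed by a positive power of
`conj σ`. -/
theorem exists_iterate_conj_eq [Finite X] (hopen : OpenStab act) (σ : Γℚ) (F : X → Qbar) :
    ∃ n : ℕ, 0 < n ∧ (conj act σ)^[n] F = F := by
  obtain ⟨L, hLfd, hL⟩ := exists_level hopen F
  obtain ⟨n, hn, hσn⟩ := exists_pow_fixing L σ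
  exact ⟨n, hn, by rw [conj_iterate hact1 hactmul]; exact hL _ hσn⟩

end Level

/-! ### An equivariant basis -/

section Basis

variable {X : Type*} {act : Γℚ → X → X}
  (hact1 : ∀ t, act 1 t = t) (hactmul : ∀ σ τ t, act (σ * τ) t = act σ (act τ t))
include hact1 hactmul

/-- **Separated stabilisers**: an open stabiliser is the fixing group of its fixed field. -/
theorem exists_fixed_moved (hopen : OpenStab act) (z : X) (τ : Γℚ) (hτ : act τ z ≠ z) :
    ∃ a : Qbar, (∀ σ : Γℚ, act σ z = z → σ a = a) ∧ τ a ≠ a := by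
  obtain ⟨L, hLfd, hL⟩ := hopen z
  haveI := hLfd
  let S : Subgroup Γℚ :=
    { carrier := {σ | act σ z = z}
      mul_mem' := fun {a b} ha hb => by
        show act (a * b) z = z
        rw [hactmul, hb, ha]
      one_mem' := hact1 z
      inv_mem' := fun {a} ha => by
        show act a⁻¹ z = z
        have h : act a⁻¹ (act a z) = z := by rw [← hactmul, inv_mul_cancel, hact1]
        rwa [ha] at h }
  have hLS : L.fixingSubgroup ≤ S := fun σ hσ =>
    hL σ ((IntermediateField.mem_fixingSubgroup_iff L σ).mp hσ)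
  have hopenS : IsOpen (S : Set Γℚ) :=
    Subgroup.isOpen_mono hLS (IntermediateField.fixingSubgroup_isOpen L)
  have hclosedS : IsClosed (S : Set Γℚ) := Subgroup.isClosed_of_isOpen S hopenS
  haveI : Algebra.IsAlgebraic ℚ Qbar := AlgebraicClosure.isAlgebraic ℚ
  haveI : IsAlgClosure ℚ Qbar := ⟨inferInstance, inferInstance⟩
  haveI : IsGalois ℚ Qbar := IsAlgClosure.isGalois ℚ Qbar
  have h := InfiniteGalois.fixingSubgroup_fixedField (⟨S, hclosedS⟩ : ClosedSubgroup Γℚ)
  have hτS : τ ∉ (IntermediateField.fixedField S).fixingSubgroup := by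
    rw [h]
    exact hτ
  rw [IntermediateField.mem_fixingSubgroup_iff] at hτS
  push Not at hτS
  obtain ⟨a, ha, hτa⟩ := hτS
  exact ⟨a, fun σ hσ => (IntermediateField.mem_fixedField_iff S a).mp ha σ hσ, hτa⟩

/-- a `Qbar`-basis of `X → Qbar` consisting of `Gal(Qbar/ℚ)`-equivariant functions. -/
theorem exists_equivariant_basis_of_open [Finite X] (hopen : OpenStab act) :
    ∃ b : Module.Basis (Fin (Nat.card X)) Qbar (X → Qbar),
      ∀ (i : Fin (Nat.card X)) (σ : Γℚ) (t : X), b i (act σ t) = σ (b i t) := by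
  letI : MulAction Γℚ X :=
    { smul := fun g z => act g z
      one_smul := hact1
      mul_smul := hactmul }
  obtain ⟨b, hb, -⟩ := EquivDescent.exists_equivariant_basis (G := Γℚ) (Ω := Qbar) (Z := X) ⊤
    (fun a _ => Subfield.mem_top a) (fun z τ hτ => by
      obtain ⟨a, ha, hτa⟩ := exists_fixed_moved hact1 hactmul hopen z τ hτ
      exact ⟨a, fun σ hσ => ha σ hσ, hτa⟩)
  exact ⟨b, fun i σ t => hb i σ t⟩

/-- an equivariant function is fixed by all `conj τ`. -/
theorem conj_eq_of_equivariant {F : X → Qbar} (τ : Γℚ) (hF : ∀ t : X, F (act τ t) = τ (F t)) :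
    conj act τ F = F := by
  funext t
  show τ (F (act τ⁻¹ t)) = F t
  rw [← hF, ← hactmul, mul_inv_cancel, hact1]

/-- coordinates in an equivariant basis are semilinear for `conj`. -/
theorem repr_conj {ι : Type*} [Fintype ι] (b : Module.Basis ι Qbar (X → Qbar))
    (hb : ∀ (i : ι) (σ : Γℚ) (t : X), b i (act σ t) = σ (b i t)) (τ : Γℚ) (F : X → Qbar)
    (i : ι) : b.repr (conj act τ F) i = τ (b.repr F i) := by
  have h1 : conj act τ F = ∑ j, τ (b.repr F j) • b j := by
    conv_lhs => rw [← b.sum_repr F]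
    rw [conj_sum]
    refine Finset.sum_congr rfl fun j _ => ?_
    rw [conj_smul', conj_eq_of_equivariant hact1 hactmul τ (hb j τ)]
  rw [h1, b.repr_sum_self]

end Basis

/-! ### The equivariant part of `Hur` -/

section Main

variable (P : ValuationSubring Qbar) {X : Type} (act : Γℚ → X → X) (gens : Set (X → Qbar))

/-- the elements of `Hur` which are equivariant for the whole `Gal(Qbar/ℚ)`, as a submonoid. -/
def eqMonoid : Submonoid (X → Qbar) where
  carrier := {F | F ∈ Hur P act gens ∧ ∀ (σ : Γℚ) (t : X), F (act σ t) = σ (F t)}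
  mul_mem' := by
    rintro F G ⟨hF, hF'⟩ ⟨hG, hG'⟩
    exact ⟨(Hur P act gens).mul_mem hF hG, fun σ t => by
      rw [Pi.mul_apply, Pi.mul_apply, hF', hG', map_mul]⟩
  one_mem' := ⟨(Hur P act gens).one_mem, fun σ t => by rw [Pi.one_apply, Pi.one_apply, map_one]⟩

variable {P act gens}

theorem mem_eqMonoid {F : X → Qbar} :
    F ∈ eqMonoid P act gens ↔
      F ∈ Hur P act gens ∧ ∀ (σ : Γℚ) (t : X), F (act σ t) = σ (F t) := Iff.rfl

variable (P act gens)

/-- the `O^ur`-subalgebra spanned by the equivariant part. -/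
def eqAlg : Subalgebra (inertiaInt P) (X → Qbar) :=
  Algebra.adjoin (inertiaInt P) (eqMonoid P act gens : Set (X → Qbar))

theorem eqAlg_toSubmodule :
    Subalgebra.toSubmodule (eqAlg P act gens) =
      Submodule.span (inertiaInt P) (eqMonoid P act gens : Set (X → Qbar)) := by
  unfold eqAlg
  rw [Algebra.adjoin_eq_span, Submonoid.closure_eq]

theorem eqAlg_le_Hur : eqAlg P act gens ≤ Hur P act gens :=
  Algebra.adjoin_le fun F hF => hF.1

theorem subset_eqAlg : (eqMonoid P act gens : Set (X → Qbar)) ⊆ eqAlg P act gens :=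
  Algebra.subset_adjoin

variable {ℓ : ℕ} (hℓ : ℓ.Prime) (hP : P.LiesOverPrime ℓ) [Finite X]
  (hact1 : ∀ t, act 1 t = t) (hactmul : ∀ σ τ t, act (σ * τ) t = act σ (act τ t))
  (hopen : OpenStab act)
  (hequiv : ∀ f ∈ gens, ∀ τ ∈ P.inertiaSubgroupIn ℚ, ∀ t : X, f (act τ t) = τ (f t))
  (hint : ∀ f ∈ gens, ∀ t : X, f t ∈ P)
  (hsep : ∀ s t : X, s ≠ t → ∃ f ∈ gens, f s ≠ f t)

/-- a uniform power of `ℓ` making finitely many elements integral. -/
theorem exists_pow_mul_mem_of_finite {ι : Type*} [Finite ι] (x : ι → Qbar) (hℓ : ℓ.Prime)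
    (hP : P.LiesOverPrime ℓ) : ∃ m : ℕ, ∀ i, (ℓ : Qbar) ^ m * x i ∈ P := by
  classical
  haveI := Fintype.ofFinite ι
  choose n hn using fun i => ConductorQbar.exists_pow_mul_mem hℓ P hP (x i)
  refine ⟨∑ i, n i, fun i => ?_⟩
  have h1 : n i ≤ ∑ j, n j := Finset.single_le_sum (fun _ _ => Nat.zero_le _) (Finset.mem_univ i)
  obtain ⟨d, hd⟩ := Nat.exists_eq_add_of_le h1
  rw [hd, pow_add, mul_comm ((ℓ : Qbar) ^ n i), mul_assoc]
  exact P.mul_mem _ _ (pow_mem (natCast_mem P ℓ) d) (hn i)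

include hℓ hP hact1 hactmul hopen hequiv hint hsep

/-- suitable `ℓ`-power multiples of an equivariant basis lie in the equivariant part of `Hur`. -/
theorem exists_scaled_basis_mem :
    ∃ (b : Module.Basis (Fin (Nat.card X)) Qbar (X → Qbar)) (m N : ℕ),
      (∀ (i : Fin (Nat.card X)) (σ : Γℚ) (t : X), b i (act σ t) = σ (b i t)) ∧
      (∀ i t, (ℓ : Qbar) ^ m * b i t ∈ P) ∧
      ∀ i, (fun t => (ℓ : Qbar) ^ N * b i t) ∈ eqMonoid P act gens := by
  classical
  obtain ⟨b, hb⟩ := exists_equivariant_basis_of_open hact1 hactmul hopen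
  obtain ⟨m, hm⟩ := exists_pow_mul_mem_of_finite P
    (fun p : Fin (Nat.card X) × X => b p.1 p.2) hℓ hP
  have hsepHur : ∀ z z' : X, z ≠ z' → ∃ f ∈ Hur P act gens, f z ≠ f z' := fun z z' hzz' => by
    obtain ⟨f, hf, hfz⟩ := hsep z z' hzz'
    exact ⟨f, subset_Hur P act hact1 gens hf, hfz⟩
  obtain ⟨k₀, hk₀⟩ := ConductorQbar.exists_pow_smul_mem_qbar hℓ P hP act hact1 hactmul
    (Hur P act gens)
    (fun f hf => Hur_equivariant P act hact1 hactmul hequiv hint hf)
    (fun f hf => Hur_integral P act hact1 hactmul hequiv hint hf) hsepHur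
  refine ⟨b, m, k₀ + m, hb, fun i t => hm (i, t), fun i => ?_⟩
  have h1 := hk₀ (fun t => (ℓ : Qbar) ^ m * b i t)
    (fun τ _ t => by rw [hb i τ t, map_mul, map_pow, map_natCast]) (fun t => hm (i, t))
  have h2 : (fun t => (ℓ : Qbar) ^ (k₀ + m) * b i t) =
      fun z => (ℓ : Qbar) ^ k₀ * ((ℓ : Qbar) ^ m * b i z) := by
    funext t
    rw [pow_add, mul_assoc]
  rw [h2]
  refine ⟨h1, fun σ t => ?_⟩
  show (ℓ : Qbar) ^ k₀ * ((ℓ : Qbar) ^ m * b i (act σ t)) =
    σ ((ℓ : Qbar) ^ k₀ * ((ℓ : Qbar) ^ m * b i t))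
  rw [hb i σ t, map_mul, map_mul, map_pow, map_pow, map_natCast]

/-- **Key step.**  An element of `Hur` fixed by `conj σ`, `σ` a Frobenius lift, lies in the
`O^ur`-span of the `Gal(Qbar/ℚ)`-equivariant elements of `Hur`. -/
theorem mem_eqAlg_of_conj_eq {σ : Γℚ} (hσ : P.IsFrobeniusAt σ ℓ) {F : X → Qbar}
    (hF : F ∈ Hur P act gens) (hFσ : conj act σ F = F) : F ∈ eqAlg P act gens := by
  classical
  obtain ⟨b, m, N, hb, hbm, hbN⟩ :=
    exists_scaled_basis_mem P act gens hℓ hP hact1 hactmul hopen hequiv hint hsep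
  have hℓ0 : (ℓ : Qbar) ≠ 0 := natCast_ne_zero_Qbar P hℓ hP
  -- the conductor of `eqAlg`
  have hsepE : ∀ z z' : X, z ≠ z' → ∃ f ∈ eqAlg P act gens, f z ≠ f z' := by
    intro z z' hzz'
    by_contra hcon
    push Not at hcon
    -- all basis functions agree at `z`, `z'`, hence all functions do
    have hbz : ∀ i, b i z = b i z' := by
      intro i
      have h := hcon _ (subset_eqAlg P act gens (hbN i))
      exact mul_left_cancel₀ (pow_ne_zero N hℓ0) h
    have hall : ∀ f : X → Qbar, f z = f z' := by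
      intro f
      rw [← b.sum_repr f]
      simp only [Finset.sum_apply, Pi.smul_apply, hbz]
    have := hall (fun t => if t = z then 1 else 0)
    simp only [if_true] at this
    rw [if_neg (Ne.symm hzz')] at this
    exact one_ne_zero this
  obtain ⟨k, hk⟩ := ConductorQbar.exists_pow_smul_mem_qbar hℓ P hP act hact1 hactmul
    (eqAlg P act gens)
    (fun f hf => Hur_equivariant P act hact1 hactmul hequiv hint (eqAlg_le_Hur P act gens hf))
    (fun f hf => Hur_integral P act hact1 hactmul hequiv hint (eqAlg_le_Hur P act gens hf)) hsepE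
  -- the coordinates of `F` are fixed by inertia and by `σ`
  have hcfix : ∀ i, IsFix P σ (b.repr F i) := by
    intro i
    refine ⟨fun τ hτ => ?_, ?_⟩
    · have h1 : conj act τ F = F := conj_eq_of_equivariant hact1 hactmul τ
        (Hur_equivariant P act hact1 hactmul hequiv hint hF τ hτ)
      rw [← repr_conj hact1 hactmul b hb τ F i, h1]
    · rw [← repr_conj hact1 hactmul b hb σ F i, hFσ]
  -- approximate the coordinates
  choose r d hdP hdfix hcd using fun i =>
    exists_rat_add_pow_mul P hℓ hP hσ (b.repr F i) (hcfix i) (k + m)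
  -- the error term lies in `eqAlg`
  have herr : ∀ i, ((ℓ : Qbar) ^ (k + m) * d i) • b i ∈ eqAlg P act gens := by
    intro i
    have h1 := hk (fun t => d i * ((ℓ : Qbar) ^ m * b i t))
      (fun τ hτ t => by
        rw [hb i τ t, map_mul, map_mul, map_pow, map_natCast, (hdfix i).1 τ hτ])
      (fun t => P.mul_mem _ _ (hdP i) (hbm i t))
    have h2 : ((ℓ : Qbar) ^ (k + m) * d i) • b i =
        fun z => (ℓ : Qbar) ^ k * (d i * ((ℓ : Qbar) ^ m * b i z)) := by
      funext t
      rw [Pi.smul_apply, smul_eq_mul, pow_add]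
      ring
    rw [h2]
    exact h1
  have hErr : ∑ i, ((ℓ : Qbar) ^ (k + m) * d i) • b i ∈ eqAlg P act gens :=
    Subalgebra.sum_mem _ fun i _ => herr i
  -- the rational part
  have hsplit : F = ∑ i, algebraMap ℚ Qbar (r i) • b i +
      ∑ i, ((ℓ : Qbar) ^ (k + m) * d i) • b i := by
    conv_lhs => rw [← b.sum_repr F]
    rw [← Finset.sum_add_distrib]
    refine Finset.sum_congr rfl fun i _ => ?_
    rw [← add_smul, ← hcd i]
  have hG : ∑ i, algebraMap ℚ Qbar (r i) • b i ∈ eqMonoid P act gens := by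
    refine ⟨?_, fun τ t => ?_⟩
    · have h1 : ∑ i, algebraMap ℚ Qbar (r i) • b i =
          F - ∑ i, ((ℓ : Qbar) ^ (k + m) * d i) • b i := by
        rw [eq_sub_iff_add_eq]
        exact hsplit.symm
      rw [h1]
      exact (Hur P act gens).sub_mem hF (eqAlg_le_Hur P act gens hErr)
    · simp only [Finset.sum_apply, Pi.smul_apply, smul_eq_mul, map_sum, map_mul, hb _ τ t,
        AlgEquiv.commutes]
  rw [hsplit]
  exact (eqAlg P act gens).add_mem (subset_eqAlg P act gens hG) hErr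

omit hℓ hP hact1 hopen hequiv hint hsep [Finite X] in
/-- `conj σ` as an additive endomorphism of `Hur`, for `σ` in the decomposition group. -/
def frobHur {σ : Γℚ} (hσ : σ ∈ P.decompositionSubgroup ℚ) :
    ↥(Hur P act gens) →+ ↥(Hur P act gens) where
  toFun F := ⟨conj act σ F.1, conj_mem_Hur P act hactmul hσ F.2⟩
  map_zero' := Subtype.ext (by
    show conj act σ (0 : X → Qbar) = 0
    funext t
    show σ 0 = 0
    exact map_zero σ)
  map_add' F G := Subtype.ext (by
    show conj act σ (F.1 + G.1) = conj act σ F.1 + conj act σ G.1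
    exact conj_add act σ F.1 G.1)

/-- **(F5), key step**: `Hur` is spanned over `O^ur` by its `Gal(Qbar/ℚ)`-equivariant elements. -/
theorem Hur_le_eqAlg : Hur P act gens ≤ eqAlg P act gens := by
  intro F hF
  obtain ⟨σ, hσ, -⟩ := Fermat.Agent.Lib.exists_isFrobeniusAt_of_liesOverPrime hℓ P hP
  have hσD : σ ∈ P.decompositionSubgroup ℚ := hσ.mem_decompositionSubgroup
  let Φ : ↥(Hur P act gens) →+ ↥(Hur P act gens) := frobHur P act gens hactmul hσD
  have hΦ : ∀ (c : inertiaInt P) (m : ↥(Hur P act gens)),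
      Φ (c • m) = CyclicTraceZeta.decompRingHom P hσD c • Φ m := by
    intro c m
    apply Subtype.ext
    show conj act σ (c • m.1) = _
    rw [conj_smul P act hσD]
    rfl
  have hiter : ∀ (n : ℕ) (m : ↥(Hur P act gens)),
      (((⇑Φ)^[n] m : ↥(Hur P act gens)) : X → Qbar) = (conj act σ)^[n] m.1 := by
    intro n
    induction n with
    | zero => intro m; rfl
    | succ n ih =>
      intro m
      rw [Function.iterate_succ_apply', Function.iterate_succ_apply', ← ih m]
      rfl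
  obtain ⟨n, hn, hFn⟩ := exists_iterate_conj_eq hact1 hactmul hopen σ F
  have hm : (⇑Φ)^[n] ⟨F, hF⟩ = ⟨F, hF⟩ := Subtype.ext (by rw [hiter]; exact hFn)
  have hspan := CyclicTraceZeta.mem_span_fixed P hℓ hP hσ Φ hΦ n hn ⟨F, hF⟩ hm
  have h2 := Submodule.apply_mem_span_image_of_mem_span (Hur P act gens).val.toLinearMap hspan
  have h3 : Submodule.span (inertiaInt P)
      ((Hur P act gens).val.toLinearMap '' {m' : ↥(Hur P act gens) | Φ m' = m'}) ≤
      Subalgebra.toSubmodule (eqAlg P act gens) := by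
    refine Submodule.span_le.mpr ?_
    rintro _ ⟨m', hm', rfl⟩
    exact mem_eqAlg_of_conj_eq P act gens hℓ hP hact1 hactmul hopen hequiv hint hsep hσ m'.2
      (congrArg Subtype.val hm')
  exact h3 h2

/-- `Hur` IS the `O^ur`-algebra generated by its equivariant part. -/
theorem eqAlg_eq_Hur : eqAlg P act gens = Hur P act gens :=
  le_antisymm (eqAlg_le_Hur P act gens)
    (Hur_le_eqAlg P act gens hℓ hP hact1 hactmul hopen hequiv hint hsep)

/-- **(F5), key step, span form.** -/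
theorem Hur_le_span_equivariant {F : X → Qbar} (hF : F ∈ Hur P act gens) :
    F ∈ Submodule.span (inertiaInt P)
      {F' : X → Qbar | F' ∈ Hur P act gens ∧ ∀ (σ : Γℚ) (t : X), F' (act σ t) = σ (F' t)} := by
  have h := Hur_le_eqAlg P act gens hℓ hP hact1 hactmul hopen hequiv hint hsep hF
  rw [← Subalgebra.mem_toSubmodule, eqAlg_toSubmodule] at h
  exact h

end Main

end Fermat.Agent.S19x.Alg.FrobDescent
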