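import Fermat.Agent.S19x.Iface
import Fermat.Agent.S19x.Alg.BIface

/-!
# P-S19, block B, step (F3): `LocalChartData ⟹ LocalGens`

From the A/B interface `S19x.LocalChartData ℓ P X act` we build the B-internal interface
`Alg.LocalGens P act`:

* `gens` = the indicator functions `ind c` of the cosets of `T1` and the coordinate functions
  `cfun c i = ind c * coord · i`;
* inertia-equivariance, integrality, separation: direct from the chart data;
* comultiplication: `ind c (s + t) = ∑_q ind a_q s * ind (c - a_q) t` exactly; for `cfun c i` the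
  approximants `add_approx` give `cfun c i (s + t) ≡ F̃ (s, t) mod ℓ ^ n` with `F̃` in the tensor
  square `prodAlg (adjoin gens)`, and the CONDUCTOR statement (F3a, `ConductorStatement`, proved in
  `Alg/Conductor.lean`; here a hypothesis) turns "for all `n`" into exact membership.

Main result: `localGens_of_chart`.
-/

set_option autoImplicit false
set_option linter.unusedSectionVars false
set_option linter.unusedVariables false

noncomputable section

namespace Fermat.Agent.S19x.Alg.OfChart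

open Fermat.Agent.S56x.Flat.InertiaField Fermat.Agent.S19x Fermat.Agent.S19x.Alg
open scoped Classical

local notation "Qbar" => AlgebraicClosure ℚ
local notation "Γℚ" => (AlgebraicClosure ℚ ≃ₐ[ℚ] AlgebraicClosure ℚ)

/-- **(F3a), the conductor statement**: a subalgebra `M` of inertia-equivariant `P`-valued functions
on a finite set which separates points contains `ℓ ^ k` times EVERY inertia-equivariant `P`-valued
function, for some `k`. -/
def ConductorStatement (ℓ : ℕ) (P : ValuationSubring Qbar) : Prop :=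
  ∀ {Z : Type} [Finite Z] (actZ : Γℚ → Z → Z), (∀ z, actZ 1 z = z) →
    (∀ σ τ z, actZ (σ * τ) z = actZ σ (actZ τ z)) →
    ∀ M : Subalgebra (inertiaInt P) (Z → Qbar),
      (∀ f ∈ M, ∀ τ ∈ P.inertiaSubgroupIn ℚ, ∀ z, f (actZ τ z) = τ (f z)) →
      (∀ f ∈ M, ∀ z, f z ∈ P) →
      (∀ z z', z ≠ z' → ∃ f ∈ M, f z ≠ f z') →
      ∃ k : ℕ, ∀ W : Z → Qbar,
        (∀ τ ∈ P.inertiaSubgroupIn ℚ, ∀ z, W (actZ τ z) = τ (W z)) →
        (∀ z, W z ∈ P) → (fun z => (ℓ : Qbar) ^ k * W z) ∈ M

variable {ℓ : ℕ} {P : ValuationSubring Qbar} {X : Type} [AddCommGroup X]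
  {act : Γℚ → X → X}

/-! ### The tensor square of an algebra of functions, in function form -/

/-- the functions on `X × X` of the form `(s, t) ↦ ∑ k, g k s * h k t` with `g k, h k ∈ A`. -/
def prodAlg (A : Subalgebra (inertiaInt P) (X → Qbar)) :
    Subalgebra (inertiaInt P) (X × X → Qbar) where
  carrier := {F | ∃ (κ : Type) (_ : Fintype κ) (g h : κ → X → Qbar),
    (∀ k, g k ∈ A) ∧ (∀ k, h k ∈ A) ∧ ∀ z : X × X, F z = ∑ k, g k z.1 * h k z.2}
  mul_mem' := by
    rintro F F' ⟨κ, _, g, h, hg, hh, hF⟩ ⟨κ', _, g', h', hg', hh', hF'⟩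
    refine ⟨κ × κ', inferInstance, fun k => g k.1 * g' k.2, fun k => h k.1 * h' k.2,
      fun k => A.mul_mem (hg _) (hg' _), fun k => A.mul_mem (hh _) (hh' _), fun z => ?_⟩
    rw [Pi.mul_apply, hF z, hF' z, Finset.sum_mul_sum, Fintype.sum_prod_type]
    refine Finset.sum_congr rfl fun k _ => Finset.sum_congr rfl fun k' _ => ?_
    simp only [Pi.mul_apply]
    ring
  add_mem' := by
    rintro F F' ⟨κ, _, g, h, hg, hh, hF⟩ ⟨κ', _, g', h', hg', hh', hF'⟩
    refine ⟨κ ⊕ κ', inferInstance, Sum.elim g g', Sum.elim h h', ?_, ?_, fun z => ?_⟩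
    · rintro (k | k)
      · exact hg k
      · exact hg' k
    · rintro (k | k)
      · exact hh k
      · exact hh' k
    · rw [Pi.add_apply, hF z, hF' z, Fintype.sum_sum_type]
      rfl
  algebraMap_mem' := by
    intro o
    refine ⟨Unit, inferInstance, fun _ => algebraMap (inertiaInt P) (X → Qbar) o, fun _ => 1,
      fun _ => A.algebraMap_mem o, fun _ => A.one_mem, fun z => ?_⟩
    simp [Algebra.algebraMap_eq_smul_one]

theorem mem_prodAlg {A : Subalgebra (inertiaInt P) (X → Qbar)} {F : X × X → Qbar} :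
    F ∈ prodAlg A ↔ ∃ (κ : Type) (_ : Fintype κ) (g h : κ → X → Qbar),
      (∀ k, g k ∈ A) ∧ (∀ k, h k ∈ A) ∧ ∀ z : X × X, F z = ∑ k, g k z.1 * h k z.2 := Iff.rfl

theorem pull_fst_mem {A : Subalgebra (inertiaInt P) (X → Qbar)} {f : X → Qbar} (hf : f ∈ A) :
    (fun z : X × X => f z.1) ∈ prodAlg A :=
  ⟨Unit, inferInstance, fun _ => f, fun _ => 1, fun _ => hf, fun _ => A.one_mem, fun z => by simp⟩

theorem pull_snd_mem {A : Subalgebra (inertiaInt P) (X → Qbar)} {f : X → Qbar} (hf : f ∈ A) :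
    (fun z : X × X => f z.2) ∈ prodAlg A :=
  ⟨Unit, inferInstance, fun _ => 1, fun _ => f, fun _ => A.one_mem, fun _ => hf, fun z => by simp⟩

/-- pass from a `Fintype` index to `Fin m`. -/
theorem exists_fin_of_mem_prodAlg {A : Subalgebra (inertiaInt P) (X → Qbar)} {F : X × X → Qbar}
    (hF : F ∈ prodAlg A) : ∃ (m : ℕ) (g h : Fin m → X → Qbar),
      (∀ k, g k ∈ A) ∧ (∀ k, h k ∈ A) ∧ ∀ s t : X, F (s, t) = ∑ k, g k s * h k t := by
  obtain ⟨κ, _, g, h, hg, hh, hF⟩ := hF
  let e := Fintype.equivFin κ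
  refine ⟨Fintype.card κ, fun k => g (e.symm k), fun k => h (e.symm k), fun k => hg _,
    fun k => hh _, fun s t => ?_⟩
  rw [hF (s, t)]
  exact (Equiv.sum_comp e.symm (fun k => g k s * h k t)).symm


/-! ### Equivariance and integrality pass to generated algebras and to `prodAlg` -/

section Closure

variable (P act)

/-- inertia-equivariant functions. -/
def IsEqv {Z : Type} (actZ : Γℚ → Z → Z) (f : Z → Qbar) : Prop :=
  ∀ τ ∈ P.inertiaSubgroupIn ℚ, ∀ z, f (actZ τ z) = τ (f z)

/-- the diagonal action on `X × X`. -/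
def act₂ : Γℚ → X × X → X × X := fun σ z => (act σ z.1, act σ z.2)

variable {P act}

theorem adjoin_isEqv {G : Set (X → Qbar)} (hG : ∀ f ∈ G, IsEqv P act f) :
    ∀ f ∈ Algebra.adjoin (inertiaInt P) G, IsEqv P act f := by
  intro f hf
  induction hf using Algebra.adjoin_induction with
  | mem f hf => exact hG f hf
  | algebraMap o =>
    intro τ hτ z
    rw [Pi.algebraMap_apply, Pi.algebraMap_apply]
    exact (o.2.2 τ hτ).symm
  | add f g _ _ hf hg =>
    intro τ hτ z
    rw [Pi.add_apply, Pi.add_apply, map_add, hf τ hτ z, hg τ hτ z]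
  | mul f g _ _ hf hg =>
    intro τ hτ z
    rw [Pi.mul_apply, Pi.mul_apply, map_mul, hf τ hτ z, hg τ hτ z]

theorem adjoin_integral {G : Set (X → Qbar)} (hG : ∀ f ∈ G, ∀ z, f z ∈ P) :
    ∀ f ∈ Algebra.adjoin (inertiaInt P) G, ∀ z, f z ∈ P := by
  intro f hf
  induction hf using Algebra.adjoin_induction with
  | mem f hf => exact hG f hf
  | algebraMap o =>
    intro z
    rw [Pi.algebraMap_apply]
    exact o.2.1
  | add f g _ _ hf hg => exact fun z => P.add_mem _ _ (hf z) (hg z)
  | mul f g _ _ hf hg => exact fun z => P.mul_mem _ _ (hf z) (hg z)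

theorem prodAlg_isEqv {A : Subalgebra (inertiaInt P) (X → Qbar)}
    (hA : ∀ f ∈ A, IsEqv P act f) : ∀ F ∈ prodAlg A, IsEqv P (act₂ act) F := by
  rintro F ⟨κ, _, g, h, hg, hh, hF⟩ τ hτ z
  rw [hF, hF, map_sum]
  refine Finset.sum_congr rfl fun k _ => ?_
  rw [map_mul]
  show g k (act τ z.1) * h k (act τ z.2) = _
  rw [hA _ (hg k) τ hτ, hA _ (hh k) τ hτ]

theorem prodAlg_integral {A : Subalgebra (inertiaInt P) (X → Qbar)}
    (hA : ∀ f ∈ A, ∀ z, f z ∈ P) : ∀ F ∈ prodAlg A, ∀ z, F z ∈ P := by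
  rintro F ⟨κ, _, g, h, hg, hh, hF⟩ z
  rw [hF]
  exact Subring.sum_mem P.toSubring fun k _ => P.mul_mem _ _ (hA _ (hg k) _) (hA _ (hh k) _)

theorem prodAlg_separating {A : Subalgebra (inertiaInt P) (X → Qbar)}
    (hA : ∀ s t : X, s ≠ t → ∃ f ∈ A, f s ≠ f t) :
    ∀ z z' : X × X, z ≠ z' → ∃ F ∈ prodAlg A, F z ≠ F z' := by
  intro z z' hz
  by_cases h1 : z.1 = z'.1
  · have h2 : z.2 ≠ z'.2 := fun h2 => hz (Prod.ext h1 h2)
    obtain ⟨f, hf, hne⟩ := hA _ _ h2
    exact ⟨_, pull_snd_mem hf, hne⟩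
  · obtain ⟨f, hf, hne⟩ := hA _ _ h1
    exact ⟨_, pull_fst_mem hf, hne⟩

end Closure


/-! ### The generators attached to a chart datum -/

section Gens

variable (C : LocalChartData ℓ P X act)

/-- the indicator function of the coset `c + T1`. -/
def ind (c : X) : X → Qbar := fun t => if t - c ∈ C.T1 then 1 else 0

/-- the `i`-th coordinate function on the coset `c + T1`, extended by zero. -/
def cfun (c : X) (i : Fin C.g) : X → Qbar := fun t => if t - c ∈ C.T1 then C.coord t i else 0

/-- the generators: coset indicators and coordinate functions. -/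
def gens : Set (X → Qbar) := {f | ∃ c, f = ind C c} ∪ {f | ∃ c i, f = cfun C c i}

/-- the `O^ur`-algebra they generate. -/
def genAlg : Subalgebra (inertiaInt P) (X → Qbar) := Algebra.adjoin (inertiaInt P) (gens C)

theorem ind_mem_gens (c : X) : ind C c ∈ gens C := Or.inl ⟨c, rfl⟩
theorem cfun_mem_gens (c : X) (i : Fin C.g) : cfun C c i ∈ gens C := Or.inr ⟨c, i, rfl⟩
theorem ind_mem (c : X) : ind C c ∈ genAlg C := Algebra.subset_adjoin (ind_mem_gens C c)
theorem cfun_mem (c : X) (i : Fin C.g) : cfun C c i ∈ genAlg C :=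
  Algebra.subset_adjoin (cfun_mem_gens C c i)

theorem ind_of_mem {c t : X} (h : t - c ∈ C.T1) : ind C c t = 1 := if_pos h
theorem ind_of_not_mem {c t : X} (h : t - c ∉ C.T1) : ind C c t = 0 := if_neg h
theorem cfun_of_mem {c t : X} (i : Fin C.g) (h : t - c ∈ C.T1) : cfun C c i t = C.coord t i :=
  if_pos h
theorem cfun_of_not_mem {c t : X} (i : Fin C.g) (h : t - c ∉ C.T1) : cfun C c i t = 0 := if_neg h

theorem cfun_eq_ind_mul (c : X) (i : Fin C.g) (t : X) :
    cfun C c i t = ind C c t * C.coord t i := by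
  by_cases h : t - c ∈ C.T1
  · rw [cfun_of_mem C i h, ind_of_mem C h, one_mul]
  · rw [cfun_of_not_mem C i h, ind_of_not_mem C h, zero_mul]

/-- inertia preserves the cosets of `T1`. -/
theorem act_sub_mem_iff {τ : Γℚ} (hτ : τ ∈ P.inertiaSubgroupIn ℚ) (c t : X) :
    act τ t - c ∈ C.T1 ↔ t - c ∈ C.T1 := by
  have h := C.inertia_coset τ hτ t
  constructor
  · intro h1
    have : t - c = (act τ t - c) - (act τ t - t) := by abel
    rw [this]
    exact C.T1.sub_mem h1 h
  · intro h1
    have : act τ t - c = (act τ t - t) + (t - c) := by abel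
    rw [this]
    exact C.T1.add_mem h h1

theorem gens_isEqv : ∀ f ∈ gens C, IsEqv P act f := by
  rintro f (⟨c, rfl⟩ | ⟨c, i, rfl⟩) τ hτ t
  · by_cases h : t - c ∈ C.T1
    · rw [ind_of_mem C h, ind_of_mem C ((act_sub_mem_iff C hτ c t).2 h), map_one]
    · rw [ind_of_not_mem C h, ind_of_not_mem C (fun h' => h ((act_sub_mem_iff C hτ c t).1 h')),
        map_zero]
  · by_cases h : t - c ∈ C.T1
    · rw [cfun_of_mem C i h, cfun_of_mem C i ((act_sub_mem_iff C hτ c t).2 h),
        C.coord_inertia τ hτ t i]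
    · rw [cfun_of_not_mem C i h,
        cfun_of_not_mem C i (fun h' => h ((act_sub_mem_iff C hτ c t).1 h')), map_zero]

theorem gens_integral : ∀ f ∈ gens C, ∀ t, f t ∈ P := by
  rintro f (⟨c, rfl⟩ | ⟨c, i, rfl⟩) t
  · by_cases h : t - c ∈ C.T1
    · rw [ind_of_mem C h]; exact P.one_mem
    · rw [ind_of_not_mem C h]; exact P.zero_mem
  · by_cases h : t - c ∈ C.T1
    · rw [cfun_of_mem C i h]
      exact P.nonunits_le (C.coord_mem t i)
    · rw [cfun_of_not_mem C i h]; exact P.zero_mem

theorem gens_separating : ∀ s t : X, s ≠ t → ∃ f ∈ gens C, f s ≠ f t := by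
  intro s t hst
  by_cases h : t - s ∈ C.T1
  · have hne : C.coord s ≠ C.coord t := by
      intro heq
      have h' : s - t ∈ C.T1 := by
        have : s - t = -(t - s) := by abel
        rw [this]; exact C.T1.neg_mem h
      exact hst (C.coord_inj s t h' heq)
    obtain ⟨i, hi⟩ : ∃ i, C.coord s i ≠ C.coord t i := by
      by_contra hcon
      simp only [not_exists, not_not] at hcon
      exact hne (funext hcon)
    refine ⟨cfun C s i, cfun_mem_gens C s i, ?_⟩
    rw [cfun_of_mem C i (by rw [sub_self]; exact C.T1.zero_mem), cfun_of_mem C i h]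
    exact hi
  · refine ⟨ind C s, ind_mem_gens C s, ?_⟩
    rw [ind_of_mem C (by rw [sub_self]; exact C.T1.zero_mem), ind_of_not_mem C h]
    exact one_ne_zero

theorem genAlg_isEqv : ∀ f ∈ genAlg C, IsEqv P act f := adjoin_isEqv (gens_isEqv C)
theorem genAlg_integral : ∀ f ∈ genAlg C, ∀ t, f t ∈ P := adjoin_integral (gens_integral C)
theorem genAlg_separating : ∀ s t : X, s ≠ t → ∃ f ∈ genAlg C, f s ≠ f t := fun s t h => by
  obtain ⟨f, hf, hne⟩ := gens_separating C s t h
  exact ⟨f, Algebra.subset_adjoin hf, hne⟩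

end Gens


/-! ### Comultiplication of the generators -/

section Comul

variable [Finite X] (C : LocalChartData ℓ P X act)

/-- the (finite) set of cosets of `T1` is a `Fintype`. -/
local instance fintypeQuot : Fintype (X ⧸ C.T1) := Fintype.ofFinite _

/-- a representative of a coset. -/
def rep (q : X ⧸ C.T1) : X := Quotient.out q

theorem mk_rep (q : X ⧸ C.T1) : (QuotientAddGroup.mk (rep C q) : X ⧸ C.T1) = q :=
  Quotient.out_eq' q

theorem sub_rep_mem (t : X) : t - rep C (QuotientAddGroup.mk t) ∈ C.T1 := by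
  have h := mk_rep C (QuotientAddGroup.mk t)
  rw [QuotientAddGroup.eq] at h
  have : t - rep C (QuotientAddGroup.mk t) = -rep C (QuotientAddGroup.mk t) + t := by abel
  rw [this]
  exact h

theorem mk_eq_of_sub_rep_mem {t : X} {q : X ⧸ C.T1} (h : t - rep C q ∈ C.T1) :
    (QuotientAddGroup.mk t : X ⧸ C.T1) = q := by
  rw [← mk_rep C q, QuotientAddGroup.eq]
  have : -t + rep C q = -(t - rep C q) := by abel
  rw [this]
  exact C.T1.neg_mem h

theorem ind_rep_eq_zero {t : X} {q : X ⧸ C.T1} (hq : q ≠ QuotientAddGroup.mk t) :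
    ind C (rep C q) t = 0 :=
  ind_of_not_mem C fun h => hq (mk_eq_of_sub_rep_mem C h).symm

theorem add_sub_mem_iff (c s t : X) :
    (s + t) - c ∈ C.T1 ↔ t - (c - rep C (QuotientAddGroup.mk s)) ∈ C.T1 := by
  have h := sub_rep_mem C s
  constructor
  · intro h1
    have : t - (c - rep C (QuotientAddGroup.mk s)) =
        ((s + t) - c) - (s - rep C (QuotientAddGroup.mk s)) := by abel
    rw [this]; exact C.T1.sub_mem h1 h
  · intro h1
    have : (s + t) - c = (t - (c - rep C (QuotientAddGroup.mk s))) +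
        (s - rep C (QuotientAddGroup.mk s)) := by abel
    rw [this]; exact C.T1.add_mem h1 h

/-- the comultiplication of a coset indicator. -/
theorem ind_comul (c : X) :
    (fun z : X × X => ind C c (z.1 + z.2)) ∈ prodAlg (genAlg C) := by
  refine ⟨X ⧸ C.T1, inferInstance, fun q => ind C (rep C q), fun q => ind C (c - rep C q),
    fun q => ind_mem C _, fun q => ind_mem C _, fun z => ?_⟩
  rw [Finset.sum_eq_single (QuotientAddGroup.mk z.1 : X ⧸ C.T1)]
  · show ind C c (z.1 + z.2) = ind C (rep C (QuotientAddGroup.mk z.1)) z.1 *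
      ind C (c - rep C (QuotientAddGroup.mk z.1)) z.2
    rw [ind_of_mem C (sub_rep_mem C z.1), one_mul]
    by_cases h : (z.1 + z.2) - c ∈ C.T1
    · rw [ind_of_mem C h, ind_of_mem C ((add_sub_mem_iff C c z.1 z.2).1 h)]
    · rw [ind_of_not_mem C h,
        ind_of_not_mem C (fun h' => h ((add_sub_mem_iff C c z.1 z.2).2 h'))]
  · intro q _ hq
    show ind C (rep C q) z.1 * ind C (c - rep C q) z.2 = 0
    rw [ind_rep_eq_zero C hq, zero_mul]
  · intro h
    exact absurd (Finset.mem_univ _) h

/-- a polynomial in the coordinates, cut off to a pair of cosets. -/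
def Efun (a b : X) (G : MvPolynomial (Fin C.g ⊕ Fin C.g) (inertiaInt P)) : X × X → Qbar :=
  fun z => ind C a z.1 * ind C b z.2 *
    MvPolynomial.aeval (Sum.elim (C.coord z.1) (C.coord z.2)) G

theorem Efun_mem (a b : X) (G : MvPolynomial (Fin C.g ⊕ Fin C.g) (inertiaInt P)) :
    Efun C a b G ∈ prodAlg (genAlg C) := by
  induction G using MvPolynomial.induction_on with
  | C o =>
    have h : Efun C a b (MvPolynomial.C o) =
        ((fun z : X × X => ind C a z.1) * fun z : X × X => ind C b z.2) *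
          algebraMap (inertiaInt P) (X × X → Qbar) o := by
      funext z
      simp only [Efun, MvPolynomial.aeval_C, Pi.mul_apply, Pi.algebraMap_apply]
    rw [h]
    exact (prodAlg _).mul_mem ((prodAlg _).mul_mem (pull_fst_mem (ind_mem C a))
      (pull_snd_mem (ind_mem C b))) ((prodAlg _).algebraMap_mem o)
  | add p q hp hq =>
    have h : Efun C a b (p + q) = Efun C a b p + Efun C a b q := by
      funext z
      simp only [Efun, map_add, Pi.add_apply, mul_add]
    rw [h]
    exact (prodAlg _).add_mem hp hq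
  | mul_X p n hp =>
    rcases n with j | j
    · have h : Efun C a b (p * MvPolynomial.X (Sum.inl j)) =
          Efun C a b p * fun z : X × X => cfun C a j z.1 := by
        funext z
        simp only [Efun, map_mul, MvPolynomial.aeval_X, Sum.elim_inl, Pi.mul_apply]
        rw [cfun_eq_ind_mul]
        by_cases hz : z.1 - a ∈ C.T1
        · rw [ind_of_mem C hz]; ring
        · rw [ind_of_not_mem C hz]; ring
      rw [h]
      exact (prodAlg _).mul_mem hp (pull_fst_mem (cfun_mem C a j))
    · have h : Efun C a b (p * MvPolynomial.X (Sum.inr j)) =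
          Efun C a b p * fun z : X × X => cfun C b j z.2 := by
        funext z
        simp only [Efun, map_mul, MvPolynomial.aeval_X, Sum.elim_inr, Pi.mul_apply]
        rw [cfun_eq_ind_mul]
        by_cases hz : z.2 - b ∈ C.T1
        · rw [ind_of_mem C hz]; ring
        · rw [ind_of_not_mem C hz]; ring
      rw [h]
      exact (prodAlg _).mul_mem hp (pull_snd_mem (cfun_mem C b j))

variable (hadd : ∀ σ x y, act σ (x + y) = act σ x + act σ y) (h1 : ∀ x, act 1 x = x)
  (hmul : ∀ σ τ x, act (σ * τ) x = act σ (act τ x))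

include hadd h1 hmul in
/-- the comultiplication of a coordinate function (uses the conductor statement). -/
theorem cfun_comul (hcond : ConductorStatement ℓ P) (hℓ0 : ℓ ≠ 0) (c : X) (i : Fin C.g) :
    (fun z : X × X => cfun C c i (z.1 + z.2)) ∈ prodAlg (genAlg C) := by
  obtain ⟨k, hk⟩ := hcond (act₂ act) (fun z => by simp [act₂, h1])
    (fun σ τ z => by simp [act₂, hmul]) (prodAlg (genAlg C))
    (prodAlg_isEqv (genAlg_isEqv C)) (prodAlg_integral (genAlg_integral C))
    (prodAlg_separating (genAlg_separating C))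
  choose F hF using fun q : X ⧸ C.T1 => C.add_approx (rep C q) (c - rep C q) k
  set Ft : X × X → Qbar := ∑ q : X ⧸ C.T1, Efun C (rep C q) (c - rep C q) (F q i) with hFt
  have hFtmem : Ft ∈ prodAlg (genAlg C) :=
    Subalgebra.sum_mem _ fun q _ => Efun_mem C _ _ _
  have hFtz : ∀ z : X × X, Ft z = Efun C (rep C (QuotientAddGroup.mk z.1))
      (c - rep C (QuotientAddGroup.mk z.1)) (F (QuotientAddGroup.mk z.1) i) z := by
    intro z
    rw [hFt, Finset.sum_apply, Finset.sum_eq_single (QuotientAddGroup.mk z.1 : X ⧸ C.T1)]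
    · intro q _ hq
      simp only [Efun]
      rw [ind_rep_eq_zero C hq, zero_mul, zero_mul]
    · intro h
      exact absurd (Finset.mem_univ _) h
  have key : ∀ z : X × X, ∃ w ∈ P, cfun C c i (z.1 + z.2) - Ft z = (ℓ : Qbar) ^ k * w := by
    intro z
    rw [hFtz z]
    simp only [Efun]
    rw [ind_of_mem C (sub_rep_mem C z.1), one_mul]
    by_cases h : (z.1 + z.2) - c ∈ C.T1
    · have h2 := (add_sub_mem_iff C c z.1 z.2).1 h
      rw [cfun_of_mem C i h, ind_of_mem C h2, one_mul]
      exact hF (QuotientAddGroup.mk z.1) z.1 z.2 (sub_rep_mem C z.1) h2 i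
    · have h2 : z.2 - (c - rep C (QuotientAddGroup.mk z.1)) ∉ C.T1 :=
        fun h' => h ((add_sub_mem_iff C c z.1 z.2).2 h')
      rw [cfun_of_not_mem C i h, ind_of_not_mem C h2, zero_mul, sub_zero]
      exact ⟨0, P.zero_mem, by rw [mul_zero]⟩
  choose w hwP hw using key
  have hℓ : ((ℓ : Qbar)) ^ k ≠ 0 := pow_ne_zero _ (Nat.cast_ne_zero.mpr hℓ0)
  have hcf : IsEqv P (act₂ act) (fun z : X × X => cfun C c i (z.1 + z.2)) := by
    intro τ hτ z
    show cfun C c i (act τ z.1 + act τ z.2) = _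
    rw [← hadd]
    exact gens_isEqv C _ (cfun_mem_gens C c i) τ hτ _
  have hweq : IsEqv P (act₂ act) w := by
    intro τ hτ z
    apply mul_left_cancel₀ hℓ
    rw [← hw (act₂ act τ z)]
    have h3 : (ℓ : Qbar) ^ k * τ (w z) = τ ((ℓ : Qbar) ^ k * w z) := by
      rw [map_mul, map_pow, map_natCast]
    rw [h3, ← hw z, map_sub, ← hcf τ hτ z, ← prodAlg_isEqv (genAlg_isEqv C) Ft hFtmem τ hτ z]
  have hfinal := hk w hweq hwP
  have hsum : (fun z : X × X => cfun C c i (z.1 + z.2)) = Ft + fun z => (ℓ : Qbar) ^ k * w z := by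
    funext z
    rw [Pi.add_apply, ← hw z]
    ring
  rw [hsum]
  exact (prodAlg _).add_mem hFtmem hfinal

include C hadd h1 hmul in
/-- **(F3)**: the local generators attached to a chart datum. -/
theorem localGens_of_chart (hcond : ConductorStatement ℓ P) (hℓ0 : ℓ ≠ 0) :
    Nonempty (LocalGens P act) := by
  refine ⟨⟨gens C, gens_isEqv C, gens_integral C, gens_separating C, ?_⟩⟩
  rintro f (⟨c, rfl⟩ | ⟨c, i, rfl⟩)
  · exact exists_fin_of_mem_prodAlg (ind_comul C c)
  · exact exists_fin_of_mem_prodAlg (cfun_comul C hadd h1 hmul hcond hℓ0 c i)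

end Comul

end Fermat.Agent.S19x.Alg.OfChart
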