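import Mathlib

/-!
# Frozen-Jacobian Newton approximants (pure algebra, no completeness)

`G : ι → MvPolynomial ι A` a square polynomial system over a commutative ring `A`
(think `A = O'[X]`, the parameters), `Jinv` a fixed matrix over `A` (think: the inverse of the
Jacobian at the base point).  `iter G Jinv u0 n` is the `n`-th simplified Newton iterate
`u ↦ u - Jinv * G(u)` starting from `u0`.  If `φ : A → O` is a ring hom, `𝔞` an ideal of `O`,
`ustar` an honest solution over `O` of the transported system with `φ u0 ≡ ustar mod 𝔞` and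
`φ Jinv * Jac(ustar) ≡ 1 mod 𝔞`, then `φ (iter n) ≡ ustar mod 𝔞^(n+1)`.
-/

set_option autoImplicit false

namespace Fermat.Agent.S19x.Alg.Newton

open MvPolynomial

section Taylor

variable {O : Type*} [CommRing O] {ι : Type*} [Fintype ι] [DecidableEq ι]

/-- Second order Taylor estimate for multivariate polynomials: the remainder lies in the square
of any ideal containing the increments. -/
theorem eval_add_sub_sub_mem_sq (p : MvPolynomial ι O) (x e : ι → O) (𝔟 : Ideal O)
    (he : ∀ j, e j ∈ 𝔟) :
    eval (x + e) p - eval x p - ∑ j, eval x (pderiv j p) * e j ∈ 𝔟 ^ 2 := by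
  induction p using MvPolynomial.induction_on with
  | C a => simp
  | add p q hp hq =>
    have : eval (x + e) (p + q) - eval x (p + q) - ∑ j, eval x (pderiv j (p + q)) * e j
        = (eval (x + e) p - eval x p - ∑ j, eval x (pderiv j p) * e j)
          + (eval (x + e) q - eval x q - ∑ j, eval x (pderiv j q) * e j) := by
      simp only [map_add, add_mul, Finset.sum_add_distrib]
      ring
    rw [this]
    exact Ideal.add_mem _ hp hq
  | mul_X p i hp =>
    have hL : ∑ j, eval x (pderiv j p) * e j ∈ 𝔟 :=
      Ideal.sum_mem _ fun j _ => Ideal.mul_mem_left _ _ (he j)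
    have hsum : ∑ j, eval x (pderiv j (p * X i)) * e j
        = x i * ∑ j, eval x (pderiv j p) * e j + eval x p * e i := by
      have : ∀ j, eval x (pderiv j (p * X i)) * e j
          = x i * (eval x (pderiv j p) * e j)
            + eval x p * (((Pi.single j (1 : O) : ι → O) i) * e j) := by
        intro j
        rw [Derivation.leibniz, pderiv_X]
        simp only [smul_eq_mul, map_add, map_mul, eval_X]
        have : eval x ((Pi.single j (1 : MvPolynomial ι O) : ι → MvPolynomial ι O) i)
            = (Pi.single j (1 : O) : ι → O) i := by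
          by_cases h : i = j
          · subst h; simp
          · simp [h]
        rw [this]
        ring
      simp only [this, Finset.sum_add_distrib, ← Finset.mul_sum]
      congr 1
      congr 1
      rw [Finset.sum_eq_single i]
      · simp
      · intro j _ hji
        simp [hji.symm]
      · intro h; exact absurd (Finset.mem_univ i) h
    have key : eval (x + e) (p * X i) - eval x (p * X i) - ∑ j, eval x (pderiv j (p * X i)) * e j
        = (eval (x + e) p - eval x p - ∑ j, eval x (pderiv j p) * e j) * (x i + e i)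
          + (∑ j, eval x (pderiv j p) * e j) * e i := by
      rw [hsum]
      simp only [map_mul, eval_X, Pi.add_apply]
      ring
    rw [key]
    refine Ideal.add_mem _ (Ideal.mul_mem_right _ _ hp) ?_
    rw [pow_two]
    exact Ideal.mul_mem_mul hL (he i)

end Taylor

section Iter

variable {A O : Type*} [CommRing A] [CommRing O] {ι : Type*} [Fintype ι] [DecidableEq ι]

/-- One simplified Newton step with a frozen matrix `Jinv`. -/
noncomputable def step (G : ι → MvPolynomial ι A) (Jinv : Matrix ι ι A) (u : ι → A) : ι → A :=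
  fun i => u i - ∑ j, Jinv i j * eval u (G j)

/-- The simplified Newton iterates. -/
noncomputable def iter (G : ι → MvPolynomial ι A) (Jinv : Matrix ι ι A) (u0 : ι → A) : ℕ → ι → A
  | 0 => u0
  | n + 1 => step G Jinv (iter G Jinv u0 n)

omit [DecidableEq ι] in
@[simp] theorem iter_zero (G : ι → MvPolynomial ι A) (Jinv : Matrix ι ι A) (u0 : ι → A) :
    iter G Jinv u0 0 = u0 := rfl

omit [DecidableEq ι] in
theorem iter_succ (G : ι → MvPolynomial ι A) (Jinv : Matrix ι ι A) (u0 : ι → A) (n : ℕ) :
    iter G Jinv u0 (n + 1) = step G Jinv (iter G Jinv u0 n) := rfl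

/-- **Convergence of the frozen-Jacobian Newton iterates towards a known solution**, in the
`𝔞`-adic sense, with no completeness assumption. -/
theorem iter_sub_mem_pow (φ : A →+* O) (𝔞 : Ideal O)
    (G : ι → MvPolynomial ι A) (Jinv : Matrix ι ι A) (u0 : ι → A) (ustar : ι → O)
    (hG : ∀ j, eval ustar (map φ (G j)) = 0)
    (h0 : ∀ i, φ (u0 i) - ustar i ∈ 𝔞)
    (hJ : ∀ i k, (∑ j, φ (Jinv i j) * eval ustar (pderiv k (map φ (G j))))
        - (if i = k then 1 else 0) ∈ 𝔞)
    (n : ℕ) : ∀ i, φ (iter G Jinv u0 n i) - ustar i ∈ 𝔞 ^ (n + 1) := by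
  induction n with
  | zero => intro i; simpa using h0 i
  | succ n ih =>
    intro i
    set U := iter G Jinv u0 n with hU
    set e : ι → O := fun i => φ (U i) - ustar i with he
    set 𝔟 := 𝔞 ^ (n + 1) with h𝔟
    have hphi : ∀ j, φ (eval U (G j)) = eval (ustar + e) (map φ (G j)) := by
      intro j
      have h1 : (ustar + e) = fun i => φ (U i) := by
        funext i; simp [he]
      rw [h1, eval_map]
      have h2 := eval₂_comp_left φ (RingHom.id A) U (G j)
      rw [RingHom.comp_id] at h2
      exact h2
    -- Taylor remainders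
    set r : ι → O := fun j => eval (ustar + e) (map φ (G j)) - eval ustar (map φ (G j))
        - ∑ k, eval ustar (pderiv k (map φ (G j))) * e k with hr
    have hrmem : ∀ j, r j ∈ 𝔟 ^ 2 := fun j =>
      eval_add_sub_sub_mem_sq (map φ (G j)) ustar e 𝔟 ih
    have hexp : ∀ j, φ (eval U (G j)) = (∑ k, eval ustar (pderiv k (map φ (G j))) * e k) + r j := by
      intro j
      rw [hphi j, hr]
      simp only [hG j]
      ring
    have hgoal : φ (iter G Jinv u0 (n + 1) i) - ustar i
        = - (∑ k, ((∑ j, φ (Jinv i j) * eval ustar (pderiv k (map φ (G j))))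
              - (if i = k then 1 else 0)) * e k)
          - ∑ j, φ (Jinv i j) * r j := by
      rw [iter_succ, step]
      simp only [map_sub, map_sum, map_mul, ← hU, hexp]
      have h2 : ∑ k, ((∑ j, φ (Jinv i j) * eval ustar (pderiv k (map φ (G j))))
              - (if i = k then 1 else 0)) * e k
          = (∑ j, φ (Jinv i j) * ∑ k, eval ustar (pderiv k (map φ (G j))) * e k) - e i := by
        simp only [sub_mul, Finset.sum_sub_distrib, Finset.sum_mul, Finset.mul_sum]
        rw [Finset.sum_comm]
        congr 1
        · refine Finset.sum_congr rfl fun j _ => Finset.sum_congr rfl fun k _ => by ring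
        · simp
      rw [h2]
      simp only [mul_add, Finset.sum_add_distrib, he]
      ring
    rw [hgoal]
    have hpow1 : 𝔞 * 𝔟 ≤ 𝔞 ^ (n + 1 + 1) := by
      rw [h𝔟, pow_succ' 𝔞 (n + 1)]
    have hpow2 : 𝔟 ^ 2 ≤ 𝔞 ^ (n + 1 + 1) := by
      rw [h𝔟, ← pow_mul]
      exact Ideal.pow_le_pow_right (by omega)
    refine Ideal.sub_mem _ (Ideal.neg_mem_iff _ |>.mpr ?_) ?_
    · exact Ideal.sum_mem _ fun k _ => hpow1 (Ideal.mul_mem_mul (hJ i k) (ih k))
    · exact Ideal.sum_mem _ fun j _ => Ideal.mul_mem_left _ _ (hpow2 (hrmem j))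

end Iter

section Congr

variable {O : Type*} [CommRing O] {ι : Type*}

/-- Polynomial congruence: congruent points give congruent values. -/
theorem eval_sub_eval_mem (p : MvPolynomial ι O) (x y : ι → O) (𝔞 : Ideal O)
    (h : ∀ i, x i - y i ∈ 𝔞) : eval x p - eval y p ∈ 𝔞 := by
  induction p using MvPolynomial.induction_on with
  | C a => simp
  | add p q hp hq =>
    have : eval x (p + q) - eval y (p + q) = (eval x p - eval y p) + (eval x q - eval y q) := by
      simp only [map_add]; ring
    rw [this]; exact Ideal.add_mem _ hp hq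
  | mul_X p i hp =>
    have : eval x (p * X i) - eval y (p * X i)
        = (eval x p - eval y p) * x i + eval y p * (x i - y i) := by
      simp only [map_mul, eval_X]; ring
    rw [this]
    exact Ideal.add_mem _ (Ideal.mul_mem_right _ _ hp) (Ideal.mul_mem_left _ _ (h i))

end Congr

section Base

variable {R A O : Type*} [CommRing R] [CommRing A] [CommRing O] [Algebra R A]
variable {ι : Type*} [Fintype ι] [DecidableEq ι]

/-- **Base-point form.**  `R` = constants (e.g. `O'`), `A` an `R`-algebra with an augmentation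
`ε : A →+* R` (e.g. `A = MvPolynomial κ R`, `ε = constantCoeff`), `u0 : ι → R` the base solution,
`Jinv0` the inverse over `R` of the Jacobian at the base point (parameters put to `0` via `ε`).
If `φ : A → O` sends `ker ε` into `𝔞` and `ustar ≡ φ u0 mod 𝔞` is a solution of the transported
system, the frozen-Jacobian Newton iterates (elements of `A`!) converge `𝔞`-adically to `ustar`
after applying `φ`. -/
theorem iter_sub_mem_pow_of_base (ε : A →+* R) (hε : ∀ r, ε (algebraMap R A r) = r)
    (φ : A →+* O) (𝔞 : Ideal O) (hφ : ∀ a, ε a = 0 → φ a ∈ 𝔞)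
    (G : ι → MvPolynomial ι A) (u0 : ι → R) (Jinv0 : Matrix ι ι R)
    (hJ0 : ∀ i k, ∑ j, Jinv0 i j * ε (eval (fun i => algebraMap R A (u0 i)) (pderiv k (G j)))
      = if i = k then 1 else 0)
    (ustar : ι → O) (hG : ∀ j, eval ustar (map φ (G j)) = 0)
    (h0 : ∀ i, φ (algebraMap R A (u0 i)) - ustar i ∈ 𝔞) (n : ℕ) :
    ∀ i, φ (iter G (Jinv0.map (algebraMap R A)) (fun i => algebraMap R A (u0 i)) n i) - ustar i
      ∈ 𝔞 ^ (n + 1) := by
  refine iter_sub_mem_pow φ 𝔞 G _ _ ustar hG h0 (fun i k => ?_) n
  set ũ : ι → A := fun i => algebraMap R A (u0 i) with hũ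
  -- the Jacobian entries at the base point, as elements of `A`
  set d : ι → ι → A := fun j k => eval ũ (pderiv k (G j)) with hd
  have h1 : ∀ j k, eval ustar (pderiv k (map φ (G j))) - φ (algebraMap R A (ε (d j k))) ∈ 𝔞 := by
    intro j k
    have e1 : eval ustar (pderiv k (map φ (G j))) - eval (fun i => φ (ũ i)) (pderiv k (map φ (G j)))
        ∈ 𝔞 := by
      refine eval_sub_eval_mem _ _ _ 𝔞 fun i => ?_
      have := h0 i
      rw [← Ideal.neg_mem_iff] at this
      simpa using this
    have e2 : eval (fun i => φ (ũ i)) (pderiv k (map φ (G j))) = φ (d j k) := by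
      rw [pderiv_map, eval_map]
      have h2 := eval₂_comp_left φ (RingHom.id A) ũ (pderiv k (G j))
      rw [RingHom.comp_id] at h2
      exact h2.symm
    have e3 : φ (d j k) - φ (algebraMap R A (ε (d j k))) ∈ 𝔞 := by
      rw [← map_sub]
      apply hφ
      rw [map_sub, hε, sub_self]
    have : eval ustar (pderiv k (map φ (G j))) - φ (algebraMap R A (ε (d j k)))
        = (eval ustar (pderiv k (map φ (G j))) - eval (fun i => φ (ũ i)) (pderiv k (map φ (G j))))
          + (φ (d j k) - φ (algebraMap R A (ε (d j k)))) := by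
      rw [e2]; ring
    rw [this]
    exact Ideal.add_mem _ e1 e3
  have h2 : (∑ j, φ ((Jinv0.map (algebraMap R A)) i j) * φ (algebraMap R A (ε (d j k))))
      = if i = k then 1 else 0 := by
    have := congrArg (fun r => φ (algebraMap R A r)) (hJ0 i k)
    simp only [map_sum, map_mul] at this
    simp only [Matrix.map_apply]
    rw [this]
    split_ifs <;> simp
  rw [← h2, ← Finset.sum_sub_distrib]
  refine Ideal.sum_mem _ fun j _ => ?_
  rw [← mul_sub]
  exact Ideal.mul_mem_left _ _ (h1 j k)

end Base

section PolyParams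

variable {R O : Type*} [CommRing R] [CommRing O] {κ : Type*}

/-- Evaluating a polynomial in the parameters at a point of `𝔞` agrees with its constant
coefficient modulo `𝔞`. -/
theorem eval₂_sub_constantCoeff_mem (ψ : R →+* O) (a : κ → O) (𝔞 : Ideal O)
    (ha : ∀ k, a k ∈ 𝔞) (p : MvPolynomial κ R) :
    eval₂ ψ a p - ψ (constantCoeff p) ∈ 𝔞 := by
  induction p using MvPolynomial.induction_on with
  | C r => simp
  | add p q hp hq =>
    have : eval₂ ψ a (p + q) - ψ (constantCoeff (p + q))
        = (eval₂ ψ a p - ψ (constantCoeff p)) + (eval₂ ψ a q - ψ (constantCoeff q)) := by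
      simp only [eval₂_add, map_add]; ring
    rw [this]; exact Ideal.add_mem _ hp hq
  | mul_X p k _ =>
    simp only [eval₂_mul, eval₂_X, map_mul, constantCoeff_X, mul_zero, map_zero, sub_zero]
    exact Ideal.mul_mem_left _ _ (ha k)

theorem eval₂_mem_of_constantCoeff_eq_zero (ψ : R →+* O) (a : κ → O) (𝔞 : Ideal O)
    (ha : ∀ k, a k ∈ 𝔞) (p : MvPolynomial κ R) (hp : constantCoeff p = 0) :
    eval₂ ψ a p ∈ 𝔞 := by
  have := eval₂_sub_constantCoeff_mem ψ a 𝔞 ha p
  rwa [hp, map_zero, sub_zero] at this

end PolyParams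

end Fermat.Agent.S19x.Alg.Newton
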