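/-
P-S19 block A leaf (L7) (helper8): NEWTON-APPROX packaging (pure algebra).

`G : ι → MvPolynomial (ι ⊕ κ) O` a square polynomial system in the unknowns `ι` with parameters
`κ`, coefficients in `O`; `s0 : ι → O` a solution at parameter value `0` at which the Jacobian with
respect to the unknowns is invertible over `O`.  `approx G s0 n : ι → MvPolynomial κ O` are the
frozen-Jacobian Newton approximants (honest polynomials in the parameters over `O`).  For every
local ring `P` with a ring hom `ψ : O →+* P`, every parameter value `a` in an ideal `𝔞 ≤ 𝔪_P`, and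
every TRUE solution `sstar` over `P` of the system at `a` with `sstar ≡ s0` modulo `𝔪_P`:
`sstar ≡ approx G s0 n (a)` modulo `𝔞 ^ (n + 1)`.

Built on `S19x/Alg/Newton` (helper16) and `S19x/Alg/DiffQuot` (helper5).
-/
import Mathlib
import Fermat.Agent.S19x.Alg.Newton
import Fermat.Agent.S19x.Alg.DiffQuot

set_option autoImplicit false
set_option linter.unusedSectionVars false
set_option linter.unusedVariables false
set_option linter.deprecated false

noncomputable section

namespace Fermat.Agent.S19x.Alg.NewtonApprox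

open MvPolynomial

variable {O : Type*} [CommRing O] {ι κ : Type*}

/-- the base point: unknowns `s0`, parameters `0` -/
def basePt (s0 : ι → O) : ι ⊕ κ → O := Sum.elim s0 (fun _ => 0)

/-- The system with the parameters moved into the coefficient ring. -/
def iterSys (G : ι → MvPolynomial (ι ⊕ κ) O) : ι → MvPolynomial ι (MvPolynomial κ O) :=
  fun j => sumToIter O ι κ (G j)

section Transport

variable {T : Type*} [CommRing T]

/-- Evaluation of the iterated form. -/
theorem eval_map_sumToIter (φ : MvPolynomial κ O →+* T) (u : ι → T)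
    (p : MvPolynomial (ι ⊕ κ) O) :
    eval u (map φ (sumToIter O ι κ p))
      = eval₂ (φ.comp C) (Sum.elim u (fun k => φ (X k))) p := by
  induction p using MvPolynomial.induction_on with
  | C a => simp [sumToIter_C]
  | add p q hp hq => simp only [map_add, hp, hq, eval₂_add]
  | mul_X p i hp =>
    rcases i with i | k
    · simp only [map_mul, hp, sumToIter_Xl, map_X, eval_X, eval₂_mul, eval₂_X, Sum.elim_inl]
    · simp only [map_mul, hp, sumToIter_Xr, map_C, eval_C, eval₂_mul, eval₂_X, Sum.elim_inr]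

/-- `sumToIter` commutes with the partial derivatives in the unknowns. -/
theorem pderiv_sumToIter [DecidableEq ι] (i : ι) (p : MvPolynomial (ι ⊕ κ) O) :
    pderiv i (sumToIter O ι κ p) = sumToIter O ι κ (pderiv (Sum.inl i) p) := by
  classical
  induction p using MvPolynomial.induction_on with
  | C a => simp [sumToIter_C]
  | add p q hp hq => simp only [map_add, hp, hq]
  | mul_X p j hp =>
    rw [map_mul, Derivation.leibniz, Derivation.leibniz, hp, map_add, smul_eq_mul, smul_eq_mul,
      smul_eq_mul, smul_eq_mul, map_mul, map_mul]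
    congr 1
    rcases j with j | k
    · rw [sumToIter_Xl]
      by_cases hij : j = i
      · subst hij
        rw [pderiv_X_self, pderiv_X_self, map_one]
      · have h2 : (Sum.inl j : ι ⊕ κ) ≠ Sum.inl i := by simpa using hij
        rw [pderiv_X_of_ne hij, pderiv_X_of_ne h2, map_zero]
    · rw [sumToIter_Xr, pderiv_C]
      have h2 : (Sum.inr k : ι ⊕ κ) ≠ Sum.inl i := by simp
      rw [pderiv_X_of_ne h2, map_zero]

end Transport

variable [Fintype ι] [DecidableEq ι]

/-- Jacobian with respect to the unknowns at the base point, in the spelling of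
`S27x/Spec/HenselMulti` and `S19x/Alg/DiffQuot`. -/
def baseJac (G : ι → MvPolynomial (ι ⊕ κ) O) (s0 : ι → O) : Matrix ι ι O :=
  Matrix.of fun i j => eval (basePt s0) (pderiv (Sum.inl i) (G j))

/-- The frozen inverse Jacobian used by the Newton iteration (rows = unknowns, columns =
equations). -/
def baseJinv (G : ι → MvPolynomial (ι ⊕ κ) O) (s0 : ι → O) : Matrix ι ι O :=
  ((baseJac G s0).transpose)⁻¹

/-- The `n`-th frozen-Jacobian Newton approximant: a vector of polynomials in the parameters with
coefficients in `O`. -/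
def approx (G : ι → MvPolynomial (ι ⊕ κ) O) (s0 : ι → O) (n : ℕ) : ι → MvPolynomial κ O :=
  Newton.iter (iterSys G) ((baseJinv G s0).map (algebraMap O (MvPolynomial κ O)))
    (fun i => algebraMap O (MvPolynomial κ O) (s0 i)) n

/-- the constant-coefficient ring hom as evaluation at `0`, compatible with `iterSys` -/
theorem constantCoeff_eval_iterSys (G : ι → MvPolynomial (ι ⊕ κ) O) (u : ι → MvPolynomial κ O)
    (p : MvPolynomial (ι ⊕ κ) O) :
    constantCoeff (eval u (sumToIter O ι κ p))
      = eval (Sum.elim (fun i => constantCoeff (u i)) (fun _ => 0)) p := by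
  have h1 : constantCoeff (eval u (sumToIter O ι κ p))
      = eval (fun i => constantCoeff (u i))
          (map (constantCoeff : MvPolynomial κ O →+* O) (sumToIter O ι κ p)) := by
    rw [eval_map]
    have h2 := eval₂_comp_left (constantCoeff : MvPolynomial κ O →+* O)
      (RingHom.id (MvPolynomial κ O)) u (sumToIter O ι κ p)
    rw [RingHom.comp_id] at h2
    exact h2
  rw [h1, eval_map_sumToIter]
  have h3 : ((constantCoeff : MvPolynomial κ O →+* O).comp C) = RingHom.id O := by
    ext a; simp
  rw [h3]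
  have h4 : (Sum.elim (fun i => constantCoeff (u i))
      (fun k => (constantCoeff : MvPolynomial κ O →+* O) (X k)) : ι ⊕ κ → O)
      = Sum.elim (fun i => constantCoeff (u i)) (fun _ => 0) := by
    funext x
    rcases x with i | k <;> simp
  rw [h4]
  rfl

theorem constantCoeff_approx (G : ι → MvPolynomial (ι ⊕ κ) O) (s0 : ι → O)
    (hbase : ∀ j, eval (basePt s0) (G j) = 0) (n : ℕ) (i : ι) :
    constantCoeff (approx G s0 n i) = s0 i := by
  induction n generalizing i with
  | zero => simp [approx]
  | succ n ih =>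
    have hstep : approx G s0 (n + 1) i = approx G s0 n i
        - ∑ j, ((baseJinv G s0).map (algebraMap O (MvPolynomial κ O))) i j
            * eval (approx G s0 n) (iterSys G j) := rfl
    rw [hstep, map_sub, ih, map_sum]
    have hz : ∀ j, constantCoeff (eval (approx G s0 n) (iterSys G j)) = 0 := by
      intro j
      rw [iterSys, constantCoeff_eval_iterSys G]
      have : (fun i => constantCoeff (approx G s0 n i)) = s0 := funext ih
      rw [this]
      exact hbase j
    simp [hz]

section Spec

variable {P : Type*} [CommRing P] [IsLocalRing P]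

/-- The system over `P` at the parameter value `a`. -/
theorem eval_map_iterSys (ψ : O →+* P) (G : ι → MvPolynomial (ι ⊕ κ) O) (a : κ → P)
    (u : ι → P) (j : ι) :
    eval u (map (eval₂Hom ψ a) (iterSys G j)) = eval₂ ψ (Sum.elim u a) (G j) := by
  rw [iterSys, eval_map_sumToIter]
  have h1 : ((eval₂Hom ψ a).comp C) = ψ := by
    ext x; simp
  have h2 : (Sum.elim u (fun k => (eval₂Hom ψ a) (X k)) : ι ⊕ κ → P) = Sum.elim u a := by
    funext x
    rcases x with i | k <;> simp
  rw [h1, h2]

theorem pderiv_map_iterSys (ψ : O →+* P) (G : ι → MvPolynomial (ι ⊕ κ) O) (a : κ → P)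
    (u : ι → P) (i j : ι) :
    eval u (pderiv i (map (eval₂Hom ψ a) (iterSys G j)))
      = eval₂ ψ (Sum.elim u a) (pderiv (Sum.inl i) (G j)) := by
  rw [pderiv_map, iterSys, pderiv_sumToIter, eval_map_sumToIter]
  have h1 : ((eval₂Hom ψ a).comp C) = ψ := by
    ext x; simp
  have h2 : (Sum.elim u (fun k => (eval₂Hom ψ a) (X k)) : ι ⊕ κ → P) = Sum.elim u a := by
    funext x
    rcases x with i | k <;> simp
  rw [h1, h2]

/-- polynomial congruence for `eval₂` -/
theorem eval₂_sub_eval₂_mem {σ : Type*} (ψ : O →+* P) (I : Ideal P) (p : MvPolynomial σ O)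
    {x y : σ → P} (hxy : ∀ i, x i - y i ∈ I) : eval₂ ψ x p - eval₂ ψ y p ∈ I := by
  have := DiffQuot.eval_sub_eval_mem I (map ψ p) hxy
  rwa [eval_map, eval_map] at this

variable (ψ : O →+* P) (G : ι → MvPolynomial (ι ⊕ κ) O) (s0 : ι → O)
  (hbase : ∀ j, eval (basePt s0) (G j) = 0) (hJ : IsUnit (baseJac G s0).det)
  (a : κ → P) (𝔞 : Ideal P) (h𝔞 : 𝔞 ≤ IsLocalRing.maximalIdeal P) (ha : ∀ k, a k ∈ 𝔞)
  (sstar : ι → P) (hsol : ∀ j, eval₂ ψ (Sum.elim sstar a) (G j) = 0)
  (hnear : ∀ i, sstar i - ψ (s0 i) ∈ IsLocalRing.maximalIdeal P)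

include hJ h𝔞 ha hnear in
/-- The Jacobian of the system over `P` at the true solution is invertible. -/
theorem isUnit_jac_sstar :
    IsUnit (Matrix.det (Matrix.of fun i j =>
      eval sstar (pderiv i (map (eval₂Hom ψ a) (iterSys G j))))) := by
  set M : Matrix ι ι P := Matrix.of fun i j =>
    eval sstar (pderiv i (map (eval₂Hom ψ a) (iterSys G j))) with hM
  set N : Matrix ι ι P := (baseJac G s0).map ψ with hN
  have hNu : IsUnit N.det := by
    have : N.det = ψ (baseJac G s0).det := by
      rw [hN, ← RingHom.mapMatrix_apply, ← RingHom.map_det]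
    rw [this]
    exact hJ.map ψ
  have hMN : ∀ i j, M i j - N i j ∈ IsLocalRing.maximalIdeal P := by
    intro i j
    have h1 : M i j = eval₂ ψ (Sum.elim sstar a) (pderiv (Sum.inl i) (G j)) := by
      simp only [hM, Matrix.of_apply]
      exact pderiv_map_iterSys ψ G a sstar i j
    have h2 : N i j = eval₂ ψ (Sum.elim (fun i => ψ (s0 i)) (fun _ => 0))
        (pderiv (Sum.inl i) (G j)) := by
      simp only [hN, Matrix.map_apply, baseJac, Matrix.of_apply, basePt]
      rw [eval, coe_eval₂Hom, eval₂_comp_left ψ]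
      congr 1
      funext x
      rcases x with i | k <;> simp
    rw [h1, h2]
    refine eval₂_sub_eval₂_mem ψ _ _ fun x => ?_
    rcases x with i | k
    · simpa using hnear i
    · simpa using h𝔞 (ha k)
  have hdet : M.det - N.det ∈ IsLocalRing.maximalIdeal P :=
    DiffQuot.det_sub_det_mem _ hMN
  by_contra hnu
  have hMm : M.det ∈ IsLocalRing.maximalIdeal P := (IsLocalRing.mem_maximalIdeal _).mpr hnu
  have hNm : N.det ∈ IsLocalRing.maximalIdeal P := by
    have := (IsLocalRing.maximalIdeal P).sub_mem hMm hdet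
    simpa using this
  exact (IsLocalRing.mem_maximalIdeal _).mp hNm hNu

include hbase hJ h𝔞 ha hsol hnear in
/-- The true solution is congruent to the base solution modulo `𝔞` (the case `n = 0`). -/
theorem sstar_sub_base_mem : ∀ i, sstar i - ψ (s0 i) ∈ 𝔞 := by
  intro i
  have hz : ∀ j, eval sstar (map (eval₂Hom ψ a) (iterSys G j)) = 0 := fun j => by
    rw [eval_map_iterSys]; exact hsol j
  have hres : ∀ j, eval (fun i => ψ (s0 i)) (map (eval₂Hom ψ a) (iterSys G j)) ∈ 𝔞 := by
    intro j
    rw [eval_map_iterSys]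
    have h0 : eval₂ ψ (Sum.elim (fun i => ψ (s0 i)) (fun _ => (0 : P))) (G j) = 0 := by
      have h1 : (Sum.elim (fun i => ψ (s0 i)) (fun _ => (0 : P)) : ι ⊕ κ → P)
          = fun x => ψ (basePt s0 x) := by
        funext x
        rcases x with i | k <;> simp [basePt]
      have h2 := eval₂_comp_left ψ (RingHom.id O) (basePt s0) (G j)
      rw [RingHom.comp_id] at h2
      have h3 : eval₂ (RingHom.id O) (basePt s0) (G j) = eval (basePt s0) (G j) := rfl
      rw [h3, hbase j, map_zero] at h2
      rw [h1]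
      exact h2.symm
    have h3 := eval₂_sub_eval₂_mem ψ 𝔞 (G j)
      (x := Sum.elim (fun i => ψ (s0 i)) a) (y := Sum.elim (fun i => ψ (s0 i)) (fun _ => 0))
      (fun x => by
        rcases x with i | k
        · simp
        · simpa using ha k)
    rwa [h0, sub_zero] at h3
  have hzz' : ∀ i, (fun i => ψ (s0 i)) i - sstar i ∈ IsLocalRing.maximalIdeal P := by
    intro i
    have := (IsLocalRing.maximalIdeal P).neg_mem (hnear i)
    simpa using this
  have h := DiffQuot.sub_mem_of_isUnit_jacobian
    (fun j => map (eval₂Hom ψ a) (iterSys G j)) hz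
    (isUnit_jac_sstar ψ G s0 hJ a 𝔞 h𝔞 ha sstar hnear) hzz' 𝔞 hres i
  have := 𝔞.neg_mem h
  simpa using this

include hbase hJ h𝔞 ha hsol hnear in
/-- **NEWTON-APPROX** (abstract form). -/
theorem approx_spec (n : ℕ) : ∀ i, sstar i - eval₂ ψ a (approx G s0 n i) ∈ 𝔞 ^ (n + 1) := by
  intro i
  have hJinv : ∀ i k, ∑ j, (baseJinv G s0) i j
      * (constantCoeff (eval (fun i => algebraMap O (MvPolynomial κ O) (s0 i))
          (pderiv k (iterSys G j)))) = if i = k then 1 else 0 := by
    intro i k
    have hentry : ∀ j, constantCoeff (eval (fun i => algebraMap O (MvPolynomial κ O) (s0 i))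
        (pderiv k (iterSys G j))) = (baseJac G s0).transpose j k := by
      intro j
      rw [iterSys, pderiv_sumToIter, constantCoeff_eval_iterSys G]
      simp [baseJac, basePt]
    simp only [hentry]
    have hdet : IsUnit ((baseJac G s0).transpose).det := by
      rw [Matrix.det_transpose]; exact hJ
    have hmul : (baseJinv G s0) * (baseJac G s0).transpose = 1 :=
      Matrix.nonsing_inv_mul _ hdet
    have := congrFun (congrFun hmul i) k
    rw [Matrix.mul_apply] at this
    rw [this, Matrix.one_apply]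
  have hφ : ∀ p : MvPolynomial κ O, constantCoeff p = 0 → (eval₂Hom ψ a) p ∈ 𝔞 := by
    intro p hp
    exact Newton.eval₂_mem_of_constantCoeff_eq_zero ψ a 𝔞 ha p hp
  have hG : ∀ j, eval sstar (map (eval₂Hom ψ a) (iterSys G j)) = 0 := fun j => by
    rw [eval_map_iterSys]; exact hsol j
  have h0 : ∀ i, (eval₂Hom ψ a) (algebraMap O (MvPolynomial κ O) (s0 i)) - sstar i ∈ 𝔞 := by
    intro i
    have h1 := sstar_sub_base_mem ψ G s0 hbase hJ a 𝔞 h𝔞 ha sstar hsol hnear i
    have h2 : (eval₂Hom ψ a) (algebraMap O (MvPolynomial κ O) (s0 i)) = ψ (s0 i) := by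
      simp [MvPolynomial.algebraMap_eq]
    rw [h2]
    have := 𝔞.neg_mem h1
    simpa using this
  have key := Newton.iter_sub_mem_pow_of_base (R := O) (A := MvPolynomial κ O)
    (constantCoeff : MvPolynomial κ O →+* O) (fun r => by simp [MvPolynomial.algebraMap_eq])
    (eval₂Hom ψ a) 𝔞 hφ (iterSys G) s0 (baseJinv G s0) hJinv sstar hG h0 n i
  have := (𝔞 ^ (n + 1)).neg_mem key
  simpa [approx] using this

end Spec


section ValuationSubring

variable {Ω : Type*} [Field Ω] (V : ValuationSubring Ω) (O0 : Subring Ω)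

omit [Fintype ι] [DecidableEq ι] in
/-- evaluation over `V` versus evaluation over `Ω` -/
theorem coe_eval₂_inclusion {σ : Type*} (hO : O0 ≤ V.toSubring) (x : σ → V)
    (p : MvPolynomial σ O0) :
    ((eval₂ (Subring.inclusion hO) x p : V) : Ω) = aeval (fun i => (x i : Ω)) p := by
  have h1 := eval₂_comp_left (V.subtype : V →+* Ω) (Subring.inclusion hO) x p
  have h2 : ((V.subtype : V →+* Ω).comp (Subring.inclusion hO)) = algebraMap O0 Ω := by
    ext y; rfl
  rw [h2] at h1
  rw [aeval_def]
  exact h1

/-- **NEWTON-APPROX, valuation-ring form.**  `Ω` a field, `V` a valuation subring, `O0 ≤ V` a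
subring (for us `Ω = ℚ̄`, `V = P`, `O0 = inertiaInt P`).  The system `G` and the base solution
`s0` live over `O0`; the parameter value `a` is divisible by a non-unit `t` of `V`; `sstar` is a
true solution over `Ω` congruent to `s0` modulo the maximal ideal of `V`.  Then
`sstar i - (approx G s0 n i)(a) ∈ t ^ (n + 1) V`. -/
theorem approx_spec_valuationSubring (hO : ∀ x ∈ O0, x ∈ V)
    (G : ι → MvPolynomial (ι ⊕ κ) O0) (s0 : ι → O0)
    (hbase : ∀ j, eval (basePt s0) (G j) = 0) (hJ : IsUnit (baseJac G s0).det) (n : ℕ)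
    (a : κ → Ω) (t : Ω) (ht : t ∈ V.nonunits) (ha : ∀ k, ∃ w ∈ V, a k = t * w)
    (sstar : ι → Ω) (hsol : ∀ j, aeval (Sum.elim sstar a) (G j) = 0)
    (hnear : ∀ i, sstar i - (s0 i : Ω) ∈ V.nonunits) :
    ∀ i, ∃ w ∈ V, sstar i - aeval a (approx G s0 n i) = t ^ (n + 1) * w := by
  classical
  have htV : t ∈ V := V.nonunits_le ht
  -- the ring hom `O0 → V`
  let ψ : O0 →+* V := (Subring.inclusion (show O0 ≤ V.toSubring from fun x hx => hO x hx))
  have hψ : ∀ x : O0, ((ψ x : V) : Ω) = (x : Ω) := fun x => rfl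
  -- the data over `V`
  have haV : ∀ k, a k ∈ V := by
    intro k
    obtain ⟨w, hw, hk⟩ := ha k
    rw [hk]
    exact V.mul_mem _ _ htV hw
  have hsV : ∀ i, sstar i ∈ V := by
    intro i
    have h1 : sstar i = (sstar i - (s0 i : Ω)) + (s0 i : Ω) := by ring
    rw [h1]
    exact V.add_mem _ _ (V.nonunits_le (hnear i)) (hO _ (s0 i).2)
  let a' : κ → V := fun k => ⟨a k, haV k⟩
  let s' : ι → V := fun i => ⟨sstar i, hsV i⟩
  let t' : V := ⟨t, htV⟩
  let 𝔞 : Ideal V := Ideal.span {t'}
  have ht'm : t' ∈ IsLocalRing.maximalIdeal V := by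
    rw [← ValuationSubring.coe_mem_nonunits_iff]
    exact ht
  have h𝔞 : 𝔞 ≤ IsLocalRing.maximalIdeal V :=
    (Ideal.span_singleton_le_iff_mem _).mpr ht'm
  have ha' : ∀ k, a' k ∈ 𝔞 := by
    intro k
    obtain ⟨w, hw, hk⟩ := ha k
    refine Ideal.mem_span_singleton'.mpr ⟨⟨w, hw⟩, ?_⟩
    apply Subtype.ext
    show w * t = a k
    rw [hk, mul_comm]
  -- transport of evaluations
  have hcoe1 : ∀ (x : ι ⊕ κ → V) (p : MvPolynomial (ι ⊕ κ) O0),
      ((eval₂ ψ x p : V) : Ω) = aeval (fun i => (x i : Ω)) p :=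
    fun x p => coe_eval₂_inclusion V O0 _ x p
  have hcoe2 : ∀ (x : κ → V) (p : MvPolynomial κ O0),
      ((eval₂ ψ x p : V) : Ω) = aeval (fun i => (x i : Ω)) p :=
    fun x p => coe_eval₂_inclusion V O0 _ x p
  have hsol' : ∀ j, eval₂ ψ (Sum.elim s' a') (G j) = 0 := by
    intro j
    apply Subtype.ext
    rw [hcoe1]
    have h1 : (fun x => ((Sum.elim s' a' x : V) : Ω)) = Sum.elim sstar a := by
      funext x
      rcases x with i | k <;> rfl
    rw [h1, hsol j]
    rfl
  have hnear' : ∀ i, s' i - ψ (s0 i) ∈ IsLocalRing.maximalIdeal V := by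
    intro i
    rw [← ValuationSubring.coe_mem_nonunits_iff]
    exact hnear i
  intro i
  have key := approx_spec ψ G s0 hbase hJ a' 𝔞 h𝔞 ha' s' hsol' hnear' n i
  rw [Ideal.span_singleton_pow, Ideal.mem_span_singleton'] at key
  obtain ⟨w, hw⟩ := key
  refine ⟨(w : Ω), w.2, ?_⟩
  have h2 : ((w * t' ^ (n + 1) : V) : Ω)
      = ((s' i - eval₂ ψ a' (approx G s0 n i) : V) : Ω) := congrArg (fun v : V => (v : Ω)) hw
  have h3 : ((s' i - eval₂ ψ a' (approx G s0 n i) : V) : Ω)
      = sstar i - aeval a (approx G s0 n i) := by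
    have h4 : ((s' i - eval₂ ψ a' (approx G s0 n i) : V) : Ω)
        = (s' i : Ω) - ((eval₂ ψ a' (approx G s0 n i) : V) : Ω) := rfl
    rw [h4, hcoe2]
  rw [← h3, ← h2]
  show (w : Ω) * (t' : Ω) ^ (n + 1) = t ^ (n + 1) * w
  exact mul_comm _ _

end ValuationSubring

end Fermat.Agent.S19x.Alg.NewtonApprox
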