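import Mathlib
import Fermat.Agent.S19x.Alg.Newton
import Fermat.Agent.S19x.Alg.DiffQuot

/-!
# P-S19, block A, leaf (L7): NEWTON-APPROX, packaged (backup file, helper23)

Pure algebra (Mathlib + the landed `S19x/Alg/Newton` (helper16) and `S19x/Alg/DiffQuot` (helper5)).

`O` a commutative ring of "constants", `ι` the (finite) type of unknowns, `κ` the type of
parameters, `G : ι → MvPolynomial (ι ⊕ κ) O` a square polynomial system with parameters,
`s0 : ι → O` a solution at the parameter value `0` whose Jacobian with respect to the unknowns is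
invertible over `O`.  Then there are polynomial vectors `approx G s0 n : ι → MvPolynomial κ O`
(the frozen-Jacobian Newton iterates, which do NOT depend on the target ring) with constant
coefficients `s0`, such that for EVERY local ring `P`, ring hom `ψ : O →+* P`, parameter value
`a : κ → P` in a proper ideal `𝔞` and EVERY solution `sstar : ι → P` of the system at `a` which is
congruent to `ψ s0` modulo the maximal ideal:

* `sstar ≡ ψ s0  (mod 𝔞)`  (`sstar_sub_base_mem`), and
* `sstar ≡ (approx G s0 n)(a)  (mod 𝔞 ^ (n + 1))`  (`approx_spec`).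

`approx_spec_valuationSubring` is the same statement for a valuation subring `V` of a field `Ω`,
constants in a subring `O0 ≤ V`, `𝔞 = t V` with `t` a nonunit of `V`: the shape consumed by the
Residual Theorem (L6) and the assembly (L8) of note 1795.

Same exports (same shapes) as the primary file `S19x/Alg/NewtonApprox.lean` (helper8, note 1805),
in the namespace `Fermat.Agent.S19x.Alg.NewtonApproxB`.
-/

set_option autoImplicit false

open MvPolynomial

namespace Fermat.Agent.S19x.Alg.NewtonApproxB

open Fermat.Agent.S19x.Alg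

variable {O : Type*} [CommRing O] {ι κ : Type*}

/-! ### Splitting off the parameters -/

/-- `O[u, x] → (O[x])[u]` : the unknowns `u` stay variables, the parameters `x` go into the
coefficient ring. -/
noncomputable def split (O : Type*) [CommRing O] (ι κ : Type*) :
    MvPolynomial (ι ⊕ κ) O →+* MvPolynomial ι (MvPolynomial κ O) :=
  eval₂Hom ((C : MvPolynomial κ O →+* MvPolynomial ι (MvPolynomial κ O)).comp
      (C : O →+* MvPolynomial κ O))
    (Sum.elim (fun i => X i) (fun k => C (X k)))

@[simp] theorem split_C (r : O) : split O ι κ (C r) = C (C r) := by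
  simp [split]

@[simp] theorem split_X_inl (i : ι) : split O ι κ (X (Sum.inl i)) = X i := by
  simp [split]

@[simp] theorem split_X_inr (k : κ) : split O ι κ (X (Sum.inr k)) = C (X k) := by
  simp [split]

/-- Evaluating the split polynomial: first the parameters (through `ψ`, at `a`), then the
unknowns (at `x`). -/
theorem eval_map_split {P : Type*} [CommRing P] (ψ : O →+* P) (x : ι → P) (a : κ → P)
    (p : MvPolynomial (ι ⊕ κ) O) :
    eval x (map (eval₂Hom ψ a) (split O ι κ p)) = eval₂ ψ (Sum.elim x a) p := by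
  have h : ((eval x).comp ((map (eval₂Hom ψ a)).comp (split O ι κ)))
      = eval₂Hom ψ (Sum.elim x a) := by
    refine ringHom_ext (fun r => ?_) (fun s => ?_)
    · simp
    · rcases s with i | k <;> simp
  exact congrArg (fun f : MvPolynomial (ι ⊕ κ) O →+* P => f p) h

/-- Constant coefficient (in the parameters) of an evaluation of the split polynomial. -/
theorem constantCoeff_eval_split (u : ι → MvPolynomial κ O) (p : MvPolynomial (ι ⊕ κ) O) :
    constantCoeff (eval u (split O ι κ p))
      = eval (Sum.elim (fun i => constantCoeff (u i)) (fun _ => 0)) p := by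
  have h : ((constantCoeff : MvPolynomial κ O →+* O).comp ((eval u).comp (split O ι κ)))
      = eval (Sum.elim (fun i => constantCoeff (u i)) (fun _ => 0)) := by
    refine ringHom_ext (fun r => ?_) (fun s => ?_)
    · simp
    · rcases s with i | k <;> simp
  exact congrArg (fun f : MvPolynomial (ι ⊕ κ) O →+* O => f p) h

/-- Partial derivatives with respect to the unknowns commute with `split`. -/
theorem pderiv_split (i : ι) (p : MvPolynomial (ι ⊕ κ) O) :
    pderiv i (split O ι κ p) = split O ι κ (pderiv (Sum.inl i) p) := by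
  classical
  induction p using MvPolynomial.induction_on with
  | C r => simp
  | add p q hp hq => simp only [map_add, hp, hq]
  | mul_X p s hp =>
    rcases s with i' | k
    · simp only [map_mul, split_X_inl, Derivation.leibniz, pderiv_X, hp, smul_eq_mul]
      by_cases h : i' = i
      · subst h
        simp
      · have h1 : (Pi.single i (1 : MvPolynomial ι (MvPolynomial κ O)) : ι → _) i' = 0 :=
          Pi.single_eq_of_ne h _
        have h2 : (Pi.single (Sum.inl i : ι ⊕ κ) (1 : MvPolynomial (ι ⊕ κ) O) :
            ι ⊕ κ → _) (Sum.inl i') = 0 :=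
          Pi.single_eq_of_ne (by simpa using h) _
        simp [h1, h2]
    · have h2 : (Pi.single (Sum.inl i : ι ⊕ κ) (1 : MvPolynomial (ι ⊕ κ) O) :
          ι ⊕ κ → _) (Sum.inr k) = 0 :=
        Pi.single_eq_of_ne (by simp) _
      simp only [map_mul, split_X_inr, Derivation.leibniz, pderiv_X, hp, smul_eq_mul, h2,
        pderiv_C, mul_zero, zero_add]

/-! ### The base point, the Jacobian, the approximants -/

/-- The base point: unknowns `s0`, parameters `0`. -/
def basePt (s0 : ι → O) : ι ⊕ κ → O := Sum.elim s0 (fun _ => 0)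

variable [Fintype ι] [DecidableEq ι]

/-- Jacobian with respect to the unknowns at the base point (`HenselMulti`/`DiffQuot` spelling:
row = unknown, column = equation). -/
noncomputable def baseJac (G : ι → MvPolynomial (ι ⊕ κ) O) (s0 : ι → O) : Matrix ι ι O :=
  Matrix.of fun i j => eval (basePt (κ := κ) s0) (pderiv (Sum.inl i) (G j))

/-- The frozen inverse Jacobian in the convention of `Newton.step` (row = unknown,
column = equation, `Jinv * (∂G_j/∂u_k)_{j k} = 1`). -/
noncomputable def baseJinv (G : ι → MvPolynomial (ι ⊕ κ) O) (s0 : ι → O) : Matrix ι ι O :=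
  ((baseJac G s0).transpose)⁻¹

/-- The `n`-th frozen-Jacobian Newton approximant: a vector of polynomials in the parameters with
coefficients in `O`.  It does not depend on any target ring. -/
noncomputable def approx (G : ι → MvPolynomial (ι ⊕ κ) O) (s0 : ι → O) (n : ℕ) :
    ι → MvPolynomial κ O :=
  Newton.iter (fun j => split O ι κ (G j))
    ((baseJinv G s0).map (algebraMap O (MvPolynomial κ O)))
    (fun i => algebraMap O (MvPolynomial κ O) (s0 i)) n

theorem approx_zero (G : ι → MvPolynomial (ι ⊕ κ) O) (s0 : ι → O) (i : ι) :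
    approx G s0 0 i = C (s0 i) := rfl

theorem constantCoeff_approx (G : ι → MvPolynomial (ι ⊕ κ) O) (s0 : ι → O)
    (hbase : ∀ j, eval (basePt (κ := κ) s0) (G j) = 0) (n : ℕ) (i : ι) :
    constantCoeff (approx G s0 n i) = s0 i := by
  induction n generalizing i with
  | zero => simp [approx_zero]
  | succ n ih =>
    have hstep : approx G s0 (n + 1) i
        = approx G s0 n i - ∑ j, ((baseJinv G s0).map (algebraMap O (MvPolynomial κ O))) i j
            * eval (approx G s0 n) (split O ι κ (G j)) := rfl
    rw [hstep, map_sub, ih i, map_sum]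
    have hz : ∀ j, constantCoeff (eval (approx G s0 n) (split O ι κ (G j))) = 0 := by
      intro j
      rw [constantCoeff_eval_split]
      have : (Sum.elim (fun i => constantCoeff (approx G s0 n i)) (fun _ => 0) : ι ⊕ κ → O)
          = basePt s0 := by
        funext s
        rcases s with i | k
        · simp [basePt, ih i]
        · simp [basePt]
      rw [this, hbase j]
    simp [hz]

/-! ### The main estimate -/

section Main

variable {P : Type*} [CommRing P]

/-- Polynomial congruence for `eval₂`. -/
theorem eval₂_sub_eval₂_mem {σ : Type*} (ψ : O →+* P) (I : Ideal P) (p : MvPolynomial σ O)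
    {x y : σ → P} (hxy : ∀ s, x s - y s ∈ I) : eval₂ ψ x p - eval₂ ψ y p ∈ I := by
  rw [← eval_map, ← eval_map]
  exact Newton.eval_sub_eval_mem (map ψ p) x y I hxy

omit [Fintype ι] [DecidableEq ι] in
theorem map_eval_basePt (ψ : O →+* P) (s0 : ι → O) (p : MvPolynomial (ι ⊕ κ) O) :
    ψ (eval (basePt (κ := κ) s0) p)
      = eval₂ ψ (Sum.elim (fun i => ψ (s0 i)) (fun _ => (0 : P))) p := by
  have h := eval₂_comp_left ψ (RingHom.id O) (basePt (κ := κ) s0) p
  rw [RingHom.comp_id] at h
  have h2 : (ψ ∘ basePt (κ := κ) s0) = Sum.elim (fun i => ψ (s0 i)) (fun _ => (0 : P)) := by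
    funext s
    rcases s with i | k <;> simp [basePt]
  rw [h2] at h
  exact h

variable [IsLocalRing P]

/-- The specialised system over `P`: parameters evaluated at `a` through `ψ`. -/
noncomputable def specialise (ψ : O →+* P) (a : κ → P) (G : ι → MvPolynomial (ι ⊕ κ) O) :
    ι → MvPolynomial ι P :=
  fun j => map (eval₂Hom ψ a) (split O ι κ (G j))

omit [Fintype ι] [DecidableEq ι] [IsLocalRing P] in
theorem eval_specialise (ψ : O →+* P) (a : κ → P) (G : ι → MvPolynomial (ι ⊕ κ) O)
    (x : ι → P) (j : ι) : eval x (specialise ψ a G j) = eval₂ ψ (Sum.elim x a) (G j) :=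
  eval_map_split ψ x a (G j)

omit [Fintype ι] [DecidableEq ι] [IsLocalRing P] in
theorem eval_pderiv_specialise (ψ : O →+* P) (a : κ → P) (G : ι → MvPolynomial (ι ⊕ κ) O)
    (x : ι → P) (i j : ι) :
    eval x (pderiv i (specialise ψ a G j)) = eval₂ ψ (Sum.elim x a) (pderiv (Sum.inl i) (G j)) := by
  unfold specialise
  rw [pderiv_map, pderiv_split, eval_map_split]

/-- The Jacobian of the specialised system at a point congruent to the base point modulo the
maximal ideal is invertible. -/
theorem isUnit_det_jac_specialise (ψ : O →+* P) (G : ι → MvPolynomial (ι ⊕ κ) O) (s0 : ι → O)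
    (hJ : IsUnit (baseJac G s0).det) (a : κ → P)
    (ha : ∀ k, a k ∈ IsLocalRing.maximalIdeal P) (x : ι → P)
    (hx : ∀ i, x i - ψ (s0 i) ∈ IsLocalRing.maximalIdeal P) :
    IsUnit (Matrix.det (Matrix.of fun i j => eval x (pderiv i (specialise ψ a G j)))) := by
  set M : Matrix ι ι P := Matrix.of fun i j => eval x (pderiv i (specialise ψ a G j)) with hM
  set N : Matrix ι ι P := ψ.mapMatrix (baseJac G s0) with hN
  have hMN : ∀ i j, M i j - N i j ∈ IsLocalRing.maximalIdeal P := by
    intro i j
    have e1 : M i j = eval₂ ψ (Sum.elim x a) (pderiv (Sum.inl i) (G j)) := by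
      simp only [hM, Matrix.of_apply]
      exact eval_pderiv_specialise ψ a G x i j
    have e2 : N i j = eval₂ ψ (Sum.elim (fun i => ψ (s0 i)) (fun _ => (0 : P)))
        (pderiv (Sum.inl i) (G j)) := by
      simp only [hN, RingHom.mapMatrix_apply, Matrix.map_apply, baseJac, Matrix.of_apply]
      exact map_eval_basePt ψ s0 _
    rw [e1, e2]
    refine eval₂_sub_eval₂_mem ψ _ _ (fun s => ?_)
    rcases s with i' | k
    · simpa using hx i'
    · simpa using ha k
  have hdet : M.det - N.det ∈ IsLocalRing.maximalIdeal P :=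
    DiffQuot.det_sub_det_mem _ hMN
  have hNu : IsUnit N.det := by
    rw [hN, ← RingHom.map_det]
    exact hJ.map ψ
  by_contra hcon
  have hMm : M.det ∈ IsLocalRing.maximalIdeal P := (IsLocalRing.mem_maximalIdeal _).mpr hcon
  have hNm : N.det ∈ IsLocalRing.maximalIdeal P := by
    have := Ideal.sub_mem _ hMm hdet
    simpa using this
  exact (IsLocalRing.mem_maximalIdeal _).mp hNm hNu

/-- **Step 0**: a true solution near the base solution is congruent to it modulo every ideal
`𝔞 ≤ 𝔪` containing the parameters. -/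
theorem sstar_sub_base_mem (ψ : O →+* P) (G : ι → MvPolynomial (ι ⊕ κ) O) (s0 : ι → O)
    (hbase : ∀ j, eval (basePt (κ := κ) s0) (G j) = 0)
    (hJ : IsUnit (baseJac G s0).det)
    (a : κ → P) (𝔞 : Ideal P) (h𝔞 : 𝔞 ≤ IsLocalRing.maximalIdeal P) (ha : ∀ k, a k ∈ 𝔞)
    (sstar : ι → P) (hsol : ∀ j, eval₂ ψ (Sum.elim sstar a) (G j) = 0)
    (hnear : ∀ i, sstar i - ψ (s0 i) ∈ IsLocalRing.maximalIdeal P) :
    ∀ i, sstar i - ψ (s0 i) ∈ 𝔞 := by
  intro i
  have hz : ∀ j, eval sstar (specialise ψ a G j) = 0 := fun j => by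
    rw [eval_specialise]; exact hsol j
  have hJs := isUnit_det_jac_specialise ψ G s0 hJ a (fun k => h𝔞 (ha k)) sstar hnear
  have hzz' : ∀ i, (fun i => ψ (s0 i)) i - sstar i ∈ IsLocalRing.maximalIdeal P := by
    intro i
    have := Ideal.neg_mem_iff _ |>.mpr (hnear i)
    simpa using this
  have hres : ∀ j, eval (fun i => ψ (s0 i)) (specialise ψ a G j) ∈ 𝔞 := by
    intro j
    rw [eval_specialise]
    have h0 : eval₂ ψ (Sum.elim (fun i => ψ (s0 i)) (fun _ => (0 : P))) (G j) = 0 := by
      rw [← map_eval_basePt, hbase j, map_zero]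
    have := eval₂_sub_eval₂_mem ψ 𝔞 (G j)
      (x := Sum.elim (fun i => ψ (s0 i)) a)
      (y := Sum.elim (fun i => ψ (s0 i)) (fun _ => (0 : P)))
      (fun s => by
        rcases s with i' | k
        · simp
        · simpa using ha k)
    rwa [h0, sub_zero] at this
  have := DiffQuot.sub_mem_of_isUnit_jacobian (specialise ψ a G) hz hJs hzz' 𝔞 hres i
  have h2 := Ideal.neg_mem_iff _ |>.mpr this
  simpa using h2

/-- **NEWTON-APPROX** (note 1795, section 3, (L7)): the true solution is congruent to the value of
the `n`-th approximant at the parameters modulo `𝔞 ^ (n + 1)`. -/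
theorem approx_spec (ψ : O →+* P) (G : ι → MvPolynomial (ι ⊕ κ) O) (s0 : ι → O)
    (hbase : ∀ j, eval (basePt (κ := κ) s0) (G j) = 0)
    (hJ : IsUnit (baseJac G s0).det) (n : ℕ)
    (a : κ → P) (𝔞 : Ideal P) (h𝔞 : 𝔞 ≤ IsLocalRing.maximalIdeal P) (ha : ∀ k, a k ∈ 𝔞)
    (sstar : ι → P) (hsol : ∀ j, eval₂ ψ (Sum.elim sstar a) (G j) = 0)
    (hnear : ∀ i, sstar i - ψ (s0 i) ∈ IsLocalRing.maximalIdeal P) :
    ∀ i, sstar i - eval₂ ψ a (approx G s0 n i) ∈ 𝔞 ^ (n + 1) := by
  intro i
  have h0 := sstar_sub_base_mem ψ G s0 hbase hJ a 𝔞 h𝔞 ha sstar hsol hnear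
  have hJ' : IsUnit ((baseJac G s0).transpose).det := by
    rw [Matrix.det_transpose]; exact hJ
  have key := Newton.iter_sub_mem_pow_of_base (R := O) (A := MvPolynomial κ O) (O := P)
    (constantCoeff : MvPolynomial κ O →+* O)
    (fun r => by simp [MvPolynomial.algebraMap_eq])
    (eval₂Hom ψ a) 𝔞
    (fun p hp => Newton.eval₂_mem_of_constantCoeff_eq_zero ψ a 𝔞 ha p hp)
    (fun j => split O ι κ (G j)) s0 (baseJinv G s0)
    (fun i k => by
      have e : ∀ j, constantCoeff (eval (fun i => algebraMap O (MvPolynomial κ O) (s0 i))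
          (pderiv k (split O ι κ (G j)))) = (baseJac G s0).transpose j k := by
        intro j
        rw [pderiv_split, constantCoeff_eval_split]
        have : (Sum.elim (fun i => constantCoeff (algebraMap O (MvPolynomial κ O) (s0 i)))
            (fun _ => 0) : ι ⊕ κ → O) = basePt s0 := by
          funext s
          rcases s with i | k
          · simp [basePt, MvPolynomial.algebraMap_eq]
          · simp [basePt]
        rw [this]
        rfl
      simp only [e]
      have hmul : baseJinv G s0 * (baseJac G s0).transpose = 1 :=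
        Matrix.nonsing_inv_mul _ hJ'
      have := congrFun (congrFun hmul i) k
      simpa [Matrix.mul_apply, Matrix.one_apply] using this)
    sstar
    (fun j => by
      have := eval_map_split ψ sstar a (G j)
      rw [this]; exact hsol j)
    (fun i => by
      have := Ideal.neg_mem_iff _ |>.mpr (h0 i)
      simpa [MvPolynomial.algebraMap_eq] using this)
    n i
  have h2 := Ideal.neg_mem_iff _ |>.mpr key
  have h3 : -(eval₂Hom ψ a (Newton.iter (fun j => split O ι κ (G j))
      ((baseJinv G s0).map (algebraMap O (MvPolynomial κ O)))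
      (fun i => algebraMap O (MvPolynomial κ O) (s0 i)) n i) - sstar i)
      = sstar i - eval₂ ψ a (approx G s0 n i) := by
    simp [approx]
  rwa [h3] at h2

end Main

/-! ### Valuation-subring form -/

section Valuation

variable {Ω : Type*} [Field Ω]

omit [Fintype ι] [DecidableEq ι] in
/-- Coercion of an `eval₂` along `O0 ≤ V` back to the field `Ω`. -/
theorem coe_eval₂_inclusion (V : ValuationSubring Ω) (O0 : Subring Ω) (hO0 : O0 ≤ V.toSubring)
    {σ : Type*} (x : σ → V) (p : MvPolynomial σ O0) :
    ((eval₂ (Subring.inclusion hO0) x p : V) : Ω) = aeval (fun s => (x s : Ω)) p := by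
  have h1 := eval₂_comp_left V.subtype (Subring.inclusion hO0) x p
  have h2 : (V.subtype.comp (Subring.inclusion hO0) : O0 →+* Ω) = algebraMap O0 Ω := by
    ext r; rfl
  have h3 : (V.subtype ∘ x) = fun s => (x s : Ω) := rfl
  rw [h2, h3] at h1
  rw [aeval_def]
  exact h1

/-- **NEWTON-APPROX, valuation-ring form.**  `V` a valuation subring of the field `Ω`, `O0` a
subring of `Ω` contained in `V` (the constants, e.g. `inertiaInt P` inside `P`), `t` a nonunit of
`V` dividing all the parameters `a k` in `V`, `sstar` a solution with coordinates in `V`,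
congruent to the base solution `s0` modulo the maximal ideal.  Then
`sstar i - (approx G s0 n i)(a) ∈ t ^ (n + 1) V`. -/
theorem approx_spec_valuationSubring (V : ValuationSubring Ω) (O0 : Subring Ω)
    (hO0 : O0 ≤ V.toSubring)
    (G : ι → MvPolynomial (ι ⊕ κ) O0) (s0 : ι → O0)
    (hbase : ∀ j, eval (basePt (κ := κ) s0) (G j) = 0)
    (hJ : IsUnit (baseJac G s0).det) (n : ℕ)
    (a : κ → Ω) (t : Ω) (ht : t ∈ V.nonunits) (ha : ∀ k, ∃ w ∈ V, a k = t * w)
    (sstar : ι → Ω) (hV : ∀ i, sstar i ∈ V)
    (hsol : ∀ j, aeval (Sum.elim sstar a) (G j) = 0)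
    (hnear : ∀ i, sstar i - (s0 i : Ω) ∈ V.nonunits) :
    ∀ i, ∃ w ∈ V, sstar i - aeval a (approx G s0 n i) = t ^ (n + 1) * w := by
  classical
  have htV : t ∈ V := V.nonunits_le ht
  have haV : ∀ k, a k ∈ V := fun k => by
    obtain ⟨w, hw, e⟩ := ha k
    rw [e]; exact V.mul_mem _ _ htV hw
  -- the data inside the local ring `V`
  set ψ : O0 →+* V := Subring.inclusion hO0 with hψ
  set a' : κ → V := fun k => ⟨a k, haV k⟩ with ha'
  set s' : ι → V := fun i => ⟨sstar i, hV i⟩ with hs'
  set t' : V := ⟨t, htV⟩ with ht'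
  set 𝔞 : Ideal V := Ideal.span {t'} with h𝔞def
  have ht'm : t' ∈ IsLocalRing.maximalIdeal V := by
    rw [IsLocalRing.mem_maximalIdeal, mem_nonunits_iff]
    intro hu
    exact (V.mem_nonunits_iff_exists_mem_maximalIdeal.mp ht).elim fun h hh => by
      have : (⟨t, h⟩ : V) ∈ IsLocalRing.maximalIdeal V := hh
      rw [IsLocalRing.mem_maximalIdeal, mem_nonunits_iff] at this
      exact this hu
  have h𝔞 : 𝔞 ≤ IsLocalRing.maximalIdeal V := by
    rw [h𝔞def, Ideal.span_le]
    intro x hx
    rw [Set.mem_singleton_iff] at hx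
    rw [hx]; exact ht'm
  have ha𝔞 : ∀ k, a' k ∈ 𝔞 := by
    intro k
    obtain ⟨w, hw, e⟩ := ha k
    rw [h𝔞def, Ideal.mem_span_singleton]
    exact ⟨⟨w, hw⟩, Subtype.ext (by simpa [ha', ht'] using e)⟩
  have hsol' : ∀ j, eval₂ ψ (Sum.elim s' a') (G j) = 0 := by
    intro j
    apply Subtype.ext
    rw [coe_eval₂_inclusion]
    have : (fun s => ((Sum.elim s' a' s : V) : Ω)) = Sum.elim sstar a := by
      funext s
      rcases s with i | k <;> rfl
    rw [this]
    simpa using hsol j
  have hnear' : ∀ i, s' i - ψ (s0 i) ∈ IsLocalRing.maximalIdeal V := by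
    intro i
    have hmem := hnear i
    obtain ⟨h, hh⟩ := V.mem_nonunits_iff_exists_mem_maximalIdeal.mp hmem
    have : (⟨sstar i - (s0 i : Ω), h⟩ : V) = s' i - ψ (s0 i) := Subtype.ext rfl
    rw [← this]; exact hh
  intro i
  have key := approx_spec ψ G s0 hbase hJ n a' 𝔞 h𝔞 ha𝔞 s' hsol' hnear' i
  rw [h𝔞def, Ideal.span_singleton_pow, Ideal.mem_span_singleton] at key
  obtain ⟨w, hw⟩ := key
  refine ⟨(w : Ω), w.2, ?_⟩
  have := congrArg (fun x : V => (x : Ω)) hw
  simp only [AddSubgroupClass.coe_sub, MulMemClass.coe_mul, SubmonoidClass.coe_pow] at this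
  rw [coe_eval₂_inclusion] at this
  simpa [hs', ht', ha'] using this

end Valuation

end Fermat.Agent.S19x.Alg.NewtonApproxB
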