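import Fermat.Agent.S19x.Alg.FunOrder
import Fermat.Agent.S19x.Alg.Kronecker
import Fermat.Agent.S19x.Alg.SeparatingSpan
import Fermat.Agent.S19x.Hens.FrobFix

/-!
# P-S19, block B, (F5) packaging: from a descended basis to a Hopf order over `ℤ_(ℓ)`

Abstract form.  `B` is a subring of `ℚ̄` with `ℤ_(ℓ) ⊆ B ⊆ P` (in the application `B = O^ur`, or
`B = P`), `M` a `B`-subalgebra of `X → ℚ̄` of `P`-valued functions, separating the points of the
finite abelian group `X`, closed under the comultiplication (in function form) and the antipode,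
and **descended**: `M` is contained in the `B`-span of finitely many `G_ℚ`-equivariant elements
`e i` of `M` which are `ℚ̄`-linearly independent.

Then `H := {f ∈ M | f is G_ℚ-equivariant}` is a `ℤ_(ℓ)`-subalgebra, free on the `e i`, a
function-level Hopf order (`FunOrder.IsFunHopfOrder`), with `n = |X|`: exactly the input of
`HopfOrderFF.isFFPoints_of_funHopfOrder` (`exists_order_of_descent`).
-/

set_option autoImplicit false
set_option linter.unusedSectionVars false
set_option linter.unusedVariables false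

noncomputable section

namespace Fermat.Agent.S19x.Alg.OrderOfDescent

open Fermat.Agent.S19x.Alg.FunOrder

local notation "Qbar" => AlgebraicClosure ℚ
local notation "Γℚ" => (AlgebraicClosure ℚ ≃ₐ[ℚ] AlgebraicClosure ℚ)
local notation "Rℓ" => GaloisRep.ratLocalizedAt

theorem HopfOrderAux.algebraMap_ratLocalizedAt_injective' (ℓ : ℕ) :
    Function.Injective (algebraMap (GaloisRep.ratLocalizedAt ℓ) Qbar) := by
  intro x y hxy
  have h : algebraMap ℚ Qbar (x : ℚ) = algebraMap ℚ Qbar (y : ℚ) := hxy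
  exact Subtype.ext ((algebraMap ℚ Qbar).injective h)

variable {ℓ : ℕ} (hℓ : ℓ.Prime) (P : ValuationSubring Qbar) (hP : P.LiesOverPrime ℓ)
  {X : Type} [AddCommGroup X] (act : Γℚ → X → X)
  (hadd : ∀ σ x y, act σ (x + y) = act σ x + act σ y) (h1 : ∀ x, act 1 x = x)
  (hmul : ∀ σ τ x, act (σ * τ) x = act σ (act τ x))
  (B : Subring Qbar) (hBP : ∀ x ∈ B, x ∈ P)
  (hRB : ∀ r : Rℓ ℓ, algebraMap (Rℓ ℓ) Qbar r ∈ B)
  (M : Subalgebra B (X → Qbar))

include h1 hmul in
theorem act_surjective (σ : Γℚ) : Function.Surjective (act σ) := fun t =>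
  ⟨act σ⁻¹ t, by rw [← hmul, mul_inv_cancel, h1]⟩

include hadd in
theorem act_zero' (σ : Γℚ) : act σ (0 : X) = 0 := by
  have h := hadd σ 0 0
  rw [add_zero] at h
  exact left_eq_add.mp h

include hadd in
theorem act_neg' (σ : Γℚ) (t : X) : act σ (-t) = -act σ t := by
  have h := hadd σ (-t) t
  rw [neg_add_cancel, act_zero' act hadd] at h
  exact eq_neg_of_add_eq_zero_left h.symm

/-- the `G_ℚ`-equivariant elements of `M`, as a `ℤ_(ℓ)`-subalgebra. -/
def eqvPart : Subalgebra (Rℓ ℓ) (X → Qbar) where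
  carrier := {f | f ∈ M ∧ ∀ (σ : Γℚ) (t : X), f (act σ t) = σ (f t)}
  mul_mem' := fun {f g} hf hg => ⟨M.mul_mem hf.1 hg.1, fun σ t => by
    rw [Pi.mul_apply, Pi.mul_apply, hf.2, hg.2, map_mul]⟩
  add_mem' := fun {f g} hf hg => ⟨M.add_mem hf.1 hg.1, fun σ t => by
    rw [Pi.add_apply, Pi.add_apply, hf.2, hg.2, map_add]⟩
  algebraMap_mem' := fun r => by
    refine ⟨?_, fun σ t => ?_⟩
    · exact M.algebraMap_mem ⟨algebraMap (Rℓ ℓ) Qbar r, hRB r⟩
    · exact (Hens.algebraMap_ratLocalizedAt_fixed r σ).symm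

theorem mem_eqvPart {f : X → Qbar} :
    f ∈ eqvPart act B hRB M ↔ f ∈ M ∧ ∀ (σ : Γℚ) (t : X), f (act σ t) = σ (f t) := Iff.rfl

variable {n : ℕ} (e : Fin n → X → Qbar) (heM : ∀ i, e i ∈ M)
  (heq : ∀ i (σ : Γℚ) (t : X), e i (act σ t) = σ (e i t))
  (hli : LinearIndependent Qbar e)
  (hspan : ∀ f ∈ M, ∃ c : Fin n → B, f = ∑ i, (c i : Qbar) • e i)

include hℓ hP h1 hmul hBP heq hli in
/-- the coefficients of an equivariant function in the equivariant basis are in `ℤ_(ℓ)`. -/
theorem coeff_mem_of_equivariant (f : X → Qbar) (hf : ∀ (σ : Γℚ) (t : X), f (act σ t) = σ (f t))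
    (c : Fin n → B) (hc : f = ∑ i, (c i : Qbar) • e i) (i : Fin n) :
    ∃ r : Rℓ ℓ, algebraMap (Rℓ ℓ) Qbar r = (c i : Qbar) := by
  refine Hens.exists_ratLocalizedAt_eq_of_fixed P hℓ hP _ (hBP _ (c i).2) fun σ => ?_
  have h0 : ∑ j, ((c j : Qbar) - σ (c j : Qbar)) • e j = 0 := by
    funext t'
    obtain ⟨t, rfl⟩ := act_surjective act h1 hmul σ t'
    have h2 := hf σ t
    rw [hc] at h2
    simp only [Finset.sum_apply, Pi.smul_apply, smul_eq_mul, map_sum, map_mul] at h2
    simp only [Finset.sum_apply, Pi.smul_apply, smul_eq_mul, Pi.zero_apply, sub_mul,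
      Finset.sum_sub_distrib]
    rw [h2, sub_eq_zero]
    exact Finset.sum_congr rfl fun j _ => by rw [heq]
  have h3 := (Fintype.linearIndependent_iff.1 hli) _ h0 i
  exact (sub_eq_zero.1 h3).symm

include hℓ hP hadd h1 hmul hBP heq hli in
/-- the coefficients of an equivariant function of two variables in the Kronecker basis are in
`ℤ_(ℓ)`. -/
theorem coeff₂_mem_of_equivariant (F : X → X → Qbar)
    (hF : ∀ (σ : Γℚ) (s t : X), F (act σ s) (act σ t) = σ (F s t))
    (a : Fin n → Fin n → Qbar) (haP : ∀ i j, a i j ∈ P)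
    (ha : ∀ s t, F s t = ∑ i, ∑ j, a i j * (e i s * e j t)) (i j : Fin n) :
    ∃ r : Rℓ ℓ, algebraMap (Rℓ ℓ) Qbar r = a i j := by
  refine Hens.exists_ratLocalizedAt_eq_of_fixed P hℓ hP _ (haP i j) fun σ => ?_
  have h0 : (fun i j => σ (a i j)) = a := by
    refine Kronecker.coeff_eq_of_kron_eq hli hli _ _ fun s' t' => ?_
    obtain ⟨s, rfl⟩ := act_surjective act h1 hmul σ s'
    obtain ⟨t, rfl⟩ := act_surjective act h1 hmul σ t'
    rw [← ha, hF, ha]
    simp only [map_sum, map_mul, heq]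
  exact congrFun (congrFun h0 i) j

/-- the family `e`, inside `eqvPart`. -/
def eH (i : Fin n) : eqvPart act B hRB M := ⟨e i, heM i, heq i⟩

include hli in
theorem eH_linearIndependent :
    LinearIndependent (Rℓ ℓ) (eH act B hRB M e heM heq) := by
  have h1 : LinearIndependent (Rℓ ℓ) e := by
    rw [Fintype.linearIndependent_iff]
    intro r hr i
    have h2 : ∑ j, (algebraMap (Rℓ ℓ) Qbar (r j)) • e j = 0 := by
      rw [← hr]
      refine Finset.sum_congr rfl fun j _ => ?_
      funext t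
      simp only [Pi.smul_apply, smul_eq_mul, Algebra.smul_def]
    have h3 := (Fintype.linearIndependent_iff.1 hli) _ h2 i
    exact HopfOrderAux.algebraMap_ratLocalizedAt_injective' ℓ (by rw [h3, map_zero])
  exact LinearIndependent.of_comp (eqvPart act B hRB M).val.toLinearMap h1

include hℓ hP h1 hmul hBP hli hspan in
theorem eH_span :
    ⊤ ≤ Submodule.span (Rℓ ℓ) (Set.range (eH act B hRB M e heM heq)) := by
  rintro ⟨f, hfM, hfeq⟩ _
  obtain ⟨c, hc⟩ := hspan f hfM
  choose r hr using coeff_mem_of_equivariant hℓ P hP act h1 hmul B hBP e heq hli f hfeq c hc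
  have h2 : (⟨f, hfM, hfeq⟩ : eqvPart act B hRB M) = ∑ i, r i • eH act B hRB M e heM heq i := by
    apply Subtype.ext
    rw [AddSubmonoidClass.coe_finsetSum]
    show f = ∑ i, r i • e i
    rw [hc]
    refine Finset.sum_congr rfl fun i _ => ?_
    rw [← hr i]
    funext t
    simp only [Pi.smul_apply, smul_eq_mul, Algebra.smul_def]
  rw [h2]
  exact Submodule.sum_mem _ fun i _ => Submodule.smul_mem _ _ (Submodule.subset_span ⟨i, rfl⟩)

/-- the `ℤ_(ℓ)`-basis of `eqvPart`. -/
def basisH (hℓ : ℓ.Prime) (hP : P.LiesOverPrime ℓ) (h1 : ∀ x, act 1 x = x)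
    (hmul : ∀ σ τ x, act (σ * τ) x = act σ (act τ x)) (hBP : ∀ x ∈ B, x ∈ P)
    (hli : LinearIndependent Qbar e)
    (hspan : ∀ f ∈ M, ∃ c : Fin n → B, f = ∑ i, (c i : Qbar) • e i) :
    Module.Basis (Fin n) (Rℓ ℓ) (eqvPart act B hRB M) :=
  Module.Basis.mk (eH_linearIndependent act B hRB M e heM heq hli)
    (eH_span hℓ P hP act h1 hmul B hBP hRB M e heM heq hli hspan)

theorem basisH_apply (hℓ : ℓ.Prime) (hP : P.LiesOverPrime ℓ) (h1 : ∀ x, act 1 x = x)
    (hmul : ∀ σ τ x, act (σ * τ) x = act σ (act τ x)) (hBP : ∀ x ∈ B, x ∈ P)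
    (hli : LinearIndependent Qbar e)
    (hspan : ∀ f ∈ M, ∃ c : Fin n → B, f = ∑ i, (c i : Qbar) • e i) (i : Fin n) :
    ((basisH P act B hRB M e heM heq hℓ hP h1 hmul hBP hli hspan i :
      eqvPart act B hRB M) : X → Qbar) = e i := by
  unfold basisH
  rw [Module.Basis.mk_apply]
  rfl

include hli hspan in
/-- separation gives `n = |X|`. -/
theorem card_eq [Finite X] (hsep : ∀ s t : X, s ≠ t → ∃ f ∈ M, f s ≠ f t) :
    Fintype.card (Fin n) = Nat.card X := by
  classical
  have := Fintype.ofFinite X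
  have htop : ⊤ ≤ Submodule.span Qbar (Set.range e) := by
    rw [← SeparatingSpan.span_eq_top_of_separates M hsep]
    refine Submodule.span_le.2 fun f hf => ?_
    obtain ⟨c, rfl⟩ := hspan f hf
    exact Submodule.sum_mem _ fun i _ => Submodule.smul_mem _ _ (Submodule.subset_span ⟨i, rfl⟩)
  have hb := Module.finrank_eq_card_basis (Module.Basis.mk hli htop)
  rw [← hb, Module.finrank_fintype_fun_eq_card, Nat.card_eq_fintype_card]

variable (hint : ∀ f ∈ M, ∀ t, f t ∈ P)
  (hΔ : ∀ f ∈ M, ∃ (m : ℕ) (g h : Fin m → X → Qbar), (∀ k, g k ∈ M) ∧ (∀ k, h k ∈ M) ∧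
    ∀ s t : X, f (s + t) = ∑ k, g k s * h k t)
  (hneg : ∀ f ∈ M, (fun t => f (-t)) ∈ M)

include hℓ hP hadd h1 hmul hBP heM heq hli hspan hΔ in
theorem eqvPart_isDeltaClosed : IsDeltaClosed (eqvPart act B hRB M) := by
  rw [isDeltaClosed_iff]
  rintro f ⟨hfM, hfeq⟩
  rw [mem_boxProd_iff]
  obtain ⟨m, g, h, hg, hh, hf'⟩ := hΔ f hfM
  choose c hc using fun k => hspan (g k) (hg k)
  choose d hd using fun k => hspan (h k) (hh k)
  set a : Fin n → Fin n → Qbar := fun i j => ∑ k, (c k i : Qbar) * (d k j : Qbar) with ha_def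
  have haP : ∀ i j, a i j ∈ P := fun i j =>
    hBP _ (B.sum_mem fun k _ => B.mul_mem (c k i).2 (d k j).2)
  have ha : ∀ s t, f (s + t) = ∑ i, ∑ j, a i j * (e i s * e j t) := by
    intro s t
    rw [hf']
    have h2 : ∀ k, g k s * h k t =
        ∑ i, ∑ j, (c k i : Qbar) * (d k j : Qbar) * (e i s * e j t) := by
      intro k
      rw [hc k, hd k]
      simp only [Finset.sum_apply, Pi.smul_apply, smul_eq_mul]
      rw [Finset.sum_mul_sum]
      refine Finset.sum_congr rfl fun i _ => Finset.sum_congr rfl fun j _ => ?_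
      ring
    simp only [h2, ha_def, Finset.sum_mul]
    rw [Finset.sum_comm]
    refine Finset.sum_congr rfl fun i _ => ?_
    rw [Finset.sum_comm]
  choose r hr using coeff₂_mem_of_equivariant hℓ P hP act hadd h1 hmul B hBP e heq hli
    (fun s t => f (s + t)) (fun σ s t => by rw [← hadd, hfeq]) a haP ha
  have h3 : (fun st : X × X => f (st.1 + st.2)) =
      ∑ i, ∑ j, r i j • (fun st : X × X => e i st.1 * e j st.2) := by
    funext st
    rw [ha, Finset.sum_apply]
    refine Finset.sum_congr rfl fun i _ => ?_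
    rw [Finset.sum_apply]
    refine Finset.sum_congr rfl fun j _ => ?_
    rw [Pi.smul_apply, Algebra.smul_def, hr]
  rw [h3]
  refine Submodule.sum_mem _ fun i _ => Submodule.sum_mem _ fun j _ =>
    Submodule.smul_mem _ _ (Submodule.subset_span ?_)
  exact ⟨e i, ⟨heM i, heq i⟩, e j, ⟨heM j, heq j⟩, rfl⟩

include hℓ hP hadd hint in
theorem eqvPart_isCounitClosed : IsCounitClosed (eqvPart act B hRB M) := by
  rw [isCounitClosed_iff]
  rintro f ⟨hfM, hfeq⟩
  obtain ⟨r, hr⟩ := Hens.exists_ratLocalizedAt_eq_of_fixed P hℓ hP (f 0) (hint f hfM 0)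
    fun σ => by rw [← hfeq, act_zero' act hadd]
  exact ⟨r, hr⟩

include hadd hneg in
theorem eqvPart_isAntipodeClosed : IsAntipodeClosed (eqvPart act B hRB M) := by
  rw [isAntipodeClosed_iff]
  rintro f ⟨hfM, hfeq⟩
  refine ⟨hneg f hfM, fun σ t => ?_⟩
  show f (-(act σ t)) = σ (f (-t))
  rw [← act_neg' act hadd, hfeq]

include hℓ hP hadd h1 hmul hBP hRB heM heq hli hspan hint hΔ hneg in
/-- **Packaging**: a descended basis of a comultiplication-closed separating algebra of
`P`-valued functions gives a function-level Hopf order over `ℤ_(ℓ)`, in the exact shape consumed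
by `HopfOrderFF.isFFPoints_of_funHopfOrder`. -/
theorem exists_order_of_descent [Finite X] (hsep : ∀ s t : X, s ≠ t → ∃ f ∈ M, f s ≠ f t) :
    ∃ (H : Subalgebra (Rℓ ℓ) (X → Qbar)) (κ : Type) (_ : Fintype κ)
      (b : Module.Basis κ (Rℓ ℓ) H),
      IsFunHopfOrder H ∧ LinearIndependent Qbar (fun i => ((b i : H) : X → Qbar)) ∧
      Fintype.card κ = Nat.card X ∧
      ∀ f ∈ H, ∀ (σ : Γℚ) (t : X), f (act σ t) = σ (f t) := by
  refine ⟨eqvPart act B hRB M, Fin n, inferInstance,
    basisH P act B hRB M e heM heq hℓ hP h1 hmul hBP hli hspan,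
    ⟨eqvPart_isDeltaClosed hℓ P hP act hadd h1 hmul B hBP hRB M e heM heq hli hspan hΔ,
      eqvPart_isCounitClosed hℓ P hP act hadd B hRB M hint,
      eqvPart_isAntipodeClosed act hadd B hRB M hneg⟩, ?_,
    card_eq B M e hli hspan hsep, fun f hf => hf.2⟩
  have h2 : (fun i => ((basisH P act B hRB M e heM heq hℓ hP h1 hmul hBP hli hspan i :
      eqvPart act B hRB M) : X → Qbar)) = e := by
    funext i
    exact basisH_apply P act B hRB M e heM heq hℓ hP h1 hmul hBP hli hspan i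
  rw [h2]
  exact hli

end Fermat.Agent.S19x.Alg.OrderOfDescent
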